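import Fermat.Agent.DS1.Eis4
import Fermat.Agent.AnJac.Link
import Fermat.Agent.AnJacH.HeckeK

/-!
# Weight two cusp forms for a general group, Hecke operators and periods
-/

set_option autoImplicit false
set_option linter.unusedSectionVars false

noncomputable section

namespace Fermat.Agent.DS1

open UpperHalfPlane hiding I
open Complex Filter Topology Function Metric Asymptotics
open scoped Real Manifold MatrixGroups ModularForm Matrix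
open Fermat.Agent.EichlerShimura Fermat.Agent.ModFun Fermat.Agent.AnJac Fermat.Agent.AnJacH
open Matrix.SpecialLinearGroup CongruenceSubgroup

variable {Γ : Subgroup SL(2,ℤ)}

/-- weight two cusp forms -/
structure InS (Γ : Subgroup SL(2,ℤ)) (φ : ℍ → ℂ) : Prop where
  q : ∀ δ : SL(2,ℤ), ∃ M : ℕ, 0 < M ∧ IsQ M (φ ∣[(2 : ℤ)] δ)
  inv : ∀ γ ∈ Γ, φ ∣[(2 : ℤ)] γ = φ

lemma isQ_mul_nat {h : ℝ} {g : ℍ → ℂ} (hg : IsQ h g) (n : ℕ) : IsQ (n * h) g := isQ_dvd hg n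

lemma InS.good {φ : ℍ → ℂ} (h : InS Γ φ) : Good φ := fun δ => by
  obtain ⟨M, hM, hq⟩ := h.q δ
  exact (hq.isPrim_prim (by exact_mod_cast hM)).hasPrim

lemma q_add {φ ψ : ℍ → ℂ} (h : ∃ M : ℕ, 0 < M ∧ IsQ M φ) (h' : ∃ M : ℕ, 0 < M ∧ IsQ M ψ) :
    ∃ M : ℕ, 0 < M ∧ IsQ M (φ + ψ) := by
  obtain ⟨M, hM, h1⟩ := h
  obtain ⟨M', hM', h2⟩ := h'
  refine ⟨M' * M, Nat.mul_pos hM' hM, ?_⟩
  have e1 := isQ_mul_nat h1 M'
  have e2 := isQ_mul_nat h2 M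
  push_cast
  rw [mul_comm (M : ℝ)] at e2
  exact IsQ.add' e1 e2

lemma q_zero : ∃ M : ℕ, 0 < M ∧ IsQ M (0 : ℍ → ℂ) := ⟨1, one_pos, isQ_zero⟩

lemma q_sum {κ : Type*} (s : Finset κ) {F : κ → ℍ → ℂ}
    (hF : ∀ i ∈ s, ∃ M : ℕ, 0 < M ∧ IsQ M (F i)) : ∃ M : ℕ, 0 < M ∧ IsQ M (∑ i ∈ s, F i) := by
  classical
  induction s using Finset.induction_on with
  | empty => exact q_zero
  | insert a s ha ih =>
    rw [Finset.sum_insert ha]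
    exact q_add (hF a (Finset.mem_insert_self _ _)) (ih fun i hi => hF i (Finset.mem_insert_of_mem hi))

lemma inS_zero : InS Γ (0 : ℍ → ℂ) :=
  ⟨fun δ => by rw [SlashAction.zero_slash]; exact q_zero, fun γ _ => SlashAction.zero_slash _ _⟩

lemma InS.add {φ ψ : ℍ → ℂ} (h : InS Γ φ) (h' : InS Γ ψ) : InS Γ (φ + ψ) :=
  ⟨fun δ => by rw [SlashAction.add_slash]; exact q_add (h.q δ) (h'.q δ),
    fun γ hγ => by rw [SlashAction.add_slash, h.inv γ hγ, h'.inv γ hγ]⟩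

lemma InS.smul {φ : ℍ → ℂ} (c : ℂ) (h : InS Γ φ) : InS Γ (c • φ) :=
  ⟨fun δ => by
    rw [ModularForm.SL_smul_slash]
    obtain ⟨M, hM, h1⟩ := h.q δ
    exact ⟨M, hM, IsQ.smul' c h1⟩,
    fun γ hγ => by rw [ModularForm.SL_smul_slash, h.inv γ hγ]⟩

variable (Γ) in
/-- the space of cusp forms -/
def SG : Submodule ℂ (ℍ → ℂ) where
  carrier := {φ | InS Γ φ}
  zero_mem' := inS_zero
  add_mem' h h' := h.add h'
  smul_mem' c _ h := h.smul c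

lemma mem_SG {φ : ℍ → ℂ} : φ ∈ SG Γ ↔ InS Γ φ := Iff.rfl

/-! ### translates by integral matrices -/

lemma isQ_slash_upper {g : ℍ → ℂ} {M : ℕ} (hM : 0 < M) (hg : IsQ M g) {B : GL (Fin 2) ℝ}
    (hB : 0 < B.det.val) (hB0 : B 1 0 = 0) (hint : IsInt B) :
    ∃ M' : ℕ, 0 < M' ∧ IsQ M' (g ∣[(2 : ℤ)] B) := by
  obtain ⟨A, hA⟩ := hint
  have e : ∀ i j, B i j = (A i j : ℝ) := fun i j => by
    have := congrFun (congrFun hA i) j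
    exact this
  have hdet : 0 < B 0 0 * B 1 1 := by
    have : B.det.val = B 0 0 * B 1 1 - B 0 1 * B 1 0 := by
      rw [Matrix.GeneralLinearGroup.val_det_apply, Matrix.det_fin_two]
    rw [this, hB0, mul_zero, sub_zero] at hB
    exact hB
  have hd : B 1 1 ≠ 0 := fun h0 => by simp [h0] at hdet
  have ha : B 0 0 ≠ 0 := fun h0 => by simp [h0] at hdet
  have hr : 0 < B 0 0 / B 1 1 := by
    have : B 0 0 / B 1 1 = (B 0 0 * B 1 1) / (B 1 1) ^ 2 := by field_simp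
    rw [this]
    positivity
  have hd' : A 1 1 ≠ 0 := fun h0 => hd (by rw [e, h0, Int.cast_zero])
  have hcoe : ∀ z : ℍ, ((B • z : ℍ) : ℂ) = ((B 0 0 : ℂ) * z + B 0 1) / B 1 1 := fun z => by
    rw [coe_smul_of_det_pos hB]
    simp [num, denom, hB0]
  have hsl : g ∣[(2 : ℤ)] B = fun z => (B.det.val : ℂ) * ((B 1 1 : ℂ) ^ 2)⁻¹ * g (B • z) := by
    funext z
    rw [ModularForm.slash_apply, σ, if_pos hB]
    simp only [ContinuousAlgEquiv.refl_apply]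
    rw [abs_of_pos hB]
    simp only [denom, hB0, Complex.ofReal_zero, zero_mul, zero_add]
    rw [show (2 : ℤ) - 1 = 1 by norm_num, zpow_one, _root_.zpow_neg, zpow_ofNat]
    ring
  have him : ∀ z : ℍ, (B • z : ℍ).im = (B 0 0 / B 1 1) * z.im := fun z => by
    have h1 := congrArg Complex.im (hcoe z)
    rw [UpperHalfPlane.coe_im] at h1
    rw [h1]
    have h2 : ((B 0 0 : ℂ) * z + B 0 1) / B 1 1 = ((B 0 0 / B 1 1 : ℝ) : ℂ) * z + ((B 0 1 / B 1 1 : ℝ) : ℂ) := by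
      push_cast; ring
    rw [h2]
    simp
  refine ⟨(A 1 1).natAbs * M, Nat.mul_pos (Int.natAbs_pos.mpr hd') hM, ?_⟩
  have hq : IsQ (((A 1 1).natAbs * M : ℕ) : ℝ) (fun z => g (B • z)) := by
    refine ⟨?_, ?_, ?_⟩
    · refine periodic_comp_ofComplex_of fun z w hzw => ?_
      obtain ⟨s, hs, hs'⟩ : ∃ s : ℤ, s * s = 1 ∧ ((A 1 1).natAbs : ℤ) = s * A 1 1 := by
        rcases Int.natAbs_eq (A 1 1) with h | h
        · exact ⟨1, by norm_num, by rw [← h]; ring⟩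
        · refine ⟨-1, by norm_num, ?_⟩
          have : -1 * A 1 1 = -(A 1 1) := by ring
          rw [this]
          omega
      have hs2 : (((A 1 1).natAbs : ℕ) : ℂ) = (s : ℂ) * (A 1 1 : ℂ) := by
        have h0 : (((A 1 1).natAbs : ℕ) : ℂ) = ((((A 1 1).natAbs : ℕ) : ℤ) : ℂ) :=
          (Int.cast_natCast _).symm
        rw [h0, hs', Int.cast_mul]
      have h1 : ((B • w : ℍ) : ℂ) = (B • z : ℍ) + ((s * A 0 0 : ℤ) : ℂ) * ((M : ℝ) : ℂ) := by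
        rw [hcoe, hcoe, hzw]
        have hdC : (B 1 1 : ℂ) ≠ 0 := by exact_mod_cast hd
        have e11 : ((B 1 1 : ℝ) : ℂ) = (A 1 1 : ℂ) := by rw [e]; simp
        have e00 : ((B 0 0 : ℝ) : ℂ) = (A 0 0 : ℂ) := by rw [e]; simp
        push_cast
        rw [hs2, ← e11, e00]
        field_simp
        ring
      have h2 := hg.per.int_mul (s * A 0 0) ((B • z : ℍ) : ℂ)
      simp only [comp_apply] at h2
      rw [← h1, ofComplex_apply, ofComplex_apply] at h2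
      exact h2
    · exact mdiff_comp_GL hg.holo hB
    · have h1 : Tendsto (fun z : ℍ => B • z) atImInfty atImInfty := by
        rw [atImInfty, tendsto_comap_iff]
        have h2 : (UpperHalfPlane.im ∘ fun z : ℍ => B • z) = fun z : ℍ => (B 0 0 / B 1 1) * z.im :=
          funext him
        rw [h2]
        exact tendsto_comap.const_mul_atTop hr
      exact Tendsto.comp hg.zero h1
  rw [hsl]
  exact IsQ.smul' ((B.det.val : ℂ) * ((B 1 1 : ℂ) ^ 2)⁻¹) hq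

lemma isInt_decomp {A B : GL (Fin 2) ℝ} (hA : IsInt A) {δ δ' : SL(2,ℤ)}
    (h : A * (δ : GL (Fin 2) ℝ) = (δ' : GL (Fin 2) ℝ) * B) : IsInt B := by
  obtain ⟨M, hM⟩ := hA
  refine ⟨((δ'⁻¹ : SL(2, ℤ)) : Matrix (Fin 2) (Fin 2) ℤ) * (M * (δ : Matrix (Fin 2) (Fin 2) ℤ)), ?_⟩
  have e1 : B = ((δ'⁻¹ : SL(2, ℤ)) : GL (Fin 2) ℝ) * (A * (δ : GL (Fin 2) ℝ)) := by
    rw [h]
    have : ((δ'⁻¹ : SL(2, ℤ)) : GL (Fin 2) ℝ) = (δ' : GL (Fin 2) ℝ)⁻¹ := by simp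
    rw [this]; group
  rw [e1, Units.val_mul, Units.val_mul, hM]
  simp only [Matrix.map_mul_intCast]
  rfl

lemma InS.q_slash {φ : ℍ → ℂ} (h : InS Γ φ) {A : GL (Fin 2) ℝ} (hA : 0 < A.det.val) (hint : IsInt A)
    (δ : SL(2,ℤ)) : ∃ M : ℕ, 0 < M ∧ IsQ M ((φ ∣[(2 : ℤ)] A) ∣[(2 : ℤ)] δ) := by
  obtain ⟨δ', B, hB, hB0, hAB⟩ := exists_decomp hA hint δ
  have e1 : (φ ∣[(2 : ℤ)] A) ∣[(2 : ℤ)] δ = (φ ∣[(2 : ℤ)] δ') ∣[(2 : ℤ)] B := by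
    rw [ModularForm.SL_slash, ModularForm.SL_slash, ← SlashAction.slash_mul,
      ← SlashAction.slash_mul, hAB]
  rw [e1]
  obtain ⟨M, hM, h1⟩ := h.q δ'
  exact isQ_slash_upper hM h1 hB hB0 (isInt_decomp hint hAB)

lemma InS.slash_comp {φ : ℍ → ℂ} (h : InS Γ φ) {A : GL (Fin 2) ℝ} (hA : 0 < A.det.val)
    (hint : IsInt A) : Good (φ ∣[(2 : ℤ)] A) := fun δ => by
  obtain ⟨M, hM, hq⟩ := h.q_slash hA hint δ
  exact (hq.isPrim_prim (by exact_mod_cast hM)).hasPrim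

/-! ### Hecke operators -/

section HF

variable {κ : Type*} [Fintype κ] (F : HF Γ κ)

lemma inS_opF {φ : ℍ → ℂ} (h : InS Γ φ) : InS Γ (∑ i, φ ∣[(2 : ℤ)] F.A i) := by
  refine ⟨fun δ => ?_, fun γ hγ => ?_⟩
  · have e : (∑ i, φ ∣[(2 : ℤ)] F.A i) ∣[(2 : ℤ)] δ = ∑ i, (φ ∣[(2 : ℤ)] F.A i) ∣[(2 : ℤ)] δ :=
      SlashAction.sum_slash _ _
    rw [e]
    exact q_sum _ fun i _ => h.q_slash (F.pos i) (F.int i) δ
  · have e : (∑ i, φ ∣[(2 : ℤ)] F.A i) ∣[(2 : ℤ)] γ = ∑ i, (φ ∣[(2 : ℤ)] F.A i) ∣[(2 : ℤ)] γ :=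
      SlashAction.sum_slash _ _
    rw [e]
    have h1 : ∀ i, (φ ∣[(2 : ℤ)] F.A i) ∣[(2 : ℤ)] γ = φ ∣[(2 : ℤ)] F.A (F.s ⟨γ, hγ⟩ i) := by
      intro i
      have h2 := F.spec ⟨γ, hγ⟩ i
      rw [ModularForm.SL_slash, ← SlashAction.slash_mul]
      have h3 : F.A i * (γ : GL (Fin 2) ℝ) = gl (F.g ⟨γ, hγ⟩ i) * F.A (F.s ⟨γ, hγ⟩ i) := h2
      rw [h3, SlashAction.slash_mul]
      congr 1
      exact h.inv _ (F.g ⟨γ, hγ⟩ i).2
    rw [Finset.sum_congr rfl fun i _ => h1 i]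
    exact Equiv.sum_comp (F.sE ⟨γ, hγ⟩) (fun i => φ ∣[(2 : ℤ)] F.A i)

/-- the Hecke operator -/
def opF : SG Γ →ₗ[ℂ] SG Γ where
  toFun φ := ⟨∑ i, (φ : ℍ → ℂ) ∣[(2 : ℤ)] F.A i, inS_opF F φ.2⟩
  map_add' φ ψ := by
    apply Subtype.ext
    change ∑ i, ((φ : ℍ → ℂ) + ψ) ∣[(2 : ℤ)] F.A i = _ + _
    rw [← Finset.sum_add_distrib]
    exact Finset.sum_congr rfl fun i _ => SlashAction.add_slash _ _ _ _
  map_smul' c φ := by
    apply Subtype.ext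
    change ∑ i, (c • (φ : ℍ → ℂ)) ∣[(2 : ℤ)] F.A i = c • _
    rw [Finset.smul_sum]
    refine Finset.sum_congr rfl fun i _ => ?_
    rw [ModularForm.smul_slash, σ, if_pos (F.pos i)]
    rfl

lemma coe_opF (φ : SG Γ) : (opF F φ : ℍ → ℂ) = ∑ i, (φ : ℍ → ℂ) ∣[(2 : ℤ)] F.A i := rfl

end HF

lemma inS_opD {N : ℕ} (hΓ : Adm N Γ) (g : Gamma0 N) {φ : ℍ → ℂ} (h : InS Γ φ) :
    InS Γ (φ ∣[(2 : ℤ)] (g : SL(2,ℤ))) := by
  refine ⟨fun δ => ?_, fun γ hγ => ?_⟩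
  · rw [← SlashAction.slash_mul]
    exact h.q _
  · have e : (g : SL(2,ℤ)) * γ = (g * γ * (g : SL(2,ℤ))⁻¹) * g := by group
    rw [← SlashAction.slash_mul, e, SlashAction.slash_mul, h.inv _ (hΓ.conj g g.2 γ hγ)]

/-- the diamond operator -/
def opD {N : ℕ} (hΓ : Adm N Γ) (g : Gamma0 N) : SG Γ →ₗ[ℂ] SG Γ where
  toFun φ := ⟨(φ : ℍ → ℂ) ∣[(2 : ℤ)] (g : SL(2,ℤ)), inS_opD hΓ g φ.2⟩
  map_add' φ ψ := Subtype.ext (SlashAction.add_slash _ _ _ _)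
  map_smul' c φ := Subtype.ext (ModularForm.SL_smul_slash _ _ _ _)

lemma coe_opD {N : ℕ} (hΓ : Adm N Γ) (g : Gamma0 N) (φ : SG Γ) :
    (opD hΓ g φ : ℍ → ℂ) = (φ : ℍ → ℂ) ∣[(2 : ℤ)] (g : SL(2,ℤ)) := rfl

/-! ### periods -/

variable (Γ) in
/-- the period map -/
def pd : SG Γ →ₗ[ℂ] (Additive Γ →+ ℂ) where
  toFun φ :=
    { toFun := fun x => symb ((Additive.toMul x : Γ) : SL(2,ℤ)) (φ : ℍ → ℂ)
      map_zero' := symb_one _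
      map_add' := fun x y => by
        have h := symb_mul φ.2.good ((Additive.toMul x : Γ) : SL(2,ℤ)) ((Additive.toMul y : Γ) : SL(2,ℤ))
        rw [φ.2.inv _ (Additive.toMul x).2] at h
        exact h }
  map_add' φ ψ := by
    ext x
    exact symb_add φ.2.good ψ.2.good _
  map_smul' c φ := by
    ext x
    exact symb_smul c φ.2.good _

lemma pd_apply (φ : SG Γ) (γ : Γ) : pd Γ φ (Additive.ofMul γ) = symb (γ : SL(2,ℤ)) (φ : ℍ → ℂ) := rfl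

lemma pd_mem (φ : SG Γ) : pd Γ φ ∈ NHA Γ ℂ := by
  intro γ hγ
  refine SL2Pres.eq_zero_of_trace_le (fun γ hγ => ?_) γ ((trace_sq_le_iff _).mpr hγ)
  rw [pd_apply]
  obtain ⟨δ, hδ⟩ := exists_fixed_vector (γ : SL(2,ℤ)) hγ
  have hf := φ.2.good
  have h1 : symb ((γ : SL(2,ℤ)) * δ) (φ : ℍ → ℂ) = symb (γ : SL(2,ℤ)) (φ : ℍ → ℂ) + symb δ (φ : ℍ → ℂ) := by
    rw [symb_mul hf, φ.2.inv _ γ.2]
  have h2 : symb (δ * (δ⁻¹ * γ * δ)) (φ : ℍ → ℂ) = symb δ (φ : ℍ → ℂ) := by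
    rw [symb_mul hf, symb_upper (hf.slash δ) _ hδ, add_zero]
  have h3 : δ * (δ⁻¹ * γ * δ) = γ * δ := by group
  rw [h3, h1] at h2
  linear_combination h2

/-- generalised symbol -/
def sy (A : GL (Fin 2) ℝ) (φ : ℍ → ℂ) : ℂ :=
  prim φ (A • UpperHalfPlane.I) - prim (φ ∣[(2 : ℤ)] A) UpperHalfPlane.I

lemma sy_eq {A : GL (Fin 2) ℝ} (hA : 0 < A.det.val) {φ : ℍ → ℂ} (h : Good φ)
    (h' : Good (φ ∣[(2 : ℤ)] A)) (z : ℍ) :
    prim φ (A • z) - prim (φ ∣[(2 : ℤ)] A) z = sy A φ :=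
  (h.hasPrim.isPrim.deriv.comp_smul hA).sub_const h'.hasPrim.isPrim.deriv z UpperHalfPlane.I

lemma sy_gl (γ : SL(2,ℤ)) (φ : ℍ → ℂ) : sy (gl γ) φ = symb γ φ := rfl

lemma sy_mul {A B : GL (Fin 2) ℝ} (hA : 0 < A.det.val) {φ : ℍ → ℂ} (h : Good φ)
    (h' : Good (φ ∣[(2 : ℤ)] A)) : sy (A * B) φ = sy A φ + sy B (φ ∣[(2 : ℤ)] A) := by
  rw [← sy_eq hA h h' (B • UpperHalfPlane.I), sy, sy, SlashAction.slash_mul, mul_smul]
  ring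

lemma pd_opF {κ : Type*} [Fintype κ] (F : HF Γ κ) (φ : SG Γ) : pd Γ (opF F φ) = F.T (pd Γ φ) := by
  ext x
  obtain ⟨γ, rfl⟩ : ∃ γ : Γ, Additive.ofMul γ = x := ⟨Additive.toMul x, rfl⟩
  change pd Γ (opF F φ) (Additive.ofMul γ) = F.T (pd Γ φ) (Additive.ofMul γ)
  rw [pd_apply, coe_opF, F.T_apply]
  have hg : ∀ i, Good ((φ : ℍ → ℂ) ∣[(2 : ℤ)] F.A i) := fun i => φ.2.slash_comp (F.pos i) (F.int i)
  rw [(good_sum_symb Finset.univ _ (fun i _ => hg i) (γ : SL(2,ℤ))).2]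
  have key : ∀ i, symb (γ : SL(2,ℤ)) ((φ : ℍ → ℂ) ∣[(2 : ℤ)] F.A i) =
      pd Γ φ (Additive.ofMul (F.g γ i)) + (sy (F.A (F.s γ i)) (φ : ℍ → ℂ) - sy (F.A i) (φ : ℍ → ℂ)) := by
    intro i
    have h1 := sy_mul (B := gl γ) (F.pos i) φ.2.good (hg i)
    have hinv : (φ : ℍ → ℂ) ∣[(2 : ℤ)] gl (F.g γ i) = (φ : ℍ → ℂ) := φ.2.inv _ (F.g γ i).2
    have h2 := sy_mul (A := gl (F.g γ i)) (B := F.A (F.s γ i)) (det_coe_pos _) φ.2.good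
      (by rw [hinv]; exact φ.2.good)
    rw [hinv, ← F.spec γ i, h1, sy_gl, sy_gl] at h2
    rw [pd_apply]
    linear_combination h2
  have h' : ∑ i, sy (F.A (F.s γ i)) (φ : ℍ → ℂ) = ∑ i, sy (F.A i) (φ : ℍ → ℂ) :=
    Equiv.sum_comp (F.sE γ) (fun i => sy (F.A i) (φ : ℍ → ℂ))
  rw [Finset.sum_congr rfl fun i _ => key i, Finset.sum_add_distrib, Finset.sum_sub_distrib, h',
    sub_self, add_zero]

lemma pd_opD {N : ℕ} [NeZero N] (hΓ : Adm N Γ) (g : Gamma0 N) (φ : SG Γ) :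
    pd Γ (opD hΓ g φ) = dHom hΓ ℂ g (pd Γ φ) := by
  ext x
  obtain ⟨γ, rfl⟩ : ∃ γ : Γ, Additive.ofMul γ = x := ⟨Additive.toMul x, rfl⟩
  change pd Γ (opD hΓ g φ) (Additive.ofMul γ) = dHom hΓ ℂ g (pd Γ φ) (Additive.ofMul γ)
  rw [dHom_apply, pd_apply, pd_apply, coe_opD, coe_conjH]
  have h1 := symb_mul φ.2.good (g : SL(2,ℤ)) (γ : SL(2,ℤ))
  have e : (g : SL(2,ℤ)) * γ = (g * γ * (g : SL(2,ℤ))⁻¹) * g := by group
  have h2 := symb_mul φ.2.good (g * γ * (g : SL(2,ℤ))⁻¹) (g : SL(2,ℤ))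
  rw [← e, φ.2.inv _ (hΓ.conj g g.2 γ γ.2), h1] at h2
  linear_combination h2

end Fermat.Agent.DS1
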