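import Fermat.Agent.DS1.AB1

/-!
# Injectivity of the period map
-/

set_option autoImplicit false
set_option linter.unusedSectionVars false

noncomputable section

namespace Fermat.Agent.DS1

open UpperHalfPlane hiding I
open Complex Filter Topology Function Metric Asymptotics
open scoped Real Manifold MatrixGroups ModularForm Matrix Pointwise
open Fermat.Agent.EichlerShimura Fermat.Agent.ModFun Fermat.Agent.AnJac Fermat.Agent.AnJacH
open Matrix.SpecialLinearGroup CongruenceSubgroup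

theorem anti_eq_zero_of_re_invG {Γ : Subgroup SL(2,ℤ)} (hfin : Γ.FiniteIndex) {M : ℕ} (hM : 0 < M) {φ G : ℍ → ℂ}
    (hanti : IsAnti φ G)
    (hG : ∀ δ : SL(2, ℤ), ∃ (h : ℍ → ℂ) (c : ℂ), IsQ M h ∧ ∀ z, G (δ • z) = h z + c)
    (hinv : ∀ γ ∈ Γ, ∀ z, (G (γ • z)).re = (G z).re) : φ = 0 := by
  classical
  have hM' : (0 : ℝ) < M := by exact_mod_cast hM
  have : Finite (SL(2, ℤ) ⧸ Γ) := Subgroup.finite_quotient_of_finiteIndex
  let _ : Fintype (SL(2, ℤ) ⧸ Γ) := Fintype.ofFinite _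
  let E : (SL(2, ℤ) ⧸ Γ) → ℍ → ℂ := fun q z => Complex.exp (G ((Quotient.out q)⁻¹ • z))
  have hE : ∀ q, Periodic (E q ∘ ofComplex) ((M : ℝ) : ℂ) ∧ MDiff (E q) ∧ IsBoundedAtImInfty (E q) := by
    intro q
    obtain ⟨h, c, hh, hc⟩ := hG (Quotient.out q)⁻¹
    have hEq : E q = fun z => Complex.exp (h z + c) := by
      funext z
      simp only [E, hc]
    rw [hEq]
    refine ⟨?_, ?_, ?_⟩
    · intro z
      have := hh.per z
      simp only [comp_apply] at this ⊢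
      rw [this]
    · rw [UpperHalfPlane.mdifferentiable_iff]
      have h1 := UpperHalfPlane.mdifferentiable_iff.mp hh.holo
      have h2 : DifferentiableOn ℂ (fun w => Complex.exp ((h ∘ ofComplex) w + c))
          upperHalfPlaneSet := (h1.add_const c).cexp
      exact h2
    · have h1 : Tendsto h atImInfty (𝓝 0) := hh.zero
      have h2 := (h1.add_const c).cexp
      exact h2.isBigO_one ℝ
  let C : ℂ → EuclideanSpace ℂ (SL(2, ℤ) ⧸ Γ) := fun w =>
    WithLp.toLp 2 (fun q => cuspFunction M (E q) w)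
  have hC : DifferentiableOn ℂ C (ball 0 1) := by
    rw [differentiableOn_euclidean]
    intro q
    exact differentiableOn_cuspFunction_ball hM' (hE q).1 (hE q).2.1 (hE q).2.2
  have hCz : ∀ (z : ℍ) q, (C (Periodic.qParam (M : ℝ) (z : ℂ))).ofLp q = E q z := by
    intro z q
    exact UpperHalfPlane.eq_cuspFunction z hM'.ne' (hE q).1
  have hnorm : ∀ z : ℍ, ‖C (Periodic.qParam (M : ℝ) (z : ℂ))‖ ^ 2 = ∑ q, ‖E q z‖ ^ 2 := by
    intro z
    rw [EuclideanSpace.norm_sq_eq]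
    simp only [hCz]
  have hinv2 : ∀ (δ : SL(2, ℤ)) (z : ℍ), ∑ q, ‖E q (δ • z)‖ ^ 2 = ∑ q, ‖E q z‖ ^ 2 := by
    intro δ z
    refine Fintype.sum_equiv (MulAction.toPerm δ⁻¹) _ _ fun q => ?_
    congr 1
    simp only [E, Complex.norm_exp, MulAction.toPerm_apply]
    congr 1
    obtain ⟨g, hg⟩ : ∃ g : Γ, Quotient.out (δ⁻¹ • q) = δ⁻¹ * Quotient.out q * g := by
      have h1 : δ⁻¹ • q = ((δ⁻¹ * Quotient.out q : SL(2, ℤ)) : SL(2, ℤ) ⧸ Γ) := by
        conv_lhs => rw [← QuotientGroup.out_eq' q]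
        rfl
      rw [h1]
      exact QuotientGroup.mk_out_eq_mul (Γ) _
    have h2 : (Quotient.out q)⁻¹ • δ • z = (g : SL(2, ℤ)) • ((Quotient.out (δ⁻¹ • q))⁻¹ • z) := by
      rw [hg, ← mul_smul, ← mul_smul]
      congr 1
      group
    rw [h2, hinv _ g.2]
  have hconst : Set.EqOn C (Function.const ℂ (C 0)) (ball 0 1) := by
    refine eq_const_of_exists_le hC (r := Real.exp (-π / M)) (Real.exp_nonneg _) ?_ fun w hw => ?_
    · rw [Real.exp_lt_one_iff]
      exact div_neg_of_neg_of_pos (by linarith [Real.pi_pos]) hM'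
    · rcases eq_or_ne w 0 with rfl | hw0
      · exact ⟨0, by simpa using Real.exp_nonneg _, le_rfl⟩
      · have hw1 : ‖w‖ < 1 := mem_ball_zero_iff.mp hw
        let z : ℍ := ⟨_, Periodic.im_invQParam_pos_of_norm_lt_one hM' hw1 hw0⟩
        have hzw : Periodic.qParam (M : ℝ) (z : ℂ) = w := Periodic.qParam_right_inv hM'.ne' hw0
        obtain ⟨γ, hγ⟩ := ModularGroup.exists_one_half_le_im_smul z
        refine ⟨Periodic.qParam (M : ℝ) ((γ • z : ℍ) : ℂ), ?_, ?_⟩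
        · rw [mem_closedBall_zero_iff]
          exact norm_qParam_le hM hγ
        · have : ‖C w‖ ^ 2 = ‖C (Periodic.qParam (M : ℝ) ((γ • z : ℍ) : ℂ))‖ ^ 2 := by
            rw [hnorm, hinv2, ← hnorm, hzw]
          exact le_of_eq ((sq_eq_sq₀ (norm_nonneg _) (norm_nonneg _)).mp this)
  have hEconst : ∀ q (z : ℍ), E q z = (C 0).ofLp q := by
    intro q z
    rw [← hCz z q, hconst (mem_ball_zero_iff.mpr (Periodic.norm_qParam_lt_one hM' z.im_pos))]
    rfl
  -- exp ∘ G is constant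
  have hexp : ∃ c : ℂ, ∀ z : ℍ, Complex.exp (G z) = c := by
    let q₀ : SL(2, ℤ) ⧸ Γ := ((1 : SL(2, ℤ)) : SL(2, ℤ) ⧸ Γ)
    refine ⟨(C 0).ofLp q₀, fun z => ?_⟩
    have := hEconst q₀ (Quotient.out q₀ • z)
    simpa only [E, inv_smul_smul] using this
  obtain ⟨c, hc⟩ := hexp
  funext τ
  have h1 : HasDerivAt (fun w => Complex.exp ((G ∘ ofComplex) w))
      (Complex.exp ((G ∘ ofComplex) τ) * φ τ) (τ : ℂ) := (hanti τ).cexp
  have h2 : (fun w => Complex.exp ((G ∘ ofComplex) w)) = fun _ => c := by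
    funext w
    exact hc _
  rw [h2] at h1
  have h3 := h1.unique (hasDerivAt_const _ _)
  exact (mul_eq_zero.mp h3).resolve_left (Complex.exp_ne_zero _)


variable {Γ : Subgroup SL(2,ℤ)} {N : ℕ} [NeZero N]

lemma InS.isS (hΓ : Adm N Γ) {φ : ℍ → ℂ} (h : InS Γ φ) : IsS N 2 φ := by
  intro δ
  obtain ⟨M, hM, hq⟩ := h.q δ
  refine ⟨periodic_comp_ofComplex_of fun z w hzw => ?_, hq.holo, hq.zero⟩
  have h1 : w = (ModularGroup.T ^ (N : ℤ)) • z := by
    rw [modular_T_zpow_smul]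
    apply UpperHalfPlane.ext
    rw [hzw, UpperHalfPlane.coe_vadd]
    push_cast; ring
  have h2 : (φ ∣[(2 : ℤ)] δ) ∣[(2 : ℤ)] (ModularGroup.T ^ N) = φ ∣[(2 : ℤ)] δ := by
    have e : δ * ModularGroup.T ^ N = (δ * ModularGroup.T ^ N * δ⁻¹) * δ := by group
    rw [← SlashAction.slash_mul, e, SlashAction.slash_mul, h.inv _ (hΓ.conj_T_mem δ)]
  have h3 := congrFun h2 z
  rw [ModularForm.SL_slash_apply] at h3
  have h4 : denom ((ModularGroup.T ^ N : SL(2,ℤ)) : GL (Fin 2) ℝ) z = 1 := by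
    rw [ModularGroup.denom_apply]
    have := ModularGroup.coe_T_zpow (N : ℤ)
    rw [zpow_natCast] at this
    have e10 : (ModularGroup.T ^ N : SL(2,ℤ)) 1 0 = 0 := congrFun (congrFun this 1) 0
    have e11 : (ModularGroup.T ^ N : SL(2,ℤ)) 1 1 = 1 := congrFun (congrFun this 1) 1
    rw [e10, e11]
    simp
  rw [h4, one_zpow, mul_one] at h3
  rw [h1, zpow_natCast]
  exact h3

lemma InS.isQ1 (hΓ : Adm N Γ) {φ : ℍ → ℂ} (h : InS Γ φ) : IsQ 1 φ := by
  obtain ⟨M, hM, hq⟩ := h.q 1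
  rw [SlashAction.slash_one] at hq
  refine ⟨periodic_comp_ofComplex_of fun z w hzw => ?_, hq.holo, hq.zero⟩
  have h1 : w = ModularGroup.T • z := by
    rw [modular_T_smul]
    apply UpperHalfPlane.ext
    rw [hzw, UpperHalfPlane.coe_vadd]
    push_cast; ring
  have h3 := congrFun (h.inv _ hΓ.T_mem) z
  rw [ModularForm.SL_slash_apply] at h3
  have h4 : denom ((ModularGroup.T : SL(2,ℤ)) : GL (Fin 2) ℝ) z = 1 := by
    rw [ModularGroup.denom_apply]
    simp [ModularGroup.T]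
  rw [h4, one_zpow, mul_one] at h3
  rw [h1]
  exact h3

/-- **periods determine the form** -/
theorem pd_injective (hΓ : Adm N Γ) : Function.Injective (pd Γ) := by
  rw [injective_iff_map_eq_zero]
  intro φ h0
  have hN : 0 < N := NeZero.pos N
  have hN' : (0 : ℝ) < N := by exact_mod_cast hN
  have hS := InS.isS hΓ φ.2
  have hg := φ.2.good
  have hsm : ∀ (δ : SL(2,ℤ)) (z : ℍ), prim (φ : ℍ → ℂ) (δ • z) =
      prim ((φ : ℍ → ℂ) ∣[(2 : ℤ)] δ) z + symb δ (φ : ℍ → ℂ) := fun δ z => by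
    rw [← hg.sub_eq_symb δ z]; ring
  apply Subtype.ext
  refine anti_eq_zero_of_re_invG hΓ.finiteIndex hN hg.hasPrim.isPrim.deriv (fun δ => ?_) ?_
  · exact ⟨prim ((φ : ℍ → ℂ) ∣[(2 : ℤ)] δ), symb δ (φ : ℍ → ℂ), (hS δ).isQ_prim hN', hsm δ⟩
  · intro γ hγ z
    have h1 : symb γ (φ : ℍ → ℂ) = 0 := DFunLike.congr_fun h0 (Additive.ofMul (⟨γ, hγ⟩ : Γ))
    rw [hsm, h1, add_zero, φ.2.inv γ hγ]

end Fermat.Agent.DS1
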