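import Fermat.Agent.DS1.AB2

/-!
# The ring of compatible pairs
-/

set_option autoImplicit false
set_option linter.unusedSectionVars false

noncomputable section

namespace Fermat.Agent.DS1

open UpperHalfPlane hiding I
open Complex Filter Topology Function Metric Asymptotics
open scoped Real Manifold MatrixGroups ModularForm Matrix Pointwise
open Fermat.Agent.EichlerShimura Fermat.Agent.ModFun Fermat.Agent.AnJac Fermat.Agent.AnJacH
open Matrix.SpecialLinearGroup CongruenceSubgroup

variable {Γ : Subgroup SL(2,ℤ)}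

/-- compatible pairs of operators -/
def Cpt (L : AddMonoid.End (LatG Γ)) (S : Module.End ℂ (SG Γ)) : Prop :=
  ∀ (φ : SG Γ) (s : ℕ) (a : Fin s → ℂ) (ψ : Fin s → LatG Γ),
    pd Γ φ = ∑ i, (mulC (a i)).comp (ψ i : Additive Γ →+ ℤ) →
    pd Γ (S φ) = ∑ i, (mulC (a i)).comp (L (ψ i) : Additive Γ →+ ℤ)

variable (Γ) in
/-- the ring of compatible pairs -/
def CR : Subring (AddMonoid.End (LatG Γ) × Module.End ℂ (SG Γ)) where
  carrier := {x | Cpt x.1 x.2}
  one_mem' := fun φ s a ψ h => h
  zero_mem' := fun φ s a ψ _ => by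
    rw [Prod.snd_zero, Prod.fst_zero, LinearMap.zero_apply, map_zero]
    refine (Finset.sum_eq_zero fun i _ => ?_).symm
    exact AddMonoidHom.ext fun x => map_zero (mulC (a i))
  add_mem' := fun {x y} hx hy φ s a ψ h => by
    rw [Prod.snd_add, Prod.fst_add, LinearMap.add_apply, map_add, hx φ s a ψ h, hy φ s a ψ h,
      ← Finset.sum_add_distrib]
    refine Finset.sum_congr rfl fun i _ => ?_
    exact AddMonoidHom.ext fun z => (map_add (mulC (a i)) _ _).symm
  neg_mem' := fun {x} hx φ s a ψ h => by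
    rw [Prod.snd_neg, Prod.fst_neg, LinearMap.neg_apply, map_neg, hx φ s a ψ h,
      ← Finset.sum_neg_distrib]
    refine Finset.sum_congr rfl fun i _ => ?_
    exact AddMonoidHom.ext fun z => (map_neg (mulC (a i)) _).symm
  mul_mem' := fun {x y} hx hy φ s a ψ h => by
    have h1 := hy φ s a ψ h
    exact hx (y.2 φ) s a (fun i => y.1 (ψ i)) h1

lemma mem_CR {x : AddMonoid.End (LatG Γ) × Module.End ℂ (SG Γ)} : x ∈ CR Γ ↔ Cpt x.1 x.2 := Iff.rfl

variable {N : ℕ} [NeZero N] (hΓ : Adm N Γ)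

include hΓ in
lemma exists_dec (φ : SG Γ) : ∃ (s : ℕ) (a : Fin s → ℂ) (ψ : Fin s → LatG Γ),
    LinearIndependent ℤ a ∧ pd Γ φ = ∑ i, (mulC (a i)).comp (ψ i : Additive Γ →+ ℤ) := by
  have : Group.FG Γ := hΓ.fg
  have hφ := pd_mem φ
  set Φ := pd Γ φ with hΦ
  have h1 : Module.Finite ℤ Φ.range := by
    rw [Module.Finite.iff_addGroup_fg]
    have : AddGroup.FG (Additive Γ) := inferInstance
    exact AddGroup.fg_range Φ
  have h2 : IsAddTorsionFree Φ.range :=
    Function.Injective.isAddTorsionFree Φ.range.subtype Subtype.val_injective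
  have h3 : Module.Free ℤ Φ.range := inferInstance
  set b := Module.finBasis ℤ Φ.range with hb
  refine ⟨_, fun i => (b i : ℂ), fun i => ⟨
    { toFun := fun x => b.repr (Φ.rangeRestrict x) i
      map_zero' := by simp
      map_add' := fun x y => by simp }, ?_⟩, ?_, ?_⟩
  · intro γ hγ
    change b.repr (Φ.rangeRestrict (Additive.ofMul γ)) i = 0
    have h4 : Φ.rangeRestrict (Additive.ofMul γ) = 0 := Subtype.ext (hφ γ hγ)
    rw [h4, map_zero]
    rfl
  · exact b.linearIndependent.map' (Φ.range.subtype.toIntLinearMap)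
      (LinearMap.ker_eq_bot.mpr Subtype.val_injective)
  · refine AddMonoidHom.ext fun x => ?_
    rw [AddMonoidHom.finsetSum_apply]
    have h5 := congrArg (fun y : Φ.range => (y : ℂ)) (b.sum_repr (Φ.rangeRestrict x))
    simp only [AddSubgroup.val_finsetSum, AddSubgroup.coe_zsmul] at h5
    refine Eq.trans h5.symm ?_
    exact Finset.sum_congr rfl fun i _ => by rw [zsmul_eq_mul, AddMonoidHom.comp_apply, mulC_apply]; rfl

include hΓ in
/-- the first projection is injective -/
lemma CR_inj {x : AddMonoid.End (LatG Γ) × Module.End ℂ (SG Γ)} (hx : x ∈ CR Γ) (h0 : x.1 = 0) :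
    x.2 = 0 := by
  refine LinearMap.ext fun φ => pd_injective hΓ ?_
  obtain ⟨s, a, ψ, -, h⟩ := exists_dec hΓ φ
  rw [hx φ s a ψ h, LinearMap.zero_apply, map_zero]
  refine Finset.sum_eq_zero fun i _ => ?_
  rw [h0]
  exact AddMonoidHom.ext fun x => map_zero (mulC (a i))

lemma sum_mulC_eq_zero {s : ℕ} {a : Fin s → ℂ} (ha : LinearIndependent ℤ a)
    {ψ : Fin s → LatG Γ} (h : ∑ i, (mulC (a i)).comp (ψ i : Additive Γ →+ ℤ) = 0) (i : Fin s) :
    ψ i = 0 := by
  apply Subtype.ext
  refine AddMonoidHom.ext fun x => ?_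
  have h1 := DFunLike.congr_fun h x
  rw [AddMonoidHom.finsetSum_apply] at h1
  have h2 := Fintype.linearIndependent_iff.mp ha (fun i => (ψ i : Additive Γ →+ ℤ) x) ?_ i
  · exact h2
  · refine Eq.trans ?_ h1
    exact Finset.sum_congr rfl fun i _ => by rw [zsmul_eq_mul, AddMonoidHom.comp_apply, mulC_apply]

include hΓ in
/-- **finiteness** -/
theorem finite_CR : Module.Finite ℤ (CR Γ) := by
  have h1 : Module.Finite ℤ (LatG Γ) := finite_LatG hΓ
  have h2 : IsAddTorsionFree (LatG Γ) :=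
    Function.Injective.isAddTorsionFree (LatG Γ).subtype Subtype.val_injective
  have h3 : Module.Free ℤ (LatG Γ) := inferInstance
  let f : (CR Γ) →ₗ[ℤ] (LatG Γ →ₗ[ℤ] LatG Γ) :=
    { toFun := fun x => (x.1.1 : LatG Γ →+ LatG Γ).toIntLinearMap
      map_add' := fun x y => rfl
      map_smul' := fun n x => by
        ext v : 1
        change ((n • x).1.1 : AddMonoid.End (LatG Γ)) v = n • (x.1.1 v)
        have : (n • x).1.1 = n • x.1.1 := rfl
        rw [this]
        rfl }
  have hf : Function.Injective f := by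
    rw [injective_iff_map_eq_zero]
    intro x hx
    have h4 : x.1.1 = 0 := by
      refine AddMonoidHom.ext fun v => ?_
      exact LinearMap.congr_fun hx v
    have h5 := CR_inj hΓ x.2 h4
    exact Subtype.ext (Prod.ext h4 h5)
  exact Module.Finite.of_injective f hf

/-! ### elements -/

/-- lattice operator of a Hecke family -/
def LF {κ : Type*} [Fintype κ] (F : HF Γ κ) : AddMonoid.End (LatG Γ) :=
  (F.T.comp (LatG Γ).subtype).codRestrict _ fun φ => F.T_mem φ.2

lemma coe_LF {κ : Type*} [Fintype κ] (F : HF Γ κ) (ψ : LatG Γ) :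
    (LF F ψ : Additive Γ →+ ℤ) = F.T (ψ : Additive Γ →+ ℤ) := rfl

lemma F_mem_CR {κ : Type*} [Fintype κ] (F : HF Γ κ) : (LF F, opF F) ∈ CR Γ := by
  intro φ s a ψ h
  change pd Γ (opF F φ) = _
  rw [pd_opF, h, map_sum]
  refine Finset.sum_congr rfl fun i _ => ?_
  rw [F.T_comp, coe_LF]

lemma D_mem_CR (g : Gamma0 N) : ((LdG hΓ g : AddMonoid.End (LatG Γ)), opD hΓ g) ∈ CR Γ := by
  intro φ s a ψ h
  change pd Γ (opD hΓ g φ) = _
  rw [pd_opD, h, map_sum]
  rfl

end Fermat.Agent.DS1
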