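import Fermat.Agent.DS1.AB3
import Fermat.Prelude.Thm_UpperHalfPlane_qCoeff_heckeU

/-!
# `q`-expansions of Hecke operators
-/

set_option autoImplicit false
set_option linter.unusedSectionVars false

noncomputable section

namespace Fermat.Agent.DS1

open UpperHalfPlane hiding I
open Complex Filter Topology Function Metric Asymptotics
open scoped Real Manifold MatrixGroups ModularForm Matrix Pointwise
open Fermat.Agent.EichlerShimura Fermat.Agent.ModFun Fermat.Agent.AnJac Fermat.Agent.AnJacH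
open Matrix.SpecialLinearGroup CongruenceSubgroup ModularForm
open P2MW.S_ModularForm_heckeT_slash_eq_self_of_mem_Gamma0.ModularForm.HeckeSlashInvariance

lemma qc_heckeU {φ : ℍ → ℂ} (h : IsR 1 φ) {p : ℕ} (hp : p ≠ 0) (n : ℕ) :
    qc (heckeU 2 p φ) n = qc φ (n * p) := by
  have hper : Function.Periodic (φ ∘ ofComplex) 1 := by
    have := h.per
    rwa [Complex.ofReal_one] at this
  exact UpperHalfPlane.qCoeff_heckeU hper h.holo h.bdd 2 hp n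

lemma hasSum_diag {φ : ℍ → ℂ} (h : IsR 1 φ) (k : ℤ) {p : ℕ} (hp : p ≠ 0) (τ : ℍ) :
    HasSum (fun n : ℕ => (if p ∣ n then (p : ℂ) ^ (k - 1) * qc φ (n / p) else 0) *
      Complex.exp (2 * π * I * τ) ^ n) ((φ ∣[k] heckeDiagMatrix p) τ) := by
  rw [slash_heckeDiagMatrix_apply k hp]
  have h1 := (h.hasSum (heckeDiagMatrix p • τ)).mul_left ((p : ℂ) ^ (k - 1))
  rw [coe_heckeDiagMatrix_smul hp] at h1
  have hinj : Function.Injective fun n : ℕ => p * n := fun a b hab =>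
    Nat.eq_of_mul_eq_mul_left (Nat.pos_of_ne_zero hp) hab
  rw [← hinj.hasSum_iff]
  · have e : ((fun n : ℕ => (if p ∣ n then (p : ℂ) ^ (k - 1) * qc φ (n / p) else 0) *
      Complex.exp (2 * π * I * τ) ^ n) ∘ fun n : ℕ => p * n) =
      fun n : ℕ => (p : ℂ) ^ (k - 1) * (qc φ n * Complex.exp (2 * π * I * (p * τ)) ^ n) := by
      funext n
      simp only [comp_apply]
      rw [if_pos (dvd_mul_right p n), Nat.mul_div_cancel_left n (Nat.pos_of_ne_zero hp), pow_mul,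
        ← Complex.exp_nat_mul]
      rw [show (p : ℂ) * (2 * π * I * τ) = 2 * π * I * (p * τ) by ring]
      ring
    rw [e]
    exact h1
  · intro n hn
    rw [if_neg, zero_mul]
    rintro ⟨m, rfl⟩
    exact hn ⟨m, rfl⟩

lemma isR_diag {φ : ℍ → ℂ} (h : IsR 1 φ) (k : ℤ) {p : ℕ} (hp : p ≠ 0) :
    IsR 1 (φ ∣[k] heckeDiagMatrix p) := isR_of_hasSum (hasSum_diag h k hp)

lemma qc_diag {φ : ℍ → ℂ} (h : IsR 1 φ) (k : ℤ) {p : ℕ} (hp : p ≠ 0) (n : ℕ) :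
    qc (φ ∣[k] heckeDiagMatrix p) n = if p ∣ n then (p : ℂ) ^ (k - 1) * qc φ (n / p) else 0 :=
  (isR_diag h k hp).qc_eq (hasSum_diag h k hp) n

section GH

variable {N : ℕ} [NeZero N] {m : ℕ} {h : m ∣ N} {H₀ : Subgroup (ZMod m)ˣ}
  (hΓ : Adm N (GH N m h H₀))

variable (N m h H₀) in
/-- `U_p` -/
abbrev opU (p : ℕ) [NeZero p] (hpN : p ∣ N) : SG (GH N m h H₀) →ₗ[ℂ] SG (GH N m h H₀) :=
  opF (hfUG N m h H₀ p hpN)

variable (N m h H₀) in
/-- `T_q` -/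
abbrev opT (q : ℕ) [Fact q.Prime] (hqN : ¬ q ∣ N) (g : Gamma0 N)
    (hg : ((dM N m h g : (ZMod m)ˣ) : ZMod m) = q) : SG (GH N m h H₀) →ₗ[ℂ] SG (GH N m h H₀) :=
  opF (hfTG N m h H₀ q hqN g hg)

lemma coe_opU (p : ℕ) [NeZero p] (hpN : p ∣ N) (φ : SG (GH N m h H₀)) :
    (opU N m h H₀ p hpN φ : ℍ → ℂ) = heckeU 2 p (φ : ℍ → ℂ) := by
  rw [coe_opF, heckeU_eq_sum_zmod]
  refine Finset.sum_congr rfl fun x _ => ?_
  change (φ : ℍ → ℂ) ∣[(2 : ℤ)] (gl ((1 : Gamma0 N) : SL(2,ℤ)) * heckeMatrix p x.val) = _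
  have : gl ((1 : Gamma0 N) : SL(2,ℤ)) = 1 := by simp [gl]
  rw [this, one_mul]

lemma coe_opT (q : ℕ) [Fact q.Prime] (hqN : ¬ q ∣ N) (g : Gamma0 N)
    (hg : ((dM N m h g : (ZMod m)ˣ) : ZMod m) = q) (φ : SG (GH N m h H₀)) :
    (opT N m h H₀ q hqN g hg φ : ℍ → ℂ) = heckeU 2 q (φ : ℍ → ℂ) +
      ((φ : ℍ → ℂ) ∣[(2 : ℤ)] (g : SL(2,ℤ))) ∣[(2 : ℤ)] heckeDiagMatrix q := by
  have : NeZero q := ⟨(Fact.out : q.Prime).ne_zero⟩
  rw [coe_opF, heckeU_eq_sum_zmod, add_comm]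
  refine (Fintype.sum_option (fun x : OnePoint (ZMod q) =>
    (φ : ℍ → ℂ) ∣[(2 : ℤ)] (hfTG N m h H₀ q hqN g hg).A x)).trans ?_
  congr 1
  · change (φ : ℍ → ℂ) ∣[(2 : ℤ)] (gl ((sgT q g OnePoint.infty : Gamma0 N) : SL(2,ℤ)) *
      heckeDiagMatrix q) = _
    rw [sgT, if_pos rfl, SlashAction.slash_mul]
    rfl
  · refine Finset.sum_congr rfl fun x _ => ?_
    change (φ : ℍ → ℂ) ∣[(2 : ℤ)] (gl ((sgT q g (x : OnePoint (ZMod q)) : Gamma0 N) : SL(2,ℤ)) *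
      heckeMatrix q x.val) = _
    have : gl ((1 : Gamma0 N) : SL(2,ℤ)) = 1 := by simp [gl]
    rw [sgT, if_neg (OnePoint.coe_ne_infty x), this, one_mul]

include hΓ in
lemma isR1 (φ : SG (GH N m h H₀)) : IsR 1 (φ : ℍ → ℂ) := (InS.isQ1 hΓ φ.2).isR

include hΓ in
lemma qc_opU (p : ℕ) [NeZero p] (hpN : p ∣ N) (φ : SG (GH N m h H₀)) (n : ℕ) :
    qc (opU N m h H₀ p hpN φ) n = qc (φ : ℍ → ℂ) (n * p) := by
  rw [coe_opU, qc_heckeU (isR1 hΓ φ) (NeZero.ne p)]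

include hΓ in
lemma qc_opT (q : ℕ) [hq : Fact q.Prime] (hqN : ¬ q ∣ N) (g : Gamma0 N)
    (hg : ((dM N m h g : (ZMod m)ˣ) : ZMod m) = q) (φ : SG (GH N m h H₀)) (n : ℕ) :
    qc (opT N m h H₀ q hqN g hg φ) n = qc (φ : ℍ → ℂ) (n * q) +
      if q ∣ n then (q : ℂ) * qc ((φ : ℍ → ℂ) ∣[(2 : ℤ)] (g : SL(2,ℤ))) (n / q) else 0 := by
  have hq0 : q ≠ 0 := hq.out.ne_zero
  have h1 : IsR 1 ((φ : ℍ → ℂ) ∣[(2 : ℤ)] (g : SL(2,ℤ))) := isR1 hΓ (opD hΓ g φ)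
  have h2 := isR_diag h1 2 hq0
  have h3 := isR1 hΓ (opT N m h H₀ q hqN g hg φ)
  have e := coe_opT q hqN g hg φ
  have h4 : IsR 1 (heckeU 2 q (φ : ℍ → ℂ)) := by
    have e2 : heckeU 2 q (φ : ℍ → ℂ) = (opT N m h H₀ q hqN g hg φ : ℍ → ℂ) +
        (-1 : ℂ) • (((φ : ℍ → ℂ) ∣[(2 : ℤ)] (g : SL(2,ℤ))) ∣[(2 : ℤ)] heckeDiagMatrix q) := by
      rw [e, neg_one_smul, add_neg_cancel_right]
    rw [e2]
    exact h3.add (h2.smul _)
  rw [e, qc_add h4 h2, qc_heckeU (isR1 hΓ φ) hq0, qc_diag h1 2 hq0]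
  norm_num

/-! ### all coefficients -/

lemma exists_g' (N m : ℕ) (h : m ∣ N) {q : ℕ} (hq : q.Prime) (hqN : ¬ q ∣ N) :
    ∃ g : Gamma0 N, ((dM N m h g : (ZMod m)ˣ) : ZMod m) = q := by
  have h1 : IsCoprime (q : ℤ) (N : ℤ) :=
    Nat.isCoprime_iff_coprime.mpr ((Nat.Prime.coprime_iff_not_dvd hq).mpr hqN)
  obtain ⟨a, b, hab⟩ := h1
  let γ : SL(2,ℤ) := ⟨!![a, -b; (N : ℤ), (q : ℤ)], by rw [Matrix.det_fin_two_of]; linarith⟩
  have h2 : γ ∈ Gamma0 N := by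
    rw [Gamma0_mem]
    change (((N : ℤ) : ℤ) : ZMod N) = 0
    simp
  refine ⟨⟨γ, h2⟩, ?_⟩
  rw [coe_dM]
  change (((q : ℤ) : ℤ) : ZMod m) = q
  simp

variable (N m h H₀) in
/-- the pair `U_p` -/
def cU (p : ℕ) [NeZero p] (hpN : p ∣ N) :
    AddMonoid.End (LatG (GH N m h H₀)) × Module.End ℂ (SG (GH N m h H₀)) :=
  (LF (hfUG N m h H₀ p hpN), opU N m h H₀ p hpN)

variable (N m h H₀) in
/-- the pair `T_q` -/
def cT (q : ℕ) [Fact q.Prime] (hqN : ¬ q ∣ N) (g : Gamma0 N)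
    (hg : ((dM N m h g : (ZMod m)ˣ) : ZMod m) = q) :
    AddMonoid.End (LatG (GH N m h H₀)) × Module.End ℂ (SG (GH N m h H₀)) :=
  (LF (hfTG N m h H₀ q hqN g hg), opT N m h H₀ q hqN g hg)

/-- the pair `⟨g⟩` -/
def cD (g : Gamma0 N) : AddMonoid.End (LatG (GH N m h H₀)) × Module.End ℂ (SG (GH N m h H₀)) :=
  ((LdG hΓ g : AddMonoid.End (LatG (GH N m h H₀))), opD hΓ g)

lemma cU_mem (p : ℕ) [NeZero p] (hpN : p ∣ N) : cU N m h H₀ p hpN ∈ CR (GH N m h H₀) := F_mem_CR _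

lemma cT_mem (q : ℕ) [Fact q.Prime] (hqN : ¬ q ∣ N) (g : Gamma0 N)
    (hg : ((dM N m h g : (ZMod m)ˣ) : ZMod m) = q) : cT N m h H₀ q hqN g hg ∈ CR (GH N m h H₀) :=
  F_mem_CR _

lemma cD_mem (g : Gamma0 N) : cD hΓ g ∈ CR (GH N m h H₀) := D_mem_CR hΓ g

include hΓ in
lemma qc_comb (φ ψ : SG (GH N m h H₀)) (c : ℂ) (n : ℕ) :
    qc ((φ + c • ψ : SG (GH N m h H₀)) : ℍ → ℂ) n = qc (φ : ℍ → ℂ) n + c * qc (ψ : ℍ → ℂ) n := by
  have e4 : ((φ + c • ψ : SG (GH N m h H₀)) : ℍ → ℂ) = (φ : ℍ → ℂ) + c • (ψ : ℍ → ℂ) := rfl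
  rw [e4, qc_add (isR1 hΓ _) ((isR1 hΓ _).smul _), qc_smul (isR1 hΓ _)]

/-- first coefficient -/
def q1 : SG (GH N m h H₀) →+ ℂ where
  toFun φ := qc (φ : ℍ → ℂ) 1
  map_zero' := qc_zero 1
  map_add' φ ψ := qc_add (isR1 hΓ φ) (isR1 hΓ ψ) 1

lemma q1_apply (φ : SG (GH N m h H₀)) : q1 hΓ φ = qc (φ : ℍ → ℂ) 1 := rfl

include hΓ in
/-- every coefficient is the first coefficient of a Hecke translate -/
theorem exists_op (n : ℕ) (hn : n ≠ 0) : ∃ x ∈ CR (GH N m h H₀), ∀ φ : SG (GH N m h H₀),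
    qc (φ : ℍ → ℂ) n = qc (x.2 φ : ℍ → ℂ) 1 := by
  induction n using Nat.strong_induction_on with
  | _ n ih =>
    rcases Nat.lt_or_ge 1 n with h1 | h1
    · obtain ⟨p, hp, k, rfl⟩ := Nat.exists_prime_and_dvd (by omega : n ≠ 1)
      have hpF : Fact p.Prime := ⟨hp⟩
      have hpZ : NeZero p := ⟨hp.ne_zero⟩
      have hk0 : k ≠ 0 := by rintro rfl; exact hn (mul_zero _)
      have hkp : k < p * k := by
        have := hp.two_le
        nlinarith [Nat.pos_of_ne_zero hk0]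
      obtain ⟨x, hx, hx'⟩ := ih k hkp hk0
      by_cases hpN : p ∣ N
      · refine ⟨x * cU N m h H₀ p hpN, mul_mem hx (cU_mem p hpN), ?_⟩
        intro φ
        rw [mul_comm, ← qc_opU hΓ p hpN, hx']
        rfl
      · obtain ⟨g, hg⟩ := exists_g' N m h hp hpN
        by_cases hpk : p ∣ k
        · obtain ⟨k', rfl⟩ := hpk
          have hk'0 : k' ≠ 0 := by rintro rfl; exact hk0 (mul_zero _)
          have hk'k : k' < p * (p * k') := by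
            have := hp.two_le
            have h3 := Nat.pos_of_ne_zero hk'0
            nlinarith [Nat.mul_le_mul this (le_refl k')]
          obtain ⟨y, hy, hy'⟩ := ih k' hk'k hk'0
          refine ⟨x * cT N m h H₀ p hpN g hg - (p : ℤ) • (y * cD hΓ g),
            sub_mem (mul_mem hx (cT_mem p hpN g hg)) (zsmul_mem (mul_mem hy (cD_mem hΓ g)) _), ?_⟩
          intro φ
          have e1 := qc_opT hΓ p hpN g hg φ (p * k')
          rw [if_pos (dvd_mul_right _ _), Nat.mul_div_cancel_left k' hp.pos, hx'] at e1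
          have e2 := hy' (opD hΓ g φ)
          have e3 : (x * cT N m h H₀ p hpN g hg - (p : ℤ) • (y * cD hΓ g)).2 φ =
            x.2 (opT N m h H₀ p hpN g hg φ) + (-(p : ℂ)) • (y.2 (opD hΓ g φ)) := by
            rw [Prod.snd_sub, LinearMap.sub_apply, Prod.smul_snd, LinearMap.smul_apply,
              sub_eq_add_neg, ← Int.cast_smul_eq_zsmul ℂ, Int.cast_natCast]
            refine congrArg (fun z => x.2 (opT N m h H₀ p hpN g hg φ) + z) ?_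
            exact (_root_.neg_smul (p : ℂ) (y.2 (opD hΓ g φ))).symm
          rw [e3, qc_comb hΓ, ← e2, e1, coe_opD, mul_comm p (p * k')]
          ring
        · refine ⟨x * cT N m h H₀ p hpN g hg, mul_mem hx (cT_mem p hpN g hg), ?_⟩
          intro φ
          have e1 := qc_opT hΓ p hpN g hg φ k
          rw [if_neg hpk, add_zero, hx'] at e1
          rw [mul_comm, ← e1]
          rfl
    · have : n = 1 := by omega
      subst this
      exact ⟨1, one_mem _, fun φ => rfl⟩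

include hΓ in
/-- the coefficients span a finitely generated group -/
theorem coeff_fg (φ : SG (GH N m h H₀)) :
    ∃ W : Submodule ℤ ℂ, W.FG ∧ ∀ n, qc (φ : ℍ → ℂ) n ∈ W := by
  have hfin : Module.Finite ℤ (CR (GH N m h H₀)) := finite_CR hΓ
  have hop : ∀ n : ℕ, n ≠ 0 → ∃ x : CR (GH N m h H₀), qc (φ : ℍ → ℂ) n = qc (x.1.2 φ : ℍ → ℂ) 1 := by
    intro n hn
    obtain ⟨x, hx, h'⟩ := exists_op hΓ n hn
    exact ⟨⟨x, hx⟩, h' φ⟩
  obtain ⟨f, hf⟩ : ∃ f : (CR (GH N m h H₀)) →ₗ[ℤ] ℂ, ∀ x : CR (GH N m h H₀),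
      f x = qc (x.1.2 φ : ℍ → ℂ) 1 := by
    let ev : Module.End ℂ (SG (GH N m h H₀)) →+ SG (GH N m h H₀) :=
      { toFun := fun S => S φ
        map_zero' := rfl
        map_add' := fun _ _ => rfl }
    exact ⟨(((q1 hΓ).comp ev).comp
      ((AddMonoidHom.snd _ _).comp (CR (GH N m h H₀)).subtype.toAddMonoidHom)).toIntLinearMap,
      fun x => rfl⟩
  refine ⟨LinearMap.range f, ?_, fun n => ?_⟩
  · rw [LinearMap.range_eq_map]
    exact hfin.fg_top.map f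
  · by_cases hn : n = 0
    · rw [hn, IsQ.qc_zero' (InS.isQ1 hΓ φ.2)]
      exact Submodule.zero_mem _
    · obtain ⟨x, hx⟩ := hop n hn
      exact ⟨x, (hf x).trans hx.symm⟩

end GH

end Fermat.Agent.DS1
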