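import Fermat.Agent.DS1.Prod

/-!
# The level is admissible
-/

set_option autoImplicit false
set_option linter.unusedSectionVars false

noncomputable section

namespace Fermat.Agent.DS1

open Fermat.Agent.AnJac Fermat.Agent.AnJacH CongruenceSubgroup MatrixGroups

lemma admL_aux {m : ℕ} (h23 : 2 ∣ m ∨ 3 ∣ m) {a b c d : ℤ} (hdet : a * d - b * c = 1)
    (hc : ((m * m : ℕ) : ℤ) ∣ c) (ht : |a + d| ≤ 2) : (m : ℤ) ∣ d - 1 ∨ (m : ℤ) ∣ d + 1 := by
  obtain ⟨c', hc'⟩ := hc
  have key : d ^ 2 - (a + d) * d + 1 = -(m : ℤ) ^ 2 * (b * c') := by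
    subst hc'
    push_cast at hdet
    linear_combination -hdet
  obtain ⟨h1, h2⟩ := abs_le.mp ht
  set t := a + d with htdef
  clear_value t
  have hsq : ∀ x : ℤ, (m : ℤ) ^ 2 ∣ x ^ 2 → (m : ℤ) ∣ x := fun x hx =>
    (Int.pow_dvd_pow_iff (by norm_num)).mp hx
  have hcase : t = -2 ∨ t = -1 ∨ t = 0 ∨ t = 1 ∨ t = 2 := by omega
  have hm4 : ∀ x : ℤ, x = -(m : ℤ) ^ 2 * (b * c') → ((4 : ℤ) ∣ x ∨ (9 : ℤ) ∣ x) := by
    intro x hx
    rcases h23 with ⟨k, hk⟩ | ⟨k, hk⟩
    · left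
      refine ⟨-(k : ℤ) ^ 2 * (b * c'), ?_⟩
      rw [hx, hk]; push_cast; ring
    · right
      refine ⟨-(k : ℤ) ^ 2 * (b * c'), ?_⟩
      rw [hx, hk]; push_cast; ring
  have hno : ∀ s : ℤ, (s = -1 ∨ s = 0 ∨ s = 1) → t ≠ s := by
    intro s hs hts
    have h3 := hm4 _ key
    rw [hts] at h3
    have d4 : d % 4 = 0 ∨ d % 4 = 1 ∨ d % 4 = 2 ∨ d % 4 = 3 := by omega
    have d9 : d % 9 = 0 ∨ d % 9 = 1 ∨ d % 9 = 2 ∨ d % 9 = 3 ∨ d % 9 = 4 ∨ d % 9 = 5 ∨ d % 9 = 6 ∨
      d % 9 = 7 ∨ d % 9 = 8 := by omega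
    rcases h3 with h3 | h3
    · have h5 := Int.emod_eq_zero_of_dvd h3
      rcases hs with rfl | rfl | rfl <;> rcases d4 with h | h | h | h <;>
        simp [pow_two, Int.add_emod, Int.sub_emod, Int.mul_emod, h] at h5
    · have h5 := Int.emod_eq_zero_of_dvd h3
      rcases hs with rfl | rfl | rfl <;> rcases d9 with h | h | h | h | h | h | h | h | h <;>
        simp [pow_two, Int.add_emod, Int.sub_emod, Int.mul_emod, h] at h5
  rcases hcase with h | h | h | h | h
  · right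
    refine hsq _ ⟨-(b * c'), ?_⟩
    rw [h] at key
    linear_combination key
  · exact absurd h (hno _ (by norm_num))
  · exact absurd h (hno _ (by norm_num))
  · exact absurd h (hno _ (by norm_num))
  · left
    refine hsq _ ⟨-(b * c'), ?_⟩
    rw [h] at key
    linear_combination key

theorem adm_GG (m : ℕ) [NeZero m] (h23 : 2 ∣ m ∨ 3 ∣ m) : Adm (m * m) (GG m) := by
  refine adm_GH (fun γ hγ => ?_)
  have h0 := γ.2
  rw [Gamma0_mem, ZMod.intCast_zmod_eq_zero_iff_dvd] at h0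
  have hdet := Matrix.SpecialLinearGroup.det_coe (γ : SL(2,ℤ))
  rw [Matrix.det_fin_two] at hdet
  have h1 := admL_aux h23 hdet h0 hγ
  have h2 := coe_dM (m * m) m (dvd_mul_right m m) γ
  rcases h1 with h | h
  · have e : dM (m * m) m (dvd_mul_right m m) γ = 1 := by
      apply Units.ext
      rw [h2]
      rw [← ZMod.intCast_zmod_eq_zero_iff_dvd] at h
      push_cast at h ⊢
      linear_combination h
    rw [e]
    exact one_mem _
  · have e : dM (m * m) m (dvd_mul_right m m) γ = -1 := by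
      apply Units.ext
      rw [h2]
      rw [← ZMod.intCast_zmod_eq_zero_iff_dvd] at h
      push_cast at h ⊢
      linear_combination h
    rw [e]
    exact Subgroup.mem_zpowers _

end Fermat.Agent.DS1
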