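import Mathlib.RingTheory.IntegralClosure.IsIntegralClosure.Basic
import Mathlib.RingTheory.Polynomial.ScaleRoots
import Mathlib.RingTheory.FiniteType
import Mathlib.RingTheory.Noetherian.Basic
import Mathlib.Analysis.Complex.Basic
import Mathlib

/-!
# Algebra for the integrality of the coefficients
-/

set_option autoImplicit false

noncomputable section

namespace Fermat.Agent.DS1

/-- division by a power series with unit constant term -/
lemma coeff_mem_span {S : Type*} [CommRing S] [Algebra S ℂ] (R : Subalgebra S ℂ)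
    (W : Submodule ℤ ℂ) (b e : ℕ → ℂ) (κ : ℂ)
    (hc : ∀ n, ∑ x ∈ Finset.HasAntidiagonal.antidiagonal n, b x.1 * e x.2 ∈ W)
    (he : ∀ n, κ * e n ∈ R) (h0 : κ * e 0 ≠ 0) (hinv : (κ * e 0)⁻¹ ∈ R) (n : ℕ) :
    b n ∈ Submodule.span R ((fun x => κ * x) '' (W : Set ℂ)) := by
  induction n using Nat.strong_induction_on with
  | _ n ih =>
    have h1 : (n, 0) ∈ Finset.HasAntidiagonal.antidiagonal n := by simp
    have h2 := Finset.sum_erase_add (s := Finset.HasAntidiagonal.antidiagonal n)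
      (f := fun x : ℕ × ℕ => b x.1 * e x.2) h1
    simp only at h2
    have h3 : b n = (κ * e 0)⁻¹ * (κ * (∑ x ∈ Finset.HasAntidiagonal.antidiagonal n, b x.1 * e x.2) -
        ∑ x ∈ (Finset.HasAntidiagonal.antidiagonal n).erase (n, 0), (κ * e x.2) * b x.1) := by
      rw [← h2, mul_add, Finset.mul_sum]
      have h4 : ∑ x ∈ (Finset.HasAntidiagonal.antidiagonal n).erase (n, 0), κ * (b x.1 * e x.2) =
          ∑ x ∈ (Finset.HasAntidiagonal.antidiagonal n).erase (n, 0), (κ * e x.2) * b x.1 :=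
        Finset.sum_congr rfl fun x _ => by ring
      rw [h4, add_sub_cancel_left, show κ * (b n * e 0) = (κ * e 0) * b n by ring,
        inv_mul_cancel_left₀ h0]
    rw [h3]
    have h5 : ∀ (r : ℂ) (hr : r ∈ R) (x : ℂ),
        x ∈ Submodule.span R ((fun x => κ * x) '' (W : Set ℂ)) →
        r * x ∈ Submodule.span R ((fun x => κ * x) '' (W : Set ℂ)) := fun r hr x hx =>
      Submodule.smul_mem _ (⟨r, hr⟩ : R) hx
    refine h5 _ hinv _ (sub_mem ?_ (sum_mem fun x hx => ?_))
    · exact Submodule.subset_span ⟨_, hc n, rfl⟩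
    · refine h5 _ (he _) _ (ih _ ?_)
      rw [Finset.mem_erase, Finset.HasAntidiagonal.mem_antidiagonal] at hx
      obtain ⟨h6, h7⟩ := hx
      rcases Nat.eq_zero_or_pos x.2 with h8 | h8
      · exfalso
        apply h6
        ext
        · simp only; omega
        · exact h8
      · omega

lemma fg_span {S : Type*} [CommRing S] [Algebra S ℂ] (R : Subalgebra S ℂ)
    {W : Submodule ℤ ℂ} (hW : W.FG) (κ : ℂ) :
    (Submodule.span R ((fun x => κ * x) '' (W : Set ℂ)) : Submodule R ℂ).FG := by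
  obtain ⟨s, hs⟩ := hW
  classical
  refine ⟨s.image (fun x => κ * x), ?_⟩
  apply le_antisymm
  · refine Submodule.span_mono ?_
    intro x hx
    rw [Finset.mem_coe, Finset.mem_image] at hx
    obtain ⟨y, hy, rfl⟩ := hx
    refine ⟨y, ?_, rfl⟩
    rw [← hs]
    exact Submodule.subset_span hy
  · rw [Submodule.span_le]
    rintro _ ⟨x, hx, rfl⟩
    rw [← hs] at hx
    simp only
    induction hx using Submodule.span_induction with
    | mem x hx =>
      refine Submodule.subset_span ?_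
      rw [Finset.mem_coe, Finset.mem_image]
      exact ⟨x, hx, rfl⟩
    | zero => rw [mul_zero]; exact zero_mem _
    | add x y _ _ hx hy => rw [mul_add]; exact add_mem hx hy
    | smul n x _ hx =>
      rw [mul_smul_comm]
      exact zsmul_mem hx n

/-- a Hecke sequence in a finitely generated module -/
lemma isIntegral_of_seq {S : Type*} [CommRing S] [Algebra S ℂ] (R : Subalgebra S ℂ)
    [IsNoetherianRing R] {V : Submodule R ℂ} (hV : V.FG) {a t : ℂ} (ht : t ∈ R) {s : ℕ → ℂ}
    (h0 : s 0 = 1) (h1 : s 1 = a) (hs : ∀ j, s (j + 2) + t * s j = a * s (j + 1))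
    (hsV : ∀ j, s j ∈ V) : IsIntegral R a := by
  set U : Submodule R ℂ := Submodule.span R (Set.range s) with hU
  have hUV : U ≤ V := by
    rw [hU, Submodule.span_le]
    rintro _ ⟨j, rfl⟩
    exact hsV j
  have hUfg : U.FG := by
    have : IsNoetherian R V := isNoetherian_of_fg_of_noetherian V hV
    have h2 : (Submodule.comap V.subtype U).FG := IsNoetherian.noetherian _
    have h3 := h2.map V.subtype
    rwa [Submodule.map_comap_subtype, inf_eq_right.mpr hUV] at h3
  refine isIntegral_of_smul_mem_submodule U ?_ hUfg a ?_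
  · intro h
    have : (1 : ℂ) ∈ U := by rw [← h0]; exact Submodule.subset_span ⟨0, rfl⟩
    rw [h, Submodule.mem_bot] at this
    exact one_ne_zero this
  · intro n hn
    induction hn using Submodule.span_induction with
    | mem x hx =>
      obtain ⟨j, rfl⟩ := hx
      rw [smul_eq_mul]
      rcases j with _ | j
      · rw [h0, mul_one, ← h1]; exact Submodule.subset_span ⟨1, rfl⟩
      · rw [← hs]
        refine add_mem (Submodule.subset_span ⟨_, rfl⟩) ?_
        exact Submodule.smul_mem _ (⟨t, ht⟩ : R) (Submodule.subset_span ⟨j, rfl⟩)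
    | zero => rw [smul_zero]; exact zero_mem _
    | add x y _ _ hx hy => rw [smul_add]; exact add_mem hx hy
    | smul r x _ hx =>
      rw [smul_comm]
      exact Submodule.smul_mem _ r hx

/-- numbers whose denominators are powers of `D` -/
def OD (D : ℕ) : Subring ℂ where
  carrier := {x | ∃ k : ℕ, IsIntegral ℤ ((D : ℂ) ^ k * x)}
  one_mem' := ⟨0, by simpa using isIntegral_one⟩
  zero_mem' := ⟨0, by simpa using isIntegral_zero⟩
  mul_mem' := by
    rintro x y ⟨k, hk⟩ ⟨l, hl⟩
    refine ⟨k + l, ?_⟩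
    have := hk.mul hl
    have e : (D : ℂ) ^ (k + l) * (x * y) = (D : ℂ) ^ k * x * ((D : ℂ) ^ l * y) := by
      rw [pow_add]; ring
    rw [e]
    exact this
  add_mem' := by
    rintro x y ⟨k, hk⟩ ⟨l, hl⟩
    refine ⟨k + l, ?_⟩
    have hD : ∀ j : ℕ, IsIntegral ℤ ((D : ℂ) ^ j) := fun j => (isIntegral_natCast _).pow j
    have := ((hD l).mul hk).add ((hD k).mul hl)
    have e : (D : ℂ) ^ (k + l) * (x + y) =
        (D : ℂ) ^ l * ((D : ℂ) ^ k * x) + (D : ℂ) ^ k * ((D : ℂ) ^ l * y) := by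
      rw [pow_add]; ring
    rw [e]
    exact this
  neg_mem' := by
    rintro x ⟨k, hk⟩
    exact ⟨k, by rw [mul_neg]; exact hk.neg⟩

lemma mem_OD {D : ℕ} {x : ℂ} : x ∈ OD D ↔ ∃ k : ℕ, IsIntegral ℤ ((D : ℂ) ^ k * x) := Iff.rfl

lemma OD_of_isIntegral {D : ℕ} {x : ℂ} (h : IsIntegral ℤ x) : x ∈ OD D := ⟨0, by simpa using h⟩

lemma OD_inv {D : ℕ} (hD : D ≠ 0) : ((D : ℂ))⁻¹ ∈ OD D := by
  refine ⟨1, ?_⟩
  have : (D : ℂ) ≠ 0 := by exact_mod_cast hD
  rw [pow_one, mul_inv_cancel₀ this]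
  exact isIntegral_one

/-- integrally closed -/
lemma OD_closed {D : ℕ} {S : Type*} [CommRing S] [Algebra S ℂ] (R : Subalgebra S ℂ)
    (hR : ∀ x ∈ R, x ∈ OD D) {a : ℂ} (ha : IsIntegral R a) : a ∈ OD D := by
  obtain ⟨p, hp, hpa⟩ := ha
  -- common denominator
  obtain ⟨k, hk⟩ : ∃ k : ℕ, ∀ i, IsIntegral ℤ ((D : ℂ) ^ k * (p.coeff i : ℂ)) := by
    have h1 : ∀ i, ∃ k : ℕ, IsIntegral ℤ ((D : ℂ) ^ k * (p.coeff i : ℂ)) := fun i =>
      hR _ (p.coeff i).2
    choose K hK using h1
    refine ⟨∑ i ∈ Finset.range (p.natDegree + 1), K i, fun i => ?_⟩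
    by_cases hi : i ∈ Finset.range (p.natDegree + 1)
    · rw [← Finset.sum_erase_add _ _ hi, pow_add, mul_assoc]
      exact ((isIntegral_natCast _).pow _).mul (hK i)
    · have : p.coeff i = 0 := by
        apply Polynomial.coeff_eq_zero_of_natDegree_lt
        simpa using hi
      rw [this]
      simpa using isIntegral_zero
  refine ⟨k, ?_⟩
  -- the polynomial over ℂ
  set P : Polynomial ℂ := p.map (algebraMap R ℂ) with hP
  have hPm : P.Monic := hp.map _
  have hPa : P.eval a = 0 := by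
    rw [hP, Polynomial.eval_map]
    exact hpa
  set Q : Polynomial ℂ := P.scaleRoots ((D : ℂ) ^ k) with hQ
  have hQm : Q.Monic := Polynomial.monic_scaleRoots_iff _ |>.mpr hPm
  have hQa : Q.eval ((D : ℂ) ^ k * a) = 0 := by
    have := Polynomial.scaleRoots_eval₂_eq_zero (p := P) (f := RingHom.id ℂ) (r := a)
      (s := (D : ℂ) ^ k) (by rw [Polynomial.eval₂_id]; exact hPa)
    simpa [Polynomial.eval₂_id] using this
  have hQc : ∀ i, Q.coeff i ∈ integralClosure ℤ ℂ := by
    intro i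
    rw [hQ, Polynomial.coeff_scaleRoots]
    change IsIntegral ℤ _
    have hD : ∀ j : ℕ, IsIntegral ℤ ((D : ℂ) ^ j) := fun j => (isIntegral_natCast _).pow j
    rcases lt_trichotomy i P.natDegree with h | h | h
    · obtain ⟨j, hj⟩ : ∃ j, P.natDegree - i = j + 1 := ⟨P.natDegree - i - 1, by omega⟩
      rw [hj, pow_succ]
      have h2 : P.coeff i = (p.coeff i : ℂ) := by rw [hP, Polynomial.coeff_map]; rfl
      rw [h2]
      have h3 := ((hD k).pow j).mul (hk i)
      have e : (p.coeff i : ℂ) * (((D : ℂ) ^ k) ^ j * (D : ℂ) ^ k) =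
        ((D : ℂ) ^ k) ^ j * ((D : ℂ) ^ k * (p.coeff i : ℂ)) := by ring
      rw [e]
      exact h3
    · rw [h, Nat.sub_self, pow_zero, mul_one]
      have : P.coeff P.natDegree = 1 := hPm
      rw [this]
      exact isIntegral_one
    · rw [Polynomial.coeff_eq_zero_of_natDegree_lt h, zero_mul]
      exact isIntegral_zero
  have hlift : Q ∈ Polynomial.lifts (algebraMap (integralClosure ℤ ℂ) ℂ) := by
    rw [Polynomial.lifts_iff_coeff_lifts]
    intro i
    exact ⟨⟨_, hQc i⟩, rfl⟩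
  obtain ⟨Q', hQ', hdeg, hQ'm⟩ := Polynomial.lifts_and_natDegree_eq_and_monic hlift hQm
  have h4 : IsIntegral (integralClosure ℤ ℂ) ((D : ℂ) ^ k * a) := by
    refine ⟨Q', hQ'm, ?_⟩
    rw [← Polynomial.eval_map, hQ']
    exact hQa
  exact isIntegral_trans _ h4

/-- two coprime denominators -/
lemma isIntegral_of_OD {D D' : ℕ} (h : D.Coprime D') {a : ℂ} (h1 : a ∈ OD D) (h2 : a ∈ OD D') :
    IsIntegral ℤ a := by
  obtain ⟨k, hk⟩ := h1
  obtain ⟨l, hl⟩ := h2
  have hc : IsCoprime ((D ^ k : ℕ) : ℤ) ((D' ^ l : ℕ) : ℤ) :=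
    Nat.isCoprime_iff_coprime.mpr (h.pow k l)
  obtain ⟨x, y, hxy⟩ := hc
  have e : a = (x : ℂ) * ((D : ℂ) ^ k * a) + (y : ℂ) * ((D' : ℂ) ^ l * a) := by
    have := congrArg (fun z : ℤ => (z : ℂ)) hxy
    push_cast at this
    linear_combination (-a) * this
  rw [e]
  exact ((isIntegral_intCast x).mul hk).add ((isIntegral_intCast y).mul hl)

end Fermat.Agent.DS1
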