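import Fermat.Agent.DS1.AB4

/-!
# Commutation of the Hecke operators on cusp forms
-/

set_option autoImplicit false
set_option linter.unusedSectionVars false

noncomputable section

namespace Fermat.Agent.DS1

open UpperHalfPlane hiding I
open Complex Filter Topology Function Metric Asymptotics
open scoped Real Manifold MatrixGroups ModularForm Matrix Pointwise
open Fermat.Agent.EichlerShimura Fermat.Agent.ModFun Fermat.Agent.AnJac Fermat.Agent.AnJacH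
open Matrix.SpecialLinearGroup CongruenceSubgroup ModularForm
open P2MW.S_ModularForm_heckeT_slash_eq_self_of_mem_Gamma0.ModularForm.HeckeSlashInvariance

variable {N : ℕ} [NeZero N] {m : ℕ} {h : m ∣ N} {H₀ : Subgroup (ZMod m)ˣ}
  (hΓ : Adm N (GH N m h H₀))

/-- the action only depends on the lower right entry -/
lemma slash_congr_dM {φ : ℍ → ℂ} (hφ : InS (GH N m h H₀) φ) {g g' : Gamma0 N}
    (e : dM N m h g = dM N m h g') :
    φ ∣[(2 : ℤ)] (g : SL(2,ℤ)) = φ ∣[(2 : ℤ)] (g' : SL(2,ℤ)) := by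
  have h1 : ((g * g'⁻¹ : Gamma0 N) : SL(2,ℤ)) ∈ GH N m h H₀ := by
    rw [mem_GH', map_mul, map_inv, e, mul_inv_cancel]
    exact one_mem _
  have h2 : (g : SL(2,ℤ)) = ((g * g'⁻¹ : Gamma0 N) : SL(2,ℤ)) * (g' : SL(2,ℤ)) := by
    simp
  conv_lhs => rw [h2, SlashAction.slash_mul, hφ.inv _ h1]

lemma opD_congr {g g' : Gamma0 N} (e : dM N m h g = dM N m h g') : opD hΓ g = opD hΓ g' := by
  ext1 φ
  exact Subtype.ext (slash_congr_dM φ.2 e)

lemma opD_mul (g g' : Gamma0 N) (φ : SG (GH N m h H₀)) :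
    opD hΓ (g * g') φ = opD hΓ g' (opD hΓ g φ) := by
  apply Subtype.ext
  rw [coe_opD, coe_opD, coe_opD, ← SlashAction.slash_mul]
  rfl

lemma opD_comm (g g' : Gamma0 N) (φ : SG (GH N m h H₀)) :
    opD hΓ g (opD hΓ g' φ) = opD hΓ g' (opD hΓ g φ) := by
  rw [← opD_mul, ← opD_mul, opD_congr hΓ (g := g' * g) (g' := g * g') (by
    rw [map_mul, map_mul, mul_comm])]

lemma opT_congr (q : ℕ) [hq : Fact q.Prime] (hqN : ¬ q ∣ N) (g : Gamma0 N)
    (hg : ((dM N m h g : (ZMod m)ˣ) : ZMod m) = q) (g' : Gamma0 N)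
    (hg' : ((dM N m h g' : (ZMod m)ˣ) : ZMod m) = q) :
    opT N m h H₀ q hqN g hg = opT N m h H₀ q hqN g' hg' := by
  ext1 φ
  apply Subtype.ext
  rw [coe_opT, coe_opT, slash_congr_dM φ.2 (Units.ext (hg.trans hg'.symm))]

/-- `T_q` and diamond operators commute -/
theorem opT_opD (q : ℕ) [hq : Fact q.Prime] (hqN : ¬ q ∣ N) (g : Gamma0 N)
    (hg : ((dM N m h g : (ZMod m)ˣ) : ZMod m) = q) (g' : Gamma0 N) (φ : SG (GH N m h H₀)) :
    opD hΓ g' (opT N m h H₀ q hqN g hg φ) = opT N m h H₀ q hqN g hg (opD hΓ g' φ) := by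
  apply Subtype.ext
  rw [coe_opD, coe_opF, coe_opF, coe_opD]
  have e : (∑ i, (φ : ℍ → ℂ) ∣[(2 : ℤ)] (hfTG N m h H₀ q hqN g hg).A i) ∣[(2 : ℤ)] (g' : SL(2,ℤ)) =
      ∑ i, ((φ : ℍ → ℂ) ∣[(2 : ℤ)] (hfTG N m h H₀ q hqN g hg).A i) ∣[(2 : ℤ)] (g' : SL(2,ℤ)) :=
    SlashAction.sum_slash _ _
  rw [e]
  set F := hfT N q hqN with hF
  have key : ∀ i, ((φ : ℍ → ℂ) ∣[(2 : ℤ)] (hfTG N m h H₀ q hqN g hg).A i) ∣[(2 : ℤ)] (g' : SL(2,ℤ)) =
      ((φ : ℍ → ℂ) ∣[(2 : ℤ)] (g' : SL(2,ℤ))) ∣[(2 : ℤ)]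
        (hfTG N m h H₀ q hqN g hg).A (F.s g' i) := by
    intro i
    have h1 := slash_congr_dM φ.2 (dM_T q hqN hg g' i)
    rw [← h1]
    rw [ModularForm.SL_slash, ← SlashAction.slash_mul, ModularForm.SL_slash,
      ← SlashAction.slash_mul]
    congr 1
    change gl (sgT q g i : SL(2,ℤ)) * F.A i * gl (g' : SL(2,ℤ)) =
      gl ((sgT q g i * F.g g' i * (sgT q g (F.s g' i))⁻¹ : Gamma0 N) : SL(2,ℤ)) *
        (gl (sgT q g (F.s g' i) : SL(2,ℤ)) * F.A (F.s g' i))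
    rw [mul_assoc, F.spec g' i]
    simp only [Subgroup.coe_mul, Subgroup.coe_inv]
    rw [← mul_assoc, ← gl_mul, ← mul_assoc, ← gl_mul, inv_mul_cancel_right]
  rw [Finset.sum_congr rfl fun i _ => key i]
  exact Equiv.sum_comp (F.sE g') (fun i => ((φ : ℍ → ℂ) ∣[(2 : ℤ)] (g' : SL(2,ℤ))) ∣[(2 : ℤ)]
    (hfTG N m h H₀ q hqN g hg).A i)

include hΓ in
/-- `q`-expansion principle -/
lemma ext_qc {φ ψ : SG (GH N m h H₀)} (e : ∀ n, qc (φ : ℍ → ℂ) n = qc (ψ : ℍ → ℂ) n) : φ = ψ := by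
  have h1 : ((φ + (-1 : ℂ) • ψ : SG (GH N m h H₀)) : ℍ → ℂ) = 0 := by
    refine (isR1 hΓ _).eq_zero fun n => ?_
    rw [qc_comb hΓ, e n]; ring
  apply Subtype.ext
  funext z
  have h2 : (φ : ℍ → ℂ) z + (-1 : ℂ) * (ψ : ℍ → ℂ) z = 0 := congrFun h1 z
  linear_combination h2

include hΓ in
theorem opT_comm (q : ℕ) [hq : Fact q.Prime] (hqN : ¬ q ∣ N) (g : Gamma0 N)
    (hg : ((dM N m h g : (ZMod m)ˣ) : ZMod m) = q) (r : ℕ) [hr : Fact r.Prime] (hrN : ¬ r ∣ N)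
    (g' : Gamma0 N) (hg' : ((dM N m h g' : (ZMod m)ˣ) : ZMod m) = r) (φ : SG (GH N m h H₀)) :
    opT N m h H₀ q hqN g hg (opT N m h H₀ r hrN g' hg' φ) =
      opT N m h H₀ r hrN g' hg' (opT N m h H₀ q hqN g hg φ) := by
  by_cases hqr : q = r
  · subst hqr
    rw [opT_congr q hqN g hg g' hg']
  refine ext_qc hΓ fun n => ?_
  have key : ∀ (q : ℕ) [Fact q.Prime] (hqN : ¬ q ∣ N) (g : Gamma0 N)
      (hg : ((dM N m h g : (ZMod m)ˣ) : ZMod m) = q) (r : ℕ) [Fact r.Prime] (hrN : ¬ r ∣ N)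
      (g' : Gamma0 N) (hg' : ((dM N m h g' : (ZMod m)ˣ) : ZMod m) = r) (_ : q ≠ r),
      qc (opT N m h H₀ q hqN g hg (opT N m h H₀ r hrN g' hg' φ)) n =
        qc (φ : ℍ → ℂ) (n * q * r) +
        (if r ∣ n then (r : ℂ) * qc ((opD hΓ g' φ : SG (GH N m h H₀)) : ℍ → ℂ) (n / r * q) else 0) +
        (if q ∣ n then (q : ℂ) * qc ((opD hΓ g φ : SG (GH N m h H₀)) : ℍ → ℂ) (n / q * r) else 0) +
        (if q * r ∣ n then (q : ℂ) * r *
          qc ((opD hΓ g' (opD hΓ g φ) : SG (GH N m h H₀)) : ℍ → ℂ) (n / (q * r)) else 0) := by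
    intro q hq hqN g hg r hr hrN g' hg' hne
    have hq' := hq.out
    have hr' := hr.out
    have hcop : q.Coprime r := (Nat.coprime_primes hq' hr').mpr hne
    rw [qc_opT hΓ, qc_opT hΓ]
    have e1 : ((opT N m h H₀ r hrN g' hg' φ : SG (GH N m h H₀)) : ℍ → ℂ) ∣[(2 : ℤ)] (g : SL(2,ℤ)) =
        ((opT N m h H₀ r hrN g' hg' (opD hΓ g φ) : SG (GH N m h H₀)) : ℍ → ℂ) := by
      rw [← opT_opD hΓ, coe_opD]
    have e2 : (if q ∣ n then (q : ℂ) * qc (((opT N m h H₀ r hrN g' hg' φ : SG (GH N m h H₀)) :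
        ℍ → ℂ) ∣[(2 : ℤ)] (g : SL(2,ℤ))) (n / q) else 0) =
        (if q ∣ n then (q : ℂ) * qc ((opD hΓ g φ : SG (GH N m h H₀)) : ℍ → ℂ) (n / q * r) else 0) +
        (if q * r ∣ n then (q : ℂ) * r *
          qc ((opD hΓ g' (opD hΓ g φ) : SG (GH N m h H₀)) : ℍ → ℂ) (n / (q * r)) else 0) := by
      rw [e1, qc_opT hΓ]
      by_cases h1 : q ∣ n
      · obtain ⟨k, rfl⟩ := h1
        rw [if_pos (dvd_mul_right q k), if_pos (dvd_mul_right q k),
          Nat.mul_div_cancel_left k hq'.pos]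
        by_cases h2 : r ∣ k
        · obtain ⟨j, rfl⟩ := h2
          have h3 : q * r ∣ q * (r * j) := ⟨j, by ring⟩
          rw [if_pos (dvd_mul_right r j), if_pos h3, Nat.mul_div_cancel_left j hr'.pos,
            ← mul_assoc q r j, Nat.mul_div_cancel_left j (Nat.mul_pos hq'.pos hr'.pos),
            coe_opD hΓ g' (opD hΓ g φ)]
          ring
        · have h3 : ¬ q * r ∣ q * k := fun h3 =>
            h2 (Nat.dvd_of_mul_dvd_mul_left hq'.pos h3)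
          rw [if_neg h2, if_neg h3]
          ring
      · have h3 : ¬ q * r ∣ n := fun h3 => h1 ((dvd_mul_right q r).trans h3)
        rw [if_neg h1, if_neg h1, if_neg h3, add_zero]
    rw [e2]
    have e3 : (if r ∣ n * q then (r : ℂ) * qc ((φ : ℍ → ℂ) ∣[(2 : ℤ)] (g' : SL(2,ℤ))) (n * q / r)
        else 0) = (if r ∣ n then (r : ℂ) * qc ((opD hΓ g' φ : SG (GH N m h H₀)) : ℍ → ℂ)
          (n / r * q) else 0) := by
      by_cases h1 : r ∣ n
      · rw [if_pos (h1.mul_right q), if_pos h1, coe_opD]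
        obtain ⟨k, rfl⟩ := h1
        rw [mul_assoc, Nat.mul_div_cancel_left _ hr'.pos, Nat.mul_div_cancel_left _ hr'.pos]
      · have h2 : ¬ r ∣ n * q := fun h2 => h1 (hcop.symm.dvd_of_dvd_mul_right h2)
        rw [if_neg h1, if_neg h2]
    rw [e3]
    ring
  rw [key q hqN g hg r hrN g' hg' hqr, key r hrN g' hg' q hqN g hg (Ne.symm hqr),
    opD_comm hΓ g' g φ, mul_comm q r, mul_comm (q : ℂ) r, mul_right_comm n r q]
  ring

end Fermat.Agent.DS1
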