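import Fermat.Agent.DS1.Red
import Fermat.Agent.DS1.HCm

/-!
# The congruence and the character
-/

set_option autoImplicit false
set_option linter.unusedSectionVars false

noncomputable section

namespace Fermat.Agent.DS1

open UpperHalfPlane hiding I
open Complex Filter Topology Function Metric Asymptotics
open scoped Real Manifold MatrixGroups ModularForm Matrix Pointwise
open Fermat.Agent.EichlerShimura Fermat.Agent.ModFun Fermat.Agent.AnJac Fermat.Agent.AnJacH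
open Matrix.SpecialLinearGroup CongruenceSubgroup IsLocalRing

local notation "Qbar" => AlgebraicClosure ℚ

variable {N : ℕ} [NeZero N] {ε : DirichletCharacter ℂ N} {f : ℍ → ℂ}

/-- integrality of all the coefficients prime to the level -/
lemma Dat.int_coeff (hD : Dat N ε f) (n : ℕ) (hn : n.Coprime N) : IsIntegral ℤ (qc f n) := by
  induction n using Nat.strong_induction_on with
  | _ n ih =>
    rcases Nat.lt_or_ge 1 n with h1 | h1
    · obtain ⟨p, hp, k, rfl⟩ := Nat.exists_prime_and_dvd (by omega : n ≠ 1)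
      have hpN : ¬ p ∣ N := by
        rw [← Nat.Prime.coprime_iff_not_dvd hp]
        exact Nat.Coprime.coprime_mul_right hn
      have hk0 : 0 < k := Nat.pos_of_ne_zero (by rintro rfl; simp at h1)
      have hkp : k < p * k := by nlinarith [hp.two_le]
      have hkN : k.Coprime N := Nat.Coprime.coprime_mul_left hn
      have h2 := hD.hecke p hp hpN k
      have h3 : qc f (p * k) = qc f p * qc f k -
          ε (p : ZMod N) * (if p ∣ k then qc f (k / p) else 0) := by rw [← h2]; ring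
      rw [h3]
      refine ((hD.isIntegral hp hpN).mul (ih k hkp hkN)).sub ((isIntegral_chi ε _).mul ?_)
      split_ifs with hpk
      · obtain ⟨j, rfl⟩ := hpk
        rw [Nat.mul_div_cancel_left j hp.pos]
        refine ih j ?_ (Nat.Coprime.coprime_mul_left hkN)
        have hj0 : 0 < j := Nat.pos_of_ne_zero (by rintro rfl; simp at hk0)
        nlinarith [hp.two_le]
      · exact isIntegral_zero
    · rcases Nat.eq_zero_or_pos n with rfl | h0
      · rw [IsQ.qc_zero' hD.q1]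
        exact isIntegral_zero
      · have : n = 1 := by omega
        rw [this, hD.one]
        exact isIntegral_one

section

variable (ι : Qbar →+* ℂ) (A : ValuationSubring Qbar) (ε f) (m : ℕ) [NeZero m]

/-- reduced depleted coefficients -/
def bt (n : ℕ) : ResidueField A := rd ι A (qc (F0 m f) n)

/-- reduced character -/
def ch (x : ZMod N) : ResidueField A := rd ι A (ε x)

/-- the character `ε(d) d⁻¹` -/
def ps (g : Gamma0 (m * m)) : ResidueField A :=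
  ch ε ι A (((g : SL(2,ℤ)) 1 1 : ℤ) : ZMod N) * ((((g : SL(2,ℤ)) 1 1 : ℤ)) : ResidueField A)⁻¹

end

section

variable {ι : Qbar →+* ℂ} {A : ValuationSubring Qbar} {m : ℕ} [NeZero m]

lemma int_F0 (hD : Dat N ε f) (hNm : N ∣ m) (n : ℕ) : IsIntegral ℤ (qc (F0 m f) n) := by
  rw [qc_F0 hD.q1.isR]
  split_ifs with h
  · exact hD.int_coeff n (Nat.Coprime.coprime_dvd_right hNm h)
  · exact isIntegral_zero

lemma redC_bt (hD : Dat N ε f) (hNm : N ∣ m) (n : ℕ) :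
    RedC ι A (qc (F0 m f) n) (bt f ι A m n) := redC_rd (int_F0 hD hNm n)

lemma redC_ch (x : ZMod N) : RedC ι A (ε x) (ch ε ι A x) := redC_rd (isIntegral_chi ε x)

lemma ch_mul (x y : ZMod N) : ch ε ι A (x * y) = ch ε ι A x * ch ε ι A y := by
  rw [ch, map_mul, rd_mul (isIntegral_chi ε x) (isIntegral_chi ε y)]
  rfl

lemma bt_one (hD : Dat N ε f) : bt f ι A m 1 = 1 := by
  rw [bt, qc_F0 hD.q1.isR, if_pos (Nat.coprime_one_left m), hD.one]
  exact rd_eq isIntegral_one (redC_one ι A)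

lemma bt_prime (hD : Dat N ε f) {q : ℕ} (hq : q.Prime) (hqm : ¬ q ∣ m) :
    bt f ι A m q = rd ι A (qc f q) := by
  rw [bt, qc_F0 hD.q1.isR, if_pos ((Nat.Prime.coprime_iff_not_dvd hq).mpr hqm)]

lemma F0_hecke (hD : Dat N ε f) (hNm : N ∣ m) {q : ℕ} (hq : q.Prime) (hqm : ¬ q ∣ m) (n : ℕ) :
    qc (F0 m f) (n * q) + ε (q : ZMod N) * (if q ∣ n then qc (F0 m f) (n / q) else 0) =
      qc (F0 m f) q * qc (F0 m f) n := by
  have hqc : q.Coprime m := (Nat.Prime.coprime_iff_not_dvd hq).mpr hqm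
  have hqN : ¬ q ∣ N := fun h => hqm (h.trans hNm)
  rw [qc_F0 hD.q1.isR, qc_F0 hD.q1.isR, qc_F0 hD.q1.isR, qc_F0 hD.q1.isR, if_pos hqc]
  by_cases hn : n.Coprime m
  · rw [if_pos (hn.mul_left hqc), if_pos hn, ← hD.hecke q hq hqN n, mul_comm n q]
    congr 2
    split_ifs with h1 h2
    · rfl
    · exfalso
      apply h2
      obtain ⟨k, rfl⟩ := h1
      rw [Nat.mul_div_cancel_left k hq.pos]
      exact Nat.Coprime.coprime_mul_left hn
    · rfl
  · have h3 : ¬ (n * q).Coprime m := fun h => hn (Nat.Coprime.coprime_mul_right h)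
    have h4 : (if q ∣ n then (if (n / q).Coprime m then qc f (n / q) else 0) else 0) = 0 := by
      split_ifs with h1 h2
      · exfalso
        apply hn
        obtain ⟨k, rfl⟩ := h1
        rw [Nat.mul_div_cancel_left k hq.pos] at h2
        exact hqc.mul_left h2
      · rfl
      · rfl
    rw [if_neg h3, if_neg hn, h4]
    ring

lemma bt_hecke (hD : Dat N ε f) (hNm : N ∣ m) {q : ℕ} (hq : q.Prime) (hqm : ¬ q ∣ m) (n : ℕ) :
    bt f ι A m (n * q) + ch ε ι A (q : ZMod N) * (if q ∣ n then bt f ι A m (n / q) else 0) =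
      bt f ι A m q * bt f ι A m n := by
  have h1 := F0_hecke hD hNm hq hqm n
  have h2 : RedC ι A (if q ∣ n then qc (F0 m f) (n / q) else 0)
      (if q ∣ n then bt f ι A m (n / q) else 0) := by
    split_ifs
    · exact redC_bt hD hNm _
    · exact redC_zero ι A
  have h3 := (redC_bt (ι := ι) (A := A) hD hNm (n * q)).add
    ((redC_ch (ε := ε) (ι := ι) (A := A) (q : ZMod N)).mul h2)
  rw [h1] at h3
  exact h3.unique ((redC_bt hD hNm q).mul (redC_bt hD hNm n))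

variable {ℓ : ℕ}

lemma entry_mul (g g' : Gamma0 (m * m)) : ((m * m : ℕ) : ℤ) ∣
    ((g * g' : Gamma0 (m * m)) : SL(2,ℤ)) 1 1 - (g : SL(2,ℤ)) 1 1 * (g' : SL(2,ℤ)) 1 1 := by
  have h0 := g.2
  rw [Gamma0_mem, ZMod.intCast_zmod_eq_zero_iff_dvd] at h0
  have : ((g * g' : Gamma0 (m * m)) : SL(2,ℤ)) 1 1 =
      (g : SL(2,ℤ)) 1 0 * (g' : SL(2,ℤ)) 0 1 + (g : SL(2,ℤ)) 1 1 * (g' : SL(2,ℤ)) 1 1 := by
    rw [Subgroup.coe_mul, Matrix.SpecialLinearGroup.coe_mul, Matrix.mul_apply, Fin.sum_univ_two]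
  rw [this, add_sub_cancel_right]
  exact h0.mul_right _

lemma ps_mul [CharP (ResidueField A) ℓ] (hNm : N ∣ m) (hℓm : ℓ ∣ m) (g g' : Gamma0 (m * m)) :
    ps ε ι A m (g * g') = ps ε ι A m g * ps ε ι A m g' := by
  have h0 := entry_mul g g'
  have h1 : ((((g * g' : Gamma0 (m * m)) : SL(2,ℤ)) 1 1 : ℤ) : ZMod N) =
      (((g : SL(2,ℤ)) 1 1 : ℤ) : ZMod N) * (((g' : SL(2,ℤ)) 1 1 : ℤ) : ZMod N) := by
    have h2 : (N : ℤ) ∣ ((m * m : ℕ) : ℤ) := Int.natCast_dvd_natCast.mpr (hNm.mul_right m)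
    have h3 := (ZMod.intCast_zmod_eq_zero_iff_dvd _ _).mpr (h2.trans h0)
    push_cast at h3
    linear_combination h3
  have h1' : ((((g * g' : Gamma0 (m * m)) : SL(2,ℤ)) 1 1 : ℤ) : ResidueField A) =
      (((g : SL(2,ℤ)) 1 1 : ℤ) : ResidueField A) * (((g' : SL(2,ℤ)) 1 1 : ℤ) : ResidueField A) := by
    have h2 : (ℓ : ℤ) ∣ ((m * m : ℕ) : ℤ) := Int.natCast_dvd_natCast.mpr (hℓm.mul_right m)
    have h3 := (CharP.intCast_eq_zero_iff (ResidueField A) ℓ _).mpr (h2.trans h0)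
    push_cast at h3
    linear_combination h3
  rw [ps, ps, ps, h1, h1', ch_mul, mul_inv]
  ring

lemma ps_q [Fact ℓ.Prime] [CharP (ResidueField A) ℓ] (hNm : N ∣ m) (hℓm : ℓ ∣ m) {q : ℕ}
    (hqm : ¬ q ∣ m) (hq : q.Prime) {g : Gamma0 (m * m)}
    (hg : ((dM (m * m) m (dvd_mul_right m m) g : (ZMod m)ˣ) : ZMod m) = q) :
    (q : ResidueField A) * ps ε ι A m g = ch ε ι A (q : ZMod N) := by
  rw [coe_dM] at hg
  have h0 : (m : ℤ) ∣ (g : SL(2,ℤ)) 1 1 - (q : ℤ) := by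
    rw [← ZMod.intCast_zmod_eq_zero_iff_dvd]
    push_cast
    rw [hg, sub_self]
  have h1 : (((g : SL(2,ℤ)) 1 1 : ℤ) : ZMod N) = (q : ZMod N) := by
    have h3 := (ZMod.intCast_zmod_eq_zero_iff_dvd _ _).mpr
      ((Int.natCast_dvd_natCast.mpr hNm).trans h0)
    push_cast at h3
    linear_combination h3
  have h2 : (((g : SL(2,ℤ)) 1 1 : ℤ) : ResidueField A) = (q : ResidueField A) := by
    have h3 := (CharP.intCast_eq_zero_iff (ResidueField A) ℓ _).mpr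
      ((Int.natCast_dvd_natCast.mpr hℓm).trans h0)
    push_cast at h3
    linear_combination h3
  have h4 : (q : ResidueField A) ≠ 0 := by
    intro h
    rw [CharP.cast_eq_zero_iff (ResidueField A) ℓ] at h
    have h5 := (Nat.prime_dvd_prime_iff_eq (Fact.out : ℓ.Prime) hq).mp h
    exact hqm (h5 ▸ hℓm)
  rw [ps, h1, h2, mul_left_comm, mul_inv_cancel₀ h4, mul_one]

/-! ### the congruence sets -/

variable (ε f ι A m) in
/-- forms congruent to `c f₀` -/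
def Lc (c : ResidueField A) (φ : ℍ → ℂ) : Prop :=
  ∀ (g : Gamma0 (m * m)) (n : ℕ), RedC ι A (qc (φ ∣[(2 : ℤ)] (g : SL(2,ℤ))) n)
    (c * ps ε ι A m g * bt f ι A m n)

lemma qc_smul' {h : ℍ → ℂ} (hh : IsR 1 h) (c : ℂ) (n : ℕ) : qc (c • h) n = c * qc h n :=
  qc_smul hh c n

variable (f m ℓ) in
/-- the normalised product -/
def g0 : ℍ → ℂ := kap (zt ℓ) • (F0 m f * Kf ℓ (vec 1))

lemma slash_smul2 (c : ℂ) (h : ℍ → ℂ) (g : SL(2,ℤ)) :
    (c • h) ∣[(2 : ℤ)] g = c • (h ∣[(2 : ℤ)] g) := ModularForm.SL_smul_slash _ _ _ _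

variable [hℓF : Fact ℓ.Prime]

lemma ok2_of (hℓ2 : ℓ ≠ 2) {b : ℤ} (hb : ¬ (ℓ : ℤ) ∣ b) : Ok2 ℓ b := by
  have hℓp : ℓ.Prime := Fact.out
  refine (ok2_iff hℓp.pos).mpr ?_
  intro h
  rcases (Int.Prime.dvd_mul' hℓp h) with h1 | h1
  · have : (ℓ : ℤ) ∣ ((2 : ℕ) : ℤ) := h1
    rw [Int.natCast_dvd_natCast] at this
    exact hℓ2 ((Nat.prime_dvd_prime_iff_eq hℓp Nat.prime_two).mp this)
  · exact hb h1

lemma ok2_one (hℓ2 : ℓ ≠ 2) : Ok2 ℓ 1 := by
  refine ok2_of hℓ2 ?_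
  intro h
  have := Int.natCast_dvd_natCast.mp (by simpa using h : (ℓ : ℤ) ∣ ((1 : ℕ) : ℤ))
  exact (Fact.out : ℓ.Prime).one_lt.ne' (Nat.dvd_one.mp this)

lemma g0_inS (hD : Dat N ε f) (hNm : N ∣ m) (hℓm : ℓ ∣ m) (hℓ2 : ℓ ≠ 2) :
    InS (GG m) (g0 f m ℓ) :=
  (prod_inS hD hNm hℓm (Fact.out : ℓ.Prime).pos (ok2_one hℓ2)).smul _

theorem lc_g0 [CharP (ResidueField A) ℓ] (hD : Dat N ε f) (hNm : N ∣ m) (hℓm : ℓ ∣ m)
    (hℓ2 : ℓ ≠ 2) : Lc ε f ι A m 6 (g0 f m ℓ) := by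
  intro g n
  have hℓp : ℓ.Prime := Fact.out
  have hok := ok2_one (ℓ := ℓ) hℓ2
  have hd : ¬ (ℓ : ℤ) ∣ (g : SL(2,ℤ)) 1 1 := by
    intro h
    have h0 := g.2
    rw [Gamma0_mem, ZMod.intCast_zmod_eq_zero_iff_dvd] at h0
    have h1 : (ℓ : ℤ) ∣ (g : SL(2,ℤ)) 1 0 :=
      (Int.natCast_dvd_natCast.mpr (hℓm.mul_right m)).trans h0
    have hdet := Matrix.SpecialLinearGroup.det_coe (g : SL(2,ℤ))
    rw [Matrix.det_fin_two] at hdet
    have h2 : (ℓ : ℤ) ∣ 1 := by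
      rw [← hdet]
      exact dvd_sub (h.mul_left _) (h1.mul_left _)
    have := Int.natCast_dvd_natCast.mp (by simpa using h2 : (ℓ : ℤ) ∣ ((1 : ℕ) : ℤ))
    exact hℓp.one_lt.ne' (Nat.dvd_one.mp this)
  have hokd : Ok2 ℓ ((g : SL(2,ℤ)) 1 1) := ok2_of hℓ2 hd
  have hR0 : IsR 1 (F0 m f) := isR_F0 hD.q1.isR
  have hRd := isR_Kv (M := ℓ) hℓp.pos hokd
  have e1 : (g0 f m ℓ) ∣[(2 : ℤ)] (g : SL(2,ℤ)) = (kap (zt ℓ) * ε (((g : SL(2,ℤ)) 1 1 : ℤ) : ZMod N)) •
      (F0 m f * Kf ℓ (vec ((g : SL(2,ℤ)) 1 1))) := by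
    rw [g0, slash_smul2, prod_slash hD hNm hℓm hℓp.pos hok g.2, one_mul, smul_smul]
  rw [e1, qc_smul (hR0.mul hRd), qc_mul hR0 hRd]
  have e2 : kap (zt ℓ) * ε (((g : SL(2,ℤ)) 1 1 : ℤ) : ZMod N) *
      ∑ x ∈ Finset.HasAntidiagonal.antidiagonal n, qc (F0 m f) x.1 *
        qc (Kf ℓ (vec ((g : SL(2,ℤ)) 1 1))) x.2 =
      ε (((g : SL(2,ℤ)) 1 1 : ℤ) : ZMod N) * ∑ x ∈ Finset.HasAntidiagonal.antidiagonal n,
        qc (F0 m f) x.1 * (kap (zt ℓ) * qc (Kf ℓ (vec ((g : SL(2,ℤ)) 1 1))) x.2) := by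
    rw [Finset.mul_sum, Finset.mul_sum]
    exact Finset.sum_congr rfl fun x _ => by ring
  rw [e2]
  have h1 := (redC_ch (ε := ε) (ι := ι) (A := A) (((g : SL(2,ℤ)) 1 1 : ℤ) : ZMod N)).mul
    (RedC.sum (Finset.HasAntidiagonal.antidiagonal n) fun x _ =>
      (redC_bt (ι := ι) (A := A) hD hNm x.1).mul (redC_eis (ι := ι) (A := A) hℓ2 hd x.2))
  convert h1 using 1
  rw [Finset.sum_eq_single (n, 0)]
  · simp only [if_true]
    rw [ps]
    ring
  · intro x hx hne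
    rw [Finset.HasAntidiagonal.mem_antidiagonal] at hx
    have : x.2 ≠ 0 := by
      intro h
      apply hne
      ext
      · simp only; omega
      · exact h
    rw [if_neg this, mul_zero]
  · intro h
    exact absurd (by simp) h

/-! ### operators -/

variable (hadm : Adm (m * m) (GG m))

lemma lc_opD [CharP (ResidueField A) ℓ] (hNm : N ∣ m) (hℓm : ℓ ∣ m) {c : ResidueField A}
    {φ : SG (GG m)} (h : Lc ε f ι A m c (φ : ℍ → ℂ)) (g : Gamma0 (m * m)) :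
    Lc ε f ι A m (c * ps ε ι A m g) (opD hadm g φ : ℍ → ℂ) := by
  intro g' n
  have h1 := h (g * g') n
  rw [ps_mul hNm hℓm] at h1
  rw [coe_opD, ← SlashAction.slash_mul]
  rw [← mul_assoc] at h1
  exact h1

include hadm in
lemma lc_opT [CharP (ResidueField A) ℓ] (hD : Dat N ε f) (hNm : N ∣ m) (hℓm : ℓ ∣ m)
    {c : ResidueField A} {φ : SG (GG m)} (h : Lc ε f ι A m c (φ : ℍ → ℂ)) (q : ℕ)
    [hq : Fact q.Prime] (hqN : ¬ q ∣ m * m) (g : Gamma0 (m * m))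
    (hg : ((dM (m * m) m (dvd_mul_right m m) g : (ZMod m)ˣ) : ZMod m) = q) :
    Lc ε f ι A m (c * bt f ι A m q)
      (opT (m * m) m (dvd_mul_right m m) (pm m) q hqN g hg φ : ℍ → ℂ) := by
  intro g' n
  have hqm : ¬ q ∣ m := fun h => hqN (h.mul_right m)
  have e1 : (opT (m * m) m (dvd_mul_right m m) (pm m) q hqN g hg φ : ℍ → ℂ) ∣[(2 : ℤ)] (g' : SL(2,ℤ))
      = (opT (m * m) m (dvd_mul_right m m) (pm m) q hqN g hg (opD hadm g' φ) : ℍ → ℂ) := by
    rw [← opT_opD hadm q hqN g hg g' φ, coe_opD]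
  rw [e1, qc_opT hadm q hqN g hg]
  have h1 := lc_opD hadm hNm hℓm h g'
  have h2 : RedC ι A (qc (opD hadm g' φ : ℍ → ℂ) (n * q))
      (c * ps ε ι A m g' * bt f ι A m (n * q)) := h g' (n * q)
  have h3 : RedC ι A (if q ∣ n then (q : ℂ) *
      qc ((opD hadm g' φ : ℍ → ℂ) ∣[(2 : ℤ)] (g : SL(2,ℤ))) (n / q) else 0)
      (if q ∣ n then (q : ResidueField A) *
        (c * ps ε ι A m g' * ps ε ι A m g * bt f ι A m (n / q)) else 0) := by
    split_ifs
    · exact (redC_nat ι A q).mul (h1 g (n / q))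
    · exact redC_zero ι A
  have h4 := h2.add h3
  convert h4 using 1
  have h5 := bt_hecke (ι := ι) (A := A) hD hNm hq.out hqm n
  have h6 := ps_q (ε := ε) (ι := ι) (A := A) hNm hℓm hqm hq.out hg
  have h7 : (if q ∣ n then (q : ResidueField A) *
        (c * ps ε ι A m g' * ps ε ι A m g * bt f ι A m (n / q)) else 0) =
      c * ps ε ι A m g' * (ch ε ι A (q : ZMod N) * (if q ∣ n then bt f ι A m (n / q) else 0)) := by
    split_ifs
    · rw [← h6]; ring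
    · ring
  rw [h7]
  linear_combination (-c * ps ε ι A m g') * h5

end

end Fermat.Agent.DS1
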