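import Fermat.Prelude.Def_GaloisRep_Residual
import Fermat.Prelude.Def_Deformations_MatrixRepresentation
import Mathlib.NumberTheory.DirichletCharacter.Basic
import Mathlib.Analysis.SpecialFunctions.Pow.Real

/-!
# Deligne-Serre: statements of the pieces

`(C)` is `RankinBound`, `(D)` is `DStatement`, `(E)` is `EStatement`.
-/

set_option autoImplicit false

noncomputable section

namespace Fermat.Agent.DS1

open CongruenceSubgroup IsLocalRing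

local notation "Qbar" => AlgebraicClosure ℚ
local notation "GQ" => (AlgebraicClosure ℚ ≃ₐ[ℚ] AlgebraicClosure ℚ)

/-- Hecke relations outside the level for a sequence `a` -/
def HeckeRel {N : ℕ} (ε : DirichletCharacter ℂ N) (a : ℕ → ℂ) : Prop :=
  ∀ p : ℕ, p.Prime → ¬ p ∣ N → ∀ n : ℕ,
    a (p * n) + ε (p : ZMod N) * (if p ∣ n then a (n / p) else 0) = a p * a n

/-- the Rankin type bound for a sequence of complex numbers indexed by the primes `p ∤ N` -/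
def RankinBound (N : ℕ) (a : ℕ → ℂ) : Prop :=
  ∃ C : ℝ, ∀ s : ℝ, 1 < s → s ≤ 2 →
    Summable (fun p : Nat.Primes => (if (p : ℕ) ∣ N then 0 else ‖a p‖ ^ 2) * ((p : ℕ) : ℝ) ^ (-s)) ∧
    ∑' p : Nat.Primes, (if (p : ℕ) ∣ N then 0 else ‖a p‖ ^ 2) * ((p : ℕ) : ℝ) ^ (-s) ≤
      Real.log (1 / (s - 1)) + C

/-- **(C)** the statement to be proved (Rankin): no modularity is needed, only the bound
`|g(τ)|² Im τ ≤ C` for the function with `q`-expansion `∑ a n q ^ n` -/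
def CStatement : Prop :=
  ∀ (N : ℕ) [NeZero N] (ε : DirichletCharacter ℂ N) (a : ℕ → ℂ) (g : UpperHalfPlane → ℂ),
    a 0 = 0 → a 1 = 1 → HeckeRel ε a →
    (∀ τ : UpperHalfPlane, HasSum (fun n : ℕ => a n * Complex.exp (2 * Real.pi * Complex.I * τ) ^ n)
      (g τ)) →
    (∃ C : ℝ, ∀ τ : UpperHalfPlane, ‖g τ‖ ^ 2 * τ.im ≤ C) →
    RankinBound N a

/-- a mod `ℓ` representation (over the residue field of the place `A`) attached to `(α, e)` -/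
def IsRepAt (N : ℕ) (α e : ℕ → Qbar) (ℓ : ℕ) (A : ValuationSubring Qbar)
    (ρ : GQ →* GL (Fin 2) (ResidueField A)) : Prop :=
  GaloisFactorsThroughFiniteLevel ρ ∧
  ∀ p : ℕ, p.Prime → ¬ p ∣ N → p ≠ ℓ → ∃ (h : α p ∈ A) (h' : e p ∈ A),
    ∀ B : ValuationSubring Qbar, B.LiesOverPrime p →
      (∀ σ ∈ B.inertiaSubgroupIn ℚ, ρ σ = 1) ∧
      ∀ σ : GQ, B.IsFrobeniusAt σ p →
        ((ρ σ : GL (Fin 2) (ResidueField A)) : Matrix (Fin 2) (Fin 2) _).trace =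
          residue A ⟨α p, h⟩ ∧
        ((ρ σ : GL (Fin 2) (ResidueField A)) : Matrix (Fin 2) (Fin 2) _).det =
          residue A ⟨e p, h'⟩

/-- the input of the group theoretic part -/
structure DSData (N : ℕ) (ι : Qbar →+* ℂ) (α e : ℕ → Qbar) : Prop where
  field : ∃ K : IntermediateField ℚ Qbar, FiniteDimensional ℚ K ∧
    ∀ p : ℕ, p.Prime → ¬ p ∣ N → α p ∈ K ∧ e p ∈ K
  int : ∀ p : ℕ, p.Prime → ¬ p ∣ N → IsIntegral ℤ (α p)
  root : ∃ m : ℕ, 0 < m ∧ ∀ p : ℕ, p.Prime → ¬ p ∣ N → e p ^ m = 1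
  rankin : ∀ τ : GQ, RankinBound N (fun p => ι (τ (α p)))
  reps : ∃ ℓ₀ : ℕ, ∀ ℓ : ℕ, ℓ.Prime → ℓ₀ ≤ ℓ → ∀ A : ValuationSubring Qbar,
    A.LiesOverPrime ℓ → ∃ ρ : GQ →* GL (Fin 2) (ResidueField A), IsRepAt N α e ℓ A ρ

/-- the conclusion of **(D)**: the mod `ℓ` representations have bounded image -/
def BoundedReps (N : ℕ) (α e : ℕ → Qbar) : Prop :=
  ∃ B : ℕ, 0 < B ∧ (∀ p : ℕ, p.Prime → ¬ p ∣ N → ∀ x : Qbar, x ^ 2 - α p * x + e p = 0 →
      x ^ B = 1) ∧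
    ∃ ℓ₁ : ℕ, ∀ ℓ : ℕ, ℓ.Prime → ℓ₁ ≤ ℓ → ∀ A : ValuationSubring Qbar, A.LiesOverPrime ℓ →
      ∃ ρ : GQ →* GL (Fin 2) (ResidueField A), IsRepAt N α e ℓ A ρ ∧
        Finite ρ.range ∧ Nat.card ρ.range ≤ B

/-- **(D)** the mod `ℓ` representations have bounded image -/
def DStatement : Prop :=
  ∀ (N : ℕ) (_ : N ≠ 0) (ι : Qbar →+* ℂ) (α e : ℕ → Qbar), DSData N ι α e → BoundedReps N α e

/-- **(E)** construction of the complex representation -/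
def EStatement : Prop :=
  ∀ (N : ℕ) (_ : N ≠ 0) (ι : Qbar →+* ℂ) (α e : ℕ → Qbar), DSData N ι α e → BoundedReps N α e →
    ∃ ρ : GQ →* GL (Fin 2) ℂ, GaloisFactorsThroughFiniteLevel ρ ∧
      (Deformation.matrixRepresentation ρ).IsIrreducible ∧
      ∀ p : ℕ, p.Prime → ¬ p ∣ N →
        ∀ A : ValuationSubring (AlgebraicClosure ℚ), A.LiesOverPrime p →
          (∀ σ ∈ A.inertiaSubgroupIn ℚ, ρ σ = 1) ∧
          ∀ σ : GQ, A.IsFrobeniusAt σ p →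
            ((ρ σ : GL (Fin 2) ℂ) : Matrix (Fin 2) (Fin 2) ℂ).trace = ι (α p) ∧
            ((ρ σ : GL (Fin 2) ℂ) : Matrix (Fin 2) (Fin 2) ℂ).det = ι (e p)

end Fermat.Agent.DS1
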