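import Fermat.Agent.DS1.AB1

/-!
# Depleted forms
-/

set_option autoImplicit false
set_option linter.unusedSectionVars false

noncomputable section

namespace Fermat.Agent.DS1

open UpperHalfPlane hiding I
open Complex Filter Topology Function Metric Asymptotics
open scoped Real Manifold MatrixGroups ModularForm Matrix Pointwise
open Fermat.Agent.EichlerShimura Fermat.Agent.ModFun Fermat.Agent.AnJac Fermat.Agent.AnJacH
open Matrix.SpecialLinearGroup CongruenceSubgroup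

/-- all translates vanish at infinity -/
def Qd (k : ℤ) (G : ℍ → ℂ) : Prop := ∀ δ : SL(2,ℤ), ∃ M : ℕ, 0 < M ∧ IsQ M (G ∣[k] δ)

lemma Qd.add {k : ℤ} {G H : ℍ → ℂ} (h : Qd k G) (h' : Qd k H) : Qd k (G + H) := fun δ => by
  rw [SlashAction.add_slash]; exact q_add (h δ) (h' δ)

lemma Qd.smul {k : ℤ} {G : ℍ → ℂ} (c : ℂ) (h : Qd k G) : Qd k (c • G) := fun δ => by
  rw [ModularForm.SL_smul_slash]
  obtain ⟨M, hM, h1⟩ := h δ
  exact ⟨M, hM, IsQ.smul' c h1⟩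

lemma Qd.sum {κ : Type*} {k : ℤ} (s : Finset κ) {F : κ → ℍ → ℂ} (hF : ∀ i ∈ s, Qd k (F i)) :
    Qd k (∑ i ∈ s, F i) := fun δ => by
  have e : (∑ i ∈ s, F i) ∣[k] δ = ∑ i ∈ s, (F i) ∣[k] δ := SlashAction.sum_slash _ _
  rw [e]
  exact q_sum s fun i hi => hF i hi δ

lemma isQ_slash_upper' (k : ℤ) {g : ℍ → ℂ} {M : ℕ} (hM : 0 < M) (hg : IsQ M g) {B : GL (Fin 2) ℝ}
    (hB : 0 < B.det.val) (hB0 : B 1 0 = 0) (hint : IsInt B) :
    ∃ M' : ℕ, 0 < M' ∧ IsQ M' (g ∣[k] B) := by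
  obtain ⟨M', hM', hq⟩ := isQ_slash_upper hM hg hB hB0 hint
  refine ⟨M', hM', ?_⟩
  have hd : B 1 1 ≠ 0 := by
    intro h0
    have : B.det.val = B 0 0 * B 1 1 - B 0 1 * B 1 0 := by
      rw [Matrix.GeneralLinearGroup.val_det_apply, Matrix.det_fin_two]
    rw [this, hB0, h0] at hB
    simp at hB
  have hdC : (B 1 1 : ℂ) ≠ 0 := by exact_mod_cast hd
  have hBC : (B.det.val : ℂ) ≠ 0 := by exact_mod_cast hB.ne'
  have hsl : g ∣[k] B = ((B.det.val : ℂ) ^ (k - 2) * (B 1 1 : ℂ) ^ (2 - k)) • (g ∣[(2 : ℤ)] B) := by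
    funext z
    rw [Pi.smul_apply, smul_eq_mul, ModularForm.slash_apply, ModularForm.slash_apply, σ, if_pos hB]
    simp only [ContinuousAlgEquiv.refl_apply]
    rw [abs_of_pos hB]
    simp only [denom, hB0, Complex.ofReal_zero, zero_mul, zero_add]
    rw [show (k - 1 : ℤ) = (k - 2) + (2 - 1) by ring, zpow_add₀ hBC,
      show (-k : ℤ) = (2 - k) + (-2) by ring, zpow_add₀ hdC]
    ring
  rw [hsl]
  exact IsQ.smul' _ hq

lemma Qd.slash_int {k : ℤ} {G : ℍ → ℂ} (h : Qd k G) {A : GL (Fin 2) ℝ} (hA : 0 < A.det.val)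
    (hint : IsInt A) : Qd k (G ∣[k] A) := fun δ => by
  obtain ⟨δ', B, hB, hB0, hAB⟩ := exists_decomp hA hint δ
  have e1 : (G ∣[k] A) ∣[k] δ = (G ∣[k] δ') ∣[k] B := by
    rw [ModularForm.SL_slash, ModularForm.SL_slash, ← SlashAction.slash_mul,
      ← SlashAction.slash_mul, hAB]
  rw [e1]
  obtain ⟨M, hM, h1⟩ := h δ'
  exact isQ_slash_upper' k hM h1 hB hB0 (isInt_decomp hint hAB)

section form

variable {N : ℕ} [NeZero N] {k : ℤ} (f : CuspForm (Gamma1 N) k)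

lemma qd_form : Qd k ⇑f := by
  obtain ⟨M, hM, hM'⟩ := Subgroup.IsArithmetic.exists_nat_mem_strictPeriods_conj
    ((Gamma1 N : Subgroup SL(2, ℤ)) : Subgroup (GL (Fin 2) ℝ))
  intro γ
  refine ⟨M, hM, ?_⟩
  have hper := hM' γ⁻¹
  rw [map_inv] at hper
  have hMpos : (0 : ℝ) < M := by exact_mod_cast hM
  have : Fact (IsCusp OnePoint.infty (ConjAct.toConjAct (γ : GL (Fin 2) ℝ)⁻¹ •
      ((Gamma1 N : Subgroup SL(2, ℤ)) : Subgroup (GL (Fin 2) ℝ)))) :=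
    ⟨Subgroup.isCusp_of_mem_strictPeriods hMpos hper⟩
  have hcoe : ⇑(CuspForm.translate f (γ : GL (Fin 2) ℝ)) = ⇑f ∣[k] γ := rfl
  rw [← hcoe]
  exact ⟨SlashInvariantFormClass.periodic_comp_ofComplex _ hper, CuspFormClass.holo _,
    CuspFormClass.zero_at_infty _⟩

lemma isQ1_form : IsQ 1 ⇑f := by
  obtain ⟨M, hM, hq⟩ := qd_form f 1
  rw [SlashAction.slash_one] at hq
  refine ⟨?_, hq.holo, hq.zero⟩
  exact SlashInvariantFormClass.periodic_comp_ofComplex f (by simp)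

end form

/-! ### translations -/

section tr

variable {N₁ : ℕ} [hN₁ : NeZero N₁]

/-- the translation matrix -/
def trM (N₁ : ℕ) [NeZero N₁] (u : ZMod N₁) : GL (Fin 2) ℝ :=
  ModularForm.upperTriangularGL N₁ u.val N₁ (by
    have : (N₁ : ℝ) ≠ 0 := by exact_mod_cast NeZero.ne N₁
    exact mul_ne_zero this this)

lemma val_trM (u : ZMod N₁) : ((trM N₁ u : GL (Fin 2) ℝ) : Matrix (Fin 2) (Fin 2) ℝ) =
    !![(N₁ : ℝ), (u.val : ℝ); 0, (N₁ : ℝ)] := rfl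

lemma det_trM (u : ZMod N₁) : (trM N₁ u).det.val = (N₁ : ℝ) ^ 2 := by
  rw [Matrix.GeneralLinearGroup.val_det_apply, val_trM, Matrix.det_fin_two_of]
  ring

lemma det_trM_pos (u : ZMod N₁) : 0 < (trM N₁ u).det.val := by
  rw [det_trM]
  have : (N₁ : ℝ) ≠ 0 := by exact_mod_cast NeZero.ne N₁
  positivity

lemma isInt_trM (u : ZMod N₁) : IsInt (trM N₁ u) := by
  refine ⟨!![(N₁ : ℤ), (u.val : ℤ); 0, (N₁ : ℤ)], ?_⟩
  rw [val_trM]
  ext i j
  fin_cases i <;> fin_cases j <;> simp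

lemma coe_trM_smul (u : ZMod N₁) (τ : ℍ) : ((trM N₁ u • τ : ℍ) : ℂ) = τ + u.val / N₁ := by
  have hN : (N₁ : ℂ) ≠ 0 := by exact_mod_cast NeZero.ne N₁
  rw [coe_smul_of_det_pos (det_trM_pos u)]
  simp only [num, denom, val_trM]
  simp [-ZMod.natCast_val]
  field_simp

lemma slash_trM (G : ℍ → ℂ) (u : ZMod N₁) (τ : ℍ) :
    (G ∣[(1 : ℤ)] trM N₁ u) τ = (N₁ : ℂ)⁻¹ * G (trM N₁ u • τ) := by
  rw [ModularForm.slash_apply, σ, if_pos (det_trM_pos u)]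
  simp only [ContinuousAlgEquiv.refl_apply, sub_self, zpow_zero, mul_one]
  have : denom (trM N₁ u) τ = N₁ := by simp [denom, val_trM]
  rw [this, _root_.zpow_neg, zpow_one, mul_comm]

/-- commutation with `Γ₀` -/
lemma trM_mul {N L : ℕ} (hL1 : N₁ * N₁ ∣ L) (hL2 : N * N₁ ∣ L) {γ : SL(2,ℤ)} (hγ : γ ∈ Gamma0 L)
    (u u' : ZMod N₁) (hu : u' = u * ((γ 1 1 : ℤ) : ZMod N₁) ^ 2) :
    ∃ γ' : SL(2,ℤ), γ' ∈ Gamma0 N ∧ ((γ' 1 1 : ℤ) : ZMod N) = ((γ 1 1 : ℤ) : ZMod N) ∧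
      trM N₁ u * gl γ = gl γ' * trM N₁ u' := by
  have hN0 : (N₁ : ℤ) ≠ 0 := by exact_mod_cast NeZero.ne N₁
  rw [Gamma0_mem, ZMod.intCast_zmod_eq_zero_iff_dvd] at hγ
  obtain ⟨c, hc⟩ : ((N₁ * N₁ : ℕ) : ℤ) ∣ γ 1 0 := (Int.natCast_dvd_natCast.mpr hL1).trans hγ
  obtain ⟨c', hc'⟩ : ((N * N₁ : ℕ) : ℤ) ∣ γ 1 0 := (Int.natCast_dvd_natCast.mpr hL2).trans hγ
  push_cast at hc hc'
  have hdet := Matrix.SpecialLinearGroup.det_coe γ
  rw [Matrix.det_fin_two] at hdet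
  set A := γ 0 0 with hA
  set B := γ 0 1 with hB
  set C := γ 1 0 with hC
  set D := γ 1 1 with hD
  have hcc : (N₁ : ℤ) * c = N * c' := by
    apply mul_left_cancel₀ hN0
    linear_combination hc' - hc
  obtain ⟨e, he⟩ : (N₁ : ℤ) ∣ u.val * D - A * u'.val := by
    rw [← ZMod.intCast_zmod_eq_zero_iff_dvd]
    push_cast
    have h1 : (A : ZMod N₁) * D = 1 := by
      have := congrArg (fun z : ℤ => (z : ZMod N₁)) hdet
      push_cast at this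
      rw [hc] at this
      push_cast at this
      rw [ZMod.natCast_self] at this
      simpa using this
    rw [ZMod.natCast_zmod_val, ZMod.natCast_zmod_val, hu]
    linear_combination (-u * D) * h1
  have hd' : (A + u.val * N₁ * c) * (D - N₁ * c * u'.val) -
      (B + e - u.val * u'.val * c) * C = 1 := by
    rw [hc] at hdet ⊢
    linear_combination hdet + N₁ * c * he
  let γ' : SL(2,ℤ) := ⟨!![A + u.val * N₁ * c, B + e - u.val * u'.val * c; C, D - N₁ * c * u'.val], by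
    rw [Matrix.det_fin_two_of]; exact hd'⟩
  refine ⟨γ', ?_, ?_, ?_⟩
  · rw [Gamma0_mem, ZMod.intCast_zmod_eq_zero_iff_dvd]
    change (N : ℤ) ∣ C
    exact ⟨N₁ * c', by rw [hc']; ring⟩
  · change (((D - N₁ * c * u'.val : ℤ)) : ZMod N) = _
    rw [hcc]
    push_cast
    rw [ZMod.natCast_self]
    ring
  · ext i j
    rw [Units.val_mul, Units.val_mul, val_trM, val_trM]
    have e00 : γ' 0 0 = A + u.val * N₁ * c := rfl
    have e01 : γ' 0 1 = B + e - u.val * u'.val * c := rfl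
    have e10 : γ' 1 0 = C := rfl
    have e11 : γ' 1 1 = D - N₁ * c * u'.val := rfl
    have hcR : (C : ℝ) = N₁ * N₁ * c := by exact_mod_cast hc
    have heR : (u.val : ℝ) * D - A * u'.val = N₁ * e := by exact_mod_cast he
    fin_cases i <;> fin_cases j
    · simp [-ZMod.natCast_val, gl, Matrix.mul_apply, Fin.sum_univ_two, e00, ← hA, ← hC, hcR]
      ring
    · simp [-ZMod.natCast_val, gl, Matrix.mul_apply, Fin.sum_univ_two, e00, e01, ← hB, ← hD]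
      linear_combination heR
    · simp [-ZMod.natCast_val, gl, Matrix.mul_apply, Fin.sum_univ_two, e10, ← hC]
      ring
    · simp [-ZMod.natCast_val, gl, Matrix.mul_apply, Fin.sum_univ_two, e10, e11, ← hC, ← hD, hcR]
      ring

open ZMod (stdAddChar)

variable (N₁) in
/-- the weights -/
def cu (u : ZMod N₁) : ℂ := ∑ v : (ZMod N₁)ˣ, stdAddChar (-(u * (v : ZMod N₁)))

lemma cu_mul (u : ZMod N₁) (w : (ZMod N₁)ˣ) : cu N₁ (u * w) = cu N₁ u := by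
  rw [cu, cu, ← Equiv.sum_comp (Equiv.mulLeft w)
    (fun v : (ZMod N₁)ˣ => (stdAddChar (-(u * (v : ZMod N₁))) : ℂ))]
  refine Finset.sum_congr rfl fun v _ => ?_
  rw [Equiv.coe_mulLeft, Units.val_mul, mul_assoc]

lemma sum_cu (n : ℕ) : ∑ u : ZMod N₁, cu N₁ u * stdAddChar (u * (n : ZMod N₁)) =
    if n.Coprime N₁ then (N₁ : ℂ) else 0 := by
  classical
  have h1 : ∀ u : ZMod N₁, cu N₁ u * stdAddChar (u * (n : ZMod N₁)) =
      ∑ v : (ZMod N₁)ˣ, stdAddChar (u * ((n : ZMod N₁) - (v : ZMod N₁))) := by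
    intro u
    rw [cu, Finset.sum_mul]
    refine Finset.sum_congr rfl fun v _ => ?_
    rw [← AddChar.map_add_eq_mul]
    congr 1
    ring
  rw [Finset.sum_congr rfl fun u _ => h1 u, Finset.sum_comm]
  have h2 : ∀ v : (ZMod N₁)ˣ, ∑ u : ZMod N₁, (stdAddChar (u * ((n : ZMod N₁) - (v : ZMod N₁))) : ℂ) =
      if (n : ZMod N₁) = v then (N₁ : ℂ) else 0 := by
    intro v
    rw [AddChar.sum_mulShift _ (ZMod.isPrimitive_stdAddChar N₁), ZMod.card]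
    by_cases h : (n : ZMod N₁) = v
    · rw [if_pos h, if_pos (sub_eq_zero.mpr h)]
    · rw [if_neg h, if_neg (sub_ne_zero.mpr h), Nat.cast_zero]
  rw [Finset.sum_congr rfl fun v _ => h2 v]
  by_cases hn : n.Coprime N₁
  · rw [if_pos hn]
    have hu : IsUnit (n : ZMod N₁) := (ZMod.isUnit_iff_coprime n N₁).mpr hn
    obtain ⟨w, hw⟩ := hu
    rw [Finset.sum_eq_single w]
    · rw [if_pos hw.symm]
    · intro v _ hv
      rw [if_neg]
      intro h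
      apply hv
      exact Units.ext (h.symm.trans hw.symm)
    · intro h; exact absurd (Finset.mem_univ _) h
  · rw [if_neg hn]
    refine Finset.sum_eq_zero fun v _ => ?_
    rw [if_neg]
    intro h
    apply hn
    rw [← ZMod.isUnit_iff_coprime, h]
    exact Units.isUnit v

variable (N₁) in
/-- depletion -/
def F0 (G : ℍ → ℂ) : ℍ → ℂ := ∑ u : ZMod N₁, cu N₁ u • (G ∣[(1 : ℤ)] trM N₁ u)

lemma hasSum_F0 {G : ℍ → ℂ} (hG : IsR 1 G) (τ : ℍ) :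
    HasSum (fun n : ℕ => (if n.Coprime N₁ then qc G n else 0) * Complex.exp (2 * π * I * τ) ^ n)
      (F0 N₁ G τ) := by
  have hN : (N₁ : ℂ) ≠ 0 := by exact_mod_cast NeZero.ne N₁
  have h1 : ∀ u : ZMod N₁, HasSum (fun n : ℕ => (N₁ : ℂ)⁻¹ * qc G n *
      Complex.exp (2 * π * I * τ) ^ n * (cu N₁ u * stdAddChar (u * (n : ZMod N₁))))
      ((cu N₁ u • (G ∣[(1 : ℤ)] trM N₁ u)) τ) := by
    intro u
    have h2 := (hG.hasSum (trM N₁ u • τ)).mul_left (cu N₁ u * (N₁ : ℂ)⁻¹)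
    have e : ∀ n : ℕ, Complex.exp (2 * π * I * (trM N₁ u • τ : ℍ)) ^ n =
        Complex.exp (2 * π * I * τ) ^ n * stdAddChar (u * (n : ZMod N₁)) := by
      intro n
      have e1 : (u * n : ZMod N₁) = ((u.val * n : ℤ) : ZMod N₁) := by
        push_cast
        rw [ZMod.natCast_zmod_val]
      rw [e1, ZMod.stdAddChar_coe, coe_trM_smul, ← Complex.exp_nat_mul, ← Complex.exp_nat_mul,
        ← Complex.exp_add]
      congr 1
      push_cast
      field_simp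
    have e3 : (cu N₁ u • (G ∣[(1 : ℤ)] trM N₁ u)) τ =
        cu N₁ u * (N₁ : ℂ)⁻¹ * G (trM N₁ u • τ) := by
      rw [Pi.smul_apply, smul_eq_mul, slash_trM]
      ring
    rw [e3]
    have e5 : (fun n : ℕ => (N₁ : ℂ)⁻¹ * qc G n * Complex.exp (2 * π * I * τ) ^ n *
        (cu N₁ u * stdAddChar (u * (n : ZMod N₁)))) = fun n : ℕ => cu N₁ u * (N₁ : ℂ)⁻¹ *
        (qc G n * Complex.exp (2 * π * I * (trM N₁ u • τ : ℍ)) ^ n) := by
      funext n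
      rw [e]
      ring
    rw [e5]
    exact h2
  have h3 := hasSum_sum (s := (Finset.univ : Finset (ZMod N₁))) fun u _ => h1 u
  have e4 : F0 N₁ G τ = ∑ u : ZMod N₁, (cu N₁ u • (G ∣[(1 : ℤ)] trM N₁ u)) τ := by
    rw [F0, Finset.sum_apply]
  rw [e4]
  convert h3 using 1
  funext n
  rw [← Finset.mul_sum, sum_cu]
  by_cases hn : n.Coprime N₁
  · rw [if_pos hn, if_pos hn]; field_simp
  · rw [if_neg hn, if_neg hn, mul_zero, zero_mul]

lemma isR_F0 {G : ℍ → ℂ} (hG : IsR 1 G) : IsR 1 (F0 N₁ G) := isR_of_hasSum (hasSum_F0 hG)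

lemma qc_F0 {G : ℍ → ℂ} (hG : IsR 1 G) (n : ℕ) :
    qc (F0 N₁ G) n = if n.Coprime N₁ then qc G n else 0 := (isR_F0 hG).qc_eq (hasSum_F0 hG) n

lemma qd_F0 {G : ℍ → ℂ} (hG : Qd 1 G) : Qd 1 (F0 N₁ G) :=
  Qd.sum _ fun u _ => (hG.slash_int (det_trM_pos u) (isInt_trM u)).smul _

/-- nebentypus of the depleted form -/
lemma F0_slash {N L : ℕ} {G : ℍ → ℂ} {χ : ZMod N → ℂ}
    (hG : ∀ γ ∈ Gamma0 N, G ∣[(1 : ℤ)] γ = χ ((γ 1 1 : ℤ) : ZMod N) • G)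
    (hL1 : N₁ * N₁ ∣ L) (hL2 : N * N₁ ∣ L) {γ : SL(2,ℤ)} (hγ : γ ∈ Gamma0 L) :
    F0 N₁ G ∣[(1 : ℤ)] γ = χ ((γ 1 1 : ℤ) : ZMod N) • F0 N₁ G := by
  have hγ' := hγ
  rw [Gamma0_mem, ZMod.intCast_zmod_eq_zero_iff_dvd] at hγ'
  have hu : IsUnit ((γ 1 1 : ℤ) : ZMod N₁) := by
    have hdet := Matrix.SpecialLinearGroup.det_coe γ
    rw [Matrix.det_fin_two] at hdet
    have h2 : ((γ 1 0 : ℤ) : ZMod N₁) = 0 := by
      rw [ZMod.intCast_zmod_eq_zero_iff_dvd]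
      exact (Int.natCast_dvd_natCast.mpr ((dvd_mul_left N₁ N₁).trans hL1)).trans hγ'
    have h1 : ((γ 0 0 : ℤ) : ZMod N₁) * ((γ 1 1 : ℤ) : ZMod N₁) = 1 := by
      have := congrArg (fun z : ℤ => (z : ZMod N₁)) hdet
      push_cast at this
      rw [h2, mul_zero, sub_zero] at this
      exact this
    exact IsUnit.of_mul_eq_one _ (by rw [mul_comm]; exact h1)
  obtain ⟨w, hw⟩ := hu
  have key : ∀ u : ZMod N₁, (cu N₁ u • (G ∣[(1 : ℤ)] trM N₁ u)) ∣[(1 : ℤ)] γ =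
      χ ((γ 1 1 : ℤ) : ZMod N) • (cu N₁ (u * w ^ 2) • (G ∣[(1 : ℤ)] trM N₁ (u * w ^ 2))) := by
    intro u
    obtain ⟨γ', h1, h2, h3⟩ := trM_mul (N := N) hL1 hL2 hγ u (u * w ^ 2) (by rw [hw])
    rw [ModularForm.SL_smul_slash]
    have h4 : (G ∣[(1 : ℤ)] trM N₁ u) ∣[(1 : ℤ)] γ =
        χ ((γ 1 1 : ℤ) : ZMod N) • (G ∣[(1 : ℤ)] trM N₁ (u * w ^ 2)) := by
      have h5 : (G ∣[(1 : ℤ)] trM N₁ u) ∣[(1 : ℤ)] γ = G ∣[(1 : ℤ)] (trM N₁ u * gl γ) := by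
        rw [ModularForm.SL_slash, ← SlashAction.slash_mul]
      rw [h5, h3, SlashAction.slash_mul]
      have h6 : G ∣[(1 : ℤ)] gl γ' = χ ((γ 1 1 : ℤ) : ZMod N) • G := by
        rw [← h2]; exact hG γ' h1
      rw [h6, ModularForm.smul_slash, σ, if_pos (det_trM_pos _)]
      rfl
    rw [h4]
    have h7 : cu N₁ (u * w ^ 2) = cu N₁ u := by
      have := cu_mul u (w ^ 2)
      rwa [Units.val_pow_eq_pow_val] at this
    rw [h7, smul_comm]
  have e : (F0 N₁ G) ∣[(1 : ℤ)] γ = ∑ u : ZMod N₁, (cu N₁ u • (G ∣[(1 : ℤ)] trM N₁ u)) ∣[(1 : ℤ)] γ :=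
    SlashAction.sum_slash _ _
  rw [e, Finset.sum_congr rfl fun u _ => key u, ← Finset.smul_sum]
  congr 1
  have hb : ∑ u : ZMod N₁, cu N₁ (u * w ^ 2) • (G ∣[(1 : ℤ)] trM N₁ (u * w ^ 2)) =
      ∑ u : ZMod N₁, cu N₁ u • (G ∣[(1 : ℤ)] trM N₁ u) := by
    have := Equiv.sum_comp (Units.mulRight (w ^ 2)) (fun u : ZMod N₁ =>
      cu N₁ u • (G ∣[(1 : ℤ)] trM N₁ u))
    rw [← this]
    refine Finset.sum_congr rfl fun u _ => ?_
    rw [Units.mulRight_apply, Units.val_pow_eq_pow_val]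
  exact hb

end tr

end Fermat.Agent.DS1
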