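import Mathlib

/-!
# Existence of eigenvectors: commutative algebra
-/

set_option autoImplicit false

noncomputable section

namespace Fermat.Agent.DS1

/-- a faithful module over a commutative ring, finite over `ℤ`, has an eigenfunctional for every
character in characteristic `ℓ` -/
theorem exists_functional {R : Type*} [CommRing R] [Module.Finite ℤ R] {V : Type*}
    [AddCommGroup V] [Module R V] [Module.Finite R V] (hf : ∀ a : R, (∀ v : V, a • v = 0) → a = 0)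
    (ℓ : ℕ) [Fact ℓ.Prime] {k : Type*} [Field k] [CharP k ℓ] (χ : R →+* k) :
    ∃ φ : V →+ k, (∃ v, φ v ≠ 0) ∧ ∀ (a : R) (v : V), φ (a • v) = χ a * φ v := by
  set 𝔭 : Ideal R := RingHom.ker χ with h𝔭
  have hp : 𝔭.IsPrime := RingHom.ker_isPrime χ
  have hmax : 𝔭.IsMaximal := by
    have : Algebra.IsIntegral ℤ R := Algebra.IsIntegral.of_finite ℤ R
    refine Ideal.isMaximal_of_isIntegral_of_isMaximal_comap (R := ℤ) 𝔭 ?_
    have h1 : Ideal.span {(ℓ : ℤ)} ≤ Ideal.comap (algebraMap ℤ R) 𝔭 := by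
      rw [Ideal.span_singleton_le_iff_mem, Ideal.mem_comap, RingHom.mem_ker, eq_intCast,
        map_intCast, Int.cast_natCast, CharP.cast_eq_zero]
    have h2 : (Ideal.span {(ℓ : ℤ)}).IsMaximal := by
      apply PrincipalIdealRing.isMaximal_of_irreducible
      exact (Nat.prime_iff_prime_int.mp (Fact.out : ℓ.Prime)).irreducible
    have h3 := h2.eq_of_le (Ideal.IsPrime.ne_top (Ideal.IsPrime.comap (algebraMap ℤ R))) h1
    rwa [← h3]
  let _ : Field (R ⧸ 𝔭) := Ideal.Quotient.field 𝔭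
  -- `V / 𝔭 V` is non zero
  have hne : (𝔭 • ⊤ : Submodule R V) ≠ ⊤ := by
    intro h
    obtain ⟨a, ha, ha'⟩ := Submodule.exists_sub_one_mem_and_smul_eq_zero_of_fg_of_le_smul 𝔭
      (⊤ : Submodule R V) Module.Finite.fg_top (le_of_eq h.symm)
    have h0 : a = 0 := hf a fun v => ha' v trivial
    rw [h0, zero_sub] at ha
    exact hp.ne_top ((Ideal.eq_top_iff_one _).mpr (by simpa using 𝔭.neg_mem ha))
  obtain ⟨v₀, hv₀⟩ : ∃ v : V, v ∉ (𝔭 • ⊤ : Submodule R V) := by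
    by_contra h
    push Not at h
    exact hne (eq_top_iff.mpr fun v _ => h v)
  have hv : (Submodule.Quotient.mk v₀ : V ⧸ (𝔭 • ⊤ : Submodule R V)) ≠ 0 := by
    rwa [Ne, Submodule.Quotient.mk_eq_zero]
  obtain ⟨f, hf'⟩ : ∃ f : Module.Dual (R ⧸ 𝔭) (V ⧸ (𝔭 • ⊤ : Submodule R V)),
      f (Submodule.Quotient.mk v₀) ≠ 0 := by
    by_contra h
    push Not at h
    exact hv ((Module.forall_dual_apply_eq_zero_iff (R ⧸ 𝔭) _).mp h)
  let χ' : R ⧸ 𝔭 →+* k := Ideal.Quotient.lift 𝔭 χ fun a ha => ha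
  refine ⟨(χ' : R ⧸ 𝔭 →+ k).comp (f.toAddMonoidHom.comp
    (Submodule.mkQ (𝔭 • ⊤ : Submodule R V)).toAddMonoidHom), ⟨v₀, ?_⟩, fun a v => ?_⟩
  · exact (map_ne_zero χ').mpr hf'
  · change χ' (f (Submodule.Quotient.mk (a • v))) = χ a * χ' (f (Submodule.Quotient.mk v))
    have h1 : (Submodule.Quotient.mk (a • v) : V ⧸ (𝔭 • ⊤ : Submodule R V)) =
        (Ideal.Quotient.mk 𝔭 a) • Submodule.Quotient.mk v := rfl
    rw [h1, map_smul, smul_eq_mul, map_mul]
    rfl

end Fermat.Agent.DS1
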