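import Fermat.Agent.DS1.Pieces2
import Fermat.Agent.DS1.EigCore

/-!
# Existence of mod `ℓ` eigenvectors
-/

set_option autoImplicit false
set_option linter.unusedSectionVars false

noncomputable section

namespace Fermat.Agent.DS1

open Matrix Fermat.Agent.AnJac

namespace EigA

variable {Λ : Type} [AddCommGroup Λ] {𝒯 : Type} [Ring 𝒯] (ρ : 𝒯 →+* AddMonoid.End Λ)
  {B : Type} [Ring B] (π : 𝒯 →+* B)

/-- the part killed by the kernel -/
def XX : AddSubgroup Λ where
  carrier := {v | ∀ s, π s = 0 → ρ s v = 0}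
  zero_mem' := fun s _ => map_zero _
  add_mem' := fun {a b} ha hb s hs => by rw [map_add, ha s hs, hb s hs, add_zero]
  neg_mem' := fun {a} ha s hs => by rw [map_neg, ha s hs, neg_zero]

theorem XX_stable (t : 𝒯) {v : Λ} (hv : v ∈ XX ρ π) : ρ t v ∈ XX ρ π := by
  intro s hs
  have h1 : ρ s (ρ t v) = ρ (s * t) v := by rw [map_mul]; rfl
  rw [h1]
  exact hv (s * t) (by rw [map_mul, hs, zero_mul])

/-- functionals vanishing on `XX` -/
def UU : Submodule ℤ (Λ →ₗ[ℤ] ℤ) where
  carrier := {f | ∀ v ∈ XX ρ π, f v = 0}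
  zero_mem' := fun v _ => rfl
  add_mem' := fun {a b} ha hb v hv => by rw [LinearMap.add_apply, ha v hv, hb v hv, add_zero]
  smul_mem' := fun c a ha v hv => by rw [LinearMap.smul_apply, ha v hv, smul_zero]

/-- precomposition -/
def pre (t : 𝒯) : (Λ →ₗ[ℤ] ℤ) →ₗ[ℤ] (Λ →ₗ[ℤ] ℤ) :=
  LinearMap.lcomp ℤ ℤ (ρ t : Λ →+ Λ).toIntLinearMap

theorem pre_apply (t : 𝒯) (f : Λ →ₗ[ℤ] ℤ) (v : Λ) : pre ρ t f v = f (ρ t v) := rfl

theorem pre_UU (t : 𝒯) : UU ρ π ≤ (UU ρ π).comap (pre ρ t) := by
  intro f hf v hv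
  rw [pre_apply]
  exact hf _ (XX_stable ρ π t hv)

/-- the functionals on `XX` -/
abbrev VV := (Λ →ₗ[ℤ] ℤ) ⧸ UU ρ π

/-- the action of the opposite ring -/
def ψ : 𝒯ᵐᵒᵖ →+* Module.End ℤ (VV ρ π) where
  toFun t := (UU ρ π).mapQ (UU ρ π) (pre ρ t.unop) (pre_UU ρ π t.unop)
  map_one' := by
    apply LinearMap.ext
    intro v
    obtain ⟨f, rfl⟩ := Submodule.Quotient.mk_surjective _ v
    rw [Submodule.mapQ_apply]
    congr 1
    ext v
    rw [pre_apply, MulOpposite.unop_one, map_one]
    rfl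
  map_mul' s t := by
    apply LinearMap.ext
    intro v
    obtain ⟨f, rfl⟩ := Submodule.Quotient.mk_surjective _ v
    rw [Submodule.mapQ_apply, Module.End.mul_apply, Submodule.mapQ_apply, Submodule.mapQ_apply]
    congr 1
    ext v
    rw [pre_apply, pre_apply, pre_apply, MulOpposite.unop_mul, map_mul]
    rfl
  map_zero' := by
    apply LinearMap.ext
    intro v
    obtain ⟨f, rfl⟩ := Submodule.Quotient.mk_surjective _ v
    rw [Submodule.mapQ_apply]
    have h : pre ρ (MulOpposite.unop (0 : 𝒯ᵐᵒᵖ)) f = 0 := by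
      ext v
      rw [pre_apply, MulOpposite.unop_zero, map_zero]
      exact map_zero f
    rw [h]
    rfl
  map_add' s t := by
    apply LinearMap.ext
    intro v
    obtain ⟨f, rfl⟩ := Submodule.Quotient.mk_surjective _ v
    rw [Submodule.mapQ_apply, LinearMap.add_apply, Submodule.mapQ_apply, Submodule.mapQ_apply,
      ← Submodule.Quotient.mk_add]
    congr 1
    ext v
    rw [LinearMap.add_apply, pre_apply, pre_apply, pre_apply, MulOpposite.unop_add, map_add]
    exact map_add f _ _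

theorem ψ_mk (t : 𝒯) (f : Λ →ₗ[ℤ] ℤ) :
    ψ ρ π (MulOpposite.op t) (Submodule.Quotient.mk f) = Submodule.Quotient.mk (pre ρ t f) := rfl

theorem ψ_eq_zero {t : 𝒯} (ht : π t = 0) : ψ ρ π (MulOpposite.op t) = 0 := by
  apply LinearMap.ext
  intro v
  obtain ⟨f, rfl⟩ := Submodule.Quotient.mk_surjective _ v
  rw [ψ_mk, LinearMap.zero_apply, Submodule.Quotient.mk_eq_zero]
  intro v hv
  rw [pre_apply, hv t ht, map_zero]

theorem of_ψ_eq_zero {r : ℕ} (b : Module.Basis (Fin r) ℤ Λ)
    (h : ∀ t, (∀ v : Λ, (∀ s, π s = 0 → ρ s v = 0) → ρ t v = 0) → π t = 0) {t : 𝒯}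
    (ht : ψ ρ π (MulOpposite.op t) = 0) : π t = 0 := by
  refine h t fun v hv => ?_
  refine b.ext_elem fun i => ?_
  have h1 := LinearMap.congr_fun ht (Submodule.Quotient.mk (b.coord i))
  rw [ψ_mk, LinearMap.zero_apply, Submodule.Quotient.mk_eq_zero] at h1
  have h2 := h1 v hv
  rw [pre_apply] at h2
  rw [map_zero]
  exact h2

end EigA

open EigA in
/-- **(EIG)** -/
theorem eigStatement : EigStatement := by
  intro r Λ _ b 𝒯 _ ρ B _ π hcomm hfaith ℓ _ k _ _ _ χ hχ
  -- the commutative ring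
  set R := (ψ ρ π).range with hR
  have hRc : ∀ x y : R, x * y = y * x := by
    rintro ⟨_, s, rfl⟩ ⟨_, t, rfl⟩
    apply Subtype.ext
    change ψ ρ π s * ψ ρ π t = ψ ρ π t * ψ ρ π s
    rw [← sub_eq_zero, ← map_mul, ← map_mul, ← map_sub]
    have h1 : s * t - t * s = MulOpposite.op (t.unop * s.unop - s.unop * t.unop) := rfl
    rw [h1]
    exact ψ_eq_zero ρ π (by rw [map_sub, hcomm, sub_self])
  let _ : CommRing R := { (inferInstance : Ring R) with mul_comm := hRc }
  have : Module.Finite ℤ Λ := Module.Finite.of_basis b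
  have : Module.Free ℤ Λ := Module.Free.of_basis b
  have : Module.Finite ℤ (Λ →ₗ[ℤ] ℤ) := inferInstance
  have : Module.Finite ℤ (VV ρ π) := inferInstance
  -- the ring is finite
  have hnoeth : IsNoetherian ℤ ((Λ →ₗ[ℤ] ℤ) →ₗ[ℤ] VV ρ π) := inferInstance
  let inj : R →+ ((Λ →ₗ[ℤ] ℤ) →ₗ[ℤ] VV ρ π) :=
    { toFun := fun x => (x : Module.End ℤ (VV ρ π)).comp (UU ρ π).mkQ
      map_zero' := LinearMap.zero_comp _
      map_add' := fun x y => LinearMap.add_comp _ _ _ }
  have hinj : Function.Injective inj.toIntLinearMap := by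
    intro x y hxy
    apply Subtype.ext
    apply LinearMap.ext
    intro v
    obtain ⟨f, rfl⟩ := Submodule.Quotient.mk_surjective _ v
    exact LinearMap.congr_fun hxy f
  have hfin : Module.Finite ℤ R := Module.Finite.of_injective inj.toIntLinearMap hinj
  -- the module
  let _ : Module R (VV ρ π) := Module.compHom (VV ρ π) R.subtype
  have hsmul : ∀ (a : R) (v : VV ρ π), a • v = (a : Module.End ℤ (VV ρ π)) v := fun _ _ => rfl
  have hfin' : Module.Finite R (VV ρ π) := by
    obtain ⟨S, hS⟩ := (inferInstance : Module.Finite ℤ (VV ρ π)).fg_top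
    refine ⟨⟨S, ?_⟩⟩
    rw [eq_top_iff]
    intro v _
    have h1 : v ∈ Submodule.span ℤ (S : Set (VV ρ π)) := by rw [hS]; trivial
    induction h1 using Submodule.span_induction with
    | mem x hx => exact Submodule.subset_span hx
    | zero => exact Submodule.zero_mem _
    | add x y _ _ hx hy => exact Submodule.add_mem _ (hx trivial) (hy trivial)
    | smul c x _ hx => exact zsmul_mem (hx trivial) c
  have hf : ∀ a : R, (∀ v : VV ρ π, a • v = 0) → a = 0 := by
    intro a ha
    apply Subtype.ext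
    apply LinearMap.ext
    intro v
    exact ha v
  -- the character
  let χo : 𝒯ᵐᵒᵖ →+* k :=
    { toFun := fun t => χ t.unop
      map_one' := χ.map_one
      map_mul' := fun s t => (χ.map_mul _ _).trans (mul_comm _ _)
      map_zero' := χ.map_zero
      map_add' := fun s t => χ.map_add _ _ }
  have hker : ∀ t : 𝒯ᵐᵒᵖ, ψ ρ π t = 0 → χo t = 0 := by
    intro t ht
    exact hχ _ (of_ψ_eq_zero ρ π b hfaith (t := t.unop) ht)
  let χR : R →+* k := (ψ ρ π).rangeRestrict.liftOfSurjective
    (ψ ρ π).rangeRestrict_surjective ⟨χo, fun t ht => hker t (by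
      have h1 : (ψ ρ π).rangeRestrict t = 0 := ht
      exact congrArg Subtype.val h1)⟩
  have hχR : ∀ t : 𝒯ᵐᵒᵖ, χR ((ψ ρ π).rangeRestrict t) = χo t := fun t =>
    RingHom.liftOfRightInverse_comp_apply _ _ _ _ t
  obtain ⟨φ, ⟨v₀, hv₀⟩, hφ⟩ := exists_functional hf ℓ χR
  refine ⟨fun i => φ (Submodule.Quotient.mk (b.coord i)), ?_, fun t => ?_⟩
  · intro h0
    obtain ⟨f, rfl⟩ := Submodule.Quotient.mk_surjective _ v₀
    apply hv₀
    have h1 : f = ∑ i, f (b i) • b.coord i := by
      refine b.ext fun j => ?_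
      rw [LinearMap.sum_apply]
      rw [Finset.sum_eq_single j]
      · simp
      · intro i _ hij
        simp [Finsupp.single_apply, hij.symm]
      · intro h; exact absurd (Finset.mem_univ _) h
    have h2 : (Submodule.Quotient.mk f : VV ρ π) =
        ∑ i, f (b i) • (Submodule.Quotient.mk (b.coord i) : VV ρ π) := by
      conv_lhs => rw [h1]
      exact map_sum (UU ρ π).mkQ _ _
    rw [h2, map_sum]
    refine Finset.sum_eq_zero fun i _ => ?_
    rw [map_zsmul, congrFun h0 i, Pi.zero_apply, smul_zero]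
  · funext i
    have h1 : pre ρ t (b.coord i) = ∑ j, (KSys.tm b (ρ t)) i j • b.coord j := by
      refine b.ext fun j => ?_
      rw [LinearMap.sum_apply, pre_apply]
      rw [Finset.sum_eq_single j]
      · have h5 : (b.coord j) (b j) = 1 := by
          rw [Module.Basis.coord_apply, Module.Basis.repr_self, Finsupp.single_eq_same]
        rw [LinearMap.smul_apply, h5, smul_eq_mul, mul_one]
        rfl
      · intro l _ hl
        simp [Finsupp.single_apply, hl.symm]
      · intro h; exact absurd (Finset.mem_univ _) h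
    have h2 : φ (Submodule.Quotient.mk (pre ρ t (b.coord i))) =
        χ t * φ (Submodule.Quotient.mk (b.coord i)) := by
      have h3 := hφ ((ψ ρ π).rangeRestrict (MulOpposite.op t)) (Submodule.Quotient.mk (b.coord i))
      rw [hχR] at h3
      exact h3
    have h4 : (Submodule.Quotient.mk (pre ρ t (b.coord i)) : VV ρ π) =
        ∑ j, (KSys.tm b (ρ t)) i j • (Submodule.Quotient.mk (b.coord j) : VV ρ π) := by
      rw [h1]
      exact map_sum (UU ρ π).mkQ _ _
    rw [Pi.smul_apply, smul_eq_mul, ← h2, h4, map_sum, Matrix.mulVec, dotProduct]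
    refine Finset.sum_congr rfl fun j _ => ?_
    rw [map_zsmul, Matrix.map_apply, zsmul_eq_mul]

end Fermat.Agent.DS1
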