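import Mathlib

set_option autoImplicit false
set_option maxHeartbeats 400000

/-!
# An Eisenstein series of weight one: lattice sums
-/

noncomputable section

namespace Fermat.Agent.DS1

open UpperHalfPlane EisensteinSeries Complex Filter Topology Asymptotics
open scoped Real MatrixGroups

/-- the summand -/
def hh (z w : ℂ) : ℂ := w⁻¹ + 2 * (z - w)⁻¹ - (2 * z - w)⁻¹

/-- lattice points -/
def pt (x : Fin 2 → ℤ) (τ : ℍ) : ℂ := x 0 * (τ : ℂ) + x 1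

/-- torsion points -/
def zz (M : ℕ) (a : Fin 2 → ℤ) (τ : ℍ) : ℂ := pt a τ / M

/-- the Eisenstein series -/
def Kf (M : ℕ) (a : Fin 2 → ℤ) (τ : ℍ) : ℂ := ∑' x : Fin 2 → ℤ, hh (zz M a τ) (pt x τ)

lemma hh_eq {z w : ℂ} (hw : w ≠ 0) (h1 : z - w ≠ 0) (h2 : 2 * z - w ≠ 0) :
    hh z w = 2 * z ^ 2 * (w⁻¹ * (z - w)⁻¹ * (2 * z - w)⁻¹) := by
  rw [hh]
  field_simp
  ring

lemma hh_smul (c z w : ℂ) : hh (z / c) (w / c) = c * hh z w := by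
  have e1 : z / c - w / c = (z - w) / c := by ring
  have e2 : 2 * (z / c) - w / c = (2 * z - w) / c := by ring
  rw [hh, hh, e1, e2, inv_div, inv_div, inv_div]
  ring

lemma pt_add (x y : Fin 2 → ℤ) (τ : ℍ) : pt (x + y) τ = pt x τ + pt y τ := by
  simp only [pt, Pi.add_apply, Int.cast_add]; ring

lemma pt_sub (x y : Fin 2 → ℤ) (τ : ℍ) : pt (x - y) τ = pt x τ - pt y τ := by
  simp only [pt, Pi.sub_apply, Int.cast_sub]; ring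

lemma pt_smul (n : ℤ) (x : Fin 2 → ℤ) (τ : ℍ) : pt (n • x) τ = n * pt x τ := by
  simp only [pt, Pi.smul_apply, smul_eq_mul, Int.cast_mul]; ring

lemma pt_ne {x : Fin 2 → ℤ} (hx : x ≠ 0) (τ : ℍ) : pt x τ ≠ 0 := by
  have h := r_mul_max_le τ hx
  rw [← norm_pos_iff]
  exact lt_of_lt_of_le (mul_pos (r_pos τ) (norm_pos_iff.mpr hx)) h

section bound

variable {M : ℕ} (hM : 0 < M)

/-- not divisible -/
def ND (M : ℕ) (b : Fin 2 → ℤ) : Prop := ∀ x : Fin 2 → ℤ, b - (M : ℤ) • x ≠ 0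

include hM in
lemma zz_sub (b x : Fin 2 → ℤ) (τ : ℍ) : zz M b τ - pt x τ = pt (b - (M : ℤ) • x) τ / M := by
  have : (M : ℂ) ≠ 0 := by exact_mod_cast hM.ne'
  rw [zz, pt_sub, pt_smul]
  field_simp
  push_cast
  ring

include hM in
lemma zz_sub_ne {b : Fin 2 → ℤ} (hb : ND M b) (x : Fin 2 → ℤ) (τ : ℍ) :
    zz M b τ - pt x τ ≠ 0 := by
  rw [zz_sub hM]
  exact div_ne_zero (pt_ne (hb x) τ) (by exact_mod_cast hM.ne')

include hM in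
lemma lb {b : Fin 2 → ℤ} (hb : ND M b) (x : Fin 2 → ℤ) (τ : ℍ) :
    r τ * ‖x‖ ≤ (1 + ‖b‖) * ‖zz M b τ - pt x τ‖ := by
  rw [zz_sub hM, norm_div]
  set y := b - (M : ℤ) • x with hy
  have hy0 : y ≠ 0 := hb x
  have h1 : (1 : ℝ) ≤ ‖y‖ := by
    rw [EisensteinSeries.norm_eq_max_natAbs]
    have : 0 < max (y 0).natAbs (y 1).natAbs := by
      rw [lt_max_iff]
      by_contra hcon
      push Not at hcon
      apply hy0
      ext i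
      fin_cases i
      · exact Int.natAbs_eq_zero.mp (Nat.le_zero.mp hcon.1)
      · exact Int.natAbs_eq_zero.mp (Nat.le_zero.mp hcon.2)
    exact_mod_cast this
  have h2 : (M : ℝ) * ‖x‖ ≤ (1 + ‖b‖) * ‖y‖ := by
    have h3 : (M : ℤ) • x = b - y := by rw [hy]; abel
    have h4 : ‖(M : ℤ) • x‖ = M * ‖x‖ := by
      rw [norm_smul]
      simp
    have h5 := norm_sub_le b y
    rw [← h3, h4] at h5
    have := norm_nonneg b
    nlinarith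
  have h3 := r_mul_max_le τ hy0
  have h4 : r τ * ‖y‖ ≤ ‖pt y τ‖ := h3
  have hMr : (0 : ℝ) < M := by exact_mod_cast hM
  rw [show ‖(M : ℂ)‖ = (M : ℝ) by simp, ← mul_div_assoc, le_div_iff₀ hMr]
  have h5 := r_pos τ
  calc r τ * ‖x‖ * M = r τ * (M * ‖x‖) := by ring
    _ ≤ r τ * ((1 + ‖b‖) * ‖y‖) := mul_le_mul_of_nonneg_left h2 h5.le
    _ = (1 + ‖b‖) * (r τ * ‖y‖) := by ring
    _ ≤ (1 + ‖b‖) * ‖pt y τ‖ := mul_le_mul_of_nonneg_left h4 (by positivity)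

include hM in
lemma inv_bound {b : Fin 2 → ℤ} (hb : ND M b) {x : Fin 2 → ℤ} (hx : x ≠ 0) (τ : ℍ) :
    ‖(zz M b τ - pt x τ)⁻¹‖ ≤ (1 + ‖b‖) * (r τ)⁻¹ * ‖x‖⁻¹ := by
  have h1 := lb hM hb x τ
  have h2 := norm_pos_iff.mpr (zz_sub_ne hM hb x τ)
  have h3 := norm_pos_iff.mpr hx
  have h4 := r_pos τ
  rw [norm_inv, inv_le_iff_one_le_mul₀ h2]
  have h5 : (1 + ‖b‖) * (r τ)⁻¹ * ‖x‖⁻¹ * ‖zz M b τ - pt x τ‖ =
      ((1 + ‖b‖) * ‖zz M b τ - pt x τ‖) * (r τ * ‖x‖)⁻¹ := by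
    rw [mul_inv]; ring
  rw [h5, ← div_eq_mul_inv, one_le_div (by positivity)]
  exact h1

lemma inv_bound0 {x : Fin 2 → ℤ} (hx : x ≠ 0) (τ : ℍ) :
    ‖(pt x τ)⁻¹‖ ≤ (r τ)⁻¹ * ‖x‖⁻¹ := by
  have h1 := r_mul_max_le τ hx
  have h3 := norm_pos_iff.mpr hx
  have h4 := r_pos τ
  rw [norm_inv, ← mul_inv]
  exact inv_anti₀ (by positivity) h1

lemma two_zz (b : Fin 2 → ℤ) (τ : ℍ) : 2 * zz M b τ = zz M ((2 : ℤ) • b) τ := by
  rw [zz, zz, pt_smul]; push_cast; ring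

include hM in
/-- the main estimate -/
lemma hh_bound {b : Fin 2 → ℤ} (hb : ND M b) (hb2 : ND M ((2 : ℤ) • b)) {x : Fin 2 → ℤ}
    (hx : x ≠ 0) (τ : ℍ) :
    ‖hh (zz M b τ) (pt x τ)‖ ≤
      2 * ‖zz M b τ‖ ^ 2 * (1 + ‖b‖) * (1 + ‖(2 : ℤ) • b‖) * ((r τ)⁻¹) ^ 3 * (‖x‖⁻¹) ^ 3 := by
  rw [hh_eq (pt_ne hx τ) (zz_sub_ne hM hb x τ) (by rw [two_zz]; exact zz_sub_ne hM hb2 x τ),
    two_zz, norm_mul, norm_mul, norm_mul, norm_mul, norm_pow, show ‖(2 : ℂ)‖ = 2 by simp]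
  have h1 := inv_bound0 hx τ
  have h2 := inv_bound hM hb hx τ
  have h3 := inv_bound hM hb2 hx τ
  have hr := r_pos τ
  calc 2 * ‖zz M b τ‖ ^ 2 * (‖(pt x τ)⁻¹‖ * ‖(zz M b τ - pt x τ)⁻¹‖ *
        ‖(zz M ((2 : ℤ) • b) τ - pt x τ)⁻¹‖)
      ≤ 2 * ‖zz M b τ‖ ^ 2 * ((r τ)⁻¹ * ‖x‖⁻¹ * ((1 + ‖b‖) * (r τ)⁻¹ * ‖x‖⁻¹) *
        ((1 + ‖(2 : ℤ) • b‖) * (r τ)⁻¹ * ‖x‖⁻¹)) := by
        gcongr
    _ = _ := by ring

lemma summable_inv_cube : Summable (fun x : Fin 2 → ℤ => (‖x‖⁻¹) ^ 3) := by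
  have h := summable_one_div_norm_rpow (k := 3) (by norm_num)
  refine h.congr fun x => ?_
  rw [Real.rpow_neg (norm_nonneg _), inv_pow]
  norm_num

include hM in
lemma summable_hh {b : Fin 2 → ℤ} (hb : ND M b) (hb2 : ND M ((2 : ℤ) • b)) (τ : ℍ) :
    Summable (fun x : Fin 2 → ℤ => hh (zz M b τ) (pt x τ)) := by
  refine Summable.of_norm_bounded_eventually (summable_inv_cube.mul_left
    (2 * ‖zz M b τ‖ ^ 2 * (1 + ‖b‖) * (1 + ‖(2 : ℤ) • b‖) * ((r τ)⁻¹) ^ 3)) ?_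
  rw [eventually_cofinite]
  refine (Set.finite_singleton (0 : Fin 2 → ℤ)).subset fun x hx => ?_
  rw [Set.mem_singleton_iff]
  by_contra h0
  exact hx (hh_bound hM hb hb2 h0 τ)

include hM in
/-- growth -/
lemma norm_Kf_le {b : Fin 2 → ℤ} (hb : ND M b) (hb2 : ND M ((2 : ℤ) • b)) (τ : ℍ) :
    ‖Kf M b τ‖ ≤ ‖hh (zz M b τ) 0‖ + 2 * ‖zz M b τ‖ ^ 2 * (1 + ‖b‖) * (1 + ‖(2 : ℤ) • b‖) *
      ((r τ)⁻¹) ^ 3 * ∑' x : Fin 2 → ℤ, (‖x‖⁻¹) ^ 3 := by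
  classical
  have hs := summable_hh hM hb hb2 τ
  have hs' := hs.norm
  have hr := r_pos τ
  refine (norm_tsum_le_tsum_norm hs').trans ?_
  rw [hs'.tsum_eq_add_tsum_ite 0]
  have e0 : pt 0 τ = 0 := by simp [pt]
  rw [e0]
  refine add_le_add_right ?_ _
  rw [← tsum_mul_left]
  refine Summable.tsum_le_tsum (fun x => ?_) ?_ (summable_inv_cube.mul_left _)
  · split_ifs with h
    · positivity
    · exact hh_bound hM hb hb2 h τ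
  · refine hs'.of_nonneg_of_le (fun x => ?_) (fun x => ?_)
    · split_ifs
      · exact le_rfl
      · exact norm_nonneg _
    · split_ifs
      · exact norm_nonneg _
      · exact le_rfl

end bound

end Fermat.Agent.DS1
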