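import Fermat.Agent.DS1.Eis1

set_option autoImplicit false
set_option maxHeartbeats 400000

/-!
# An Eisenstein series of weight one: transformation laws
-/

noncomputable section

namespace Fermat.Agent.DS1

open UpperHalfPlane EisensteinSeries Complex Filter Topology Asymptotics Matrix
open scoped Real MatrixGroups ModularForm

lemma pt_smul_SL (x : Fin 2 → ℤ) (γ : SL(2, ℤ)) (τ : ℍ) :
    pt x (γ • τ) = pt (x ᵥ* γ) τ / denom γ τ := by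
  have hd := denom_ne_zero γ τ
  rw [eq_div_iff hd]
  simp only [pt, vecMul, vec2_dotProduct, denom, UpperHalfPlane.specialLinearGroup_apply] at hd ⊢
  have h : ∀ (a b c d u v : ℂ) (_ : c * (τ : ℂ) + d ≠ 0),
      (u * ((a * (τ : ℂ) + b) / (c * τ + d)) + v) * (c * τ + d) =
        (u * a + v * c) * τ + (u * b + v * d) := by
    intro a b c d u v hc
    rw [add_mul, mul_assoc, div_mul_cancel₀ _ hc]
    ring
  simpa using h (γ 0 0) (γ 0 1) (γ 1 0) (γ 1 1) (x 0) (x 1) (by simpa using hd)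

/-- right multiplication -/
def vmEquiv (γ : SL(2, ℤ)) : (Fin 2 → ℤ) ≃ (Fin 2 → ℤ) where
  toFun v := v ᵥ* γ
  invFun v := v ᵥ* ↑(γ⁻¹)
  left_inv v := by
    change (v ᵥ* (γ : Matrix (Fin 2) (Fin 2) ℤ)) ᵥ* ((γ⁻¹ : SL(2, ℤ)) : Matrix (Fin 2) (Fin 2) ℤ) = v
    have h : (γ : Matrix (Fin 2) (Fin 2) ℤ) * ((γ⁻¹ : SL(2, ℤ)) : Matrix (Fin 2) (Fin 2) ℤ) = 1 :=
      congrArg Subtype.val (mul_inv_cancel γ)
    rw [vecMul_vecMul, h, vecMul_one]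
  right_inv v := by
    change (v ᵥ* ((γ⁻¹ : SL(2, ℤ)) : Matrix (Fin 2) (Fin 2) ℤ)) ᵥ* (γ : Matrix (Fin 2) (Fin 2) ℤ) = v
    have h : ((γ⁻¹ : SL(2, ℤ)) : Matrix (Fin 2) (Fin 2) ℤ) * (γ : Matrix (Fin 2) (Fin 2) ℤ) = 1 :=
      congrArg Subtype.val (inv_mul_cancel γ)
    rw [vecMul_vecMul, h, vecMul_one]

lemma Kf_smul (M : ℕ) (a : Fin 2 → ℤ) (γ : SL(2, ℤ)) (τ : ℍ) :
    Kf M a (γ • τ) = denom γ τ * Kf M (a ᵥ* γ) τ := by
  have h1 : ∀ x : Fin 2 → ℤ, hh (zz M a (γ • τ)) (pt x (γ • τ)) =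
      denom γ τ * hh (zz M (a ᵥ* γ) τ) (pt (x ᵥ* γ) τ) := by
    intro x
    rw [zz, pt_smul_SL, pt_smul_SL, zz, div_right_comm, hh_smul]
  rw [Kf, tsum_congr h1, tsum_mul_left, Kf]
  congr 1
  exact (vmEquiv γ).tsum_eq (fun x => hh (zz M (a ᵥ* γ) τ) (pt x τ))

lemma Kf_slash (M : ℕ) (a : Fin 2 → ℤ) (γ : SL(2, ℤ)) :
    (Kf M a) ∣[(1 : ℤ)] γ = Kf M (a ᵥ* γ) := by
  ext τ
  rw [ModularForm.SL_slash_apply, Kf_smul, _root_.zpow_neg, zpow_one, mul_comm, ← mul_assoc,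
    inv_mul_cancel₀ (denom_ne_zero γ τ), one_mul]

section shift

/-- telescoping -/
lemma tsum_shift {G : (Fin 2 → ℤ) → ℂ} {C : ℝ} (hG : ∀ x, x ≠ 0 → ‖G x‖ ≤ C * (‖x‖⁻¹) ^ 2)
    {e : Fin 2 → ℤ} (hs : Summable (fun x => G (x - e) - G x))
    (σ : ℤ × ℤ ≃ (Fin 2 → ℤ)) (h1 : ∀ s t, σ (s, t) - e = σ (s, t - 1))
    (h2 : ∀ s t : ℤ, |(t : ℝ)| ≤ ‖σ (s, t)‖) :
    ∑' x, (G (x - e) - G x) = 0 := by
  rw [← σ.tsum_eq]
  have hs' : Summable (fun p : ℤ × ℤ => G (σ p - e) - G (σ p)) :=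
    (Equiv.summable_iff σ).mpr hs
  rw [hs'.tsum_prod]
  refine (tsum_congr fun s => ?_).trans tsum_zero
  have h3 : Summable (fun t : ℤ => G (σ (s, t))) := by
    have h4 : Summable (fun t : ℤ => C * (|(t : ℝ)|⁻¹) ^ 2) := by
      refine Summable.mul_left C ?_
      refine (Real.summable_one_div_int_pow (p := 2)).mpr one_lt_two |>.congr fun t => ?_
      rw [inv_pow, sq_abs, one_div]
    refine Summable.of_norm_bounded_eventually h4 ?_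
    rw [eventually_cofinite]
    refine (Set.finite_singleton (0 : ℤ)).subset fun t ht => ?_
    rw [Set.mem_singleton_iff]
    by_contra h0
    apply ht
    have h5 : 0 < |(t : ℝ)| := abs_pos.mpr (by exact_mod_cast h0)
    have h6 : σ (s, t) ≠ 0 := by
      intro h
      have := h2 s t
      rw [h, norm_zero] at this
      linarith
    refine (hG _ h6).trans ?_
    have hC : 0 ≤ C := by
      have h7 := (norm_nonneg _).trans (hG _ h6)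
      have h8 : 0 < (‖σ (s, t)‖⁻¹) ^ 2 := by
        have := norm_pos_iff.mpr h6
        positivity
      exact nonneg_of_mul_nonneg_left h7 h8
    have h9 : ‖σ (s, t)‖⁻¹ ≤ |(t : ℝ)|⁻¹ := inv_anti₀ h5 (h2 s t)
    gcongr
  have h5 : ∀ t, G (σ (s, t) - e) - G (σ (s, t)) = G (σ (s, t - 1)) - G (σ (s, t)) := by
    intro t; rw [h1]
  rw [tsum_congr h5]
  have h6 : Summable (fun t : ℤ => G (σ (s, t - 1))) :=
    (Equiv.summable_iff (Equiv.subRight (1 : ℤ))).mpr h3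
  have h7 : ∑' t : ℤ, G (σ (s, t - 1)) = ∑' t : ℤ, G (σ (s, t)) :=
    (Equiv.subRight (1 : ℤ)).tsum_eq (fun t => G (σ (s, t)))
  rw [h6.tsum_sub h3, h7, sub_self]

/-- unit vectors -/
def ue (i : Fin 2) : Fin 2 → ℤ := Pi.single i 1

lemma exists_sig (i : Fin 2) : ∃ σ : ℤ × ℤ ≃ (Fin 2 → ℤ),
    (∀ s t, σ (s, t) - ue i = σ (s, t - 1)) ∧ (∀ s t : ℤ, |(t : ℝ)| ≤ ‖σ (s, t)‖) := by
  fin_cases i
  · refine ⟨(Equiv.prodComm ℤ ℤ).trans (finTwoArrowEquiv ℤ).symm, fun s t => ?_, fun s t => ?_⟩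
    · ext j
      fin_cases j <;> simp [ue, finTwoArrowEquiv]
    · have h := norm_le_pi_norm (((Equiv.prodComm ℤ ℤ).trans (finTwoArrowEquiv ℤ).symm) (s, t)) 0
      rw [Int.norm_eq_abs] at h
      exact h
  · refine ⟨(finTwoArrowEquiv ℤ).symm, fun s t => ?_, fun s t => ?_⟩
    · ext j
      fin_cases j <;> simp [ue, finTwoArrowEquiv]
    · have h := norm_le_pi_norm ((finTwoArrowEquiv ℤ).symm (s, t)) 1
      rw [Int.norm_eq_abs] at h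
      exact h

variable {M : ℕ} (hM : 0 < M)

lemma ND.add {b : Fin 2 → ℤ} (hb : ND M b) (c : Fin 2 → ℤ) : ND M (b + (M : ℤ) • c) := by
  intro x hx
  apply hb (x - c)
  rw [smul_sub]
  rw [← hx]; abel

lemma ND.congr {b c : Fin 2 → ℤ} (hb : ND M b) (h : c = b) : ND M c := h ▸ hb

include hM in
lemma zz_add (b c : Fin 2 → ℤ) (τ : ℍ) : zz M (b + (M : ℤ) • c) τ = zz M b τ + pt c τ := by
  have : (M : ℂ) ≠ 0 := by exact_mod_cast hM.ne'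
  rw [zz, zz, pt_add, pt_smul]
  field_simp
  push_cast
  ring

include hM in
/-- periodicity -/
theorem Kf_add_unit {b : Fin 2 → ℤ} (hb : ND M b) (hb2 : ND M ((2 : ℤ) • b)) (i : Fin 2) (τ : ℍ) :
    Kf M (b + (M : ℤ) • ue i) τ = Kf M b τ := by
  have hb' := hb.add (ue i)
  have hb2' : ND M ((2 : ℤ) • (b + (M : ℤ) • ue i)) := by
    refine (hb2.add ((2 : ℤ) • ue i)).congr ?_
    rw [smul_add, smul_comm]
  have hb3 : ND M ((2 : ℤ) • b + (M : ℤ) • ue i) := hb2.add (ue i)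
  rw [← sub_eq_zero, Kf, Kf, ← (summable_hh hM hb' hb2' τ).tsum_sub (summable_hh hM hb hb2 τ)]
  set z := zz M b τ with hz
  set w₁ := pt (ue i) τ with hw₁
  let G : (Fin 2 → ℤ) → ℂ := fun x =>
    2 * (z - pt x τ)⁻¹ - (2 * z - pt x τ)⁻¹ - (2 * z + w₁ - pt x τ)⁻¹
  have hG : ∀ x, hh (zz M (b + (M : ℤ) • ue i) τ) (pt x τ) - hh z (pt x τ) =
      G (x - ue i) - G x := by
    intro x
    rw [zz_add hM, ← hz, ← hw₁]
    simp only [G, hh, pt_sub, ← hw₁]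
    have e1 : z + w₁ - pt x τ = z - (pt x τ - w₁) := by ring
    have e2 : 2 * (z + w₁) - pt x τ = 2 * z + w₁ - (pt x τ - w₁) := by ring
    have e3 : 2 * z - (pt x τ - w₁) = 2 * z + w₁ - pt x τ := by ring
    rw [e1, e2, e3]
    ring
  have hsum : Summable (fun x => G (x - ue i) - G x) :=
    ((summable_hh hM hb' hb2' τ).sub (summable_hh hM hb hb2 τ)).congr hG
  rw [tsum_congr hG]
  obtain ⟨σ, h1, h2⟩ := exists_sig i
  refine tsum_shift (C := ‖z‖ * ((1 + ‖b‖) * (r τ)⁻¹) * ((1 + ‖(2 : ℤ) • b‖) * (r τ)⁻¹) +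
    ‖z + w₁‖ * ((1 + ‖b‖) * (r τ)⁻¹) *
      ((1 + ‖(2 : ℤ) • b + (M : ℤ) • ue i‖) * (r τ)⁻¹)) ?_ hsum σ h1 h2
  intro x hx
  have n1 : z - pt x τ ≠ 0 := zz_sub_ne hM hb x τ
  have n2 : 2 * z - pt x τ ≠ 0 := by rw [hz, two_zz]; exact zz_sub_ne hM hb2 x τ
  have e3 : 2 * z + w₁ = zz M ((2 : ℤ) • b + (M : ℤ) • ue i) τ := by
    rw [zz_add hM, hz, two_zz]
  have n3 : 2 * z + w₁ - pt x τ ≠ 0 := by
    rw [e3]; exact zz_sub_ne hM hb3 x τ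
  have hGx : G x = z * ((z - pt x τ)⁻¹ * (2 * z - pt x τ)⁻¹) +
      (z + w₁) * ((z - pt x τ)⁻¹ * (2 * z + w₁ - pt x τ)⁻¹) := by
    simp only [G]
    field_simp
    ring
  rw [hGx]
  have b1 : ‖(z - pt x τ)⁻¹‖ ≤ (1 + ‖b‖) * (r τ)⁻¹ * ‖x‖⁻¹ := inv_bound hM hb hx τ
  have b2 : ‖(2 * z - pt x τ)⁻¹‖ ≤ (1 + ‖(2 : ℤ) • b‖) * (r τ)⁻¹ * ‖x‖⁻¹ := by
    rw [hz, two_zz]; exact inv_bound hM hb2 hx τ
  have b3 : ‖(2 * z + w₁ - pt x τ)⁻¹‖ ≤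
      (1 + ‖(2 : ℤ) • b + (M : ℤ) • ue i‖) * (r τ)⁻¹ * ‖x‖⁻¹ := by
    rw [e3]; exact inv_bound hM hb3 hx τ
  have hr := r_pos τ
  calc ‖z * ((z - pt x τ)⁻¹ * (2 * z - pt x τ)⁻¹) +
        (z + w₁) * ((z - pt x τ)⁻¹ * (2 * z + w₁ - pt x τ)⁻¹)‖
      ≤ ‖z‖ * (‖(z - pt x τ)⁻¹‖ * ‖(2 * z - pt x τ)⁻¹‖) +
        ‖z + w₁‖ * (‖(z - pt x τ)⁻¹‖ * ‖(2 * z + w₁ - pt x τ)⁻¹‖) := by
        refine (norm_add_le _ _).trans ?_
        rw [norm_mul, norm_mul, norm_mul, norm_mul]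
    _ ≤ ‖z‖ * (((1 + ‖b‖) * (r τ)⁻¹ * ‖x‖⁻¹) * ((1 + ‖(2 : ℤ) • b‖) * (r τ)⁻¹ * ‖x‖⁻¹)) +
        ‖z + w₁‖ * (((1 + ‖b‖) * (r τ)⁻¹ * ‖x‖⁻¹) *
          ((1 + ‖(2 : ℤ) • b + (M : ℤ) • ue i‖) * (r τ)⁻¹ * ‖x‖⁻¹)) := by
        gcongr
    _ = _ := by ring

end shift

end Fermat.Agent.DS1
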