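import Fermat.Agent.DS1.Eis2

set_option autoImplicit false
set_option maxHeartbeats 400000

/-!
# An Eisenstein series of weight one: q-expansion
-/

noncomputable section

namespace Fermat.Agent.DS1

open UpperHalfPlane hiding I
open EisensteinSeries Complex Filter Topology Asymptotics
open scoped Real MatrixGroups

local notation "ℂ_ℤ" => integerComplement

/-- good points -/
def Ok (x : ℂ) : Prop := x ∈ ℂ_ℤ ∨ x = 0

lemma Ok.summable {x : ℂ} (hx : Ok x) :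
    Summable (fun n : ℕ+ => (x - (n : ℕ))⁻¹ + (x + (n : ℕ))⁻¹) := by
  rcases hx with hx | rfl
  · have h := summable_cotTerm hx
    refine (summable_pnat_iff_summable_succ
      (f := fun n : ℕ => (x - (n : ℕ))⁻¹ + (x + (n : ℕ))⁻¹)).mpr ?_
    refine h.congr fun n => ?_
    simp only [cotTerm, one_div, Nat.cast_add, Nat.cast_one]
  · refine summable_zero.congr fun n => ?_
    rw [zero_sub, zero_add, inv_neg, neg_add_cancel]

lemma Ok.tsum {x : ℂ} (hx : Ok x) :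
    ∑' n : ℕ+, ((x - (n : ℕ))⁻¹ + (x + (n : ℕ))⁻¹) = π * cot (π * x) - x⁻¹ := by
  rcases hx with hx | rfl
  · rw [cot_series_rep hx]
    simp only [one_div]
    ring
  · have hc0 : cot (0 : ℂ) = 0 := by rw [Complex.cot, Complex.sin_zero, div_zero]
    rw [mul_zero, hc0, mul_zero, inv_zero, sub_zero]
    refine (tsum_congr fun n => ?_).trans tsum_zero
    rw [zero_sub, zero_add, inv_neg, neg_add_cancel]

lemma summable_diff (x y : ℂ) : Summable (fun n : ℤ => (x + n)⁻¹ - (y + n)⁻¹) := by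
  have h1 := linear_inv_isBigO_right 1 x
  have h2 := linear_inv_isBigO_right 1 y
  have h3 : (fun n : ℤ => (x + n)⁻¹ - (y + n)⁻¹) =O[cofinite]
      (fun n : ℤ => (n : ℝ)⁻¹ * (n : ℝ)⁻¹) := by
    have h4 : (fun n : ℤ => (y - x) * ((x + n)⁻¹ * (y + n)⁻¹)) =O[cofinite]
        (fun n : ℤ => (n : ℝ)⁻¹ * (n : ℝ)⁻¹) := by
      refine IsBigO.const_mul_left ?_ _
      simpa using h1.mul h2
    refine h4.congr' ?_ EventuallyEq.rfl
    have hf : ∀ z : ℂ, {n : ℤ | z + n = 0}.Finite := by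
      intro z
      refine Set.Subsingleton.finite ?_
      intro a ha b hb
      have : (a : ℂ) = b := by
        have e1 : z + a = z + b := ha.trans hb.symm
        exact add_left_cancel e1
      exact_mod_cast this
    filter_upwards [(hf x).compl_mem_cofinite, (hf y).compl_mem_cofinite] with n hn hn'
    have e1 : x + n ≠ 0 := hn
    have e2 : y + n ≠ 0 := hn'
    field_simp
    ring
  refine summable_of_isBigO (g := fun n : ℤ => (n : ℝ)⁻¹ * (n : ℝ)⁻¹) ?_ h3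
  refine ((Real.summable_one_div_int_pow (p := 2)).mpr one_lt_two).congr fun t => ?_
  rw [← mul_inv, ← pow_two, one_div]

lemma tsum_diff {x y : ℂ} (hx : Ok x) (hy : Ok y) :
    ∑' n : ℤ, ((x + n)⁻¹ - (y + n)⁻¹) = π * cot (π * x) - π * cot (π * y) := by
  have hs := summable_diff x y
  rw [tsum_int_eq_zero_add_tsum_pnat hs]
  have hi1 : Function.Injective (fun n : ℕ+ => ((n : ℕ) : ℤ)) := fun a b h =>
    PNat.coe_injective (Nat.cast_injective (R := ℤ) h)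
  have hi2 : Function.Injective (fun n : ℕ+ => -((n : ℕ) : ℤ)) := fun a b h =>
    hi1 (neg_injective h)
  have hs1 := hs.comp_injective hi1
  have hs2 := hs.comp_injective hi2
  have h0 := hs1.tsum_add hs2
  simp only [Function.comp_def] at h0 hs1 hs2
  rw [add_assoc, ← h0]
  have h1 : ∀ n : ℕ+, ((x + (((n : ℕ) : ℤ) : ℂ))⁻¹ - (y + (((n : ℕ) : ℤ) : ℂ))⁻¹) +
      ((x + ((-((n : ℕ) : ℤ) : ℤ) : ℂ))⁻¹ - (y + ((-((n : ℕ) : ℤ) : ℤ) : ℂ))⁻¹) =
      ((x - (n : ℕ))⁻¹ + (x + (n : ℕ))⁻¹) - ((y - (n : ℕ))⁻¹ + (y + (n : ℕ))⁻¹) := by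
    intro n
    push_cast
    rw [← sub_eq_add_neg, ← sub_eq_add_neg]
    ring
  rw [tsum_congr h1, hx.summable.tsum_sub hy.summable, hx.tsum, hy.tsum]
  push_cast
  ring

/-- the inner sum -/
lemma tsum_inner {x u : ℂ} (hx : Ok x) (hx1 : Ok (x - u)) (hx2 : Ok (x - 2 * u)) :
    ∑' n : ℤ, hh u (x + n) =
      π * cot (π * x) - 2 * (π * cot (π * (x - u))) + π * cot (π * (x - 2 * u)) := by
  have h1 : ∀ n : ℤ, hh u (x + n) = ((x + n)⁻¹ - ((x - u) + n)⁻¹) -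
      (((x - u) + n)⁻¹ - ((x - 2 * u) + n)⁻¹) := by
    intro n
    have e1 : u - (x + n) = -((x - u) + n) := by ring
    have e2 : 2 * u - (x + n) = -((x - 2 * u) + n) := by ring
    rw [hh, e1, e2, inv_neg, inv_neg]
    ring
  rw [tsum_congr h1, (summable_diff _ _).tsum_sub (summable_diff _ _), tsum_diff hx hx1,
    tsum_diff hx1 hx2]
  ring

lemma norm_exp_lt {z : ℂ} (hz : 0 < z.im) : ‖Complex.exp (2 * π * I * z)‖ < 1 := by
  obtain ⟨τ, rfl⟩ : ∃ τ : ℍ, (τ : ℂ) = z := ⟨⟨z, hz⟩, rfl⟩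
  exact UpperHalfPlane.norm_exp_two_pi_I_lt_one τ

lemma geo_pnat {r : ℂ} (hr : ‖r‖ < 1) : ∑' n : ℕ, r ^ n = 1 + ∑' n : ℕ+, r ^ (n : ℕ) := by
  have h3 := tsum_zero_pnat_eq_tsum_nat (f := fun n : ℕ => r ^ n)
    (summable_geometric_of_norm_lt_one hr)
  rw [← h3, pow_zero]

lemma cot_H {z : ℂ} (hz : 0 < z.im) :
    π * cot (π * z) = -(π * I) - 2 * π * I * ∑' n : ℕ+, Complex.exp (2 * π * I * z) ^ (n : ℕ) := by
  have h3 := geo_pnat (norm_exp_lt hz)
  have h4 : π * cot (π * z) = π * I - 2 * π * I * ∑' n : ℕ, Complex.exp (2 * π * I * z) ^ n := by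
    obtain ⟨τ, rfl⟩ : ∃ τ : ℍ, (τ : ℂ) = z := ⟨⟨z, hz⟩, rfl⟩
    exact pi_mul_cot_pi_q_exp τ
  rw [h4, h3, mul_add, mul_one]
  ring

lemma summable_geo {z : ℂ} (hz : 0 < z.im) :
    Summable (fun n : ℕ+ => Complex.exp (2 * π * I * z) ^ (n : ℕ)) :=
  summable_pnat_iff_summable_nat.mpr (summable_geometric_of_norm_lt_one (norm_exp_lt hz))

/-- the coefficient function -/
def cc (ξ : ℂ) (d : ℕ) : ℂ := 2 * (ξ ^ d - (ξ ^ d)⁻¹) - (ξ ^ (2 * d) - (ξ ^ (2 * d))⁻¹)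

/-- pairs `±m` -/
lemma pair_eq (u : ℝ) {z : ℂ} (hz : 0 < z.im) :
    (π * cot (π * z) - 2 * (π * cot (π * (z - u))) + π * cot (π * (z - 2 * u))) +
    (π * cot (π * (-z)) - 2 * (π * cot (π * (-z - u))) + π * cot (π * (-z - 2 * u))) =
    -(2 * π * I) * ∑' d : ℕ+, cc (Complex.exp (2 * π * I * u)) d *
      Complex.exp (2 * π * I * z) ^ (d : ℕ) := by
  have e1 : π * (-z) = -(π * z) := by ring
  have e2 : π * (-z - u) = -(π * (z + u)) := by ring
  have e3 : π * (-z - 2 * u) = -(π * (z + 2 * u)) := by ring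
  rw [e1, e2, e3]
  have hcn : ∀ w : ℂ, cot (-w) = - cot w := by
    intro w
    rw [Complex.cot, Complex.cot, Complex.cos_neg, Complex.sin_neg, div_neg]
  rw [hcn, hcn, hcn]
  have i1 : 0 < (z + u).im := by simpa using hz
  have i2 : 0 < (z - u).im := by simpa using hz
  have i3 : 0 < (z + 2 * u).im := by simpa using hz
  have i4 : 0 < (z - 2 * u).im := by simpa using hz
  rw [cot_H i2, cot_H i4]
  have E1 := cot_H i1
  have E3 := cot_H i3
  have s1 := summable_geo i1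
  have s2 := summable_geo i2
  have s3 := summable_geo i3
  have s4 := summable_geo i4
  have key : ∑' d : ℕ+, cc (Complex.exp (2 * π * I * u)) d *
      Complex.exp (2 * π * I * z) ^ (d : ℕ) =
      2 * (∑' n : ℕ+, Complex.exp (2 * π * I * (z + u)) ^ (n : ℕ) -
        ∑' n : ℕ+, Complex.exp (2 * π * I * (z - u)) ^ (n : ℕ)) -
      (∑' n : ℕ+, Complex.exp (2 * π * I * (z + 2 * u)) ^ (n : ℕ) -
        ∑' n : ℕ+, Complex.exp (2 * π * I * (z - 2 * u)) ^ (n : ℕ)) := by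
    rw [← s1.tsum_sub s2, ← s3.tsum_sub s4, ← tsum_mul_left,
      ← ((s1.sub s2).mul_left 2).tsum_sub (s3.sub s4)]
    refine tsum_congr fun d => ?_
    have a1 : Complex.exp (2 * π * I * (z + u)) =
        Complex.exp (2 * π * I * z) * Complex.exp (2 * π * I * u) := by
      rw [← Complex.exp_add]; ring_nf
    have a2 : Complex.exp (2 * π * I * (z - u)) =
        Complex.exp (2 * π * I * z) * (Complex.exp (2 * π * I * u))⁻¹ := by
      rw [← Complex.exp_neg, ← Complex.exp_add]; ring_nf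
    have a3 : Complex.exp (2 * π * I * (z + 2 * u)) =
        Complex.exp (2 * π * I * z) * (Complex.exp (2 * π * I * u)) ^ 2 := by
      rw [← Complex.exp_nat_mul, ← Complex.exp_add]
      congr 1
      push_cast
      ring
    have a4 : Complex.exp (2 * π * I * (z - 2 * u)) =
        Complex.exp (2 * π * I * z) * ((Complex.exp (2 * π * I * u)) ^ 2)⁻¹ := by
      rw [← Complex.exp_nat_mul, ← Complex.exp_neg, ← Complex.exp_add]
      congr 1
      push_cast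
      ring
    rw [a1, a2, a3, a4, mul_pow, mul_pow, mul_pow, mul_pow, cc, inv_pow, inv_pow, ← pow_mul]
    ring
  rw [key]
  linear_combination (-2 : ℂ) * (-E1) - E3


section expansion

variable {M : ℕ} (hM : 0 < M)

/-- the index of `u = a/M` -/
def vec (a : ℤ) : Fin 2 → ℤ := ![0, a]

lemma zz_vec (M : ℕ) (a : ℤ) (τ : ℍ) : zz M (vec a) τ = ((a / M : ℝ) : ℂ) := by
  simp [zz, pt, vec]

include hM in
lemma notInt_of_ND {a : ℤ} (h : ND M (vec a)) : -((a / M : ℝ) : ℂ) ∈ ℂ_ℤ := by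
  rw [mem_integerComplement_iff]
  rintro ⟨n, hn⟩
  apply h ![0, -n]
  have hMC : (M : ℂ) ≠ 0 := by exact_mod_cast hM.ne'
  have h1 : (a : ℂ) = -(n * M) := by
    push_cast at hn
    field_simp at hn
    linear_combination hn
  have h2 : a = -(n * M) := by exact_mod_cast h1
  ext i
  fin_cases i
  · simp [vec]
  · simp [vec, h2]; ring

lemma cc_norm {ξ : ℂ} (hξ : ‖ξ‖ = 1) (d : ℕ) : ‖cc ξ d‖ ≤ 6 := by
  have h1 : ∀ n : ℕ, ‖ξ ^ n‖ = 1 := fun n => by rw [norm_pow, hξ, one_pow]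
  have h2 : ∀ n : ℕ, ‖(ξ ^ n)⁻¹‖ = 1 := fun n => by rw [norm_inv, h1, inv_one]
  have h3 : ∀ n : ℕ, ‖ξ ^ n - (ξ ^ n)⁻¹‖ ≤ 2 := fun n => by
    refine (norm_sub_le _ _).trans ?_
    rw [h1, h2]; norm_num
  rw [cc]
  refine (norm_sub_le _ _).trans ?_
  rw [norm_mul]
  have h4 := h3 d
  have h5 := h3 (2 * d)
  have h6 : ‖(2 : ℂ)‖ = 2 := by simp
  rw [h6]
  linarith

/-- the coefficients -/
def ec (ξ : ℂ) (n : ℕ) : ℂ :=
  if n = 0 then (ξ ^ 2 + 4 * ξ + 1) / (2 * (ξ ^ 2 - 1)) else -∑ d ∈ n.divisors, cc ξ d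

lemma tsum_div {ξ r : ℂ} (hξ : ‖ξ‖ = 1) (hr : ‖r‖ < 1) :
    HasSum (fun n : ℕ+ => (∑ d ∈ (n : ℕ).divisors, cc ξ d) * r ^ (n : ℕ))
      (∑' m : ℕ+, ∑' d : ℕ+, cc ξ d * (r ^ (m : ℕ)) ^ (d : ℕ)) := by
  have hs0 : Summable (fun p : ℕ+ × ℕ+ => cc ξ p.2 * r ^ ((p.1 : ℕ) * (p.2 : ℕ))) := by
    have h1 := (summable_prod_mul_pow (𝕜 := ℂ) 0 hr).norm.mul_left 6
    refine Summable.of_norm_bounded h1 fun p => ?_
    rw [norm_mul, norm_mul, pow_zero, norm_one, one_mul]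
    exact mul_le_mul_of_nonneg_right (cc_norm hξ _) (norm_nonneg _)
  have hs := (sigmaAntidiagonalEquivProd.summable_iff).mpr hs0
  have h2 : ∑' m : ℕ+, ∑' d : ℕ+, cc ξ d * (r ^ (m : ℕ)) ^ (d : ℕ) =
      ∑' p : ℕ+ × ℕ+, cc ξ p.2 * r ^ ((p.1 : ℕ) * (p.2 : ℕ)) := by
    rw [hs0.tsum_prod]
    refine tsum_congr fun m => tsum_congr fun d => ?_
    rw [← pow_mul]
  rw [h2, ← sigmaAntidiagonalEquivProd.tsum_eq]
  refine hs.hasSum.sigma fun n => ?_
  have h4 : ∑ x : Nat.divisorsAntidiagonal (n : ℕ),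
      ((fun p : ℕ+ × ℕ+ => cc ξ p.2 * r ^ ((p.1 : ℕ) * (p.2 : ℕ))) ∘ sigmaAntidiagonalEquivProd)
        ⟨n, x⟩ = (∑ d ∈ (n : ℕ).divisors, cc ξ d) * r ^ (n : ℕ) := by
    have h5 : ∀ x : Nat.divisorsAntidiagonal (n : ℕ),
        ((fun p : ℕ+ × ℕ+ => cc ξ p.2 * r ^ ((p.1 : ℕ) * (p.2 : ℕ))) ∘
          sigmaAntidiagonalEquivProd) ⟨n, x⟩ =
        (fun y : ℕ × ℕ => cc ξ y.2 * r ^ (y.1 * y.2)) x.1 := fun x => rfl
    rw [Finset.sum_congr rfl fun x _ => h5 x]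
    rw [Finset.sum_coe_sort (Nat.divisorsAntidiagonal (n : ℕ))
      (fun y : ℕ × ℕ => cc ξ y.2 * r ^ (y.1 * y.2))]
    rw [Nat.sum_divisorsAntidiagonal' (fun x y => cc ξ y * r ^ (x * y)), Finset.sum_mul]
    refine Finset.sum_congr rfl fun d hd => ?_
    rw [Nat.div_mul_cancel (Nat.dvd_of_mem_divisors hd)]
  rw [← h4]
  exact hasSum_fintype _

/-- the root of unity -/
def xi (M : ℕ) (a : ℤ) : ℂ := Complex.exp (2 * π * I * ((a / M : ℝ) : ℂ))

lemma norm_xi (M : ℕ) (a : ℤ) : ‖xi M a‖ = 1 := by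
  rw [xi, show (2 * π * I * ((a / M : ℝ) : ℂ) : ℂ) = ((2 * π * (a / M) : ℝ) : ℂ) * I by
    push_cast; ring]
  exact Complex.norm_exp_ofReal_mul_I _

lemma xi_ne {M : ℕ} {a : ℤ} (h : -((a / M : ℝ) : ℂ) ∈ ℂ_ℤ) : xi M a ≠ 1 := by
  intro h1
  rw [xi, Complex.exp_eq_one_iff] at h1
  obtain ⟨n, hn⟩ := h1
  rw [mem_integerComplement_iff] at h
  apply h
  refine ⟨-n, ?_⟩
  have h2 : (2 * π * I : ℂ) ≠ 0 := Complex.two_pi_I_ne_zero
  have h3 : ((a / M : ℝ) : ℂ) = n := by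
    apply mul_left_cancel₀ h2
    rw [hn]; ring
  rw [h3]; push_cast; ring

lemma two_vec (a : ℤ) : (2 : ℤ) • vec a = vec (2 * a) := by
  ext i
  fin_cases i <;> simp [vec]

lemma xi_two (M : ℕ) (a : ℤ) : xi M (2 * a) = xi M a ^ 2 := by
  rw [xi, xi, ← Complex.exp_nat_mul]
  congr 1
  push_cast
  ring

include hM in
/-- **the `q`-expansion** -/
theorem hasSum_Kf {a : ℤ} (h1 : ND M (vec a)) (h2 : ND M ((2 : ℤ) • vec a)) (τ : ℍ) :
    HasSum (fun n : ℕ => 2 * π * I * ec (xi M a) n * Complex.exp (2 * π * I * τ) ^ n)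
      (Kf M (vec a) τ) := by
  have hu1 := notInt_of_ND hM h1
  have hu2 := notInt_of_ND hM (two_vec a ▸ h2)
  have hx1 : xi M a ≠ 1 := xi_ne hu1
  have hx2 : xi M a ^ 2 ≠ 1 := by rw [← xi_two]; exact xi_ne hu2
  set u : ℂ := ((a / M : ℝ) : ℂ) with hu
  have hu2' : -(2 * u) ∈ ℂ_ℤ := by
    have e : -(2 * u) = -(((2 * a : ℤ) / M : ℝ) : ℂ) := by rw [hu]; push_cast; ring
    rw [e]; exact hu2
  have hsum := summable_hh hM h1 h2 τ
  rw [zz_vec, ← hu] at hsum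
  have hsum' : Summable (fun p : ℤ × ℤ => hh u (p.1 * (τ : ℂ) + p.2)) :=
    ((finTwoArrowEquiv ℤ).symm.summable_iff).mpr hsum
  have hK : Kf M (vec a) τ = ∑' m : ℤ, ∑' n : ℤ, hh u (m * (τ : ℂ) + n) := by
    rw [← hsum'.tsum_prod (f := fun p : ℤ × ℤ => hh u (p.1 * (τ : ℂ) + p.2)), Kf,
      ← (finTwoArrowEquiv ℤ).symm.tsum_eq]
    refine tsum_congr fun p => ?_
    rw [zz_vec]
    rfl
  have him : ∀ m : ℤ, m ≠ 0 → ∀ v : ℝ, ((m : ℂ) * τ + v) ∈ ℂ_ℤ := by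
    intro m hm v
    rw [mem_integerComplement_iff]
    rintro ⟨n, hn⟩
    have h3 := congrArg Complex.im hn
    simp at h3
    rcases h3 with h3 | h3
    · exact hm h3
    · exact τ.im_pos.ne' h3
  have hin : ∀ m : ℤ, ∑' n : ℤ, hh u (m * (τ : ℂ) + n) =
      π * cot (π * (m * τ)) - 2 * (π * cot (π * (m * τ - u))) + π * cot (π * (m * τ - 2 * u)) := by
    intro m
    by_cases hm : m = 0
    · subst hm
      rw [Int.cast_zero, zero_mul]
      refine tsum_inner (Or.inr rfl) (Or.inl ?_) (Or.inl ?_)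
      · rw [zero_sub]; exact hu1
      · rw [zero_sub]; exact hu2'
    · refine tsum_inner (Or.inl ?_) (Or.inl ?_) (Or.inl ?_)
      · have := him m hm 0
        rwa [Complex.ofReal_zero, add_zero] at this
      · have := him m hm (-(a / M : ℝ))
        rw [hu]
        convert this using 1
        push_cast; ring
      · have := him m hm (-(2 * (a / M : ℝ)))
        rw [hu]
        convert this using 1
        push_cast; ring
  have hS : Summable (fun m : ℤ => ∑' n : ℤ, hh u (m * (τ : ℂ) + n)) := hsum'.prod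
  rw [hK, tsum_int_eq_zero_add_tsum_pnat hS]
  have hi1 : Function.Injective (fun n : ℕ+ => ((n : ℕ) : ℤ)) := fun a b h =>
    PNat.coe_injective (Nat.cast_injective (R := ℤ) h)
  have hi2 : Function.Injective (fun n : ℕ+ => -((n : ℕ) : ℤ)) := fun a b h =>
    hi1 (neg_injective h)
  have hs1 := hS.comp_injective hi1
  have hs2 := hS.comp_injective hi2
  have h0 := hs1.tsum_add hs2
  simp only [Function.comp_def] at h0 hs1 hs2
  rw [add_assoc, ← h0]
  have hpair : ∀ m : ℕ+, (∑' n : ℤ, hh u ((((m : ℕ) : ℤ) : ℂ) * (τ : ℂ) + n)) +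
      (∑' n : ℤ, hh u (((-((m : ℕ) : ℤ) : ℤ) : ℂ) * (τ : ℂ) + n)) =
      -(2 * π * I) * ∑' d : ℕ+, cc (xi M a) d * (Complex.exp (2 * π * I * τ) ^ (m : ℕ)) ^ (d : ℕ) := by
    intro m
    rw [hin, hin]
    have hz : 0 < ((((m : ℕ) : ℤ) : ℂ) * (τ : ℂ)).im := by
      have : (0 : ℝ) < (m : ℕ) := by exact_mod_cast m.pos
      have h3 := τ.im_pos
      simpa using mul_pos this h3
    have h3 := pair_eq (a / M : ℝ) hz
    rw [← hu] at h3
    have e1 : ((-((m : ℕ) : ℤ) : ℤ) : ℂ) * (τ : ℂ) = -((((m : ℕ) : ℤ) : ℂ) * (τ : ℂ)) := by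
      push_cast; ring
    rw [e1, h3, xi, ← hu]
    congr 2
    funext d
    congr 2
    rw [← Complex.exp_nat_mul]
    congr 1
    push_cast
    ring
  have hS0 : (∑' n : ℤ, hh u (((0 : ℤ) : ℂ) * (τ : ℂ) + n)) = 2 * π * I * ec (xi M a) 0 := by
    rw [hin, Int.cast_zero, zero_mul, zero_sub, zero_sub, mul_zero]
    have hc0 : cot (0 : ℂ) = 0 := by rw [Complex.cot, Complex.sin_zero, div_zero]
    rw [hc0, mul_zero, Complex.cot_pi_eq_exp_ratio, Complex.cot_pi_eq_exp_ratio]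
    have e1 : Complex.exp (2 * π * I * (-u)) = (xi M a)⁻¹ := by
      rw [xi, ← hu, ← Complex.exp_neg]; ring_nf
    have e2 : Complex.exp (2 * π * I * (-(2 * u))) = (xi M a ^ 2)⁻¹ := by
      rw [xi, ← hu, ← Complex.exp_nat_mul, ← Complex.exp_neg]
      congr 1
      push_cast
      ring
    rw [e1, e2, ec, if_pos rfl]
    set ξ := xi M a with hξ
    have hξ0 : ξ ≠ 0 := by
      intro h
      have := norm_xi M a
      rw [← hξ, h, norm_zero] at this
      exact zero_ne_one this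
    have hI := Complex.I_ne_zero
    have a1 : ξ - 1 ≠ 0 := sub_ne_zero.mpr hx1
    have a2 : ξ ^ 2 - 1 ≠ 0 := sub_ne_zero.mpr hx2
    have b0 : ∀ x : ℂ, x ≠ 0 → x - 1 ≠ 0 → (x⁻¹ + 1) / (I * (1 - x⁻¹)) = -(I * (x + 1)) / (x - 1) := by
      intro x hx0 hx1
      have hy : x * x⁻¹ = 1 := mul_inv_cancel₀ hx0
      have hy1 : 1 - x⁻¹ ≠ 0 := by
        intro h
        apply hx1
        have : x⁻¹ = 1 := by linear_combination -h
        rw [← inv_inv x, this, inv_one, sub_self]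
      rw [div_eq_div_iff (mul_ne_zero hI hy1) hx1]
      linear_combination 2 * hy + (x + 1) * (1 - x⁻¹) * Complex.I_sq
    have b1 := b0 ξ hξ0 a1
    have b2 := b0 (ξ ^ 2) (pow_ne_zero 2 hξ0) a2
    rw [b1, b2]
    have a3 : ξ + 1 ≠ 0 := by
      intro h
      apply hx2
      have : ξ = -1 := by linear_combination h
      rw [this]; ring
    have e3 : ξ ^ 2 - 1 = (ξ - 1) * (ξ + 1) := by ring
    rw [e3]
    field_simp
    ring
  rw [tsum_congr hpair, tsum_mul_left, hS0]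
  have hr : ‖Complex.exp (2 * π * I * τ)‖ < 1 := UpperHalfPlane.norm_exp_two_pi_I_lt_one τ
  have hD := (tsum_div (norm_xi M a) hr).mul_left (-(2 * π * I))
  have hD2 : HasSum (fun n : ℕ+ => 2 * π * I * ec (xi M a) n *
      Complex.exp (2 * π * I * τ) ^ (n : ℕ)) (-(2 * π * I) *
      ∑' m : ℕ+, ∑' d : ℕ+, cc (xi M a) d * (Complex.exp (2 * π * I * τ) ^ (m : ℕ)) ^ (d : ℕ)) := by
    have e : (fun n : ℕ+ => 2 * π * I * ec (xi M a) n * Complex.exp (2 * π * I * τ) ^ (n : ℕ)) =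
        fun n : ℕ+ => -(2 * π * I) * ((∑ d ∈ (n : ℕ).divisors, cc (xi M a) d) *
          Complex.exp (2 * π * I * τ) ^ (n : ℕ)) := by
      funext n
      rw [ec, if_neg n.ne_zero]
      ring
    rw [e]
    exact hD
  have h5 := (hasSum_pnat_iff (f := fun n : ℕ => 2 * π * I * ec (xi M a) n *
      Complex.exp (2 * π * I * τ) ^ n)).mp hD2
  rw [pow_zero, mul_one, add_comm] at h5
  exact h5

end expansion

end Fermat.Agent.DS1
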