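import Fermat.Agent.EichlerShimura.Functional
import Fermat.Agent.ModFun.LevelOne

/-!
# Function level modular forms
-/

set_option autoImplicit false

noncomputable section

namespace Fermat.Agent.DS1

open UpperHalfPlane hiding I
open Complex Filter Topology Function Metric Asymptotics
open scoped Real Manifold MatrixGroups ModularForm
open Fermat.Agent.EichlerShimura Fermat.Agent.ModFun

local notation "I∞" => comap Complex.im atTop

/-- holomorphic periodic functions bounded at infinity -/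
structure IsR (h : ℝ) (g : ℍ → ℂ) : Prop where
  per : Periodic (g ∘ ofComplex) h
  holo : MDiff g
  bdd : IsBoundedAtImInfty g

variable {h : ℝ} {f g : ℍ → ℂ}

lemma _root_.Fermat.Agent.EichlerShimura.IsQ.isR (hg : IsQ h g) : IsR h g :=
  ⟨hg.per, hg.holo, hg.zero.isBoundedAtImInfty⟩

lemma IsR.add (hf : IsR h f) (hg : IsR h g) : IsR h (f + g) :=
  ⟨fun z => by
    have h1 := hf.per z
    have h2 := hg.per z
    simp only [comp_apply, Pi.add_apply] at h1 h2 ⊢
    rw [h1, h2], hf.holo.add hg.holo, hf.bdd.add hg.bdd⟩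

lemma IsR.mul (hf : IsR h f) (hg : IsR h g) : IsR h (f * g) :=
  ⟨fun z => by
    have h1 := hf.per z
    have h2 := hg.per z
    simp only [comp_apply, Pi.mul_apply] at h1 h2 ⊢
    rw [h1, h2], hf.holo.mul hg.holo, hf.bdd.mul hg.bdd⟩

lemma isR_const (c : ℂ) : IsR h (fun _ => c) :=
  ⟨fun _ => rfl, mdifferentiable_const, const_boundedAtFilter _ _⟩

lemma IsR.smul (c : ℂ) (hf : IsR h f) : IsR h (c • f) :=
  (isR_const c).mul hf

lemma isQ_zero : IsQ h (0 : ℍ → ℂ) :=
  ⟨fun _ => rfl, mdifferentiable_const, zero_zeroAtFilter _⟩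

lemma IsQ.add' (hf : IsQ h f) (hg : IsQ h g) : IsQ h (f + g) :=
  ⟨(hf.isR.add hg.isR).per, hf.holo.add hg.holo, hf.zero.add hg.zero⟩

lemma IsR.mulQ (hf : IsR h f) (hg : IsQ h g) : IsQ h (f * g) := by
  refine ⟨(hf.mul hg.isR).per, hf.holo.mul hg.holo, ?_⟩
  have h1 : Tendsto (fun τ => ‖g τ‖) atImInfty (𝓝 0) := by
    have := hg.zero
    exact tendsto_zero_iff_norm_tendsto_zero.mp this
  obtain ⟨C, hC⟩ := hf.bdd.bound
  refine tendsto_zero_iff_norm_tendsto_zero.mpr ?_
  refine squeeze_zero' (g := fun τ => C * ‖g τ‖) (Eventually.of_forall fun _ => norm_nonneg _) ?_ ?_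
  · filter_upwards [hC] with τ hτ
    simp only [Pi.one_apply, norm_one, mul_one, Pi.mul_apply, norm_mul] at hτ ⊢
    exact mul_le_mul_of_nonneg_right hτ (norm_nonneg _)
  · have := h1.const_mul C
    rwa [mul_zero] at this

lemma IsQ.smul' (c : ℂ) (hf : IsQ h f) : IsQ h (c • f) := (isR_const c).mulQ hf

lemma IsQ.sum {κ : Type*} (s : Finset κ) {F : κ → ℍ → ℂ} (hF : ∀ i ∈ s, IsQ h (F i)) :
    IsQ h (∑ i ∈ s, F i) := by
  classical
  induction s using Finset.induction_on with
  | empty => exact isQ_zero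
  | insert a s ha ih =>
    rw [Finset.sum_insert ha]
    exact IsQ.add' (hF a (Finset.mem_insert_self _ _))
      (ih fun i hi => hF i (Finset.mem_insert_of_mem hi))

lemma IsR.sum {κ : Type*} (s : Finset κ) {F : κ → ℍ → ℂ} (hF : ∀ i ∈ s, IsR h (F i)) :
    IsR h (∑ i ∈ s, F i) := by
  classical
  induction s using Finset.induction_on with
  | empty => exact isR_const 0
  | insert a s ha ih =>
    rw [Finset.sum_insert ha]
    exact (hF a (Finset.mem_insert_self _ _)).add
      (ih fun i hi => hF i (Finset.mem_insert_of_mem hi))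

/-- coefficients -/
def qc (g : ℍ → ℂ) (n : ℕ) : ℂ := (qExpansion 1 g).coeff n

lemma IsR.hasSum (hg : IsR 1 g) (τ : ℍ) :
    HasSum (fun n : ℕ => qc g n * Complex.exp (2 * π * I * τ) ^ n) (g τ) := by
  have := hasSum_qExpansion one_pos hg.per hg.holo hg.bdd τ
  simpa [Periodic.qParam, qc] using this

lemma IsR.analyticAt (hg : IsR 1 g) : AnalyticAt ℂ (cuspFunction 1 g) 0 :=
  analyticAt_cuspFunction_zero one_pos hg.per hg.holo hg.bdd

/-- uniqueness of coefficients -/
lemma IsR.qc_eq (hg : IsR 1 g) {c : ℕ → ℂ}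
    (hc : ∀ τ : ℍ, HasSum (fun n : ℕ => c n * Complex.exp (2 * π * I * τ) ^ n) (g τ)) (n : ℕ) :
    qc g n = c n := by
  have h1 := hasFPowerSeriesOnBall_cuspFunction (f := g) (c := c) one_pos hg.analyticAt
    (fun τ => by simpa [Periodic.qParam] using hc τ)
  have h2 := hasFPowerSeriesOnBall_cuspFunction (f := g) (c := qc g) one_pos hg.analyticAt
    (fun τ => by simpa [Periodic.qParam] using hg.hasSum τ)
  have h3 := h1.hasFPowerSeriesAt.eq_formalMultilinearSeries h2.hasFPowerSeriesAt
  have h4 := congrArg (fun p : FormalMultilinearSeries ℂ ℂ ℂ => p.coeff n) h3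
  simp only [FormalMultilinearSeries.coeff_ofScalars] at h4
  exact h4.symm

lemma qc_mul (hf : IsR 1 f) (hg : IsR 1 g) (n : ℕ) :
    qc (f * g) n = ∑ x ∈ Finset.HasAntidiagonal.antidiagonal n, qc f x.1 * qc g x.2 := by
  rw [qc, qExpansion_mul hf.analyticAt hg.analyticAt, PowerSeries.coeff_mul]
  rfl

lemma qc_add (hf : IsR 1 f) (hg : IsR 1 g) (n : ℕ) : qc (f + g) n = qc f n + qc g n := by
  rw [qc, qExpansion_add hf.analyticAt hg.analyticAt, map_add]
  rfl

lemma qc_smul (hf : IsR 1 f) (c : ℂ) (n : ℕ) : qc (c • f) n = c * qc f n := by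
  rw [qc, qExpansion_smul hf.analyticAt, PowerSeries.coeff_smul]
  rfl

lemma qc_zero (n : ℕ) : qc 0 n = 0 := by
  rw [qc, qExpansion_zero, map_zero]

lemma IsR.eq_zero (hf : IsR 1 f) (h0 : ∀ n, qc f n = 0) : f = 0 := by
  rw [← qExpansion_eq_zero_iff one_pos hf.per hf.holo hf.bdd]
  ext n
  exact h0 n

lemma IsQ.qc_zero' (hf : IsQ 1 f) : qc f 0 = 0 := by
  have h1 := hf.zero.cuspFunction_apply_zero (h := 1) one_pos
  rw [qc, qExpansion_coeff, iteratedDeriv_zero, h1, mul_zero]

/-- a function with a convergent `q`-expansion -/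
lemma isR_of_hasSum {c : ℕ → ℂ}
    (hc : ∀ τ : ℍ, HasSum (fun n : ℕ => c n * Complex.exp (2 * π * I * τ) ^ n) (g τ)) : IsR 1 g := by
  have h1 : ∀ τ : ℍ, HasSum (fun n : ℕ => c n • Periodic.qParam 1 τ ^ n) (g τ) := fun τ => by
    simpa [Periodic.qParam] using hc τ
  have h2 := isBoundedAtImInfty_of_hasSum_qExpansion one_pos h1
  have h3 : Periodic (g ∘ ofComplex) (1 : ℝ) := by
    refine periodic_comp_ofComplex_of fun z w hzw => ?_
    have e : Complex.exp (2 * π * I * w) = Complex.exp (2 * π * I * z) := by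
      rw [hzw, Complex.ofReal_one, mul_add, mul_one, Complex.exp_add, Complex.exp_two_pi_mul_I,
        mul_one]
    have h4 := hc w
    rw [e] at h4
    exact h4.unique (hc z)
  have hP : PConv (PowerSeries.mk c) := by
    intro z hz
    rcases eq_or_ne z 0 with rfl | hz0
    · refine summable_of_ne_finset_zero (s := {0}) fun n hn => ?_
      rw [Finset.mem_singleton] at hn
      simp [hn]
    · have h5 := Periodic.im_invQParam_pos_of_norm_lt_one (h := 1) one_pos hz hz0
      have h6 := (h1 ⟨Periodic.invQParam 1 z, h5⟩).summable.norm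
      refine h6.congr fun n => ?_
      rw [PowerSeries.coeff_mk, smul_eq_mul]
      congr 3
      exact Periodic.qParam_right_inv one_ne_zero hz0
  have h7 : g = fun τ : ℍ => pev (PowerSeries.mk c) (Periodic.qParam 1 τ) := by
    funext τ
    have h8 := hP.hasSum (norm_q_lt_one τ)
    simp only [PowerSeries.coeff_mk] at h8
    exact (h1 τ).unique h8
  refine ⟨h3, ?_, h2⟩
  rw [h7]
  exact mdiff_pev hP

/-! ### growth -/

theorem bdd_of_growth (hh : 0 < h) (per : Periodic (g ∘ ofComplex) h) (holo : MDiff g)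
    {C : ℝ} {k : ℕ} {Y : ℝ} (hgr : ∀ τ : ℍ, Y ≤ τ.im → ‖g τ‖ ≤ C * τ.im ^ k) :
    IsBoundedAtImInfty g := by
  set c := Periodic.cuspFunction h (g ∘ ofComplex) with hc
  have hd : ∀ᶠ z in 𝓝[≠] (0 : ℂ), DifferentiableAt ℂ c z := by
    have h1 : ∀ᶠ z in 𝓝[≠] (0 : ℂ), ‖z‖ < 1 := by
      refine nhdsWithin_le_nhds ?_
      filter_upwards [Metric.ball_mem_nhds (0 : ℂ) one_pos] with z hz
      simpa using hz
    filter_upwards [h1, self_mem_nhdsWithin] with q hq hq0
    have h2 := Periodic.im_invQParam_pos_of_norm_lt_one hh hq hq0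
    have h3 : DifferentiableAt ℂ (g ∘ ofComplex) (Periodic.invQParam h q) := by
      rw [UpperHalfPlane.mdifferentiable_iff] at holo
      exact (holo _ h2).differentiableAt (isOpen_upperHalfPlaneSet.mem_nhds h2)
    have h4 := Periodic.differentiableAt_cuspFunction hh.ne' per h3
    rwa [Periodic.qParam_right_inv hh.ne' hq0] at h4
  have hy : Tendsto (fun y : ℝ => C * y ^ k * Real.exp (-2 * π * y / h)) atTop (𝓝 0) := by
    have h1 := Real.tendsto_pow_mul_exp_neg_atTop_nhds_zero k
    have h2 : Tendsto (fun y : ℝ => (2 * π / h) * y) atTop atTop :=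
      tendsto_id.const_mul_atTop (by positivity)
    have h3 := (h1.comp h2).const_mul (C * (2 * π / h)⁻¹ ^ k)
    rw [mul_zero] at h3
    refine h3.congr fun y => ?_
    have h4 : (2 * π / h) ≠ 0 := by positivity
    simp only [comp_apply]
    rw [mul_pow, inv_pow]
    have e : -(2 * π / h * y) = -2 * π * y / h := by ring
    rw [e]
    field_simp
  have hq : Tendsto (fun q : ℂ => q * c q) (𝓝[≠] 0) (𝓝 0) := by
    have h1 : Tendsto (fun q : ℂ => (Periodic.invQParam h q).im) (𝓝[≠] 0) atTop :=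
      tendsto_comap.comp (Periodic.invQParam_tendsto hh)
    refine tendsto_zero_iff_norm_tendsto_zero.mpr ?_
    refine squeeze_zero' (Eventually.of_forall fun _ => norm_nonneg _) ?_ (hy.comp h1)
    have h2 := h1.eventually (eventually_ge_atTop (max Y 1))
    filter_upwards [h2, self_mem_nhdsWithin] with q h3 hq0
    have h4 : 0 < (Periodic.invQParam h q).im := lt_of_lt_of_le one_pos ((le_max_right _ _).trans h3)
    rw [hc, Periodic.cuspFunction_eq_of_nonzero _ _ hq0, comp_apply, norm_mul,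
      ofComplex_apply_of_im_pos h4, comp_apply]
    have h5 := hgr ⟨_, h4⟩ ((le_max_left _ _).trans h3)
    have h6 : ‖q‖ = Real.exp (-2 * π * (Periodic.invQParam h q).im / h) := by
      rw [← Periodic.norm_qParam, Periodic.qParam_right_inv hh.ne' hq0]
    rw [h6, mul_comm]
    exact mul_le_mul_of_nonneg_right h5 (Real.exp_pos _).le
  have ho : (fun z => c z - c 0) =o[𝓝[≠] 0] fun z => (z - 0)⁻¹ := by
    rw [isLittleO_iff_tendsto']
    · have h1 : Tendsto (fun q : ℂ => q * c 0) (𝓝[≠] 0) (𝓝 0) := by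
        have := (tendsto_id (α := ℂ) (x := 𝓝 0)).mul_const (c 0)
        rw [zero_mul] at this
        exact this.mono_left nhdsWithin_le_nhds
      have h2 := hq.sub h1
      rw [sub_zero] at h2
      refine h2.congr fun q => ?_
      rw [sub_zero, div_inv_eq_mul]
      ring
    · filter_upwards [self_mem_nhdsWithin] with q hq0 h1
      rw [sub_zero, inv_eq_zero] at h1
      exact absurd h1 hq0
  have hlim := Complex.tendsto_limUnder_of_differentiable_on_punctured_nhds_of_isLittleO hd ho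
  have h7 : Tendsto g atImInfty (𝓝 (limUnder (𝓝[≠] 0) c)) := by
    have h8 : Tendsto (fun τ : ℍ => Periodic.qParam h τ) atImInfty (𝓝[≠] 0) :=
      (Periodic.qParam_tendsto hh).comp tendsto_coe_atImInfty
    refine (hlim.comp h8).congr fun τ => ?_
    rw [comp_apply, hc, Periodic.eq_cuspFunction hh.ne' per, comp_apply, ofComplex_apply]
  exact h7.isBigO_one ℝ

end Fermat.Agent.DS1
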