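import Fermat.Agent.DS1.Eis3
import Fermat.Agent.DS1.Fun

/-!
# The Eisenstein series are modular forms
-/

set_option autoImplicit false
set_option maxHeartbeats 400000

noncomputable section

namespace Fermat.Agent.DS1

open UpperHalfPlane hiding I
open Complex Filter Topology Function Metric Asymptotics EisensteinSeries
open scoped Real Manifold MatrixGroups ModularForm Matrix
open Fermat.Agent.EichlerShimura Fermat.Agent.ModFun

/-- forms with all translates regular -/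
def IsM (M : ℕ) (k : ℤ) (G : ℍ → ℂ) : Prop := ∀ δ : SL(2, ℤ), IsR M (G ∣[k] δ)

/-- forms with all translates vanishing at infinity -/
def IsS (M : ℕ) (k : ℤ) (G : ℍ → ℂ) : Prop := ∀ δ : SL(2, ℤ), IsQ M (G ∣[k] δ)

lemma IsS.isM {M : ℕ} {k : ℤ} {G : ℍ → ℂ} (h : IsS M k G) : IsM M k G := fun δ => (h δ).isR

lemma IsM.mul {M : ℕ} {k l : ℤ} {G H : ℍ → ℂ} (hG : IsM M k G) (hH : IsM M l H) :
    IsM M (k + l) (G * H) := fun δ => by
  rw [ModularForm.mul_slash_SL2]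
  exact (hG δ).mul (hH δ)

lemma IsM.mulS {M : ℕ} {k l : ℤ} {G H : ℍ → ℂ} (hG : IsM M k G) (hH : IsS M l H) :
    IsS M (k + l) (G * H) := fun δ => by
  rw [ModularForm.mul_slash_SL2]
  exact (hG δ).mulQ (hH δ)

lemma IsM.slash {M : ℕ} {k : ℤ} {G : ℍ → ℂ} (hG : IsM M k G) (δ : SL(2, ℤ)) :
    IsM M k (G ∣[k] δ) := fun δ' => by
  rw [← SlashAction.slash_mul]
  exact hG _

lemma IsS.slash {M : ℕ} {k : ℤ} {G : ℍ → ℂ} (hG : IsS M k G) (δ : SL(2, ℤ)) :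
    IsS M k (G ∣[k] δ) := fun δ' => by
  rw [← SlashAction.slash_mul]
  exact hG _

lemma IsM.add {M : ℕ} {k : ℤ} {G H : ℍ → ℂ} (hG : IsM M k G) (hH : IsM M k H) :
    IsM M k (G + H) := fun δ => by
  rw [SlashAction.add_slash]
  exact (hG δ).add (hH δ)

lemma IsS.add {M : ℕ} {k : ℤ} {G H : ℍ → ℂ} (hG : IsS M k G) (hH : IsS M k H) :
    IsS M k (G + H) := fun δ => by
  rw [SlashAction.add_slash]
  exact IsQ.add' (hG δ) (hH δ)

lemma IsM.smul {M : ℕ} {k : ℤ} {G : ℍ → ℂ} (c : ℂ) (hG : IsM M k G) : IsM M k (c • G) := fun δ => by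
  rw [ModularForm.SL_smul_slash]
  exact (hG δ).smul c

lemma IsS.smul {M : ℕ} {k : ℤ} {G : ℍ → ℂ} (c : ℂ) (hG : IsS M k G) : IsS M k (c • G) := fun δ => by
  rw [ModularForm.SL_smul_slash]
  exact IsQ.smul' c (hG δ)

lemma isS_zero (M : ℕ) (k : ℤ) : IsS M k 0 := fun δ => by
  rw [SlashAction.zero_slash]
  exact isQ_zero

lemma isM_zero (M : ℕ) (k : ℤ) : IsM M k 0 := (isS_zero M k).isM

lemma IsS.sum {κ : Type*} {M : ℕ} {k : ℤ} (s : Finset κ) {F : κ → ℍ → ℂ}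
    (hF : ∀ i ∈ s, IsS M k (F i)) : IsS M k (∑ i ∈ s, F i) := by
  classical
  induction s using Finset.induction_on with
  | empty => exact isS_zero M k
  | insert a s ha ih =>
    rw [Finset.sum_insert ha]
    exact (hF a (Finset.mem_insert_self _ _)).add (ih fun i hi => hF i (Finset.mem_insert_of_mem hi))

lemma IsM.sum {κ : Type*} {M : ℕ} {k : ℤ} (s : Finset κ) {F : κ → ℍ → ℂ}
    (hF : ∀ i ∈ s, IsM M k (F i)) : IsM M k (∑ i ∈ s, F i) := by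
  classical
  induction s using Finset.induction_on with
  | empty => exact isM_zero M k
  | insert a s ha ih =>
    rw [Finset.sum_insert ha]
    exact (hF a (Finset.mem_insert_self _ _)).add (ih fun i hi => hF i (Finset.mem_insert_of_mem hi))

/-! ### Eisenstein series -/

lemma IsR.dvd {h : ℝ} {g : ℍ → ℂ} (hg : IsR h g) (n : ℕ) : IsR (n * h) g := by
  refine ⟨?_, hg.holo, hg.bdd⟩
  have := hg.per.nat_mul n
  intro z
  have h1 := this z
  push_cast at h1 ⊢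
  exact h1

lemma isQ_dvd {h : ℝ} {g : ℍ → ℂ} (hg : IsQ h g) (n : ℕ) : IsQ (n * h) g :=
  ⟨(hg.isR.dvd n).per, hg.holo, hg.zero⟩

lemma IsM.of_dvd {M M' : ℕ} {k : ℤ} {G : ℍ → ℂ} (hG : IsM M k G) (h : M ∣ M') : IsM M' k G := by
  obtain ⟨n, rfl⟩ := h
  intro δ
  have := (hG δ).dvd n
  convert this using 1
  push_cast; ring

lemma IsS.of_dvd {M M' : ℕ} {k : ℤ} {G : ℍ → ℂ} (hG : IsS M k G) (h : M ∣ M') : IsS M' k G := by
  obtain ⟨n, rfl⟩ := h
  intro δ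
  have := isQ_dvd (hG δ) n
  convert this using 1
  push_cast; ring

section eis

variable {M : ℕ} (hM : 0 < M)

lemma ND.neg {b : Fin 2 → ℤ} (hb : ND M b) : ND M (-b) := fun x h => by
  apply hb (-x)
  rw [smul_neg, sub_neg_eq_add]
  have : -(-b - (M : ℤ) • x) = 0 := by rw [h, neg_zero]
  rw [← this]; abel

lemma ND.vm {b : Fin 2 → ℤ} (hb : ND M b) (γ : SL(2, ℤ)) : ND M (b ᵥ* γ) := by
  intro x hx
  apply hb (x ᵥ* (γ⁻¹ : SL(2, ℤ)))
  have h1 : b ᵥ* (γ : Matrix (Fin 2) (Fin 2) ℤ) = (M : ℤ) • x := sub_eq_zero.mp hx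
  have h2 : ((γ : SL(2, ℤ)) : Matrix (Fin 2) (Fin 2) ℤ) * ((γ⁻¹ : SL(2, ℤ)) : Matrix (Fin 2) (Fin 2) ℤ)
      = 1 := congrArg Subtype.val (mul_inv_cancel γ)
  have h3 := congrArg (fun v : Fin 2 → ℤ => v ᵥ* ((γ⁻¹ : SL(2, ℤ)) : Matrix (Fin 2) (Fin 2) ℤ)) h1
  simp only [Matrix.vecMul_vecMul, h2, Matrix.vecMul_one, Matrix.smul_vecMul] at h3
  rw [h3, sub_self]

lemma ND.vm2 {b : Fin 2 → ℤ} (hb : ND M ((2 : ℤ) • b)) (γ : SL(2, ℤ)) :
    ND M ((2 : ℤ) • (b ᵥ* γ)) := by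
  have := hb.vm γ
  rwa [Matrix.smul_vecMul] at this

include hM in
lemma Kf_add_nsmul {b : Fin 2 → ℤ} (hb : ND M b) (hb2 : ND M ((2 : ℤ) • b)) (i : Fin 2) (n : ℕ) :
    Kf M (b + ((n : ℤ) * M) • ue i) = Kf M b := by
  induction n with
  | zero => simp
  | succ n ih =>
    have e1 : b + (((n + 1 : ℕ) : ℤ) * M) • ue i = (b + ((n : ℤ) * M) • ue i) + (M : ℤ) • ue i := by
      rw [add_assoc, ← add_smul]
      congr 2
      push_cast
      ring
    have e2 : b + ((n : ℤ) * M) • ue i = b + (M : ℤ) • ((n : ℤ) • ue i) := by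
      rw [smul_smul, mul_comm]
    have h1 : ND M (b + ((n : ℤ) * M) • ue i) := by
      rw [e2]; exact hb.add _
    have h2 : ND M ((2 : ℤ) • (b + ((n : ℤ) * M) • ue i)) := by
      rw [e2, smul_add, smul_comm (2 : ℤ) (M : ℤ)]
      exact hb2.add _
    rw [e1, ← ih]
    funext τ
    exact Kf_add_unit hM h1 h2 i τ

include hM in
lemma Kf_add_zsmul {b : Fin 2 → ℤ} (hb : ND M b) (hb2 : ND M ((2 : ℤ) • b)) (i : Fin 2) (n : ℤ) :
    Kf M (b + (n * M) • ue i) = Kf M b := by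
  obtain ⟨k, rfl | rfl⟩ := n.eq_nat_or_neg
  · exact Kf_add_nsmul hM hb hb2 i k
  · have e2 : b + (-(k : ℤ) * M) • ue i = b + (M : ℤ) • ((-(k : ℤ)) • ue i) := by
      rw [smul_smul, mul_comm]
    have h1 : ND M (b + (-(k : ℤ) * M) • ue i) := by
      rw [e2]; exact hb.add _
    have h2 : ND M ((2 : ℤ) • (b + (-(k : ℤ) * M) • ue i)) := by
      rw [e2, smul_add, smul_comm (2 : ℤ) (M : ℤ)]
      exact hb2.add _
    have h3 := Kf_add_nsmul hM h1 h2 i k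
    rw [← h3, add_assoc, ← add_smul]
    simp

include hM in
/-- periodicity in the index -/
lemma Kf_add {b : Fin 2 → ℤ} (hb : ND M b) (hb2 : ND M ((2 : ℤ) • b)) (c : Fin 2 → ℤ) :
    Kf M (b + (M : ℤ) • c) = Kf M b := by
  have e : b + (M : ℤ) • c = (b + (c 0 * M) • ue 0) + (c 1 * M) • ue 1 := by
    ext i
    fin_cases i <;> simp [ue, mul_comm]
  have e2 : b + (c 0 * M) • ue 0 = b + (M : ℤ) • (c 0 • ue 0) := by
    rw [smul_smul, mul_comm]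
  have h1 : ND M (b + (c 0 * M) • ue 0) := by
    rw [e2]; exact hb.add _
  have h2 : ND M ((2 : ℤ) • (b + (c 0 * M) • ue 0)) := by
    rw [e2, smul_add, smul_comm (2 : ℤ) (M : ℤ)]
    exact hb2.add _
  rw [e, Kf_add_zsmul hM h1 h2, Kf_add_zsmul hM hb hb2]

include hM in
lemma Kf_congr {b b' : Fin 2 → ℤ} (hb : ND M b) (hb2 : ND M ((2 : ℤ) • b))
    (h0 : (M : ℤ) ∣ b' 0 - b 0) (h1 : (M : ℤ) ∣ b' 1 - b 1) : Kf M b' = Kf M b := by
  obtain ⟨x, hx⟩ := h0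
  obtain ⟨y, hy⟩ := h1
  rw [← Kf_add hM hb hb2 ![x, y]]
  congr 1
  ext i
  fin_cases i
  · simp only [Fin.zero_eta, Fin.isValue, Pi.add_apply, Pi.smul_apply, Matrix.cons_val_zero,
      smul_eq_mul, ← hx]; ring
  · simp only [Fin.mk_one, Fin.isValue, Pi.add_apply, Pi.smul_apply, Matrix.cons_val_one,
      Matrix.cons_val_fin_one, smul_eq_mul, ← hy]; ring

include hM in
lemma Kf_periodic {b : Fin 2 → ℤ} (hb : ND M b) (hb2 : ND M ((2 : ℤ) • b)) :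
    Periodic (Kf M b ∘ ofComplex) (M : ℝ) := by
  refine periodic_comp_ofComplex_of fun z w hzw => ?_
  have h1 : w = (ModularGroup.T ^ (M : ℤ)) • z := by
    rw [modular_T_zpow_smul]
    apply UpperHalfPlane.ext
    rw [hzw, UpperHalfPlane.coe_vadd]
    push_cast; ring
  have h2 := Kf_smul M b (ModularGroup.T ^ (M : ℤ)) z
  rw [← h1] at h2
  have h3 : denom ((ModularGroup.T ^ (M : ℤ) : SL(2,ℤ)) : GL (Fin 2) ℝ) z = 1 := by
    rw [ModularGroup.denom_apply]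
    have := ModularGroup.coe_T_zpow (M : ℤ)
    have e10 : (ModularGroup.T ^ (M : ℤ) : SL(2,ℤ)) 1 0 = 0 := congrFun (congrFun this 1) 0
    have e11 : (ModularGroup.T ^ (M : ℤ) : SL(2,ℤ)) 1 1 = 1 := congrFun (congrFun this 1) 1
    rw [e10, e11]
    simp
  rw [h3, one_mul] at h2
  rw [h2]
  refine congrFun (Kf_congr hM hb hb2 ?_ ?_) z
  · have := ModularGroup.coe_T_zpow (M : ℤ)
    rw [this]
    simp [Matrix.vecMul, dotProduct, Fin.sum_univ_two]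
  · have := ModularGroup.coe_T_zpow (M : ℤ)
    rw [this]
    simp [Matrix.vecMul, dotProduct, Fin.sum_univ_two]

include hM in
lemma Kf_growth {b : Fin 2 → ℤ} (hb : ND M b) (hb2 : ND M ((2 : ℤ) • b)) :
    ∃ C : ℝ, ∀ τ : ℍ, 1 ≤ τ.im → ‖Kf M b τ‖ ≤ C * τ.im ^ 2 := by
  have hMr : (1 : ℝ) ≤ M := by exact_mod_cast hM
  -- on the strip
  have h1 : ∃ C : ℝ, 0 ≤ C ∧ ∀ τ : ℍ, |τ.re| ≤ M → 1 ≤ τ.im → ‖Kf M b τ‖ ≤ C * τ.im ^ 2 := by
    set r0 := r ⟨⟨(M : ℝ), 1⟩, one_pos⟩ with hr0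
    have hr0' : 0 < r0 := r_pos _
    set S : ℝ := ∑' x : Fin 2 → ℤ, (‖x‖⁻¹) ^ 3 with hS
    have hS0 : 0 ≤ S := tsum_nonneg fun x => by positivity
    set D : ℝ := |(b 0 : ℝ)| * (M + 1) + |(b 1 : ℝ)| with hD
    have hD0 : 0 ≤ D := by positivity
    have hbn : b ≠ 0 := by
      have := hb 0
      rwa [smul_zero, sub_zero] at this
    have hbn' : 0 < ‖b‖ := norm_pos_iff.mpr hbn
    refine ⟨3 / 2 * (r0 * ‖b‖ / M)⁻¹ + 2 * D ^ 2 * (1 + ‖b‖) * (1 + ‖(2 : ℤ) • b‖) * (r0⁻¹) ^ 3 * S,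
      by positivity, ?_⟩
    intro τ hre him
    have hr : r0 ≤ r τ := r_lower_bound_on_verticalStrip τ one_pos ⟨hre, him⟩
    have hz1 : r0 * ‖b‖ / M ≤ ‖zz M b τ‖ := by
      rw [zz, norm_div, show ‖(M : ℂ)‖ = (M : ℝ) by simp]
      gcongr
      exact (mul_le_mul_of_nonneg_right hr (norm_nonneg _)).trans (r_mul_max_le τ hbn)
    have hz2 : ‖zz M b τ‖ ≤ D * τ.im := by
      rw [zz, norm_div, show ‖(M : ℂ)‖ = (M : ℝ) by simp]
      have h3 : ‖(τ : ℂ)‖ ≤ M + τ.im := by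
        refine (Complex.norm_le_abs_re_add_abs_im _).trans ?_
        have : |(τ : ℂ).im| = τ.im := abs_of_pos τ.im_pos
        rw [this]
        exact add_le_add_left hre _
      have h4 : ‖pt b τ‖ ≤ D * τ.im := by
        rw [pt]
        refine (norm_add_le _ _).trans ?_
        rw [norm_mul, Complex.norm_intCast, Complex.norm_intCast, hD]
        have h5 : |(b 0 : ℝ)| * ‖(τ : ℂ)‖ ≤ |(b 0 : ℝ)| * ((M + 1) * τ.im) := by
          refine mul_le_mul_of_nonneg_left ?_ (abs_nonneg _)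
          nlinarith
        have h6 : |(b 1 : ℝ)| ≤ |(b 1 : ℝ)| * τ.im := le_mul_of_one_le_right (abs_nonneg _) him
        nlinarith
      calc ‖pt b τ‖ / M ≤ ‖pt b τ‖ := div_le_self (norm_nonneg _) hMr
        _ ≤ _ := h4
    refine (norm_Kf_le hM hb hb2 τ).trans ?_
    rw [← hS, add_mul]
    have hy : (1 : ℝ) ≤ τ.im ^ 2 := one_le_pow₀ him
    refine add_le_add ?_ ?_
    · have h7 : hh (zz M b τ) 0 = (3 / 2) * (zz M b τ)⁻¹ := by
        rw [hh, inv_zero, zero_add, sub_zero, sub_zero, mul_inv]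
        ring
      rw [h7, norm_mul, norm_inv]
      have h8 : (‖zz M b τ‖)⁻¹ ≤ (r0 * ‖b‖ / M)⁻¹ := by
        gcongr
      have h9 : ‖(3 / 2 : ℂ)‖ = 3 / 2 := by norm_num
      rw [h9]
      calc 3 / 2 * ‖zz M b τ‖⁻¹ ≤ 3 / 2 * (r0 * ‖b‖ / M)⁻¹ := by gcongr
        _ ≤ 3 / 2 * (r0 * ‖b‖ / M)⁻¹ * τ.im ^ 2 := le_mul_of_one_le_right (by positivity) hy
    · have h10 : (r τ)⁻¹ ≤ r0⁻¹ := by gcongr
      have h11 : 0 < r τ := r_pos τ
      calc 2 * ‖zz M b τ‖ ^ 2 * (1 + ‖b‖) * (1 + ‖(2 : ℤ) • b‖) * (r τ)⁻¹ ^ 3 * S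
          ≤ 2 * (D * τ.im) ^ 2 * (1 + ‖b‖) * (1 + ‖(2 : ℤ) • b‖) * r0⁻¹ ^ 3 * S := by gcongr
        _ = _ := by ring
  obtain ⟨C, hC0, hC⟩ := h1
  refine ⟨C, fun τ him => ?_⟩
  -- reduce to the strip
  set n : ℤ := -⌊τ.re / M⌋ with hn
  set τ' : ℍ := (ModularGroup.T ^ ((M : ℤ) * n)) • τ with hτ'
  have e1 : (τ' : ℂ) = τ + (M : ℂ) * n := by
    rw [hτ', modular_T_zpow_smul, UpperHalfPlane.coe_vadd]
    push_cast; ring
  have him' : τ'.im = τ.im := by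
    have := congrArg Complex.im e1
    have h2 : ((M : ℂ) * n).im = 0 := by
      simp
    rw [Complex.add_im, h2, add_zero] at this
    exact this
  have hre' : τ'.re = τ.re + M * n := by
    have := congrArg Complex.re e1
    have h2 : ((M : ℂ) * n).re = M * n := by
      simp
    rw [Complex.add_re, h2] at this
    exact this
  have hre : |τ'.re| ≤ M := by
    rw [hre', hn]
    have h3 := Int.floor_le (τ.re / M)
    have h4 := Int.lt_floor_add_one (τ.re / M)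
    have hM0 : (0 : ℝ) < M := by linarith
    rw [le_div_iff₀ hM0] at h3
    rw [div_lt_iff₀ hM0] at h4
    push_cast
    rw [abs_le]
    constructor <;> nlinarith
  have h5 := hC τ' hre (by rw [him']; exact him)
  rw [him'] at h5
  have h6 : Kf M b τ' = Kf M b τ := by
    have hp := (Kf_periodic hM hb hb2).int_mul n
    have h7 := hp (τ : ℂ)
    simp only [comp_apply] at h7
    have h8 : ((τ : ℂ) + (n : ℂ) * ((M : ℝ) : ℂ)) = (τ' : ℂ) := by
      rw [e1]; push_cast; ring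
    rw [h8, ofComplex_apply, ofComplex_apply] at h7
    exact h7
  rwa [h6] at h5

include hM in
lemma Kf_mdiff {b : Fin 2 → ℤ} (hb : ND M b) (hb2 : ND M ((2 : ℤ) • b)) : MDiff (Kf M b) := by
  have hbn : ¬ (b 0 = 0 ∧ b 1 = 0) := by
    rintro ⟨h0, h1⟩
    apply hb 0
    ext i
    fin_cases i
    · simpa using h0
    · simpa using h1
  obtain ⟨x, y, hc, h0, h1⟩ := Int.exists_gcd_one (Int.gcd_pos_iff.mpr (by tauto : b 0 ≠ 0 ∨ b 1 ≠ 0))
  obtain ⟨g, hg⟩ : ∃ g : ℤ, g = ((Int.gcd (b 0) (b 1) : ℕ) : ℤ) := ⟨_, rfl⟩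
  rw [← hg] at h0 h1
  obtain ⟨γ, hγ0, hγ1⟩ := (Int.isCoprime_iff_gcd_eq_one.mpr hc).exists_SL2_row 1
  have e : b = vec g ᵥ* γ := by
    ext i
    fin_cases i
    · simp [vec, Matrix.vecMul, dotProduct, Fin.sum_univ_two, hγ0, h0, mul_comm]
    · simp [vec, Matrix.vecMul, dotProduct, Fin.sum_univ_two, hγ1, h1, mul_comm]
  have e' : vec g = b ᵥ* (γ⁻¹ : SL(2, ℤ)) := by
    have h2 : ((γ : SL(2, ℤ)) : Matrix (Fin 2) (Fin 2) ℤ) * ((γ⁻¹ : SL(2, ℤ)) : Matrix (Fin 2) (Fin 2) ℤ)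
      = 1 := congrArg Subtype.val (mul_inv_cancel γ)
    rw [e, Matrix.vecMul_vecMul, h2, Matrix.vecMul_one]
  have n1 : ND M (vec g) := by rw [e']; exact hb.vm _
  have n2 : ND M ((2 : ℤ) • vec g) := by rw [e']; exact hb2.vm2 _
  have h3 : MDiff (Kf M (vec g)) := (isR_of_hasSum (hasSum_Kf hM n1 n2)).holo
  rw [e, ← Kf_slash, ModularForm.SL_slash]
  exact h3.slash 1 _

include hM in
theorem isR_Kf {b : Fin 2 → ℤ} (hb : ND M b) (hb2 : ND M ((2 : ℤ) • b)) : IsR M (Kf M b) := by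
  have hp := Kf_periodic hM hb hb2
  have hd := Kf_mdiff hM hb hb2
  obtain ⟨C, hC⟩ := Kf_growth hM hb hb2
  exact ⟨hp, hd, bdd_of_growth (by exact_mod_cast hM) hp hd hC⟩

include hM in
theorem isM_Kf {b : Fin 2 → ℤ} (hb : ND M b) (hb2 : ND M ((2 : ℤ) • b)) : IsM M 1 (Kf M b) := by
  intro δ
  rw [Kf_slash]
  exact isR_Kf hM (hb.vm δ) (ND.vm2 hb2 δ)

end eis

end Fermat.Agent.DS1
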