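import Fermat.Agent.DS1.GrpF

/-!
# Deligne-Serre (E), VII: irreducibility, and the proof of `EStatement`
-/

set_option autoImplicit false
set_option linter.style.haveILetI false
set_option linter.unusedSectionVars false

noncomputable section

namespace Fermat.Agent.DS1

open Matrix NumberField Filter Topology Asymptotics FrobDens IsLocalRing

local notation "Qbar" => AlgebraicClosure ℚ
local notation "OO" => integralClosure ℤ (AlgebraicClosure ℚ)
local notation "GQ" => (AlgebraicClosure ℚ ≃ₐ[ℚ] AlgebraicClosure ℚ)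

/-- the Rankin bound gives an upper bound for the norm of the character -/
theorem norm_sum_le {N : ℕ} (hN : N ≠ 0) {ι : Qbar →+* ℂ} {α e : ℕ → Qbar} {M₀ : ℕ}
    (hM₀ : 0 < M₀) (hr : Roots N M₀ α e) (hR : ∀ τ : GQ, RankinBound N (fun p => ι (τ (α p))))
    (L : IntermediateField ℚ Qbar) [FiniteDimensional ℚ L] [IsGalois ℚ L]
    (r : (L ≃ₐ[ℚ] L) →* GL (Fin 2) ℂ)
    (hfrob : ∀ ℓ : Nat.Primes, ¬ (ℓ : ℕ) ∣ N →
      ((r (res L (frb ℓ)) : GL (Fin 2) ℂ) : Matrix (Fin 2) (Fin 2) ℂ).trace = ι (α ℓ) ∧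
      ((r (res L (frb ℓ)) : GL (Fin 2) ℂ) : Matrix (Fin 2) (Fin 2) ℂ).det = ι (e ℓ)) :
    ∑ g, ‖tr r g‖ ^ 2 ≤ (Fintype.card (L ≃ₐ[ℚ] L) : ℝ) := by
  classical
  set n : ℕ := Fintype.card (L ≃ₐ[ℚ] L) with hn
  have hn0 : 0 < n := Fintype.card_pos
  set M : ℕ := M₀ * n with hM
  haveI : NeZero M := ⟨by positivity⟩
  have hnM : Fintype.card (L ≃ₐ[ℚ] L) ∣ M := ⟨M₀, by rw [hM, mul_comm]⟩
  choose τ hτ using exists_gal_pow M
  have key : ∀ ℓ : Nat.Primes, ¬ (ℓ : ℕ) ∣ N → avg r M (res L (frb ℓ)) =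
      ∑ k : (ZMod M)ˣ, ‖ι (τ k (α ℓ))‖ ^ 2 := by
    intro ℓ hℓ
    unfold avg
    refine Finset.sum_congr rfl fun k _ => ?_
    obtain ⟨x, y, h1, h2, h3, h4⟩ := hr.exists_pair hM₀ ℓ.2 hℓ
    have h3' : (x : Qbar) ^ M = 1 := by
      have := congrArg (fun z : OO => (z : Qbar)) h3
      have h5 : (x : Qbar) ^ M₀ = 1 := this
      rw [hM, pow_mul, h5, one_pow]
    have h4' : (y : Qbar) ^ M = 1 := by
      have := congrArg (fun z : OO => (z : Qbar)) h4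
      have h5 : (y : Qbar) ^ M₀ = 1 := this
      rw [hM, pow_mul, h5, one_pow]
    have h5 : tr r (res L (frb ℓ) ^ (k : ZMod M).val) = ι (τ k (α ℓ)) := by
      unfold tr
      rw [map_pow, Units.val_pow_eq_pow_val, trace_pow_of (a := ι x) (b := ι y), ← h1, map_add,
        hτ k x h3', hτ k y h4', map_add, map_pow, map_pow]
      · rw [(hfrob ℓ hℓ).1, ← h1, map_add]
      · rw [(hfrob ℓ hℓ).2, ← h2, map_mul]
    rw [h5]
  have h1 := avg_isBigO (L := L) (F := avg r M) (fun g g' h => avg_zpowers r M hnM h)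
    (fun g h => avg_conj r M g h)
  -- comparison of coefficients
  obtain ⟨S, hS⟩ := exists_finset_primes (m := (N : ℤ)) (by exact_mod_cast hN)
  have hpos : ∀ g, 0 ≤ avg r M g := fun g => by unfold avg; positivity
  set b : Nat.Primes → ℝ := fun ℓ => (n : ℝ) * ∑ k : (ZMod M)ˣ,
    (if (ℓ : ℕ) ∣ N then 0 else ‖ι (τ k (α ℓ))‖ ^ 2) with hb
  have hab : ∀ ℓ : Nat.Primes, ¬ (ℓ : ℕ) ∣ N → (n : ℝ) * avg r M (res L (frb ℓ)) = b ℓ := by
    intro ℓ hℓ
    rw [key ℓ hℓ, hb]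
    simp only [if_neg hℓ]
  have hA : ∀ ℓ : Nat.Primes, |(n : ℝ) * avg r M (res L (frb ℓ))| ≤ (n : ℝ) * ∑ g, avg r M g := by
    intro ℓ
    rw [abs_of_nonneg (mul_nonneg (by positivity) (hpos _))]
    exact mul_le_mul_of_nonneg_left (Finset.single_le_sum (fun g _ => hpos g)
      (Finset.mem_univ _)) (by positivity)
  have hB : ∀ ℓ : Nat.Primes, |b ℓ| ≤ (n : ℝ) * ∑ g, avg r M g := by
    intro ℓ
    by_cases hℓ : (ℓ : ℕ) ∣ N
    · have : b ℓ = 0 := by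
        rw [hb]
        simp [hℓ]
      rw [this, abs_zero]
      exact mul_nonneg (by positivity) (Finset.sum_nonneg fun g _ => hpos g)
    · rw [← hab ℓ hℓ]
      exact hA ℓ
  have h2 := pser_sub_isBigO hA hB S fun ℓ hℓ => hab ℓ fun hd => hS ℓ hℓ (by exact_mod_cast hd)
  have h3 := h1.sub h2
  have h4 : (fun s => pser b s - (∑ g, avg r M g) * (-Real.log (s - 1))) =O[𝓝[>] 1]
      (fun _ => (1 : ℝ)) := by
    refine h3.congr_left fun s => ?_
    ring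
  choose C hC using fun k => hR (τ k)
  have h5 : ∀ s : ℝ, 1 < s → s ≤ 2 → pser b s ≤
      ((n : ℝ) * (Fintype.card (ZMod M)ˣ : ℝ)) * (-Real.log (s - 1)) + n * ∑ k, C k := by
    intro s hs1 hs2
    have e1 : pser b s = (n : ℝ) * ∑ k : (ZMod M)ˣ, ∑' ℓ : Nat.Primes,
        (if (ℓ : ℕ) ∣ N then 0 else ‖ι (τ k (α ℓ))‖ ^ 2) * ((ℓ : ℕ) : ℝ) ^ (-s) := by
      rw [← Summable.tsum_finsetSum (fun k _ => (hC k s hs1 hs2).1), ← tsum_mul_left]
      unfold pser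
      refine tsum_congr fun ℓ => ?_
      rw [hb, ← Finset.sum_mul, mul_assoc]
    rw [e1]
    have e2 : ∑ k : (ZMod M)ˣ, ∑' ℓ : Nat.Primes,
        (if (ℓ : ℕ) ∣ N then 0 else ‖ι (τ k (α ℓ))‖ ^ 2) * ((ℓ : ℕ) : ℝ) ^ (-s) ≤
        ∑ k : (ZMod M)ˣ, (-Real.log (s - 1) + C k) := by
      refine Finset.sum_le_sum fun k _ => ?_
      have := (hC k s hs1 hs2).2
      rwa [one_div, Real.log_inv] at this
    rw [Finset.sum_add_distrib, Finset.sum_const, Finset.card_univ, nsmul_eq_mul] at e2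
    have e3 := mul_le_mul_of_nonneg_left e2 (Nat.cast_nonneg (α := ℝ) n)
    refine e3.trans (le_of_eq ?_)
    ring
  have h6 := le_of_isBigO h4 h5
  rw [sum_avg r M hnM, mul_comm (n : ℝ)] at h6
  have hcard : (0 : ℝ) < (Fintype.card (ZMod M)ˣ : ℝ) := by exact_mod_cast Fintype.card_pos
  exact le_of_mul_le_mul_left h6 hcard

/-- a two-dimensional representation without common eigenvectors is irreducible -/
theorem irred_of_no_eigen {G : Type} [Group G] (ρ : G →* GL (Fin 2) ℂ)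
    (h : ∀ v : Fin 2 → ℂ, v ≠ 0 → ¬ ∀ g : G, ∃ c : ℂ,
      ((ρ g : GL (Fin 2) ℂ) : Matrix (Fin 2) (Fin 2) ℂ) *ᵥ v = c • v) :
    (Deformation.matrixRepresentation ρ).IsIrreducible := by
  have hbt : (⊥ : Subrepresentation (Deformation.matrixRepresentation ρ)) ≠ ⊤ := by
    intro hbt
    have h1 : (fun _ => 1 : Fin 2 → ℂ) ∈
        (⊥ : Subrepresentation (Deformation.matrixRepresentation ρ)) := by
      rw [hbt]; trivial
    have h2 : (fun _ => 1 : Fin 2 → ℂ) = 0 := h1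
    have := congrFun h2 0
    exact one_ne_zero this
  haveI : Nontrivial (Subrepresentation (Deformation.matrixRepresentation ρ)) := ⟨⊥, ⊤, hbt⟩
  refine { eq_bot_or_eq_top := fun W => ?_ }
  by_contra hcon
  push Not at hcon
  obtain ⟨hW1, hW2⟩ := hcon
  have hW1' : W.toSubmodule ≠ ⊥ := fun h0 => hW1 (Subrepresentation.toSubmodule_injective h0)
  have hW2' : W.toSubmodule ≠ ⊤ := fun h0 => hW2 (Subrepresentation.toSubmodule_injective h0)
  obtain ⟨v, hvW, hv⟩ := (Submodule.ne_bot_iff _).mp hW1'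
  have hfr : Module.finrank ℂ W.toSubmodule = 1 := by
    have h1 : Module.finrank ℂ W.toSubmodule < Module.finrank ℂ (Fin 2 → ℂ) :=
      Submodule.finrank_lt hW2'
    have h2 : Module.finrank ℂ W.toSubmodule ≠ 0 := fun h0 =>
      hW1' (Submodule.finrank_eq_zero.mp h0)
    rw [Module.finrank_fin_fun] at h1
    omega
  refine h v hv fun g => ?_
  have h3 : Deformation.matrixRepresentation ρ g v ∈ W.toSubmodule :=
    W.apply_mem_toSubmodule g hvW
  have h4 : (⟨v, hvW⟩ : W.toSubmodule) ≠ 0 := fun h0 => hv (congrArg Subtype.val h0)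
  obtain ⟨c, hc⟩ := exists_smul_eq_of_finrank_eq_one hfr h4 ⟨_, h3⟩
  refine ⟨c, ?_⟩
  have h5 : c • v = Deformation.matrixRepresentation ρ g v := congrArg Subtype.val hc
  rw [Deformation.matrixRepresentation_apply] at h5
  exact h5.symm

/-- **irreducibility** -/
theorem irred_of_rankin {N : ℕ} (hN : N ≠ 0) {ι : Qbar →+* ℂ} {α e : ℕ → Qbar} {M₀ : ℕ}
    (hM₀ : 0 < M₀) (hr : Roots N M₀ α e) (hR : ∀ τ : GQ, RankinBound N (fun p => ι (τ (α p))))
    (ρ : GQ →* GL (Fin 2) ℂ) (hρ : GaloisFactorsThroughFiniteLevel ρ)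
    (hfrob : ∀ p : ℕ, p.Prime → ¬ p ∣ N → ∀ C : ValuationSubring Qbar, C.LiesOverPrime p →
        ∀ σ : GQ, C.IsFrobeniusAt σ p →
          ((ρ σ : GL (Fin 2) ℂ) : Matrix (Fin 2) (Fin 2) ℂ).trace = ι (α p) ∧
          ((ρ σ : GL (Fin 2) ℂ) : Matrix (Fin 2) (Fin 2) ℂ).det = ι (e p)) :
    (Deformation.matrixRepresentation ρ).IsIrreducible := by
  haveI := Frob.isGalois_Qbar
  obtain ⟨L₀, hL₀, hL₀ρ⟩ := hρ
  haveI := hL₀
  obtain ⟨L, hL1, hL2, hLL⟩ : ∃ L : IntermediateField ℚ Qbar, FiniteDimensional ℚ L ∧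
      IsGalois ℚ L ∧ L₀ ≤ L := by
    haveI : Normal ℚ Qbar := inferInstance
    have h1 : Normal ℚ (IntermediateField.normalClosure ℚ L₀ Qbar) :=
      normalClosure.normal ℚ L₀ Qbar
    refine ⟨IntermediateField.normalClosure ℚ L₀ Qbar, inferInstance, ?_,
      IntermediateField.le_normalClosure L₀⟩
    exact @IsGalois.mk _ _ _ _ _ inferInstance h1
  have hsurj : Function.Surjective (resHom L) := fun g => by
    obtain ⟨g', hg'⟩ := AlgEquiv.restrictNormalHom_surjective (F := ℚ) (K₁ := L) Qbar g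
    exact ⟨g', hg'⟩
  have hker : (resHom L).ker ≤ ρ.ker := by
    intro σ hσ
    rw [MonoidHom.mem_ker] at hσ ⊢
    refine hL₀ρ σ fun x hx => ?_
    have h1 := coe_res σ (⟨x, hLL hx⟩ : L)
    rw [← resHom_apply, hσ] at h1
    exact h1.symm
  let r : (L ≃ₐ[ℚ] L) →* GL (Fin 2) ℂ :=
    (resHom L).liftOfSurjective hsurj ⟨ρ, hker⟩
  have hr' : ∀ σ : GQ, r (res L σ) = ρ σ := fun σ =>
    MonoidHom.liftOfRightInverse_comp_apply (resHom L) _ _ ⟨ρ, hker⟩ σ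
  have h1 := norm_sum_le hN hM₀ hr hR L r fun ℓ hℓ => by
    rw [hr']
    exact hfrob ℓ ℓ.2 hℓ (plc ℓ) (plc_lies ℓ) (frb ℓ) (frb_spec ℓ)
  refine irred_of_no_eigen ρ fun v hv hcon => ?_
  have h2 := sum_ge_of_eigen r hv fun g => by
    obtain ⟨σ, rfl⟩ := hsurj g
    obtain ⟨c, hc⟩ := hcon σ
    refine ⟨c, ?_⟩
    rw [resHom_apply, hr']
    exact hc
  have h3 : (0 : ℝ) < (Fintype.card (L ≃ₐ[ℚ] L) : ℝ) := by exact_mod_cast Fintype.card_pos
  linarith

/-- good representations from the mod `ℓ` representations -/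
theorem good_of_isRepAt {N : ℕ} (hN : N ≠ 0) {α e : ℕ → Qbar} {B : ℕ} {ℓ : ℕ} (hℓ : ℓ.Prime)
    (hB : B < ℓ) {A : ValuationSubring Qbar} (hA : A.LiesOverPrime ℓ)
    {ρ : GQ →* GL (Fin 2) (ResidueField A)} (h : IsRepAt N α e ℓ A ρ) (hfin : Finite ρ.range)
    (hcard : Nat.card ρ.range ≤ B) :
    Good B.factorial α e ({p | p ∣ N} ∪ {ℓ}) ((residue A).comp (Frob.intToVal A)) ρ where
  fin := ((Nat.divisors N).finite_toSet.subset fun p hp => by
      simpa [hN] using hp).union (Set.finite_singleton ℓ)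
  level := h.1
  card := by
    haveI := charP_residueField A hℓ hA
    rw [Ne, CharP.cast_eq_zero_iff (ResidueField A) ℓ, hℓ.dvd_factorial]
    omega
  pow := fun σ => by
    have h1 : Nat.card ρ.range ∣ B.factorial :=
      Nat.dvd_factorial Nat.card_pos hcard
    obtain ⟨c, hc⟩ := h1
    have h2 : (⟨ρ σ, σ, rfl⟩ : ρ.range) ^ Nat.card ρ.range = 1 := pow_card_eq_one'
    have h3 := congrArg Subtype.val h2
    have h4 : ρ σ ^ Nat.card ρ.range = 1 := h3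
    rw [hc, pow_mul, h4, one_pow]
  inert := fun p hp hpS C hC => by
    have hpN : ¬ p ∣ N := fun hd => hpS (Or.inl hd)
    have hpℓ : p ≠ ℓ := fun hd => hpS (Or.inr hd)
    obtain ⟨h1, h2, h3⟩ := h.2 p hp hpN hpℓ
    exact (h3 C hC).1
  frob := fun p hp hpS C hC σ hσ x y hx hy => by
    have hpN : ¬ p ∣ N := fun hd => hpS (Or.inl hd)
    have hpℓ : p ≠ ℓ := fun hd => hpS (Or.inr hd)
    obtain ⟨h1, h2, h3⟩ := h.2 p hp hpN hpℓ
    obtain ⟨h4, h5⟩ := (h3 C hC).2 σ hσ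
    refine ⟨h4.trans ?_, h5.trans ?_⟩
    · rw [← map_add]
      exact congrArg (residue A) (Subtype.ext hx.symm)
    · rw [← map_mul]
      exact congrArg (residue A) (Subtype.ext hy.symm)

/-- **(E)** -/
theorem eStatement : EStatement := by
  intro N hN ι α e hD hB
  obtain ⟨B, hB0, hroot, ℓ₁, hrep⟩ := hB
  have hr : Roots N B.factorial α e := by
    intro p hp hpN x hx
    obtain ⟨c, hc⟩ := Nat.dvd_factorial hB0 le_rfl
    rw [hc, pow_mul, hroot p hp hpN x hx, one_pow]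
  have hM : 0 < B.factorial := Nat.factorial_pos B
  obtain ⟨ρ, hρ1, hρ2⟩ := exists_rep hN hM hr (fun n => by
    obtain ⟨ℓ, hℓ1, hℓ⟩ := Nat.exists_infinite_primes (n + 1 + ℓ₁ + (B + 1))
    obtain ⟨A, hA⟩ := Frob.exists_liesOverPrime Qbar hℓ
    obtain ⟨ρ, h1, h2, h3⟩ := hrep ℓ hℓ (by omega) A hA
    refine ⟨ℓ, hℓ, by omega, ResidueField A, inferInstance, _, ρ, fun m hm => ?_, h2,
      good_of_isRepAt hN hℓ (by omega) hA h1 h2 h3⟩
    haveI := charP_residueField A hℓ hA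
    exact (CharP.cast_eq_zero_iff (ResidueField A) ℓ m).mp hm)
  set ρ' : GQ →* GL (Fin 2) ℂ := (Matrix.GeneralLinearGroup.map ι).comp ρ with hρ'
  have htr : ∀ σ : GQ, ((ρ' σ : GL (Fin 2) ℂ) : Matrix (Fin 2) (Fin 2) ℂ).trace =
      ι ((ρ σ : GL (Fin 2) Qbar) : Matrix (Fin 2) (Fin 2) Qbar).trace := by
    intro σ
    rw [Matrix.trace_fin_two, Matrix.trace_fin_two, map_add]
    rfl
  have hdet : ∀ σ : GQ, ((ρ' σ : GL (Fin 2) ℂ) : Matrix (Fin 2) (Fin 2) ℂ).det =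
      ι ((ρ σ : GL (Fin 2) Qbar) : Matrix (Fin 2) (Fin 2) Qbar).det := by
    intro σ
    rw [Matrix.det_fin_two, Matrix.det_fin_two, map_sub, map_mul, map_mul]
    rfl
  have hlev : GaloisFactorsThroughFiniteLevel ρ' := by
    obtain ⟨L, hL, hLρ⟩ := hρ1
    exact ⟨L, hL, fun σ hσ => by rw [hρ', MonoidHom.comp_apply, hLρ σ hσ, map_one]⟩
  have hfrob : ∀ p : ℕ, p.Prime → ¬ p ∣ N → ∀ C : ValuationSubring Qbar, C.LiesOverPrime p →
        ∀ σ : GQ, C.IsFrobeniusAt σ p →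
          ((ρ' σ : GL (Fin 2) ℂ) : Matrix (Fin 2) (Fin 2) ℂ).trace = ι (α p) ∧
          ((ρ' σ : GL (Fin 2) ℂ) : Matrix (Fin 2) (Fin 2) ℂ).det = ι (e p) := by
    intro p hp hpN C hC σ hσ
    obtain ⟨h1, h2⟩ := (hρ2 p hp hpN C hC).2 σ hσ
    exact ⟨by rw [htr, h1], by rw [hdet, h2]⟩
  refine ⟨ρ', hlev, irred_of_rankin hN hM hr hD.rankin ρ' hlev hfrob, ?_⟩
  intro p hp hpN C hC
  refine ⟨fun σ hσ => ?_, hfrob p hp hpN C hC⟩
  rw [hρ', MonoidHom.comp_apply, (hρ2 p hp hpN C hC).1 σ hσ, map_one]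

end Fermat.Agent.DS1
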