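import Fermat.Agent.DS1.Neb3
import Mathlib.Analysis.Asymptotics.Lemmas

/-!
# Deligne-Serre (N3), IV: `NebStatement`
-/

set_option autoImplicit false
set_option linter.style.haveILetI false
set_option linter.unusedSectionVars false

noncomputable section

namespace Fermat.Agent.DS1

open CongruenceSubgroup ModularForm Complex
open UpperHalfPlane hiding I
open scoped MatrixGroups Real Manifold

/-- decay of `|h|² y` for functions with exponential decay -/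
lemma decay_of_isBigO {h : ℍ → ℂ}
    (hh : h =O[atImInfty] fun τ : ℍ => Real.exp (-2 * π * τ.im / 1)) :
    ∃ C A : ℝ, 0 ≤ C ∧ ∀ τ : ℍ, A ≤ τ.im → ‖h τ‖ ^ 2 * τ.im ≤ C / τ.im := by
  obtain ⟨c, hc⟩ := hh.bound
  obtain ⟨A, hA⟩ := (UpperHalfPlane.atImInfty_mem _).mp hc
  refine ⟨c ^ 2, A, by positivity, fun τ hτ => ?_⟩
  have h1 := hA τ hτ
  simp only [Set.mem_setOf_eq] at h1
  have hy := τ.im_pos
  rw [Real.norm_of_nonneg (Real.exp_pos _).le, div_one] at h1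
  have h2 : ‖h τ‖ ^ 2 ≤ c ^ 2 * Real.exp (-2 * π * τ.im) ^ 2 := by
    rw [← mul_pow]
    exact pow_le_pow_left₀ (norm_nonneg _) h1 2
  have h3 : Real.exp (-2 * π * τ.im) ^ 2 * τ.im ≤ 1 / τ.im := by
    rw [le_div_iff₀ hy, mul_assoc, ← pow_two]
    have h4 : τ.im ≤ Real.exp (2 * π * τ.im) := by
      have h5 := Real.add_one_le_exp (2 * π * τ.im)
      have h6 : τ.im ≤ 2 * π * τ.im := by
        have := Real.pi_gt_three
        nlinarith
      linarith
    have h7 : Real.exp (-2 * π * τ.im) ^ 2 * Real.exp (2 * π * τ.im) ^ 2 = 1 := by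
      rw [← mul_pow, ← Real.exp_add]
      simp
    calc Real.exp (-2 * π * τ.im) ^ 2 * τ.im ^ 2
        ≤ Real.exp (-2 * π * τ.im) ^ 2 * Real.exp (2 * π * τ.im) ^ 2 := by
          refine mul_le_mul_of_nonneg_left (pow_le_pow_left₀ hy.le h4 2) (by positivity)
      _ = 1 := h7
  calc ‖h τ‖ ^ 2 * τ.im ≤ (c ^ 2 * Real.exp (-2 * π * τ.im) ^ 2) * τ.im :=
        mul_le_mul_of_nonneg_right h2 hy.le
    _ = c ^ 2 * (Real.exp (-2 * π * τ.im) ^ 2 * τ.im) := by ring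
    _ ≤ c ^ 2 * (1 / τ.im) := mul_le_mul_of_nonneg_left h3 (by positivity)
    _ = c ^ 2 / τ.im := by ring

/-- imaginary part of `p · u_N((z + j)/p)` -/
lemma im_ml_uN {N p : ℕ} (hp : 0 < p) (j : ℤ) (z : ℍ) :
    (ml p hp (uN N • dv p hp j z)).im * ‖(N : ℂ) * (dv p hp j z : ℂ) + 1‖ ^ 2 = z.im := by
  set w := dv p hp j z with hw
  have h0 := uN_ne N w
  have h1 : (ml p hp (uN N • w)).im = p * (uN N • w).im := by
    show (ml p hp (uN N • w) : ℂ).im = p * ((uN N • w : ℍ) : ℂ).im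
    rw [coe_ml]
    have : ((p : ℂ) * ((uN N • w : ℍ) : ℂ)) = ((p : ℝ) : ℂ) * ((uN N • w : ℍ) : ℂ) := by
      push_cast; rfl
    rw [this, Complex.im_ofReal_mul]
  have h2 : (uN N • w).im = w.im / ‖(N : ℂ) * (w : ℂ) + 1‖ ^ 2 := by
    rw [ModularGroup.im_smul_eq_div_normSq]
    congr 1
    rw [Complex.normSq_eq_norm_sq]
    congr 2
    simp [uN, UpperHalfPlane.denom]
  have h3 : w.im = z.im / p := by
    show (w : ℂ).im = (z : ℂ).im / p
    rw [hw, coe_dv]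
    have h1 : ((z : ℂ) + j) / p = ((z : ℂ) + (j : ℝ)) / (p : ℝ) := by push_cast; rfl
    rw [h1, Complex.div_ofReal_im, Complex.add_im, Complex.ofReal_im, add_zero]
  have h4 : ‖(N : ℂ) * (w : ℂ) + 1‖ ^ 2 ≠ 0 := by
    simpa using h0
  have h5 : (p : ℝ) ≠ 0 := by exact_mod_cast hp.ne'
  rw [h1, h2, h3]
  field_simp

/-- a translation making the denominator small -/
lemma exists_shift {N p : ℕ} (hN : 0 < N) (hp : 0 < p) (z : ℍ) :
    ∃ j : ℤ, ‖(N : ℂ) * (dv p hp j z : ℂ) + 1‖ ^ 2 ≤ (N : ℝ) ^ 2 * (1 + z.im ^ 2) / (p : ℝ) ^ 2 := by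
  have hp0 : (0 : ℝ) < p := by exact_mod_cast hp
  have hN0 : (0 : ℝ) < N := by exact_mod_cast hN
  set t : ℝ := z.re + p / N with ht
  refine ⟨-⌊t⌋, ?_⟩
  have h1 : (N : ℂ) * (dv p hp (-⌊t⌋) z : ℂ) + 1 =
      ((N / p * (t - ⌊t⌋) : ℝ) : ℂ) + ((N / p * z.im : ℝ) : ℂ) * I := by
    rw [coe_dv, ht]
    have hz : (z : ℂ) = (z.re : ℂ) + (z.im : ℂ) * I := (Complex.re_add_im (z : ℂ)).symm
    rw [hz]
    push_cast
    have : (p : ℂ) ≠ 0 := by exact_mod_cast hp.ne'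
    have : (N : ℂ) ≠ 0 := by exact_mod_cast hN.ne'
    field_simp
    ring
  rw [h1, ← Complex.normSq_eq_norm_sq, Complex.normSq_add_mul_I]
  have h2 : 0 ≤ t - ⌊t⌋ := by linarith [Int.floor_le t]
  have h3 : t - ⌊t⌋ ≤ 1 := by linarith [Int.lt_floor_add_one t]
  have h4 : (t - ⌊t⌋) ^ 2 ≤ 1 := by nlinarith
  have h5 : (N / p * (t - ⌊t⌋)) ^ 2 + (N / p * z.im) ^ 2 =
      (N : ℝ) ^ 2 * ((t - ⌊t⌋) ^ 2 + z.im ^ 2) / (p : ℝ) ^ 2 := by
    field_simp
  rw [h5]
  gcongr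

lemma slash_one_of_Gamma1 {N : ℕ} (f : CuspForm (Gamma1 N) 1) (δ : SL(2, ℤ))
    (h0 : (N : ℤ) ∣ δ 1 0) (h1 : (N : ℤ) ∣ δ 1 1 - 1) : (⇑f ∣[(1 : ℤ)] δ) = ⇑f := by
  have h2 : δ ∈ Gamma1 N := by
    rw [Gamma1_mem]
    have h3 : ((δ 1 0 : ℤ) : ZMod N) = 0 := by rwa [ZMod.intCast_zmod_eq_zero_iff_dvd]
    have h4 : ((δ 1 1 : ℤ) : ZMod N) = 1 := by
      have : ((δ 1 1 - 1 : ℤ) : ZMod N) = 0 := by rwa [ZMod.intCast_zmod_eq_zero_iff_dvd]
      rw [Int.cast_sub, Int.cast_one, sub_eq_zero] at this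
      exact this
    have h5 := congrArg (Int.cast : ℤ → ZMod N) (Matrix.det_fin_two δ.1)
    rw [δ.2] at h5
    push_cast at h5
    refine ⟨?_, h4, h3⟩
    have h6 : ((δ.1 1 0 : ℤ) : ZMod N) = 0 := h3
    have h7 : ((δ.1 1 1 : ℤ) : ZMod N) = 1 := h4
    rw [h6, h7, mul_one, mul_zero, sub_zero] at h5
    exact h5.symm
  rw [SL_slash]
  exact SlashInvariantFormClass.slash_action_eq f _ (Subgroup.mem_map_of_mem _ h2)

/-- translations -/
def tJ (j : ℤ) : SL(2, ℤ) := ⟨!![1, j; 0, 1], by simp [Matrix.det_fin_two]⟩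

lemma ml_dv {p : ℕ} (hp : 0 < p) (j : ℤ) (z : ℍ) : ml p hp (dv p hp j z) = tJ j • z := by
  apply UpperHalfPlane.ext
  rw [coe_ml, coe_dv, UpperHalfPlane.coe_specialLinearGroup_apply]
  have : (p : ℂ) ≠ 0 := by exact_mod_cast hp.ne'
  simp [tJ]
  field_simp

lemma tJ_smul {f : ℍ → ℂ} {j : ℤ} (h : f ∣[(1 : ℤ)] tJ j = f) (z : ℍ) : f (tJ j • z) = f z := by
  rw [slash_at (f := f), h]
  simp [tJ]

/-- exponential decay for periodic holomorphic functions vanishing at infinity -/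
lemma exp_decay {f : ℍ → ℂ} (hf : f ∣[(1 : ℤ)] tJ 1 = f) (h0 : IsZeroAtImInfty f)
    (hm : MDiff f) : f =O[atImInfty] fun τ : ℍ => Real.exp (-2 * π * τ.im / 1) := by
  refine h0.exp_decay_atImInfty one_pos ?_ hm ?_
  · intro w
    simp only [Function.comp_apply]
    by_cases hw : 0 < w.im
    · have hw' : 0 < (w + (1 : ℝ)).im := by simpa using hw
      rw [ofComplex_apply_of_im_pos hw, ofComplex_apply_of_im_pos hw']
      have h1 := tJ_smul hf ⟨w, hw⟩
      rw [← h1]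
      congr 1
      apply UpperHalfPlane.ext
      rw [UpperHalfPlane.coe_specialLinearGroup_apply]
      simp [tJ]
    · have hw' : (w + (1 : ℝ)).im ≤ 0 := by simpa using not_lt.mp hw
      rw [ofComplex_apply_of_im_nonpos (not_lt.mp hw), ofComplex_apply_of_im_nonpos hw']
  · exact h0.isBoundedAtImInfty

/-- **(N3)** -/
theorem nebStatement : NebStatement := by
  intro N _ ε f h1 hrel γ hγ
  have hNpos : 0 < N := NeZero.pos N
  set d : ℤ := γ 1 1 with hd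
  set g : ℍ → ℂ := ⇑f ∣[(1 : ℤ)] γ with hg
  have hγ0 : (N : ℤ) ∣ γ 1 0 := by
    rw [Gamma0_mem] at hγ
    rwa [ZMod.intCast_zmod_eq_zero_iff_dvd] at hγ
  have hdet : γ 0 0 * γ 1 1 - γ 0 1 * γ 1 0 = 1 := by
    have := Matrix.det_fin_two γ.1
    rw [γ.2] at this
    exact this.symm
  obtain ⟨c, hc⟩ := hγ0
  have Hf : ∀ δ : SL(2, ℤ), (N : ℤ) ∣ δ 1 0 → (N : ℤ) ∣ δ 1 1 - 1 → (⇑f ∣[(1 : ℤ)] δ) = ⇑f :=
    fun δ => slash_one_of_Gamma1 f δ
  have Hg : ∀ δ : SL(2, ℤ), (N : ℤ) ∣ δ 1 0 → (N : ℤ) ∣ δ 1 1 - d → (⇑f ∣[(1 : ℤ)] δ) = g := by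
    intro δ ⟨x, hx⟩ ⟨y, hy⟩
    have e1 : (δ * γ⁻¹) 1 0 = δ 1 0 * γ 1 1 - δ 1 1 * γ 1 0 := by
      rw [Matrix.SpecialLinearGroup.SL2_inv_expl γ]
      simp [Matrix.mul_apply, Fin.sum_univ_two]
      ring
    have e2 : (δ * γ⁻¹) 1 1 = - δ 1 0 * γ 0 1 + δ 1 1 * γ 0 0 := by
      rw [Matrix.SpecialLinearGroup.SL2_inv_expl γ]
      simp [Matrix.mul_apply, Fin.sum_univ_two]
    have h2 := Hf (δ * γ⁻¹) ⟨x * d - δ 1 1 * c, by rw [e1, hx, hc]; ring⟩
      ⟨-x * γ 0 1 + y * γ 0 0 + γ 0 1 * c, by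
        rw [e2]
        linear_combination (-γ 0 1) * hx + (γ 0 0) * hy + hdet + (γ 0 1) * hc⟩
    have h3 : δ = (δ * γ⁻¹) * γ := by group
    rw [h3, SlashAction.slash_mul, h2]
  have Hg' : ∀ δ : SL(2, ℤ), (N : ℤ) ∣ δ 1 0 → (N : ℤ) ∣ d * δ 1 1 - 1 →
      (g ∣[(1 : ℤ)] δ) = ⇑f := by
    intro δ ⟨x, hx⟩ ⟨y, hy⟩
    have e1 : (γ * δ) 1 0 = γ 1 0 * δ 0 0 + γ 1 1 * δ 1 0 := by
      simp [Matrix.mul_apply, Fin.sum_univ_two]
    have e2 : (γ * δ) 1 1 = γ 1 0 * δ 0 1 + γ 1 1 * δ 1 1 := by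
      simp [Matrix.mul_apply, Fin.sum_univ_two]
    rw [hg, ← SlashAction.slash_mul]
    exact Hf _ ⟨c * δ 0 0 + d * x, by rw [e1, hc, hx]; ring⟩
      ⟨c * δ 0 1 + y, by rw [e2]; linear_combination (δ 0 1) * hc + hy⟩
  -- the difference
  set h : ℍ → ℂ := g - ε (d : ZMod N) • ⇑f with hh
  have hT : ∀ j : ℤ, (⇑f ∣[(1 : ℤ)] tJ j) = ⇑f := fun j => Hf _ (by simp [tJ]) (by simp [tJ])
  have hTg : ∀ j : ℤ, (g ∣[(1 : ℤ)] tJ j) = g := fun j => by
    rw [hg, ← SlashAction.slash_mul]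
    refine Hg _ ⟨c, ?_⟩ ⟨c * j, ?_⟩
    · simp [tJ, Matrix.mul_apply, Fin.sum_univ_two]
      exact hc
    · simp [tJ, Matrix.mul_apply, Fin.sum_univ_two]
      linear_combination j * hc
  have hTh : ∀ (j : ℤ) (z : ℍ), h (tJ j • z) = h z := by
    intro j z
    show g (tJ j • z) - ε (d : ZMod N) • f (tJ j • z) = g z - ε (d : ZMod N) • f z
    rw [tJ_smul (hT j), tJ_smul (hTg j)]
  have hdecay : ∃ C A : ℝ, 0 ≤ C ∧ ∀ τ : ℍ, A ≤ τ.im → ‖h τ‖ ^ 2 * τ.im ≤ C / τ.im := by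
    refine decay_of_isBigO ?_
    have d1 := exp_decay (f := ⇑f) (hT 1) (by
      have := CuspFormClass.zero_at_infty_slash (f := f) (g := (1 : SL(2, ℤ)))
      rwa [SlashAction.slash_one] at this) (ModularFormClass.holo f)
    have d2 := exp_decay (f := g) (hTg 1) (by
      rw [hg]
      exact CuspFormClass.zero_at_infty_slash (f := f) (g := γ)) (by
      rw [hg, SL_slash]
      exact (ModularFormClass.holo f).slash 1 _)
    exact d2.sub (d1.const_smul_left _)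
  obtain ⟨C, A, hC, hCA⟩ := hdecay
  have hunit : IsUnit (d : ZMod N) := by
    have h2 : ((γ 0 0 : ℤ) : ZMod N) * (d : ZMod N) = 1 := by
      have := congrArg (Int.cast : ℤ → ZMod N) hdet
      rw [hc] at this
      push_cast at this
      rw [ZMod.natCast_self, zero_mul, mul_zero, sub_zero] at this
      exact this
    exact IsUnit.of_mul_eq_one _ (by rw [mul_comm]; exact h2)
  have hqs : ∀ z : ℍ, HasSum (fun n : ℕ => ModularFormClass.qCoeff f n *
      cexp (2 * π * I * z) ^ n) (f z) := by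
    intro z
    have h1' : (1 : ℝ) ∈ (Gamma1 N : Subgroup (GL (Fin 2) ℝ)).strictPeriods := by
      rw [CongruenceSubgroup.strictPeriods_Gamma1]
      exact AddSubgroup.mem_zmultiples _
    have h2 := hasSum_qExpansion one_pos
      (SlashInvariantFormClass.periodic_comp_ofComplex f h1')
      (ModularFormClass.holo f) (ModularFormClass.bdd_at_infty f) z
    have h3 : Function.Periodic.qParam 1 (z : ℂ) = cexp (2 * π * I * z) := by
      rw [Function.Periodic.qParam]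
      congr 1
      push_cast
      rw [div_one]
    rw [h3] at h2
    exact h2
  -- the key invariance
  have key : ∀ p : ℕ, p.Prime → N < p → (p : ZMod N) = (d : ZMod N) → ∀ (hp : 0 < p) (w : ℍ),
      h (ml p hp (uN N • w)) = (N * w + 1) * h (ml p hp w) := by
    intro p hpp hNp hpd hp w
    haveI : Fact p.Prime := ⟨hpp⟩
    have hpN : ¬ p ∣ N := fun hd' => by
      have := Nat.le_of_dvd hNpos hd'
      omega
    have hN0 : (N : ZMod p) ≠ 0 := by
      rw [Ne, ZMod.natCast_eq_zero_iff]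
      exact hpN
    have hpd' : (N : ℤ) ∣ p - d := by
      rw [← ZMod.intCast_zmod_eq_zero_iff_dvd]
      push_cast
      rw [hpd, sub_self]
    have e1 := tp_inv Hf Hg Hg' p hp hN0 hpd' w
    have e2 := hecke_fun hp hqs (hrel p hpp hpN)
    rw [e2 w, e2 (uN N • w)] at e1
    have e3 : f (uN N • w) = (N * w + 1) * f w := by
      rw [slash_at (f := ⇑f), Hf (uN N) (by simp [uN]) (by simp [uN])]
      simp [uN]
    rw [e3, hpd] at e1
    have hp0 : (p : ℂ) ≠ 0 := by exact_mod_cast hp.ne'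
    show g (ml p hp (uN N • w)) - ε (d : ZMod N) • f (ml p hp (uN N • w)) =
      (N * w + 1) * (g (ml p hp w) - ε (d : ZMod N) • f (ml p hp w))
    rw [smul_eq_mul, smul_eq_mul]
    apply mul_left_cancel₀ hp0
    linear_combination e1
  -- conclusion
  have hzero : ∀ z : ℍ, h z = 0 := by
    intro z
    by_contra hne
    have hy := z.im_pos
    have hpos : 0 < ‖h z‖ ^ 2 * z.im := by
      have := norm_pos_iff.mpr hne
      positivity
    set m : ℝ := ‖h z‖ ^ 2 * z.im with hm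
    set K : ℝ := z.im / ((N : ℝ) ^ 2 * (1 + z.im ^ 2)) with hK
    have hN0 : (0 : ℝ) < N := by exact_mod_cast hNpos
    have hK0 : 0 < K := by positivity
    obtain ⟨n, hn⟩ := exists_nat_gt (max (A / K) (C / (K * m)))
    obtain ⟨p, hpn, hpp, hpd⟩ := Nat.forall_exists_prime_gt_and_eq_mod hunit (max N n)
    have hp : 0 < p := hpp.pos
    have hNp : N < p := lt_of_le_of_lt (le_max_left _ _) hpn
    have hnp : n < p := lt_of_le_of_lt (le_max_right _ _) hpn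
    obtain ⟨j, hj⟩ := exists_shift hNpos hp z
    set w := dv p hp j z with hw
    set z' := ml p hp (uN N • w) with hz'
    have e1 := key p hpp hNp hpd hp w
    rw [hw, ml_dv, hTh, ← hw] at e1
    have e2 := im_ml_uN (N := N) hp j z
    rw [← hw, ← hz'] at e2
    have e3 : ‖h z'‖ ^ 2 * z'.im = m := by
      rw [hz', e1, norm_mul, mul_pow, hm, ← e2, hz']
      ring
    have hpR : (0 : ℝ) < p := by exact_mod_cast hp
    have hD : 0 < ‖(N : ℂ) * (w : ℂ) + 1‖ ^ 2 := by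
      have := norm_pos_iff.mpr (uN_ne N w)
      positivity
    have e4 : K * (p : ℝ) ^ 2 ≤ z'.im := by
      have e5 : z.im ≤ z'.im * ((N : ℝ) ^ 2 * (1 + z.im ^ 2) / (p : ℝ) ^ 2) := by
        refine e2.symm.le.trans ?_
        exact mul_le_mul_of_nonneg_left hj z'.im_pos.le
      rw [hK, div_mul_eq_mul_div, div_le_iff₀ (by positivity)]
      rw [← mul_div_assoc, le_div_iff₀ (by positivity)] at e5
      linarith
    have hp1 : (1 : ℝ) ≤ p := by exact_mod_cast hp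
    have hpp2 : (p : ℝ) ≤ (p : ℝ) ^ 2 := by nlinarith [hp1]
    have hpn' : (n : ℝ) < p := by exact_mod_cast hnp
    have hA : A ≤ z'.im := by
      have h2 : A / K < p := (le_max_left _ _).trans_lt (hn.trans hpn')
      rw [div_lt_iff₀ hK0] at h2
      have h3 : (p : ℝ) * K ≤ K * (p : ℝ) ^ 2 := by
        rw [mul_comm]
        exact mul_le_mul_of_nonneg_left hpp2 hK0.le
      linarith
    have e6 := hCA z' hA
    rw [e3] at e6
    have hz'0 := z'.im_pos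
    rw [le_div_iff₀ hz'0] at e6
    have h2 : C / (K * m) < p := (le_max_right _ _).trans_lt (hn.trans hpn')
    rw [div_lt_iff₀ (by positivity)] at h2
    have h3 : m * (K * (p : ℝ) ^ 2) ≤ m * z'.im := mul_le_mul_of_nonneg_left e4 hpos.le
    have h4 : (p : ℝ) * (K * m) ≤ m * (K * (p : ℝ) ^ 2) := by
      have h5 : 0 < K * m := by positivity
      calc (p : ℝ) * (K * m) ≤ (p : ℝ) ^ 2 * (K * m) := mul_le_mul_of_nonneg_right hpp2 h5.le
        _ = m * (K * (p : ℝ) ^ 2) := by ring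
    linarith
  have hfin : g = ε (d : ZMod N) • ⇑f := by
    funext z
    have h2 := hzero z
    have h3 : g z - ε (d : ZMod N) • f z = 0 := h2
    exact sub_eq_zero.mp h3
  exact hfin

end Fermat.Agent.DS1
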