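import Mathlib

/-!
# Rankin's bound, II: Dirichlet series and the local factors
-/

set_option autoImplicit false

noncomputable section

namespace Fermat.Agent.DS1

open Finset

section Dirichlet

variable {b : ℕ → ℝ} {K : ℝ}

lemma two_rpow_neg_le {u : ℝ} (h0 : 0 ≤ u) (h1 : u ≤ 1) : (2 : ℝ) ^ (-u) ≤ 1 - u / 2 := by
  have h := rpow_one_add_le_one_add_mul_self (s := -(1 / 2)) (by norm_num) h0 h1
  have h2 : (2 : ℝ) ^ (-u) = (1 + -(1 / 2)) ^ u := by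
    rw [Real.rpow_neg (by norm_num), ← Real.inv_rpow (by norm_num)]
    norm_num
  rw [h2]
  linarith

/-- exponential sums control Dirichlet series -/
theorem dirichlet_le (hb : ∀ n, 0 ≤ b n) (hK : 0 < K)
    (h : ∀ y : ℝ, 0 < y → ∀ s : Finset ℕ, ∑ n ∈ s, b n * Real.exp (-(n * y)) ≤ K / y)
    {σ : ℝ} (h1 : 1 < σ) (h2 : σ ≤ 2) (s : Finset ℕ) (hs : ∀ n ∈ s, n ≠ 0) :
    ∑ n ∈ s, b n * (n : ℝ) ^ (-σ) ≤ 24 * K / (σ - 1) := by
  -- a large `J`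
  obtain ⟨J, hJ⟩ : ∃ J : ℕ, ∀ n ∈ s, Nat.log 2 n + 1 < J := by
    refine ⟨s.sup (fun n => Nat.log 2 n + 1) + 1, fun n hn => ?_⟩
    exact Nat.lt_succ_of_le (Finset.le_sup (f := fun n => Nat.log 2 n + 1) hn)
  set r : ℝ := (2 : ℝ) ^ (-(σ - 1)) with hr
  have hr0 : 0 < r := by positivity
  have hr1 : r ≤ 1 - (σ - 1) / 2 := two_rpow_neg_le (by linarith) (by linarith)
  have hterm : ∀ n ∈ s, b n * (n : ℝ) ^ (-σ) ≤
      12 * ∑ i ∈ Finset.range J, ((2 : ℝ) ^ i) ^ (-σ) * (b n * Real.exp (-(n * ((2 : ℝ) ^ i)⁻¹))) := by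
    intro n hn
    have hn0 : n ≠ 0 := hs n hn
    set j := Nat.log 2 n + 1 with hj
    have hjJ : j ∈ Finset.range J := Finset.mem_range.mpr (hJ n hn)
    have hlow : (2 : ℝ) ^ (j - 1) ≤ n := by
      have := Nat.pow_log_le_self 2 hn0
      rw [hj, Nat.add_sub_cancel]
      exact_mod_cast this
    have hup : (n : ℝ) < (2 : ℝ) ^ j := by
      have := Nat.lt_pow_succ_log_self (b := 2) (by norm_num) n
      exact_mod_cast this
    have hpow : (2 : ℝ) ^ j = 2 * 2 ^ (j - 1) := by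
      rw [hj, Nat.add_sub_cancel, pow_succ]
      ring
    have hnpos : (0 : ℝ) < n := by exact_mod_cast Nat.pos_of_ne_zero hn0
    have e1 : (n : ℝ) ^ (-σ) ≤ 4 * ((2 : ℝ) ^ j) ^ (-σ) := by
      have e2 : ((2 : ℝ) ^ j / 2) ≤ n := by rw [hpow]; linarith
      calc (n : ℝ) ^ (-σ) ≤ ((2 : ℝ) ^ j / 2) ^ (-σ) :=
            Real.rpow_le_rpow_of_nonpos (by positivity) e2 (by linarith)
        _ = ((2 : ℝ) ^ j) ^ (-σ) * 2 ^ σ := by
            rw [Real.div_rpow (by positivity) (by norm_num), Real.rpow_neg (by norm_num : (0:ℝ) ≤ 2),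
              div_inv_eq_mul]
        _ ≤ ((2 : ℝ) ^ j) ^ (-σ) * 2 ^ (2 : ℝ) := by
            refine mul_le_mul_of_nonneg_left ?_ (by positivity)
            exact Real.rpow_le_rpow_of_exponent_le (by norm_num) h2
        _ = 4 * ((2 : ℝ) ^ j) ^ (-σ) := by
            norm_num
            ring
    have e3 : 1 ≤ 3 * Real.exp (-(n * ((2 : ℝ) ^ j)⁻¹)) := by
      have e4 : (n : ℝ) * ((2 : ℝ) ^ j)⁻¹ ≤ 1 := by
        rw [← div_eq_mul_inv, div_le_one (by positivity)]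
        exact hup.le
      have e5 : Real.exp (-1) ≤ Real.exp (-(n * ((2 : ℝ) ^ j)⁻¹)) :=
        Real.exp_le_exp.mpr (by linarith)
      have e6 : (1 : ℝ) ≤ 3 * Real.exp (-1) := by
        have e7 := Real.exp_one_lt_d9
        have e8 : Real.exp 1 * Real.exp (-1) = 1 := by rw [← Real.exp_add]; simp
        nlinarith [Real.exp_pos (-1 : ℝ)]
      linarith
    have e9 : b n * (n : ℝ) ^ (-σ) ≤
        12 * (((2 : ℝ) ^ j) ^ (-σ) * (b n * Real.exp (-(n * ((2 : ℝ) ^ j)⁻¹)))) := by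
      calc b n * (n : ℝ) ^ (-σ) ≤ b n * (4 * ((2 : ℝ) ^ j) ^ (-σ)) :=
            mul_le_mul_of_nonneg_left e1 (hb n)
        _ = (4 * (((2 : ℝ) ^ j) ^ (-σ) * b n)) * 1 := by ring
        _ ≤ (4 * (((2 : ℝ) ^ j) ^ (-σ) * b n)) * (3 * Real.exp (-(n * ((2 : ℝ) ^ j)⁻¹))) := by
            refine mul_le_mul_of_nonneg_left e3 ?_
            have := hb n
            positivity
        _ = _ := by ring
    refine e9.trans (mul_le_mul_of_nonneg_left ?_ (by norm_num))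
    exact Finset.single_le_sum (f := fun i => ((2 : ℝ) ^ i) ^ (-σ) *
      (b n * Real.exp (-(n * ((2 : ℝ) ^ i)⁻¹)))) (fun i _ => by
        have := hb n
        positivity) hjJ
  calc ∑ n ∈ s, b n * (n : ℝ) ^ (-σ) ≤ ∑ n ∈ s, 12 * ∑ i ∈ Finset.range J,
        ((2 : ℝ) ^ i) ^ (-σ) * (b n * Real.exp (-(n * ((2 : ℝ) ^ i)⁻¹))) :=
        Finset.sum_le_sum hterm
    _ = 12 * ∑ i ∈ Finset.range J, ((2 : ℝ) ^ i) ^ (-σ) *
        ∑ n ∈ s, (b n * Real.exp (-(n * ((2 : ℝ) ^ i)⁻¹))) := by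
        rw [← Finset.mul_sum, Finset.sum_comm]
        simp only [Finset.mul_sum]
    _ ≤ 12 * ∑ i ∈ Finset.range J, K * r ^ i := by
        refine mul_le_mul_of_nonneg_left (Finset.sum_le_sum fun i _ => ?_) (by norm_num)
        have e1 := h ((2 : ℝ) ^ i)⁻¹ (by positivity) s
        rw [div_inv_eq_mul] at e1
        calc ((2 : ℝ) ^ i) ^ (-σ) * ∑ n ∈ s, (b n * Real.exp (-(n * ((2 : ℝ) ^ i)⁻¹)))
            ≤ ((2 : ℝ) ^ i) ^ (-σ) * (K * 2 ^ i) := mul_le_mul_of_nonneg_left e1 (by positivity)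
          _ = K * r ^ i := by
            have e2 : r ^ i = ((2 : ℝ) ^ i) ^ (-(σ - 1)) := by
              rw [hr, ← Real.rpow_natCast, ← Real.rpow_natCast, ← Real.rpow_mul (by norm_num),
                ← Real.rpow_mul (by norm_num), mul_comm]
            have e3 : ((2 : ℝ) ^ i) ^ (-(σ - 1)) = ((2 : ℝ) ^ i) ^ (-σ) * 2 ^ i := by
              rw [show -(σ - 1) = -σ + 1 by ring, Real.rpow_add (by positivity), Real.rpow_one]
            rw [e2, e3]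
            ring
    _ = 12 * K * ∑ i ∈ Finset.range J, r ^ i := by
        rw [← Finset.mul_sum, mul_assoc]
    _ ≤ 12 * K * (2 / (σ - 1)) := by
        refine mul_le_mul_of_nonneg_left ?_ (by positivity)
        have e1 : (1 - r) * ∑ i ∈ Finset.range J, r ^ i ≤ 1 := by
          rw [mul_comm, geom_sum_mul_neg]
          have : 0 ≤ r ^ J := by positivity
          linarith
        have e2 : 0 ≤ ∑ i ∈ Finset.range J, r ^ i := Finset.sum_nonneg fun i _ => by positivity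
        have hσ : 0 < σ - 1 := by linarith
        rw [le_div_iff₀ hσ]
        nlinarith
    _ = 24 * K / (σ - 1) := by ring

end Dirichlet

section Local

variable {c : ℕ → ℂ} {a ε : ℂ}

/-- the partial sums of every second `|c_e|²` -/
def gg (c : ℕ → ℂ) : ℕ → ℝ
  | 0 => ‖c 0‖ ^ 2
  | 1 => ‖c 1‖ ^ 2
  | (n + 2) => gg c n + ‖c (n + 2)‖ ^ 2

lemma gg_zero (c : ℕ → ℂ) : gg c 0 = ‖c 0‖ ^ 2 := rfl
lemma gg_one (c : ℕ → ℂ) : gg c 1 = ‖c 1‖ ^ 2 := rfl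
lemma gg_two (c : ℕ → ℂ) (n : ℕ) : gg c (n + 2) = gg c n + ‖c (n + 2)‖ ^ 2 := rfl

lemma gg_nonneg (c : ℕ → ℂ) : ∀ n, 0 ≤ gg c n
  | 0 => by rw [gg]; positivity
  | 1 => by rw [gg]; positivity
  | (n + 2) => by
    rw [gg]
    have := gg_nonneg c n
    positivity

lemma norm_add_sq_le' (x y : ℂ) : ‖x + y‖ ^ 2 ≤ 2 * (‖x‖ ^ 2 + ‖y‖ ^ 2) := by
  have h := norm_add_le x y
  have h1 := norm_nonneg x
  have h2 := norm_nonneg y
  nlinarith [norm_nonneg (x + y), sq_nonneg (‖x‖ - ‖y‖)]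

lemma rec_le (hε : ‖ε‖ = 1) (hc : ∀ n, c (n + 2) = a * c (n + 1) - ε * c n) (n : ℕ) :
    ‖a‖ ^ 2 * ‖c (n + 1)‖ ^ 2 ≤ 2 * (‖c (n + 2)‖ ^ 2 + ‖c n‖ ^ 2) := by
  have h1 : a * c (n + 1) = c (n + 2) + ε * c n := by rw [hc]; ring
  have h2 := norm_add_sq_le' (c (n + 2)) (ε * c n)
  rw [← h1, norm_mul, norm_mul, hε, one_mul, mul_pow] at h2
  exact h2

lemma gg_le (h0 : c 0 = 1) (h1 : c 1 = a) (hε : ‖ε‖ = 1)
    (hc : ∀ n, c (n + 2) = a * c (n + 1) - ε * c n) :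
    ∀ n, ‖a‖ ^ 2 * gg c (n + 1) ≤ 2 * (gg c (n + 2) + gg c n)
  | 0 => by
    have h := rec_le hε hc 0
    have h' : ‖a‖ ^ 2 * ‖c 1‖ ^ 2 ≤ 2 * (‖c 2‖ ^ 2 + ‖c 0‖ ^ 2) := h
    show ‖a‖ ^ 2 * ‖c 1‖ ^ 2 ≤ 2 * ((‖c 0‖ ^ 2 + ‖c 2‖ ^ 2) + ‖c 0‖ ^ 2)
    have h2 := sq_nonneg ‖c 0‖
    linarith
  | 1 => by
    have h := rec_le hε hc 1
    have h2 : ‖a‖ ^ 2 * gg c 0 = ‖c 1‖ ^ 2 := by rw [gg, h0, h1]; simp
    show ‖a‖ ^ 2 * (gg c 0 + ‖c 2‖ ^ 2) ≤ 2 * ((gg c 1 + ‖c 3‖ ^ 2) + gg c 1)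
    have h3 : gg c 1 = ‖c 1‖ ^ 2 := by rw [gg]
    rw [mul_add, h2, h3]
    nlinarith [sq_nonneg ‖c 1‖]
  | (n + 2) => by
    have h := rec_le hε hc (n + 2)
    have ih := gg_le h0 h1 hε hc n
    show ‖a‖ ^ 2 * (gg c (n + 1) + ‖c (n + 3)‖ ^ 2) ≤
      2 * ((gg c (n + 2) + ‖c (n + 4)‖ ^ 2) + gg c (n + 2))
    have e : gg c (n + 2) = gg c n + ‖c (n + 2)‖ ^ 2 := rfl
    rw [mul_add]
    have h' : ‖a‖ ^ 2 * ‖c (n + 3)‖ ^ 2 ≤ 2 * (‖c (n + 4)‖ ^ 2 + ‖c (n + 2)‖ ^ 2) := h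
    linarith

/-- the coefficient inequality -/
lemma mul_gg_le (h0 : c 0 = 1) (h1 : c 1 = a) (hε : ‖ε‖ = 1)
    (hc : ∀ n, c (n + 2) = a * c (n + 1) - ε * c n) (n : ℕ) :
    ‖a‖ ^ 2 * gg c n ≤ (n + 1) * gg c (n + 1) := by
  have g0 : gg c 0 = 1 := by rw [gg, h0]; simp
  have g1 : gg c 1 = ‖a‖ ^ 2 := by rw [gg, h1]
  match n with
  | 0 => rw [g0, g1]; simp
  | 1 =>
    have h := rec_le hε hc 0
    have e : gg c 2 = gg c 0 + ‖c 2‖ ^ 2 := rfl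
    rw [e, g0, g1]
    rw [h1, h0, norm_one] at h
    push_cast
    have h' : ‖a‖ ^ 2 * ‖a‖ ^ 2 ≤ 2 * (‖c 2‖ ^ 2 + 1 ^ 2) := h
    linarith
  | 2 =>
    -- `|a c₂|² = |c₃ + ε c₁|² ≤ 3|c₃|² + (3/2)|c₁|²`
    have e2 : gg c 2 = gg c 0 + ‖c 2‖ ^ 2 := rfl
    have e3 : gg c 3 = gg c 1 + ‖c 3‖ ^ 2 := rfl
    have h3 : a * c 2 = c 3 + ε * c 1 := by rw [hc 1]; ring
    have h4 : ‖a‖ * ‖c 2‖ ≤ ‖c 3‖ + ‖c 1‖ := by
      rw [← norm_mul, h3]
      refine (norm_add_le _ _).trans ?_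
      rw [norm_mul, hε, one_mul]
    rw [h1] at h4
    rw [e2, e3, g0, g1]
    push_cast
    have h5 := norm_nonneg (c 3)
    have h6 := norm_nonneg a
    have h7 : (‖a‖ * ‖c 2‖) ^ 2 ≤ (‖c 3‖ + ‖a‖) ^ 2 := pow_le_pow_left₀ (by positivity) h4 2
    nlinarith [sq_nonneg (2 * ‖c 3‖ - ‖a‖), sq_nonneg ‖a‖]
  | (n + 3) =>
    have h := gg_le h0 h1 hε hc (n + 2)
    have h2 : gg c (n + 2) ≤ gg c (n + 4) := by
      show _ ≤ gg c (n + 2) + ‖c (n + 4)‖ ^ 2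
      nlinarith [sq_nonneg ‖c (n + 4)‖]
    have h3 : (4 : ℝ) ≤ ((n + 3 : ℕ) : ℝ) + 1 := by
      push_cast
      have : (0 : ℝ) ≤ n := Nat.cast_nonneg n
      linarith
    have h4 := gg_nonneg c (n + 4)
    calc ‖a‖ ^ 2 * gg c (n + 3) ≤ 2 * (gg c (n + 4) + gg c (n + 2)) := h
      _ ≤ 4 * gg c (n + 4) := by linarith
      _ ≤ (((n + 3 : ℕ) : ℝ) + 1) * gg c (n + 4) := mul_le_mul_of_nonneg_right h3 h4

lemma pow_div_le_gg (h0 : c 0 = 1) (h1 : c 1 = a) (hε : ‖ε‖ = 1)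
    (hc : ∀ n, c (n + 2) = a * c (n + 1) - ε * c n) (n : ℕ) :
    (‖a‖ ^ 2) ^ n / n.factorial ≤ gg c n := by
  induction n with
  | zero => rw [gg, h0]; simp
  | succ n ih =>
    have h := mul_gg_le h0 h1 hε hc n
    have hn : (0 : ℝ) < (n : ℝ) + 1 := by positivity
    rw [Nat.factorial_succ, pow_succ]
    push_cast
    rw [div_le_iff₀ (by positivity)]
    rw [div_le_iff₀ (by positivity)] at ih
    have hf : (0 : ℝ) < n.factorial := by exact_mod_cast n.factorial_pos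
    calc (‖a‖ ^ 2) ^ n * ‖a‖ ^ 2 ≤ (gg c n * n.factorial) * ‖a‖ ^ 2 :=
          mul_le_mul_of_nonneg_right ih (by positivity)
      _ = (‖a‖ ^ 2 * gg c n) * n.factorial := by ring
      _ ≤ ((n + 1) * gg c (n + 1)) * n.factorial := mul_le_mul_of_nonneg_right h hf.le
      _ = _ := by ring

/-- **the local factor** -/
theorem local_ge (h0 : c 0 = 1) (h1 : c 1 = a) (hε : ‖ε‖ = 1)
    (hc : ∀ n, c (n + 2) = a * c (n + 1) - ε * c n) {x : ℝ} (hx0 : 0 ≤ x) (hx1 : x < 1)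
    (hs : Summable fun n => ‖c n‖ ^ 2 * x ^ n) :
    (1 - x ^ 2) * Real.exp (‖a‖ ^ 2 * x) ≤ ∑' n, ‖c n‖ ^ 2 * x ^ n := by
  set A := ∑' n, ‖c n‖ ^ 2 * x ^ n with hA
  have hx2 : 0 < 1 - x ^ 2 := by nlinarith
  have hpart : ∀ n, ∑ i ∈ Finset.range n, ‖c i‖ ^ 2 * x ^ i ≤ A := fun n =>
    hs.sum_le_tsum _ fun i _ => by positivity
  have hA0 : 0 ≤ A := tsum_nonneg fun i => by positivity
  -- partial sums of `gg`
  have key : ∀ n, (1 - x ^ 2) * ∑ i ∈ Finset.range n, gg c i * x ^ i ≤ A ∧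
      (1 - x ^ 2) * ∑ i ∈ Finset.range (n + 1), gg c i * x ^ i ≤ A := by
    have hstep : ∀ n, ∑ i ∈ Finset.range (n + 2), gg c i * x ^ i =
        ∑ i ∈ Finset.range (n + 2), ‖c i‖ ^ 2 * x ^ i +
          x ^ 2 * ∑ i ∈ Finset.range n, gg c i * x ^ i := by
      intro n
      rw [Finset.sum_range_succ' _ (n + 1), Finset.sum_range_succ' _ n,
        Finset.sum_range_succ' (fun i => ‖c i‖ ^ 2 * x ^ i) (n + 1),
        Finset.sum_range_succ' (fun i => ‖c (i + 1)‖ ^ 2 * x ^ (i + 1)) n, Finset.mul_sum]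
      have e : ∀ i, gg c (i + 1 + 1) * x ^ (i + 1 + 1) =
          ‖c (i + 1 + 1)‖ ^ 2 * x ^ (i + 1 + 1) + x ^ 2 * (gg c i * x ^ i) := by
        intro i
        show (gg c i + ‖c (i + 2)‖ ^ 2) * x ^ (i + 1 + 1) = _
        ring
      simp only [e, Finset.sum_add_distrib]
      have e0 : gg c 0 = ‖c 0‖ ^ 2 := by rw [gg]
      have e1 : gg c (0 + 1) = ‖c (0 + 1)‖ ^ 2 := by rw [gg]
      rw [e0, e1]
      ring
    intro n
    induction n with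
    | zero =>
      constructor
      · simpa using hA0
      · rw [zero_add, Finset.sum_range_one]
        have e0 : gg c 0 = ‖c 0‖ ^ 2 := by rw [gg]
        have h2 := hpart 1
        rw [Finset.sum_range_one] at h2
        rw [e0]
        have h3 : 0 ≤ ‖c 0‖ ^ 2 * x ^ 0 := by positivity
        nlinarith [sq_nonneg x]
    | succ n ih =>
      refine ⟨ih.2, ?_⟩
      rw [show n + 1 + 1 = n + 2 from rfl, hstep]
      have h2 := hpart (n + 2)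
      have h3 := ih.1
      have h4 : 0 ≤ x ^ 2 := sq_nonneg x
      nlinarith [mul_le_mul_of_nonneg_left h3 h4]
  -- the exponential
  have hexp : ∀ n, (1 - x ^ 2) * ∑ i ∈ Finset.range n, (‖a‖ ^ 2 * x) ^ i / i.factorial ≤ A := by
    intro n
    refine le_trans (mul_le_mul_of_nonneg_left (Finset.sum_le_sum fun i _ => ?_) hx2.le) (key n).1
    have h2 := pow_div_le_gg h0 h1 hε hc i
    calc (‖a‖ ^ 2 * x) ^ i / i.factorial = (‖a‖ ^ 2) ^ i / i.factorial * x ^ i := by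
          rw [mul_pow]; ring
      _ ≤ gg c i * x ^ i := mul_le_mul_of_nonneg_right h2 (by positivity)
  have hlim : Filter.Tendsto (fun n => (1 - x ^ 2) *
      ∑ i ∈ Finset.range n, (‖a‖ ^ 2 * x) ^ i / i.factorial) Filter.atTop
      (nhds ((1 - x ^ 2) * Real.exp (‖a‖ ^ 2 * x))) := by
    refine Filter.Tendsto.const_mul _ ?_
    have h2 : HasSum (fun i : ℕ => (‖a‖ ^ 2 * x) ^ i / i.factorial)
        (Real.exp (‖a‖ ^ 2 * x)) := by
      rw [Real.exp_eq_exp_ℝ]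
      exact NormedSpace.expSeries_div_hasSum_exp _
    exact h2.tendsto_sum_nat
  exact le_of_tendsto' hlim hexp

end Local

end Fermat.Agent.DS1
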