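import Fermat.Agent.DS1.Ran1
import Fermat.Agent.DS1.Ran2

/-!
# Rankin's bound, III: the Euler product
-/

set_option autoImplicit false

noncomputable section

namespace Fermat.Agent.DS1

open Finset

section Mult

variable {N : ℕ} {ε : DirichletCharacter ℂ N} {a : ℕ → ℂ}

lemma HeckeRel.pow_rec (h : HeckeRel ε a) {p : ℕ} (hp : p.Prime) (hpN : ¬ p ∣ N) (k : ℕ) :
    a (p ^ (k + 2)) = a p * a (p ^ (k + 1)) - ε (p : ZMod N) * a (p ^ k) := by
  have h1 := h p hp hpN (p ^ (k + 1))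
  rw [if_pos (dvd_pow_self p (Nat.succ_ne_zero k)), pow_succ p k,
    Nat.mul_div_cancel _ hp.pos] at h1
  rw [show p ^ (k + 2) = p * (p ^ k * p) by ring, show p ^ (k + 1) = p ^ k * p from rfl, ← h1]
  ring

lemma HeckeRel.pow_mul (h : HeckeRel ε a) (h1 : a 1 = 1) {p : ℕ} (hp : p.Prime) (hpN : ¬ p ∣ N)
    {n : ℕ} (hn : ¬ p ∣ n) : ∀ k : ℕ, a (p ^ k * n) = a (p ^ k) * a n
  | 0 => by rw [pow_zero, one_mul, h1, one_mul]
  | 1 => by
    have h2 := h p hp hpN n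
    rw [if_neg hn, mul_zero, add_zero] at h2
    rw [pow_one, h2]
  | (k + 2) => by
    have e0 := HeckeRel.pow_mul h h1 hp hpN hn k
    have e1 := HeckeRel.pow_mul h h1 hp hpN hn (k + 1)
    have h2 := h p hp hpN (p ^ (k + 1) * n)
    rw [if_pos (Dvd.dvd.mul_right (dvd_pow_self p (Nat.succ_ne_zero k)) n), e1] at h2
    have h3 : p ^ (k + 1) * n / p = p ^ k * n := by
      rw [pow_succ, mul_comm (p ^ k) p, mul_assoc, Nat.mul_div_cancel_left _ hp.pos]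
    rw [h3, e0, show p * (p ^ (k + 1) * n) = p ^ (k + 2) * n by ring] at h2
    rw [h.pow_rec hp hpN k]
    linear_combination h2

lemma HeckeRel.mul_coprime (h : HeckeRel ε a) (h1 : a 1 = 1) (m : ℕ) :
    m.Coprime N → ∀ n, m.Coprime n → a (m * n) = a m * a n := by
  induction m using Nat.recOnPrimeCoprime with
  | zero =>
    intro _ n hn
    rw [Nat.coprime_zero_left] at hn
    rw [hn, mul_one, h1, mul_one]
  | prime_pow p k hp =>
    intro hN n hn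
    rcases Nat.eq_zero_or_pos k with rfl | hk
    · rw [pow_zero, one_mul, h1, one_mul]
    · rw [Nat.coprime_pow_left_iff hk, hp.coprime_iff_not_dvd] at hN hn
      exact h.pow_mul h1 hp hN hn k
  | coprime x y hx hy hxy ihx ihy =>
    intro hN n hn
    have hxN : x.Coprime N := Nat.Coprime.coprime_mul_right hN
    have hyN : y.Coprime N := Nat.Coprime.coprime_mul_left hN
    have hxn : x.Coprime n := Nat.Coprime.coprime_mul_right hn
    have hyn : y.Coprime n := Nat.Coprime.coprime_mul_left hn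
    rw [mul_assoc, ihx hxN (y * n) (Nat.Coprime.mul_right hxy hxn), ihy hyN n hyn,
      ihx hxN y hxy, mul_assoc]

end Mult

section Euler

variable {N : ℕ} {ε : DirichletCharacter ℂ N} {a : ℕ → ℂ}

/-- the Dirichlet coefficients -/
def FF (N : ℕ) (a : ℕ → ℂ) (σ : ℝ) (n : ℕ) : ℝ :=
  if n.Coprime N then ‖a n‖ ^ 2 * (n : ℝ) ^ (-σ) else 0

lemma FF_nonneg (σ : ℝ) (n : ℕ) : 0 ≤ FF N a σ n := by
  unfold FF
  split_ifs <;> positivity

lemma FF_one (h1 : a 1 = 1) (σ : ℝ) : FF N a σ 1 = 1 := by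
  unfold FF
  rw [if_pos (Nat.coprime_one_left N), h1]
  simp

lemma FF_mul (h : HeckeRel ε a) (h1 : a 1 = 1) (σ : ℝ) {m n : ℕ} (hmn : m.Coprime n) :
    FF N a σ (m * n) = FF N a σ m * FF N a σ n := by
  unfold FF
  by_cases hm : m.Coprime N
  · by_cases hn : n.Coprime N
    · rw [if_pos hm, if_pos hn, if_pos (Nat.Coprime.mul_left hm hn), h.mul_coprime h1 m hm n hmn,
        norm_mul, Nat.cast_mul, Real.mul_rpow (Nat.cast_nonneg m) (Nat.cast_nonneg n)]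
      ring
    · rw [if_neg hn, mul_zero, if_neg]
      exact fun h => hn (Nat.Coprime.coprime_mul_left h)
  · rw [if_neg hm, zero_mul, if_neg]
    exact fun h => hm (Nat.Coprime.coprime_mul_right h)

lemma FF_zero {σ : ℝ} (hσ : σ ≠ 0) : FF N a σ 0 = 0 := by
  unfold FF
  split_ifs
  · rw [Nat.cast_zero, Real.zero_rpow (neg_ne_zero.mpr hσ), mul_zero]
  · rfl

lemma FF_pow {p : ℕ} (hp : p.Prime) (hpN : ¬ p ∣ N) (σ : ℝ) (k : ℕ) :
    FF N a σ (p ^ k) = ‖a (p ^ k)‖ ^ 2 * ((p : ℝ) ^ (-σ)) ^ k := by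
  unfold FF
  rw [if_pos (Nat.Coprime.pow_left k (hp.coprime_iff_not_dvd.mpr hpN)), Nat.cast_pow,
    ← Real.rpow_natCast (p : ℝ) k, ← Real.rpow_natCast ((p : ℝ) ^ (-σ)) k,
    ← Real.rpow_mul (Nat.cast_nonneg p), ← Real.rpow_mul (Nat.cast_nonneg p), mul_comm (-σ)]

/-- the Euler product bound -/
theorem euler_le (h : HeckeRel ε a) (h1 : a 1 = 1) (hε : ∀ p : ℕ, p.Prime → ¬ p ∣ N →
    ‖ε (p : ZMod N)‖ = 1) {σ K : ℝ} (hσ : 1 < σ) (hs : Summable (FF N a σ))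
    (hK : ∑' n, FF N a σ n ≤ K) (P : Finset ℕ) (hP : ∀ p ∈ P, p.Prime ∧ ¬ p ∣ N) :
    ∑ p ∈ P, ‖a p‖ ^ 2 * (p : ℝ) ^ (-σ) ≤ Real.log K + 2 * ∑' n : ℕ, ((n : ℝ) ^ 2)⁻¹ := by
  classical
  have hfilter : P.filter Nat.Prime = P := Finset.filter_true_of_mem fun p hp => (hP p hp).1
  have hE := EulerProduct.prod_filter_prime_tsum_eq_tsum_factoredNumbers (f := FF N a σ)
    (FF_one h1 σ) (fun hmn => FF_mul h h1 σ hmn) hs.norm P
  rw [hfilter] at hE
  have hle : ∑' m : Nat.factoredNumbers P, FF N a σ m ≤ ∑' n, FF N a σ n :=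
    Summable.tsum_subtype_le _ _ (FF_nonneg σ) hs
  have hprod : ∏ p ∈ P, ∑' n : ℕ, FF N a σ (p ^ n) ≤ K := by
    rw [hE]; exact hle.trans hK
  -- lower bounds for the factors
  have hx : ∀ p ∈ P, 0 < (p : ℝ) ^ (-σ) ∧ (p : ℝ) ^ (-σ) ≤ 1 / 2 ∧
      ((p : ℝ) ^ (-σ)) ^ 2 ≤ ((p : ℝ) ^ 2)⁻¹ := by
    intro p hp
    have h2 : (2 : ℝ) ≤ p := by exact_mod_cast (hP p hp).1.two_le
    have h0 : (0 : ℝ) < p := by linarith
    have h3 : (p : ℝ) ^ (-σ) ≤ (p : ℝ) ^ (-1 : ℝ) :=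
      Real.rpow_le_rpow_of_exponent_le (by linarith) (by linarith)
    rw [Real.rpow_neg_one] at h3
    refine ⟨by positivity, h3.trans ?_, ?_⟩
    · rw [one_div]
      exact inv_anti₀ (by norm_num) h2
    · rw [← inv_pow]
      exact pow_le_pow_left₀ (by positivity) h3 2
  have hloc : ∀ p ∈ P, (1 - ((p : ℝ) ^ (-σ)) ^ 2) * Real.exp (‖a p‖ ^ 2 * (p : ℝ) ^ (-σ)) ≤
      ∑' n : ℕ, FF N a σ (p ^ n) := by
    intro p hp
    obtain ⟨hpp, hpN⟩ := hP p hp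
    obtain ⟨x0, x1, -⟩ := hx p hp
    have hsp : Summable fun n => FF N a σ (p ^ n) :=
      hs.comp_injective (Nat.pow_right_injective hpp.one_lt)
    simp only [FF_pow hpp hpN] at hsp ⊢
    exact local_ge (c := fun n => a (p ^ n)) (ε := ε (p : ZMod N)) (by simpa using h1) (by simp)
      (hε p hpp hpN) (fun n => h.pow_rec hpp hpN n) x0.le (by linarith) hsp
  have hpos : ∀ p ∈ P, 0 < (1 - ((p : ℝ) ^ (-σ)) ^ 2) * Real.exp (‖a p‖ ^ 2 * (p : ℝ) ^ (-σ)) := by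
    intro p hp
    obtain ⟨x0, x1, -⟩ := hx p hp
    have : 0 < 1 - ((p : ℝ) ^ (-σ)) ^ 2 := by nlinarith
    positivity
  have hprod2 : ∏ p ∈ P, ((1 - ((p : ℝ) ^ (-σ)) ^ 2) * Real.exp (‖a p‖ ^ 2 * (p : ℝ) ^ (-σ))) ≤ K :=
    (Finset.prod_le_prod (fun p hp => (hpos p hp).le) hloc).trans hprod
  have hlog := Real.log_le_log (Finset.prod_pos hpos) hprod2
  rw [Real.log_prod (fun p hp => (hpos p hp).ne')] at hlog
  have hterm : ∀ p ∈ P, ‖a p‖ ^ 2 * (p : ℝ) ^ (-σ) - 2 * ((p : ℝ) ^ 2)⁻¹ ≤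
      Real.log ((1 - ((p : ℝ) ^ (-σ)) ^ 2) * Real.exp (‖a p‖ ^ 2 * (p : ℝ) ^ (-σ))) := by
    intro p hp
    obtain ⟨x0, x1, x2⟩ := hx p hp
    set x := (p : ℝ) ^ (-σ) with hxdef
    have hy : 0 < 1 - x ^ 2 := by nlinarith
    rw [Real.log_mul hy.ne' (Real.exp_pos _).ne', Real.log_exp]
    have h2 := Real.one_sub_inv_le_log_of_pos hy
    have h3 : -(2 * x ^ 2) ≤ 1 - (1 - x ^ 2)⁻¹ := by
      have h4 : (1 - x ^ 2)⁻¹ ≤ 1 + 2 * x ^ 2 := by
        rw [inv_le_comm₀ hy (by positivity), inv_eq_one_div, div_le_iff₀ (by positivity)]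
        have h5 : x ^ 2 ≤ 1 / 4 := by nlinarith
        nlinarith [sq_nonneg x]
      linarith
    linarith
  have hsum2 : ∑ p ∈ P, (2 : ℝ) * ((p : ℝ) ^ 2)⁻¹ ≤ 2 * ∑' n : ℕ, ((n : ℝ) ^ 2)⁻¹ := by
    rw [← Finset.mul_sum]
    refine mul_le_mul_of_nonneg_left ?_ (by norm_num)
    exact (Real.summable_nat_pow_inv.mpr one_lt_two).sum_le_tsum _ (fun n _ => by positivity)
  have hfin := (Finset.sum_le_sum hterm).trans hlog
  rw [Finset.sum_sub_distrib] at hfin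
  linarith

end Euler

/-- **(C)**: Rankin's bound -/
theorem cStatement : CStatement := by
  intro N _ ε a g _ h1 h hg hC
  obtain ⟨K, hK, hm⟩ := meansq hg hC
  set Z : ℝ := ∑' n : ℕ, ((n : ℝ) ^ 2)⁻¹ with hZ
  have hε : ∀ p : ℕ, p.Prime → ¬ p ∣ N → ‖ε (p : ZMod N)‖ = 1 := by
    intro p hp hpN
    have hu : IsUnit (p : ZMod N) :=
      (ZMod.isUnit_iff_coprime p N).mpr (hp.coprime_iff_not_dvd.mpr hpN)
    obtain ⟨u, hu⟩ := hu
    rw [← hu]
    exact ε.unit_norm_eq_one u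
  refine ⟨Real.log (24 * K) + 2 * Z, fun s hs1 hs2 => ?_⟩
  have hs0 : 0 < s - 1 := by linarith
  have hFb : ∀ t : Finset ℕ, ∑ n ∈ t, FF N a s n ≤ 24 * K / (s - 1) := by
    intro t
    have h2 := dirichlet_le (b := fun n => ‖a n‖ ^ 2) (fun n => by positivity) hK
      (fun y hy t => by
        have := hm y hy t
        exact this) hs1 hs2 (t.erase 0) (fun n hn => (Finset.mem_erase.mp hn).1)
    refine le_trans ?_ h2
    have h3 : ∑ n ∈ t, FF N a s n ≤ ∑ n ∈ t.erase 0, FF N a s n := by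
      by_cases h0 : 0 ∈ t
      · rw [← Finset.add_sum_erase _ _ h0, FF_zero (by linarith), zero_add]
      · rw [Finset.erase_eq_of_notMem h0]
    refine h3.trans (Finset.sum_le_sum fun n _ => ?_)
    unfold FF
    split_ifs
    · exact le_rfl
    · positivity
  have hFs : Summable (FF N a s) := summable_of_sum_le (FF_nonneg s) hFb
  have hFt : ∑' n, FF N a s n ≤ 24 * K / (s - 1) := hFs.tsum_le_of_sum_le hFb
  have hb : ∀ t : Finset Nat.Primes, ∑ p ∈ t, (if (p : ℕ) ∣ N then 0 else ‖a p‖ ^ 2) *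
      ((p : ℕ) : ℝ) ^ (-s) ≤ Real.log (1 / (s - 1)) + (Real.log (24 * K) + 2 * Z) := by
    intro t
    classical
    set P : Finset ℕ := (t.image (fun p : Nat.Primes => (p : ℕ))).filter (fun p => ¬ p ∣ N)
      with hP
    have h2 := euler_le h h1 hε hs1 hFs hFt P (fun p hp => by
      rw [hP, Finset.mem_filter, Finset.mem_image] at hp
      obtain ⟨⟨q, -, rfl⟩, hq⟩ := hp
      exact ⟨q.2, hq⟩)
    have h3 : ∑ p ∈ P, ‖a p‖ ^ 2 * (p : ℝ) ^ (-s) = ∑ p ∈ t, (if (p : ℕ) ∣ N then 0 else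
        ‖a p‖ ^ 2) * ((p : ℕ) : ℝ) ^ (-s) := by
      rw [hP, Finset.sum_filter, Finset.sum_image (f := fun n : ℕ => if ¬ n ∣ N then
        ‖a n‖ ^ 2 * (n : ℝ) ^ (-s) else 0) (g := fun p : Nat.Primes => (p : ℕ))
        (fun x _ y _ hxy => Subtype.ext hxy)]
      refine Finset.sum_congr rfl fun p _ => ?_
      split_ifs <;> simp_all
    rw [← h3]
    refine h2.trans ?_
    rw [show 24 * K / (s - 1) = (1 / (s - 1)) * (24 * K) by ring,
      Real.log_mul (by positivity) (by positivity)]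
    linarith
  have hnn : ∀ p : Nat.Primes, 0 ≤ (if (p : ℕ) ∣ N then 0 else ‖a p‖ ^ 2) *
      ((p : ℕ) : ℝ) ^ (-s) := by
    intro p
    split_ifs
    · simp
    · positivity
  have hsum := summable_of_sum_le hnn hb
  exact ⟨hsum, hsum.tsum_le_of_sum_le hb⟩

end Fermat.Agent.DS1
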