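import Fermat.Agent.DS1.Defs
import Fermat.Statements.S48

/-!
# Deligne-Serre: statements of the pieces of `(A)`
-/

set_option autoImplicit false

noncomputable section

namespace Fermat.Agent.DS1

open CongruenceSubgroup ModularForm
open scoped MatrixGroups

/-- **(N3)** the nebentypus is forced by the Hecke relations -/
def NebStatement : Prop :=
  ∀ (N : ℕ) [NeZero N] (ε : DirichletCharacter ℂ N) (f : CuspForm (Gamma1 N) 1),
    ModularFormClass.qCoeff f 1 = 1 →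
    (∀ p : ℕ, p.Prime → ¬ p ∣ N → ∀ n : ℕ,
        ModularFormClass.qCoeff f (p * n) +
            ε (p : ZMod N) * (if p ∣ n then ModularFormClass.qCoeff f (n / p) else 0) =
          ModularFormClass.qCoeff f p * ModularFormClass.qCoeff f n) →
    ∀ γ ∈ Gamma0 N, (⇑f ∣[(1 : ℤ)] γ) = ε ((γ 1 1 : ℤ) : ZMod N) • ⇑f

/-- **(N4)** the conjugates of `f` are bounded like cusp forms of weight one -/
def ConjStatement : Prop :=
  ∀ (N : ℕ) [NeZero N] (ε : DirichletCharacter ℂ N) (f : CuspForm (Gamma1 N) 1),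
    (∀ γ ∈ Gamma0 N, (⇑f ∣[(1 : ℤ)] γ) = ε ((γ 1 1 : ℤ) : ZMod N) • ⇑f) →
    ∀ σ : ℂ ≃+* ℂ, ∃ g : UpperHalfPlane → ℂ,
      (∀ τ : UpperHalfPlane, HasSum (fun n : ℕ => σ (ModularFormClass.qCoeff f n) *
        Complex.exp (2 * Real.pi * Complex.I * τ) ^ n) (g τ)) ∧
      ∃ C : ℝ, ∀ τ : UpperHalfPlane, ‖g τ‖ ^ 2 * τ.im ≤ C

end Fermat.Agent.DS1
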