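import Fermat.Agent.DS1.Pieces3
import Fermat.Agent.DS1.Ran3
import Fermat.Agent.DS4.Conj
import Fermat.Agent.AnJacH.LiftAut

/-!
# Deligne-Serre: the Rankin bound for all the conjugates
-/

set_option autoImplicit false

noncomputable section

namespace Fermat.Agent.DS1

open CongruenceSubgroup ModularForm
open scoped MatrixGroups

theorem rankinAll_of (hconj : ConjStatement) (hC : CStatement) : RankinAll := by
  intro N _ ε f ι α h1 hrel hε hα τ
  letI := ι.toAlgebra
  obtain ⟨σ, hσ⟩ := AnJacH.exists_lift_aut (K := ℂ) (τ : AlgebraicClosure ℚ ≃+* AlgebraicClosure ℚ)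
  have hσ' : ∀ x, σ (ι x) = ι (τ x) := hσ
  obtain ⟨g, hg, hgC⟩ := hconj N ε f hε σ
  have h0 : ModularFormClass.qCoeff f 0 = 0 :=
    CuspFormClass.qExpansion_coeff_zero (h := 1) f one_pos (by simp)
  have hR : RankinBound N (fun n => σ (ModularFormClass.qCoeff f n)) := by
    refine hC N (ε.ringHomComp (σ : ℂ →+* ℂ)) _ g (by simp [h0]) (by simp [h1]) ?_ hg hgC
    intro p hp hpN n
    have h2 := congrArg σ (hrel p hp hpN n)
    rw [map_add, map_mul, map_mul] at h2
    rw [← h2]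
    congr 1
    rw [MulChar.ringHomComp_apply]
    congr 1
    split_ifs
    · rfl
    · rw [map_zero]
  obtain ⟨C, hC'⟩ := hR
  have hfun : ∀ s : ℝ, (fun p : Nat.Primes => (if (p : ℕ) ∣ N then 0 else ‖ι (τ (α p))‖ ^ 2) *
      ((p : ℕ) : ℝ) ^ (-s)) = (fun p : Nat.Primes => (if (p : ℕ) ∣ N then 0 else
        ‖σ (ModularFormClass.qCoeff f (p : ℕ))‖ ^ 2) * ((p : ℕ) : ℝ) ^ (-s)) := by
    intro s
    funext p
    by_cases hp : (p : ℕ) ∣ N
    · rw [if_pos hp, if_pos hp]
    · rw [if_neg hp, if_neg hp, ← hα p p.2 hp, hσ']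
  refine ⟨C, fun s hs hs2 => ?_⟩
  obtain ⟨h3, h4⟩ := hC' s hs hs2
  exact ⟨by rw [hfun s]; exact h3, by rw [hfun s]; exact h4⟩

/-- **(RALL)** -/
theorem rankinAll : RankinAll := rankinAll_of DS4.conjStatement cStatement

end Fermat.Agent.DS1
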