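import Fermat.Agent.DS1.HE
import Fermat.Agent.DS1.RAll
import Fermat.Agent.DS1.Neb4
import Fermat.Agent.DS1.GrpG
import Fermat.Agent.DSD.Final
import Fermat.Agent.DSB.Fin

/-!
# Deligne-Serre: assembly
-/

set_option autoImplicit false
set_option linter.unusedSectionVars false

noncomputable section

namespace Fermat.Agent.DS1

open CongruenceSubgroup IsLocalRing
open scoped MatrixGroups

local notation "Qbar" => AlgebraicClosure ℚ
local notation "GQ" => (AlgebraicClosure ℚ ≃ₐ[ℚ] AlgebraicClosure ℚ)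

/-- the data attached to a cusp form -/
theorem dat_of (N : ℕ) [NeZero N] (ε : DirichletCharacter ℂ N) (f : CuspForm (Gamma1 N) 1)
    (hf₁ : ModularFormClass.qCoeff f 1 = 1)
    (hT : ∀ p : ℕ, p.Prime → ¬ p ∣ N → ∀ n : ℕ,
        ModularFormClass.qCoeff f (p * n) +
            ε (p : ZMod N) * (if p ∣ n then ModularFormClass.qCoeff f (n / p) else 0) =
          ModularFormClass.qCoeff f p * ModularFormClass.qCoeff f n) :
    Dat N ε (f : UpperHalfPlane → ℂ) where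
  q1 := isQ1_form f
  qd := qd_form f
  one := hf₁
  hecke := hT
  neb := nebStatement N ε f hf₁ hT

theorem s48_of (hB : DSB.BStatement) (N : ℕ) [NeZero N] (ε : DirichletCharacter ℂ N)
    (f : CuspForm (Gamma1 N) 1) (hf₁ : ModularFormClass.qCoeff f 1 = 1)
    (hT : ∀ p : ℕ, p.Prime → ¬ p ∣ N → ∀ n : ℕ,
        ModularFormClass.qCoeff f (p * n) +
            ε (p : ZMod N) * (if p ∣ n then ModularFormClass.qCoeff f (n / p) else 0) =
          ModularFormClass.qCoeff f p * ModularFormClass.qCoeff f n) :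
    ∃ ρ : GQ →* GL (Fin 2) ℂ, GaloisFactorsThroughFiniteLevel ρ ∧
      (Deformation.matrixRepresentation ρ).IsIrreducible ∧
      ∀ p : ℕ, p.Prime → ¬ p ∣ N →
        ∀ A : ValuationSubring (AlgebraicClosure ℚ), A.LiesOverPrime p →
          (∀ σ ∈ A.inertiaSubgroupIn ℚ, ρ σ = 1) ∧
          ∀ σ : GQ, A.IsFrobeniusAt σ p →
            ((ρ σ : GL (Fin 2) ℂ) : Matrix (Fin 2) (Fin 2) ℂ).trace = ModularFormClass.qCoeff f p ∧
            ((ρ σ : GL (Fin 2) ℂ) : Matrix (Fin 2) (Fin 2) ℂ).det = ε (p : ZMod N) := by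
  have hD := dat_of N ε f hf₁ hT
  have hN0 : N ≠ 0 := NeZero.ne N
  let ι : Qbar →+* ℂ := (IsAlgClosed.lift (R := ℚ) (S := Qbar) (M := ℂ) : Qbar →ₐ[ℚ] ℂ)
  obtain ⟨α, e, hα, he, hK, hαi, hei, hroot⟩ := hD.exists_alpha ι
  have hdata : DSData N ι α e := by
    refine ⟨hK, hαi, hroot, rankinAll N ε f ι α hf₁ hT (nebStatement N ε f hf₁ hT) hα, 5, ?_⟩
    intro ℓ hℓ h5 A hA
    have : Fact ℓ.Prime := ⟨hℓ⟩
    refine hB N ℓ A hN0 hA α e fun p hp hpN => ?_
    have hpN' : ¬ p ∣ N := fun h => hpN (h.mul_right ℓ)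
    have hpℓ : ¬ p ∣ ℓ := fun h => hpN (h.mul_left N)
    have hNℓ : 0 < N * ℓ := Nat.mul_pos (Nat.pos_of_ne_zero hN0) hℓ.pos
    have key : ∀ c : ℕ, 16 ≤ c → (2 ∣ c ∨ 3 ∣ c) → ¬ p ∣ c → ∃ (m : ℕ) (_ : NeZero m), 15 < m ∧
        (2 ∣ m ∨ 3 ∣ m) ∧ ℓ ∣ m ∧ ¬ p ∣ m ∧ DSB.HasEig m A α e := by
      intro c hc hc23 hpc
      have hm0 : NeZero (c * (N * ℓ)) := ⟨(Nat.mul_pos (by omega) hNℓ).ne'⟩
      refine ⟨c * (N * ℓ), hm0, ?_, ?_, ?_, ?_, ?_⟩
      · nlinarith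
      · exact hc23.imp (fun h => h.mul_right _) (fun h => h.mul_right _)
      · exact (dvd_mul_left ℓ N).mul_left c
      · intro h
        rcases (Nat.Prime.dvd_mul hp).mp h with h1 | h1
        · exact hpc h1
        · exact hpN h1
      · exact hasEig hD ((dvd_mul_right N ℓ).mul_left c) hℓ ((dvd_mul_left ℓ N).mul_left c) h5 hA
          hα he hαi hei
    by_cases h2 : p = 2
    · subst h2
      exact key 27 (by norm_num) (Or.inr (by norm_num)) (by norm_num)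
    · refine key 32 (by norm_num) (Or.inl (by norm_num)) ?_
      intro h
      have h3 : p ∣ 2 ^ 5 := by norm_num; exact h
      exact h2 ((Nat.prime_dvd_prime_iff_eq hp Nat.prime_two).mp (hp.dvd_of_dvd_pow h3))
  obtain ⟨ρ, h1, h2, h3⟩ := eStatement N hN0 ι α e hdata (DSD.dStatement N hN0 ι α e hdata)
  refine ⟨ρ, h1, h2, fun p hp hpN A hA => ⟨(h3 p hp hpN A hA).1, fun σ hσ => ?_⟩⟩
  obtain ⟨h4, h5⟩ := (h3 p hp hpN A hA).2 σ hσ
  refine ⟨h4.trans (hα p hp hpN), h5.trans (he p)⟩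

end Fermat.Agent.DS1
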