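import Fermat.Agent.DS1.Defs
import Fermat.Agent.Frob.Qbar
import Mathlib.RingTheory.Nullstellensatz
import Mathlib.RingTheory.MvPolynomial.Localization
import Mathlib.RingTheory.DedekindDomain.IntegralClosure

/-!
# Deligne-Serre (E), I: the Nullstellensatz argument

A system of polynomial equations with integral coefficients in `Qbar` that can be solved in fields
of arbitrarily large characteristic can be solved in `Qbar`.
-/

set_option autoImplicit false
set_option linter.style.haveILetI false

noncomputable section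

namespace Fermat.Agent.DS1

open MvPolynomial nonZeroDivisors

local notation "Qbar" => AlgebraicClosure ℚ
local notation "OO" => integralClosure ℤ (AlgebraicClosure ℚ)

theorem isLocalization_OO : IsLocalization (Algebra.algebraMapSubmonoid OO ℤ⁰) Qbar := by
  haveI := Frob.isAlgebraic_Qbar
  exact IsIntegralClosure.isLocalization ℤ ℚ Qbar OO

/-- solvability in large characteristic implies solvability in characteristic zero -/
theorem ns {σ : Type} [Finite σ] (S : Set (MvPolynomial σ OO))
    (h : ∀ n : ℕ, n ≠ 0 → ∃ (k : Type) (_ : Field k) (φ : OO →+* k) (v : σ → k),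
      (n : k) ≠ 0 ∧ ∀ f ∈ S, eval₂ φ v f = 0) :
    ∃ v : σ → Qbar, ∀ f ∈ S, eval₂ (algebraMap OO Qbar) v f = 0 := by
  haveI := isLocalization_OO
  by_contra hcon
  push Not at hcon
  letI : Algebra (MvPolynomial σ OO) (MvPolynomial σ Qbar) := algebraMvPolynomial
  have hloc : IsLocalization ((Algebra.algebraMapSubmonoid OO ℤ⁰).map <| C (σ := σ))
      (MvPolynomial σ Qbar) := isLocalization _ _
  set I : Ideal (MvPolynomial σ OO) := Ideal.span S with hI
  have htop : I.map (algebraMap (MvPolynomial σ OO) (MvPolynomial σ Qbar)) = ⊤ := by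
    have h1 : zeroLocus Qbar (I.map (algebraMap (MvPolynomial σ OO) (MvPolynomial σ Qbar))) = ∅ := by
      rw [Set.eq_empty_iff_forall_notMem]
      intro v hv
      obtain ⟨f, hf, hf'⟩ := hcon v
      apply hf'
      have h2 := hv _ (Ideal.mem_map_of_mem _ (Ideal.subset_span hf))
      rw [← h2, algebraMap_def, aeval_map_algebraMap]
      rfl
    have h3 := vanishingIdeal_zeroLocus_eq_radical (K := Qbar)
      (I.map (algebraMap (MvPolynomial σ OO) (MvPolynomial σ Qbar)))
    rw [h1, vanishingIdeal_empty] at h3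
    exact Ideal.radical_eq_top.mp h3.symm
  have h4 : algebraMap (MvPolynomial σ OO) (MvPolynomial σ Qbar) 1 ∈
      I.map (algebraMap (MvPolynomial σ OO) (MvPolynomial σ Qbar)) := by
    rw [htop]; exact Submodule.mem_top
  rw [IsLocalization.algebraMap_mem_map_algebraMap_iff
    ((Algebra.algebraMapSubmonoid OO ℤ⁰).map <| C (σ := σ))] at h4
  obtain ⟨m, ⟨c, ⟨n, hn, rfl⟩, rfl⟩, hm⟩ := h4
  rw [mul_one] at hm
  have hn0 : n ≠ 0 := nonZeroDivisors.ne_zero hn
  obtain ⟨k, hk, φ, v, hnk, hv⟩ := h n.natAbs (Int.natAbs_ne_zero.mpr hn0)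
  have h5 : I ≤ RingHom.ker (eval₂Hom φ v) := by
    rw [hI, Ideal.span_le]
    intro f hf
    exact hv f hf
  have h6 := h5 hm
  rw [RingHom.mem_ker] at h6
  change eval₂ φ v (C ((algebraMap ℤ OO) n)) = 0 at h6
  rw [eval₂_C] at h6
  replace h6 : (φ.comp (algebraMap ℤ OO)) n = 0 := h6
  rw [eq_intCast] at h6
  apply hnk
  have h7 : ((n.natAbs : ℤ) : k) = 0 := by
    rcases Int.natAbs_eq n with h8 | h8
    · rw [← h8]; exact h6
    · have h9 : ((n.natAbs : ℤ)) = -n := by omega
      rw [h9, Int.cast_neg, h6, neg_zero]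
  rw [← Int.cast_natCast]
  exact h7

end Fermat.Agent.DS1
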