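import Fermat.Agent.DS1.GrpA
import Fermat.Agent.FrobDens.Main

/-!
# Deligne-Serre (E), II: two-dimensional matrices with eigenvalues reductions of roots of unity
-/

set_option autoImplicit false
set_option linter.style.haveILetI false
set_option linter.unusedSectionVars false

noncomputable section

namespace Fermat.Agent.DS1

open Matrix

local notation "Qbar" => AlgebraicClosure ℚ
local notation "OO" => integralClosure ℤ (AlgebraicClosure ℚ)
local notation "GQ" => (AlgebraicClosure ℚ ≃ₐ[ℚ] AlgebraicClosure ℚ)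

section Basic

variable {R : Type*} [CommRing R] [IsDomain R] {k : Type*} [Field k] (φ : R →+* k) {M : ℕ}

/-- reduction is injective on roots of unity -/
lemma red_inj (hM : (M : k) ≠ 0) {x y : R} (hx : x ^ M = 1) (hy : y ^ M = 1)
    (h : φ x = φ y) : x = y := by
  have hM0 : M ≠ 0 := by rintro rfl; simp at hM
  set z : R := x * y ^ (M - 1) with hz
  have hy' : y ^ (M - 1) * y = 1 := by
    rw [← pow_succ, Nat.sub_add_cancel (Nat.one_le_iff_ne_zero.mpr hM0), hy]
  have hzy : z * y = x := by rw [hz, mul_assoc, hy', mul_one]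
  have hzM : z ^ M = 1 := by
    rw [hz, mul_pow, hx, one_mul, ← pow_mul, mul_comm, pow_mul, hy, one_pow]
  have hφz : φ z = 1 := by
    rw [hz, map_mul, h, map_pow, ← map_pow, ← map_mul, mul_comm, hy', map_one]
  have h1 : z = 1 := by
    by_contra hne
    have h2 := mul_geom_sum z M
    rw [hzM, sub_self] at h2
    rcases mul_eq_zero.mp h2 with h3 | h3
    · exact hne (sub_eq_zero.mp h3)
    · apply hM
      have h4 := congrArg φ h3
      rw [map_sum, map_zero] at h4
      simpa [hφz] using h4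
  rw [← hzy, h1, one_mul]

/-- the eigenvalues of `g` are the reductions of the roots of unity `x, y` -/
def Lft (M : ℕ) (g : GL (Fin 2) k) (x y : R) : Prop :=
  x ^ M = 1 ∧ y ^ M = 1 ∧ (g : Matrix (Fin 2) (Fin 2) k).trace = φ x + φ y ∧
    (g : Matrix (Fin 2) (Fin 2) k).det = φ x * φ y

variable {φ}

lemma Lft.symm {g : GL (Fin 2) k} {x y : R} (h : Lft φ M g x y) : Lft φ M g y x :=
  ⟨h.2.1, h.1, by rw [h.2.2.1, add_comm], by rw [h.2.2.2, mul_comm]⟩

lemma Lft.uniq (hM : (M : k) ≠ 0) {g : GL (Fin 2) k} {x y x' y' : R} (h : Lft φ M g x y)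
    (h' : Lft φ M g x' y') : (x' = x ∧ y' = y) ∨ (x' = y ∧ y' = x) := by
  have hs : φ x + φ y = φ x' + φ y' := by rw [← h.2.2.1, ← h'.2.2.1]
  have hp : φ x * φ y = φ x' * φ y' := by rw [← h.2.2.2, ← h'.2.2.2]
  have h1 : (φ x' - φ x) * (φ x' - φ y) = 0 := by
    linear_combination hp - φ x' * hs
  rcases mul_eq_zero.mp h1 with h2 | h2
  · left
    rw [sub_eq_zero] at h2
    refine ⟨red_inj φ hM h'.1 h.1 h2, red_inj φ hM h'.2.1 h.2.1 ?_⟩
    linear_combination -hs - h2
  · right
    rw [sub_eq_zero] at h2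
    refine ⟨red_inj φ hM h'.1 h.2.1 h2, red_inj φ hM h'.2.1 h.1 ?_⟩
    linear_combination -hs - h2

lemma Lft.sum_eq (hM : (M : k) ≠ 0) {g : GL (Fin 2) k} {x y x' y' : R} (h : Lft φ M g x y)
    (h' : Lft φ M g x' y') : x' + y' = x + y ∧ x' * y' = x * y := by
  rcases h.uniq hM h' with ⟨rfl, rfl⟩ | ⟨rfl, rfl⟩
  · exact ⟨rfl, rfl⟩
  · exact ⟨add_comm _ _, mul_comm _ _⟩

/-- transport along a common pair -/
lemma Lft.trans (hM : (M : k) ≠ 0) {g : GL (Fin 2) k} {x y x' y' : R} (h : Lft φ M g x y)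
    (h' : Lft φ M g x' y') {k' : Type*} [Field k'] {φ' : R →+* k'} {g' : GL (Fin 2) k'}
    (h'' : Lft φ' M g' x y) : Lft φ' M g' x' y' := by
  rcases h.uniq hM h' with ⟨rfl, rfl⟩ | ⟨rfl, rfl⟩
  · exact h''
  · exact h''.symm

/-- Cayley-Hamilton for `2 × 2` matrices -/
lemma sq_eq (g : Matrix (Fin 2) (Fin 2) k) : g * g = g.trace • g - g.det • 1 := by
  ext i j
  fin_cases i <;> fin_cases j <;>
    simp [Matrix.mul_apply, Fin.sum_univ_two, Matrix.trace_fin_two, Matrix.det_fin_two] <;> ring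

lemma trace_pow_of (g : Matrix (Fin 2) (Fin 2) k) {a b : k} (ht : g.trace = a + b)
    (hd : g.det = a * b) : ∀ n : ℕ, (g ^ n).trace = a ^ n + b ^ n
  | 0 => by simp [Matrix.trace_fin_two]; norm_num
  | 1 => by simpa using ht
  | (n + 2) => by
    have h1 : g ^ (n + 2) = (a + b) • g ^ (n + 1) - (a * b) • g ^ n := by
      rw [pow_add, pow_two, sq_eq, ht, hd, mul_sub, pow_succ, Matrix.mul_smul, Matrix.mul_smul,
        mul_one]
    rw [h1, Matrix.trace_sub, Matrix.trace_smul, Matrix.trace_smul, trace_pow_of g ht hd (n + 1),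
      trace_pow_of g ht hd n]
    simp only [smul_eq_mul]
    ring

lemma Lft.pow {g : GL (Fin 2) k} {x y : R} (h : Lft φ M g x y) (n : ℕ) :
    Lft φ M (g ^ n) (x ^ n) (y ^ n) := by
  refine ⟨by rw [← pow_mul, mul_comm, pow_mul, h.1, one_pow],
    by rw [← pow_mul, mul_comm, pow_mul, h.2.1, one_pow], ?_, ?_⟩
  · rw [Units.val_pow_eq_pow_val, trace_pow_of _ h.2.2.1 h.2.2.2, map_pow, map_pow]
  · rw [Units.val_pow_eq_pow_val, Matrix.det_pow, h.2.2.2, mul_pow, map_pow, map_pow]

lemma Lft.of_one (hM : (M : k) ≠ 0) {x y : R} (h : Lft φ M (1 : GL (Fin 2) k) x y) :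
    x = 1 ∧ y = 1 := by
  have h1 : Lft φ M (1 : GL (Fin 2) k) (1 : R) 1 := by
    refine ⟨one_pow _, one_pow _, ?_, ?_⟩
    · simp [Matrix.trace_fin_two]
      norm_num
    · simp
  rcases h1.uniq hM h with h2 | h2
  · exact h2
  · exact h2

/-- a matrix of order prime to the characteristic, with both eigenvalues equal to `1`,
is trivial -/
lemma Lft.eq_one (hM : (M : k) ≠ 0) {g : GL (Fin 2) k} (hg : g ^ M = 1)
    (h : Lft φ M g (1 : R) 1) : g = 1 := by
  set A : Matrix (Fin 2) (Fin 2) k := (g : Matrix (Fin 2) (Fin 2) k) with hA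
  have ht : A.trace = 2 := by rw [h.2.2.1, map_one]; norm_num
  have hd : A.det = 1 := by rw [h.2.2.2, map_one, one_mul]
  have h1 : (A - 1) * (A - 1) = 0 := by
    rw [sub_mul, mul_sub, mul_one, one_mul, sq_eq, ht, hd, one_smul, two_smul]
    abel
  have h2 : ∀ n : ℕ, A ^ n = 1 + (n : k) • (A - 1) := by
    intro n
    induction n with
    | zero => simp
    | succ n ih =>
      rw [pow_succ, ih]
      have h3 : A = 1 + (A - 1) := by abel
      conv_lhs => rw [h3]
      rw [show 1 + (A - 1) - 1 = A - 1 by abel, mul_add, mul_one, add_mul, one_mul,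
        Matrix.smul_mul, h1, smul_zero, add_zero, Nat.cast_succ, add_smul, one_smul]
      abel
  have h3 : A ^ M = 1 := by
    rw [hA, ← Units.val_pow_eq_pow_val, hg, Units.val_one]
  rw [h2 M] at h3
  have h4 : (M : k) • (A - 1) = 0 := by simpa using h3
  have h5 : A - 1 = 0 := by
    rcases smul_eq_zero.mp h4 with h6 | h6
    · exact absurd h6 hM
    · exact h6
  exact Units.ext (sub_eq_zero.mp h5)

end Basic

end Fermat.Agent.DS1
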