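import Fermat.Agent.DS1.GrpB

/-!
# Deligne-Serre (E), III: construction of the representation over `Qbar`
-/

set_option autoImplicit false
set_option linter.style.haveILetI false
set_option linter.unusedSectionVars false

noncomputable section

namespace Fermat.Agent.DS1

open Matrix

local notation "Qbar" => AlgebraicClosure ℚ
local notation "OO" => integralClosure ℤ (AlgebraicClosure ℚ)
local notation "GQ" => (AlgebraicClosure ℚ ≃ₐ[ℚ] AlgebraicClosure ℚ)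

/-- `ρ` is a representation over `k` attached to `(α, e)` outside `S` -/
structure Good (M : ℕ) (α e : ℕ → Qbar) (S : Set ℕ) {k : Type} [Field k] (φ : OO →+* k)
    (ρ : GQ →* GL (Fin 2) k) : Prop where
  fin : S.Finite
  level : GaloisFactorsThroughFiniteLevel ρ
  card : (M : k) ≠ 0
  pow : ∀ σ, ρ σ ^ M = 1
  inert : ∀ p : ℕ, p.Prime → p ∉ S → ∀ C : ValuationSubring Qbar, C.LiesOverPrime p →
    ∀ σ ∈ C.inertiaSubgroupIn ℚ, ρ σ = 1
  frob : ∀ p : ℕ, p.Prime → p ∉ S → ∀ C : ValuationSubring Qbar, C.LiesOverPrime p →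
    ∀ σ : GQ, C.IsFrobeniusAt σ p → ∀ x y : OO, (x : Qbar) + y = α p → (x : Qbar) * y = e p →
      ((ρ σ : GL (Fin 2) k) : Matrix (Fin 2) (Fin 2) k).trace = φ x + φ y ∧
      ((ρ σ : GL (Fin 2) k) : Matrix (Fin 2) (Fin 2) k).det = φ x * φ y

/-- the roots of the Hecke polynomials are roots of unity -/
def Roots (N M : ℕ) (α e : ℕ → Qbar) : Prop :=
  ∀ p : ℕ, p.Prime → ¬ p ∣ N → ∀ x : Qbar, x ^ 2 - α p * x + e p = 0 → x ^ M = 1

lemma Roots.exists_pair {N M : ℕ} {α e : ℕ → Qbar} (hM : 0 < M) (h : Roots N M α e) {p : ℕ}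
    (hp : p.Prime) (hpN : ¬ p ∣ N) :
    ∃ x y : OO, (x : Qbar) + y = α p ∧ (x : Qbar) * y = e p ∧ x ^ M = 1 ∧ y ^ M = 1 := by
  obtain ⟨x, hx⟩ : ∃ x : Qbar, x ^ 2 - α p * x + e p = 0 := by
    have h1 : (Polynomial.X ^ 2 - Polynomial.C (α p) * Polynomial.X +
        Polynomial.C (e p) : Polynomial Qbar).degree ≠ 0 := by
      have h2 : (Polynomial.X ^ 2 - Polynomial.C (α p) * Polynomial.X +
        Polynomial.C (e p) : Polynomial Qbar).degree = 2 := by compute_degree!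
      rw [h2]; norm_num
    obtain ⟨x, hx⟩ := IsAlgClosed.exists_root _ h1
    refine ⟨x, ?_⟩
    simpa [Polynomial.IsRoot] using hx
  have hy : (α p - x) ^ 2 - α p * (α p - x) + e p = 0 := by linear_combination hx
  have hxM := h p hp hpN x hx
  have hyM := h p hp hpN _ hy
  have hint : ∀ z : Qbar, z ^ M = 1 → z ∈ OO := fun z hz =>
    IsIntegral.of_pow hM (by rw [hz]; exact isIntegral_one)
  refine ⟨⟨x, hint x hxM⟩, ⟨α p - x, hint _ hyM⟩, by simp, ?_, Subtype.ext hxM, Subtype.ext hyM⟩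
  show x * (α p - x) = e p
  linear_combination -hx

section Two

variable {N M : ℕ} {α e : ℕ → Qbar}
variable {S : Set ℕ} {k : Type} [Field k] {φ : OO →+* k} {ρ : GQ →* GL (Fin 2) k}
variable {S' : Set ℕ} {k' : Type} [Field k'] {φ' : OO →+* k'} {ρ' : GQ →* GL (Fin 2) k'}

/-- common eigenvalues -/
theorem common (hN : N ≠ 0) (hM : 0 < M) (hr : Roots N M α e) (h : Good M α e S φ ρ)
    (h' : Good M α e S' φ' ρ') (σ : GQ) :
    ∃ x y : OO, Lft φ M (ρ σ) x y ∧ Lft φ' M (ρ' σ) x y := by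
  obtain ⟨L, hL, hLρ⟩ := h.level
  obtain ⟨L', hL', hLρ'⟩ := h'.level
  haveI := hL
  haveI := hL'
  have hfin : ({p : ℕ | p ∣ N} ∪ (S ∪ S')).Finite :=
    ((Nat.divisors N).finite_toSet.subset fun p hp => by
      simpa [hN] using hp).union (h.fin.union h'.fin)
  obtain ⟨p, hp, hpS, C, hC, τ, hτ, n, m, hn, -⟩ :=
    FrobDens.exists_frobenius (L ⊔ L') _ hfin σ
  have hpN : ¬ p ∣ N := fun hd => hpS (Or.inl hd)
  have hpS1 : p ∉ S := fun hd => hpS (Or.inr (Or.inl hd))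
  have hpS2 : p ∉ S' := fun hd => hpS (Or.inr (Or.inr hd))
  obtain ⟨x, y, h1, h2, h3, h4⟩ := hr.exists_pair hM hp hpN
  have hlev : ∀ x ∈ L ⊔ L', (σ⁻¹ * τ ^ n) x = x := by
    intro x hx
    rw [AlgEquiv.mul_apply, hn x hx]
    exact AlgEquiv.symm_apply_apply σ x
  have e1 : ρ σ = ρ τ ^ n := by
    have := hLρ (σ⁻¹ * τ ^ n) (fun x hx => hlev x (le_sup_left (a := L) (b := L') hx))
    rw [map_mul, map_inv, map_pow, inv_mul_eq_one] at this
    exact this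
  have e2 : ρ' σ = ρ' τ ^ n := by
    have := hLρ' (σ⁻¹ * τ ^ n) (fun x hx => hlev x (le_sup_right (a := L) (b := L') hx))
    rw [map_mul, map_inv, map_pow, inv_mul_eq_one] at this
    exact this
  have l1 : Lft φ M (ρ τ) x y :=
    ⟨h3, h4, h.frob p hp hpS1 C hC τ hτ x y h1 h2⟩
  have l2 : Lft φ' M (ρ' τ) x y :=
    ⟨h3, h4, h'.frob p hp hpS2 C hC τ hτ x y h1 h2⟩
  exact ⟨x ^ n, y ^ n, e1 ▸ l1.pow n, e2 ▸ l2.pow n⟩

theorem ker_le (hN : N ≠ 0) (hM : 0 < M) (hr : Roots N M α e) (h : Good M α e S φ ρ)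
    (h' : Good M α e S' φ' ρ') {σ : GQ} (hσ : ρ σ = 1) : ρ' σ = 1 := by
  obtain ⟨x, y, h1, h2⟩ := common hN hM hr h h' σ
  rw [hσ] at h1
  obtain ⟨rfl, rfl⟩ := h1.of_one h.card
  exact h2.eq_one h'.card (h'.pow σ)

end Two

end Fermat.Agent.DS1
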