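import Fermat.Agent.DS1.GrpC

/-!
# Deligne-Serre (E), IV: the representation over `Qbar`
-/

set_option autoImplicit false
set_option linter.style.haveILetI false
set_option linter.unusedSectionVars false

noncomputable section

namespace Fermat.Agent.DS1

open Matrix MvPolynomial

local notation "Qbar" => AlgebraicClosure ℚ
local notation "OO" => integralClosure ℤ (AlgebraicClosure ℚ)
local notation "GQ" => (AlgebraicClosure ℚ ≃ₐ[ℚ] AlgebraicClosure ℚ)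

section System

variable {G : Type} [Group G] [Finite G] (x y : G → OO)

/-- the polynomial system for the matrix coefficients of a representation of `G` with given
traces and determinants -/
def sys : Set (MvPolynomial (G × Fin 2 × Fin 2) OO) :=
  {f | (∃ (g h : G) (i j : Fin 2), f = X (g, i, 0) * X (h, 0, j) + X (g, i, 1) * X (h, 1, j) -
        X (g * h, i, j)) ∨
      (∃ i j : Fin 2, f = X (1, i, j) - C (if i = j then 1 else 0)) ∨
      (∃ g : G, f = X (g, 0, 0) + X (g, 1, 1) - C (x g + y g)) ∨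
      (∃ g : G, f = X (g, 0, 0) * X (g, 1, 1) - X (g, 0, 1) * X (g, 1, 0) - C (x g * y g))}

variable {x y}

lemma sys_of_rep {k : Type} [Field k] (φ : OO →+* k) (r : G →* GL (Fin 2) k)
    (hr : ∀ g, ((r g : GL (Fin 2) k) : Matrix (Fin 2) (Fin 2) k).trace = φ (x g) + φ (y g) ∧
      ((r g : GL (Fin 2) k) : Matrix (Fin 2) (Fin 2) k).det = φ (x g) * φ (y g)) :
    ∀ f ∈ sys x y, eval₂ φ (fun t : G × Fin 2 × Fin 2 =>
      ((r t.1 : GL (Fin 2) k) : Matrix (Fin 2) (Fin 2) k) t.2.1 t.2.2) f = 0 := by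
  rintro f (⟨g, h, i, j, rfl⟩ | ⟨i, j, rfl⟩ | ⟨g, rfl⟩ | ⟨g, rfl⟩)
  · simp only [eval₂_sub, eval₂_add, eval₂_mul, eval₂_X]
    rw [map_mul, Units.val_mul, Matrix.mul_apply, Fin.sum_univ_two, sub_self]
  · simp only [eval₂_sub, eval₂_X, eval₂_C]
    rw [map_one, Units.val_one, Matrix.one_apply]
    split_ifs <;> simp
  · simp only [eval₂_sub, eval₂_add, eval₂_X, eval₂_C]
    rw [← Matrix.trace_fin_two, (hr g).1, map_add, sub_self]
  · simp only [eval₂_sub, eval₂_mul, eval₂_X, eval₂_C]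
    rw [← Matrix.det_fin_two, (hr g).2, map_mul, sub_self]

lemma rep_of_sys {k : Type} [Field k] (φ : OO →+* k) (v : G × Fin 2 × Fin 2 → k)
    (hv : ∀ f ∈ sys x y, eval₂ φ v f = 0) :
    ∃ r : G →* GL (Fin 2) k, ∀ g,
      ((r g : GL (Fin 2) k) : Matrix (Fin 2) (Fin 2) k).trace = φ (x g) + φ (y g) ∧
      ((r g : GL (Fin 2) k) : Matrix (Fin 2) (Fin 2) k).det = φ (x g) * φ (y g) := by
  let m : G →* Matrix (Fin 2) (Fin 2) k :=
    { toFun := fun g => Matrix.of fun i j => v (g, i, j)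
      map_one' := by
        ext i j
        have h1 := hv _ (Or.inr (Or.inl ⟨i, j, rfl⟩))
        simp only [eval₂_sub, eval₂_X, eval₂_C] at h1
        rw [Matrix.of_apply, Matrix.one_apply, sub_eq_zero.mp h1]
        split_ifs <;> simp
      map_mul' := fun g h => by
        ext i j
        have h1 := hv _ (Or.inl ⟨g, h, i, j, rfl⟩)
        simp only [eval₂_sub, eval₂_add, eval₂_mul, eval₂_X] at h1
        rw [Matrix.mul_apply, Fin.sum_univ_two]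
        simp only [Matrix.of_apply]
        exact (sub_eq_zero.mp h1).symm }
  refine ⟨m.toHomUnits, fun g => ?_⟩
  rw [MonoidHom.coe_toHomUnits]
  constructor
  · have h1 := hv _ (Or.inr (Or.inr (Or.inl ⟨g, rfl⟩)))
    simp only [eval₂_sub, eval₂_add, eval₂_X, eval₂_C] at h1
    rw [Matrix.trace_fin_two, ← map_add]
    exact sub_eq_zero.mp h1
  · have h1 := hv _ (Or.inr (Or.inr (Or.inr ⟨g, rfl⟩)))
    simp only [eval₂_sub, eval₂_mul, eval₂_X, eval₂_C] at h1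
    rw [Matrix.det_fin_two, ← map_mul]
    exact sub_eq_zero.mp h1

end System

/-- **the representation over `Qbar`** -/
theorem exists_rep {N M : ℕ} {α e : ℕ → Qbar} (hN : N ≠ 0) (hM : 0 < M) (hr : Roots N M α e)
    (h : ∀ n : ℕ, ∃ ℓ : ℕ, ℓ.Prime ∧ n < ℓ ∧ ∃ (k : Type) (_ : Field k) (φ : OO →+* k)
      (ρ : GQ →* GL (Fin 2) k), (∀ m : ℕ, (m : k) = 0 → ℓ ∣ m) ∧ Finite ρ.range ∧
        Good M α e ({p | p ∣ N} ∪ {ℓ}) φ ρ) :
    ∃ ρ : GQ →* GL (Fin 2) Qbar, GaloisFactorsThroughFiniteLevel ρ ∧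
      ∀ p : ℕ, p.Prime → ¬ p ∣ N → ∀ C : ValuationSubring Qbar, C.LiesOverPrime p →
        (∀ σ ∈ C.inertiaSubgroupIn ℚ, ρ σ = 1) ∧
        ∀ σ : GQ, C.IsFrobeniusAt σ p →
          ((ρ σ : GL (Fin 2) Qbar) : Matrix (Fin 2) (Fin 2) Qbar).trace = α p ∧
          ((ρ σ : GL (Fin 2) Qbar) : Matrix (Fin 2) (Fin 2) Qbar).det = e p := by
  obtain ⟨ℓ₀, hℓ₀, -, k₀, hk₀, φ₀, ρ₀, -, hfin₀, hg₀⟩ := h 0
  haveI : Finite (GQ ⧸ ρ₀.ker) :=
    Finite.of_equiv _ (QuotientGroup.quotientKerEquivRange ρ₀).toEquiv.symm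
  let s : GQ ⧸ ρ₀.ker → GQ := Quotient.out
  have hs : ∀ g, ((s g : GQ) : GQ ⧸ ρ₀.ker) = g := fun g => QuotientGroup.out_eq' g
  have hsσ : ∀ σ : GQ, ρ₀ (s (σ : GQ ⧸ ρ₀.ker)) = ρ₀ σ := by
    intro σ
    have h1 := hs (σ : GQ ⧸ ρ₀.ker)
    rw [QuotientGroup.eq, MonoidHom.mem_ker, map_mul, map_inv, inv_mul_eq_one] at h1
    exact h1
  have hex : ∀ g : GQ ⧸ ρ₀.ker, ∃ x y : OO, Lft φ₀ M (ρ₀ (s g)) x y := by
    intro g
    obtain ⟨x, y, hx, -⟩ := common hN hM hr hg₀ hg₀ (s g)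
    exact ⟨x, y, hx⟩
  choose x y hxy using hex
  -- every good representation has the same eigenvalues
  have key : ∀ (S : Set ℕ) (k : Type) (_ : Field k) (φ : OO →+* k) (ρ : GQ →* GL (Fin 2) k),
      Good M α e S φ ρ → ∀ σ : GQ, Lft φ M (ρ σ) (x (σ : GQ ⧸ ρ₀.ker)) (y (σ : GQ ⧸ ρ₀.ker)) := by
    intro S k _ φ ρ hg σ
    obtain ⟨a, b, h1, h2⟩ := common hN hM hr hg₀ hg σ
    have h3 := hxy (σ : GQ ⧸ ρ₀.ker)
    rw [hsσ] at h3
    exact h1.trans hg₀.card h3 h2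
  -- solution of the system
  have hsol : ∃ v : (GQ ⧸ ρ₀.ker) × Fin 2 × Fin 2 → Qbar, ∀ f ∈ sys x y,
      eval₂ (algebraMap OO Qbar) v f = 0 := by
    refine ns _ fun n hn => ?_
    obtain ⟨ℓ, hℓ, hnℓ, k, hk, φ, ρ, hch, hfin, hg⟩ := h n
    have hle : ρ₀.ker ≤ ρ.ker := fun σ hσ => ker_le hN hM hr hg₀ hg hσ
    let r : GQ ⧸ ρ₀.ker →* GL (Fin 2) k := QuotientGroup.lift ρ₀.ker ρ hle
    refine ⟨k, hk, φ, _, ?_, sys_of_rep φ r fun g => ?_⟩
    · intro h0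
      have := Nat.le_of_dvd (Nat.pos_of_ne_zero hn) (hch n h0)
      omega
    · obtain ⟨σ, rfl⟩ := QuotientGroup.mk_surjective g
      have h1 := key _ k hk φ ρ hg σ
      exact ⟨h1.2.2.1, h1.2.2.2⟩
  obtain ⟨v, hv⟩ := hsol
  obtain ⟨r, hr'⟩ := rep_of_sys _ v hv
  refine ⟨r.comp (QuotientGroup.mk' ρ₀.ker), ?_, ?_⟩
  · obtain ⟨L, hL, hLρ⟩ := hg₀.level
    refine ⟨L, hL, fun σ hσ => ?_⟩
    rw [MonoidHom.comp_apply, QuotientGroup.mk'_apply,
      (QuotientGroup.eq_one_iff σ).mpr (hLρ σ hσ), map_one]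
  · intro p hp hpN C hC
    obtain ⟨ℓ, hℓ, hpℓ, k, hk, φ, ρ, hch, hfin, hg⟩ := h p
    have hpS : p ∉ ({p | p ∣ N} ∪ {ℓ} : Set ℕ) := by
      rintro (h1 | h1)
      · exact hpN h1
      · rw [Set.mem_singleton_iff] at h1
        omega
    constructor
    · intro σ hσ
      have h1 := hg.inert p hp hpS C hC σ hσ
      have h2 := ker_le hN hM hr hg hg₀ h1
      rw [MonoidHom.comp_apply, QuotientGroup.mk'_apply,
        (QuotientGroup.eq_one_iff σ).mpr h2, map_one]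
    · intro σ hσ
      obtain ⟨a, b, h1, h2, h3, h4⟩ := hr.exists_pair hM hp hpN
      have h5 : Lft φ M (ρ σ) a b := ⟨h3, h4, hg.frob p hp hpS C hC σ hσ a b h1 h2⟩
      have h6 := key _ k hk φ ρ hg σ
      obtain ⟨h7, h8⟩ := h5.sum_eq hg.card h6
      have h9 := hr' (σ : GQ ⧸ ρ₀.ker)
      rw [MonoidHom.comp_apply, QuotientGroup.mk'_apply]
      refine ⟨h9.1.trans ?_, h9.2.trans ?_⟩
      · rw [← map_add, h7, ← h1]; rfl
      · rw [← map_mul, h8, ← h2]; rfl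

end Fermat.Agent.DS1
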