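import Fermat.Agent.DS1.GrpD
import Mathlib.RingTheory.IntegralDomain

/-!
# Deligne-Serre (E), V: finite group computations
-/

set_option autoImplicit false
set_option linter.style.haveILetI false
set_option linter.unusedSectionVars false

noncomputable section

namespace Fermat.Agent.DS1

open Matrix

/-- eigenvalue equation for `2 × 2` matrices -/
lemma eigen_eq {k : Type*} [Field k] {A : Matrix (Fin 2) (Fin 2) k} {c : k} {v : Fin 2 → k}
    (hv : v ≠ 0) (h : A *ᵥ v = c • v) : c ^ 2 - A.trace * c + A.det = 0 := by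
  have h1 : (A - c • (1 : Matrix (Fin 2) (Fin 2) k)).det = 0 := by
    rw [← Matrix.exists_mulVec_eq_zero_iff]
    refine ⟨v, hv, ?_⟩
    rw [Matrix.sub_mulVec, h, Matrix.smul_mulVec, Matrix.one_mulVec, sub_self]
  rw [Matrix.det_fin_two] at h1
  simp only [Matrix.sub_apply, Matrix.smul_apply, Matrix.one_apply, smul_eq_mul] at h1
  rw [Matrix.trace_fin_two, Matrix.det_fin_two]
  simp at h1
  linear_combination h1

section Fin

variable {G : Type*} [Group G] [Fintype G] (r : G →* GL (Fin 2) ℂ)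

/-- the trace function -/
def tr (g : G) : ℂ := ((r g : GL (Fin 2) ℂ) : Matrix (Fin 2) (Fin 2) ℂ).trace

lemma tr_conj (g h : G) : tr r (h⁻¹ * g * h) = tr r g := by
  unfold tr
  rw [map_mul, map_mul, Units.val_mul, Matrix.trace_mul_comm, ← Units.val_mul, ← mul_assoc,
    ← map_mul, ← map_mul, mul_inv_cancel, one_mul]

lemma norm_eq_one_of_hom (c : G →* ℂ) (g : G) : ‖c g‖ = 1 := by
  have h1 : c g ^ Fintype.card G = 1 := by
    rw [← map_pow, pow_card_eq_one, map_one]
  exact Complex.norm_eq_one_of_pow_eq_one h1 Fintype.card_ne_zero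

/-- a reducible representation has large character norm -/
theorem sum_ge_of_eigen {v : Fin 2 → ℂ} (hv : v ≠ 0)
    (h : ∀ g : G, ∃ c : ℂ, ((r g : GL (Fin 2) ℂ) : Matrix (Fin 2) (Fin 2) ℂ) *ᵥ v = c • v) :
    2 * (Fintype.card G : ℝ) ≤ ∑ g : G, ‖tr r g‖ ^ 2 := by
  choose c hc using h
  have hinj : ∀ {a b : ℂ}, a • v = b • v → a = b := fun hab => by
    have h1 : (_ - _ : ℂ) • v = 0 := (sub_smul _ _ _).trans (sub_eq_zero.mpr hab)
    rcases smul_eq_zero.mp h1 with h2 | h2
    · exact sub_eq_zero.mp h2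
    · exact absurd h2 hv
  let C : G →* ℂ :=
    { toFun := c
      map_one' := by
        apply hinj
        rw [← hc 1, map_one, Units.val_one, Matrix.one_mulVec, one_smul]
      map_mul' := fun g h => by
        apply hinj
        rw [← hc (g * h), map_mul, Units.val_mul, ← Matrix.mulVec_mulVec, hc h,
          Matrix.mulVec_smul, hc g, smul_smul, mul_comm] }
  let D : G →* ℂ :=
    { toFun := fun g => ((r g : GL (Fin 2) ℂ) : Matrix (Fin 2) (Fin 2) ℂ).det
      map_one' := by rw [map_one, Units.val_one, Matrix.det_one]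
      map_mul' := fun g h => by rw [map_mul, Units.val_mul, Matrix.det_mul] }
  have hC : ∀ g, ‖C g‖ = 1 := norm_eq_one_of_hom C
  have hC0 : ∀ g, C g ≠ 0 := fun g h0 => by
    have := hC g
    rw [h0, norm_zero] at this
    exact zero_ne_one this
  let P : G →* ℂ :=
    { toFun := fun g => D g / C g ^ 2
      map_one' := by rw [map_one, map_one]; norm_num
      map_mul' := fun g h => by
        rw [map_mul, map_mul]
        have := hC0 g
        have := hC0 h
        field_simp }
  have htr : ∀ g, tr r g = C g * (1 + P g) := by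
    intro g
    have h1 := eigen_eq hv (hc g)
    have h2 : C g ^ 2 - tr r g * C g + D g = 0 := h1
    show tr r g = C g * (1 + D g / C g ^ 2)
    have := hC0 g
    field_simp
    linear_combination -h2
  have hn : ∀ g, ‖tr r g‖ ^ 2 = 2 + 2 * (P g).re := by
    intro g
    rw [htr, norm_mul, hC, one_mul, ← Complex.normSq_eq_norm_sq, Complex.normSq_add]
    have h1 : Complex.normSq (P g) = 1 := by
      rw [Complex.normSq_eq_norm_sq, norm_eq_one_of_hom P g, one_pow]
    rw [h1]
    simp
    norm_num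
  simp only [hn]
  rw [Finset.sum_add_distrib, ← Finset.mul_sum, ← Complex.re_sum]
  have h3 : 0 ≤ (∑ g, P g).re := by
    classical
    rw [sum_hom_units]
    split_ifs <;> simp
  simp only [Finset.sum_const, Finset.card_univ, nsmul_eq_mul]
  linarith

variable (M : ℕ) [NeZero M]

/-- the average over the Galois conjugates of `|tr|²` -/
def avg (g : G) : ℝ := ∑ k : (ZMod M)ˣ, ‖tr r (g ^ (k : ZMod M).val)‖ ^ 2

lemma avg_conj (g h : G) : avg r M (h⁻¹ * g * h) = avg r M g := by
  unfold avg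
  refine Finset.sum_congr rfl fun k _ => ?_
  have h1 : (h⁻¹ * g * h) ^ (k : ZMod M).val = h⁻¹ * g ^ (k : ZMod M).val * h := by
    have := conj_pow (i := (k : ZMod M).val) (a := h⁻¹) (b := g)
    rwa [inv_inv] at this
  rw [h1, tr_conj]

lemma sum_avg (hM : Fintype.card G ∣ M) :
    ∑ g : G, avg r M g = (Fintype.card (ZMod M)ˣ : ℝ) * ∑ g : G, ‖tr r g‖ ^ 2 := by
  unfold avg
  rw [Finset.sum_comm]
  have h1 : ∀ k : (ZMod M)ˣ, ∑ g : G, ‖tr r (g ^ (k : ZMod M).val)‖ ^ 2 =
      ∑ g : G, ‖tr r g‖ ^ 2 := by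
    intro k
    have h2 : (Nat.card G).Coprime (k : ZMod M).val := by
      have h3 := (ZMod.val_coe_unit_coprime k).symm
      rw [Nat.card_eq_fintype_card]
      exact Nat.Coprime.coprime_dvd_left hM h3
    exact (powCoprime h2).sum_comp (fun g => ‖tr r g‖ ^ 2)
  rw [Finset.sum_congr rfl fun k _ => h1 k, Finset.sum_const, Finset.card_univ, nsmul_eq_mul]

lemma avg_zpowers (hM : Fintype.card G ∣ M) {g g' : G}
    (h : Subgroup.zpowers g = Subgroup.zpowers g') : avg r M g' = avg r M g := by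
  classical
  have h1 : g' ∈ Subgroup.zpowers g := h ▸ Subgroup.mem_zpowers g'
  have ho : orderOf g' = orderOf g := by
    rw [← Nat.card_zpowers, ← Nat.card_zpowers, h]
  have hoM : orderOf g ∣ M := (orderOf_dvd_card).trans hM
  obtain ⟨j, hj⟩ : ∃ j : ℕ, g ^ j = g' := by
    rw [← mem_powers_iff_mem_zpowers] at h1
    exact h1
  have hjc : (orderOf g).Coprime j := by
    have h2 := orderOf_pow (x := g) (n := j)
    rw [hj, ho] at h2
    have hpos : 0 < orderOf g := orderOf_pos g
    have h3 : (orderOf g).gcd j ∣ orderOf g := Nat.gcd_dvd_left _ _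
    have h4 : orderOf g / (orderOf g).gcd j * (orderOf g).gcd j = orderOf g :=
      Nat.div_mul_cancel h3
    rw [← h2] at h4
    have h5 : (orderOf g).gcd j = 1 := by
      have : orderOf g * (orderOf g).gcd j = orderOf g * 1 := by rw [mul_one]; exact h4
      exact Nat.eq_of_mul_eq_mul_left hpos this
    exact h5
  haveI : NeZero (orderOf g) := ⟨(orderOf_pos g).ne'⟩
  obtain ⟨u, hu⟩ := ZMod.unitsMap_surjective hoM (ZMod.unitOfCoprime j hjc.symm)
  have hu' : (((u : ZMod M).val : ℕ) : ZMod (orderOf g)) = (j : ZMod (orderOf g)) := by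
    have h2 := congrArg (fun w : (ZMod (orderOf g))ˣ => (w : ZMod (orderOf g))) hu
    simp only [ZMod.coe_unitOfCoprime] at h2
    rw [← h2, ZMod.unitsMap_val]
    rw [ZMod.natCast_val]
  unfold avg
  refine Eq.trans ?_ (Equiv.sum_comp (Equiv.mulLeft u)
    (fun k : (ZMod M)ˣ => ‖tr r (g ^ (k : ZMod M).val)‖ ^ 2))
  refine Finset.sum_congr rfl fun k _ => ?_
  have h6 : g' ^ (k : ZMod M).val = g ^ ((Equiv.mulLeft u k : (ZMod M)ˣ) : ZMod M).val := by
    rw [← hj, ← pow_mul, pow_eq_pow_iff_modEq, ← ZMod.natCast_eq_natCast_iff]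
    rw [Equiv.coe_mulLeft, Units.val_mul]
    have h7 : ((((u : ZMod M) * (k : ZMod M)).val : ℕ) : ZMod (orderOf g)) =
        (((u : ZMod M).val : ℕ) : ZMod (orderOf g)) * (((k : ZMod M).val : ℕ) : ZMod (orderOf g)) := by
      rw [ZMod.natCast_val, ZMod.natCast_val, ZMod.natCast_val, ZMod.cast_mul hoM]
    rw [h7, hu', Nat.cast_mul]
  exact congrArg (fun z => ‖tr r z‖ ^ 2) h6

end Fin

end Fermat.Agent.DS1
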