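import Fermat.Agent.DS1.GrpE
import Fermat.Agent.FrobDens.Main
import Mathlib.RingTheory.RootsOfUnity.AlgebraicallyClosed

/-!
# Deligne-Serre (E), VI: averages over Frobenius elements
-/

set_option autoImplicit false
set_option linter.style.haveILetI false
set_option linter.unusedSectionVars false

noncomputable section

namespace Fermat.Agent.DS1

open Matrix NumberField Filter Topology Asymptotics FrobDens

local notation "Qbar" => AlgebraicClosure ℚ
local notation "OO" => integralClosure ℤ (AlgebraicClosure ℚ)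
local notation "GQ" => (AlgebraicClosure ℚ ≃ₐ[ℚ] AlgebraicClosure ℚ)

/-- Galois elements raising roots of unity to a given power -/
lemma exists_gal_pow (M : ℕ) [NeZero M] (k : (ZMod M)ˣ) :
    ∃ τ : GQ, ∀ x : Qbar, x ^ M = 1 → τ x = x ^ (k : ZMod M).val := by
  haveI := Frob.isGalois_Qbar
  haveI : Normal ℚ Qbar := inferInstance
  obtain ⟨ζ, hζ⟩ := HasEnoughRootsOfUnity.exists_primitiveRoot Qbar M
  have hζ' : IsPrimitiveRoot (ζ ^ (k : ZMod M).val) M :=
    hζ.pow_of_coprime _ (ZMod.val_coe_unit_coprime k)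
  have h1 : minpoly ℚ (ζ ^ (k : ZMod M).val) = minpoly ℚ ζ := by
    rw [← Polynomial.cyclotomic_eq_minpoly_rat hζ (NeZero.pos M),
      ← Polynomial.cyclotomic_eq_minpoly_rat hζ' (NeZero.pos M)]
  rw [Normal.minpoly_eq_iff_mem_orbit] at h1
  obtain ⟨τ, hτ⟩ := h1
  refine ⟨τ, fun x hx => ?_⟩
  obtain ⟨i, -, rfl⟩ := hζ.eq_pow_of_pow_eq_one hx
  have h2 : τ ζ = ζ ^ (k : ZMod M).val := hτ
  rw [map_pow, h2, ← pow_mul, ← pow_mul, mul_comm]

section Avg

variable (L : IntermediateField ℚ Qbar) [FiniteDimensional ℚ L] [IsGalois ℚ L]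

open Classical in
/-- value of a function constant on generators of cyclic subgroups -/
def valC (F : (L ≃ₐ[ℚ] L) → ℝ) (C : Subgroup (L ≃ₐ[ℚ] L)) : ℝ :=
  if h : ∃ g, Subgroup.zpowers g = C then F h.choose else 0

variable {L}
variable {F : (L ≃ₐ[ℚ] L) → ℝ}
  (hF : ∀ g g' : L ≃ₐ[ℚ] L, Subgroup.zpowers g = Subgroup.zpowers g' → F g' = F g)

include hF in
lemma valC_zpowers (g : L ≃ₐ[ℚ] L) : valC L F (Subgroup.zpowers g) = F g := by
  unfold valC
  have h : ∃ g', Subgroup.zpowers g' = Subgroup.zpowers g := ⟨g, rfl⟩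
  rw [dif_pos h]
  exact (hF _ _ h.choose_spec).symm

open Classical in
include hF in
lemma sum_eq_sum_valC (f : (L ≃ₐ[ℚ] L) → (L ≃ₐ[ℚ] L)) :
    ∑ g, F (f g) = ∑ C : Subgroup (L ≃ₐ[ℚ] L), valC L F C *
      (Nat.card {g : L ≃ₐ[ℚ] L // Subgroup.zpowers (f g) = C} : ℝ) := by
  have h1 : ∀ g, F (f g) = ∑ C : Subgroup (L ≃ₐ[ℚ] L),
      if Subgroup.zpowers (f g) = C then valC L F C else 0 := by
    intro g
    rw [Finset.sum_ite_eq, if_pos (Finset.mem_univ _), valC_zpowers hF]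
  rw [Finset.sum_congr rfl fun g _ => h1 g, Finset.sum_comm]
  refine Finset.sum_congr rfl fun C _ => ?_
  rw [← Finset.sum_filter, Finset.sum_const, nsmul_eq_mul, Nat.card_eq_fintype_card,
    Fintype.card_subtype, mul_comm]

include hF in
/-- the average over Frobenius elements -/
theorem avg_isBigO (hF' : ∀ g h : L ≃ₐ[ℚ] L, F (h⁻¹ * g * h) = F g) :
    (fun s => pser (fun ℓ => (Fintype.card (L ≃ₐ[ℚ] L) : ℝ) * F (res L (frb ℓ))) s -
      (∑ g, F g) * (-Real.log (s - 1))) =O[𝓝[>] 1] (fun _ => (1 : ℝ)) := by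
  classical
  have h1 : (fun s => ∑ C : Subgroup (L ≃ₐ[ℚ] L), valC L F C *
      (pser (fun ℓ => (nC L C ℓ : ℝ)) s - (gen L C : ℝ) * (-Real.log (s - 1))))
      =O[𝓝[>] 1] (fun _ => (1 : ℝ)) :=
    IsBigO.fun_sum fun C _ => (nser_isBigO L C).const_mul_left _
  refine h1.congr' ?_ EventuallyEq.rfl
  filter_upwards [self_mem_nhdsWithin] with s hs
  have h2 : ∑ g, F g = ∑ C : Subgroup (L ≃ₐ[ℚ] L), valC L F C * (gen L C : ℝ) :=
    sum_eq_sum_valC hF (fun g => g)
  have h3 : pser (fun ℓ => (Fintype.card (L ≃ₐ[ℚ] L) : ℝ) * F (res L (frb ℓ))) s =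
      ∑ C : Subgroup (L ≃ₐ[ℚ] L), valC L F C * pser (fun ℓ => (nC L C ℓ : ℝ)) s := by
    unfold pser
    simp only [← tsum_mul_left]
    rw [← Summable.tsum_finsetSum (fun C _ => (summable_pser (nC_le L C) hs).mul_left _)]
    refine tsum_congr fun ℓ => ?_
    have h4 := sum_eq_sum_valC hF (fun g => g⁻¹ * res L (frb ℓ) * g)
    simp only [hF'] at h4
    rw [Finset.sum_const, Finset.card_univ, nsmul_eq_mul] at h4
    rw [h4, Finset.sum_mul]
    refine Finset.sum_congr rfl fun C _ => ?_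
    rw [nC]
    ring
  rw [h2, h3, Finset.sum_mul, ← Finset.sum_sub_distrib]
  refine Finset.sum_congr rfl fun C _ => ?_
  ring

end Avg

/-- a linear lower bound together with an upper bound -/
lemma le_of_isBigO {f : ℝ → ℝ} {a b C : ℝ}
    (h1 : (fun s => f s - a * (-Real.log (s - 1))) =O[𝓝[>] 1] (fun _ => (1 : ℝ)))
    (h2 : ∀ s : ℝ, 1 < s → s ≤ 2 → f s ≤ b * (-Real.log (s - 1)) + C) : a ≤ b := by
  by_contra hlt
  push Not at hlt
  apply lam_not_isBigO
  rw [isBigO_one_iff] at h1 ⊢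
  obtain ⟨D, hD⟩ := h1
  rw [eventually_map] at hD
  refine ⟨(C + D) / (a - b), ?_⟩
  rw [eventually_map]
  have h3 : ∀ᶠ s in 𝓝[>] (1 : ℝ), s < 2 :=
    nhdsWithin_le_nhds (Iio_mem_nhds (by norm_num))
  filter_upwards [self_mem_nhdsWithin, hD, h3] with s hs hs2 hs3
  have hs' : (1 : ℝ) < s := hs
  have h4 := h2 s hs' hs3.le
  have h5 : 0 ≤ -Real.log (s - 1) := by
    have := Real.log_nonpos (x := s - 1) (by linarith) (by linarith)
    linarith
  rw [Real.norm_of_nonneg h5, le_div_iff₀ (by linarith)]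
  have h6 := (abs_le.mp (by simpa using hs2)).1
  nlinarith

end Fermat.Agent.DS1
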