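import Fermat.Agent.DS1.Cong
import Fermat.Agent.DS1.Eig
import Fermat.Agent.DSB.Defs

/-!
# Mod `ℓ` eigenvectors
-/

set_option autoImplicit false
set_option linter.unusedSectionVars false

noncomputable section

namespace Fermat.Agent.DS1

open UpperHalfPlane hiding I
open Complex Filter Topology Function Metric Asymptotics
open scoped Real Manifold MatrixGroups ModularForm Matrix Pointwise
open Fermat.Agent.EichlerShimura Fermat.Agent.ModFun Fermat.Agent.AnJac Fermat.Agent.AnJacH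
open Matrix.SpecialLinearGroup CongruenceSubgroup IsLocalRing

local notation "Qbar" => AlgebraicClosure ℚ

variable {N : ℕ} [NeZero N] {ε : DirichletCharacter ℂ N} {f : ℍ → ℂ}
variable {ι : Qbar →+* ℂ} {A : ValuationSubring Qbar} {m : ℕ} [NeZero m] {ℓ : ℕ}

lemma slash_add2 (h h' : ℍ → ℂ) (g : SL(2,ℤ)) :
    (h + h') ∣[(2 : ℤ)] g = h ∣[(2 : ℤ)] g + h' ∣[(2 : ℤ)] g := SlashAction.add_slash _ _ _ _

variable (hadm : Adm (m * m) (GG m))

include hadm in
lemma lc_comb {c c' : ResidueField A} {φ φ' : SG (GG m)} (h : Lc ε f ι A m c (φ : ℍ → ℂ))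
    (h' : Lc ε f ι A m c' (φ' : ℍ → ℂ)) (n : ℤ) :
    Lc ε f ι A m (c + n * c') ((φ + (n : ℂ) • φ' : SG (GG m)) : ℍ → ℂ) := by
  intro g k
  have e : ((φ + (n : ℂ) • φ' : SG (GG m)) : ℍ → ℂ) ∣[(2 : ℤ)] (g : SL(2,ℤ)) =
      ((opD hadm g φ + (n : ℂ) • opD hadm g φ' : SG (GG m)) : ℍ → ℂ) := by
    rw [← map_smul, ← map_add, coe_opD]
  rw [e, qc_comb hadm, coe_opD, coe_opD]
  have h1 := (h g k).add ((redC_int ι A n).mul (h' g k))
  have e2 : (c + n * c') * ps ε ι A m g * bt f ι A m k = c * ps ε ι A m g * bt f ι A m k +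
      n * (c' * ps ε ι A m g * bt f ι A m k) := by ring
  rw [e2]
  exact h1

lemma lc_zero : Lc ε f ι A m 0 ((0 : SG (GG m)) : ℍ → ℂ) := by
  intro g k
  have e : ((0 : SG (GG m)) : ℍ → ℂ) ∣[(2 : ℤ)] (g : SL(2,ℤ)) = 0 := SlashAction.zero_slash _ _
  rw [e, qc_zero, zero_mul, zero_mul]
  exact redC_zero ι A

/-- the property of eigen operators -/
def EP (ε : DirichletCharacter ℂ N) (f : ℍ → ℂ) (ι : Qbar →+* ℂ) (A : ValuationSubring Qbar)
    (m : ℕ) [NeZero m] (S : Module.End ℂ (SG (GG m))) (c0 : ResidueField A) : Prop :=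
  ∀ (c : ResidueField A) (φ : SG (GG m)), Lc ε f ι A m c (φ : ℍ → ℂ) →
    Lc ε f ι A m (c * c0) (S φ : ℍ → ℂ)

lemma EP.one : EP ε f ι A m 1 1 := fun c φ h => by rw [mul_one]; exact h

include hadm in
lemma EP.comb {S S' : Module.End ℂ (SG (GG m))} {c c' : ResidueField A} (h : EP ε f ι A m S c)
    (h' : EP ε f ι A m S' c') (n : ℤ) : EP ε f ι A m (S + (n : ℂ) • S') (c + n * c') := by
  intro d φ hφ
  have := lc_comb hadm (h d φ hφ) (h' d φ hφ) n
  have e2 : d * (c + n * c') = d * c + n * (d * c') := by ring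
  rw [e2]
  exact this

lemma EP.zero : EP ε f ι A m 0 0 := fun c φ _ => by
  rw [mul_zero]
  exact lc_zero

include hadm in
lemma EP.add {S S' : Module.End ℂ (SG (GG m))} {c c' : ResidueField A} (h : EP ε f ι A m S c)
    (h' : EP ε f ι A m S' c') : EP ε f ι A m (S + S') (c + c') := by
  have := h.comb hadm h' 1
  simpa using this

include hadm in
lemma EP.neg {S : Module.End ℂ (SG (GG m))} {c : ResidueField A} (h : EP ε f ι A m S c) :
    EP ε f ι A m (-S) (-c) := by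
  have h1 := (EP.zero (ε := ε) (f := f) (ι := ι) (A := A) (m := m)).comb hadm h (-1)
  have e : -S = 0 + (((-1 : ℤ)) : ℂ) • S := by
    refine LinearMap.ext fun φ => Subtype.ext (funext fun z => ?_)
    change -((S φ : ℍ → ℂ) z) = 0 + (((-1 : ℤ)) : ℂ) * (S φ : ℍ → ℂ) z
    push_cast
    ring
  have e2 : -c = 0 + (((-1 : ℤ)) : ResidueField A) * c := by push_cast; ring
  rw [e, e2]
  exact h1

lemma EP.mul {S S' : Module.End ℂ (SG (GG m))} {c c' : ResidueField A} (h : EP ε f ι A m S c)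
    (h' : EP ε f ι A m S' c') : EP ε f ι A m (S * S') (c * c') := by
  intro d φ hφ
  have := h _ _ (h' d φ hφ)
  have e2 : d * (c * c') = d * c' * c := by ring
  rw [e2]
  exact this

section

variable [hℓF : Fact ℓ.Prime] [CharP (ResidueField A) ℓ] (hD : Dat N ε f) (hNm : N ∣ m)
  (hℓm : ℓ ∣ m) (h5 : 5 ≤ ℓ)

include h5 in
lemma six_ne : (6 : ResidueField A) ≠ 0 := by
  intro h
  have h1 : ((6 : ℕ) : ResidueField A) = 0 := by exact_mod_cast h
  rw [CharP.cast_eq_zero_iff (ResidueField A) ℓ] at h1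
  have h2 : ℓ ∣ 2 * 3 := by norm_num; exact h1
  rcases (Nat.Prime.dvd_mul hℓF.out).mp h2 with h3 | h3
  · have := Nat.le_of_dvd (by norm_num) h3; omega
  · have := Nat.le_of_dvd (by norm_num) h3; omega

lemma ps_one : ps ε ι A m 1 = 1 := by
  have h1 : (((((1 : Gamma0 (m * m)) : SL(2,ℤ)) 1 1 : ℤ)) : ℤ) = 1 := by simp
  rw [ps, h1, Int.cast_one, Int.cast_one, inv_one, mul_one, ch, map_one]
  exact rd_eq isIntegral_one (redC_one ι A)

include hD hNm hℓm h5 in
lemma EP.unique {S : Module.End ℂ (SG (GG m))} {c c' : ResidueField A} (h : EP ε f ι A m S c)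
    (h' : EP ε f ι A m S c') : c = c' := by
  have h2 : ℓ ≠ 2 := by omega
  have h3 := lc_g0 (ι := ι) (A := A) hD hNm hℓm h2
  have h4 := h 6 ⟨_, g0_inS hD hNm hℓm h2⟩ h3 1 1
  have h5' := h' 6 ⟨_, g0_inS hD hNm hℓm h2⟩ h3 1 1
  have h6 := h4.unique h5'
  rw [ps_one, bt_one hD, mul_one, mul_one, mul_one, mul_one] at h6
  exact mul_left_cancel₀ (six_ne (A := A) h5) h6

variable (m) in
/-- pairs of endomorphisms -/
abbrev RX := AddMonoid.End (LatG (GG m)) × Module.End ℂ (SG (GG m))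

variable (ε f ι A m) in
include hadm in
/-- the ring of eigen operators -/
def CS : Subring (RX m) where
  carrier := {x | ∃ c0, EP ε f ι A m x.2 c0}
  one_mem' := ⟨1, EP.one⟩
  zero_mem' := ⟨0, EP.zero⟩
  mul_mem' := by
    rintro x y ⟨a, ha⟩ ⟨b, hb⟩
    exact ⟨a * b, ha.mul hb⟩
  add_mem' := by
    rintro x y ⟨a, ha⟩ ⟨b, hb⟩
    exact ⟨a + b, ha.add hadm hb⟩
  neg_mem' := by
    rintro x ⟨a, ha⟩
    exact ⟨-a, ha.neg hadm⟩

/-- the character -/
def chiS : CS ε f ι A m hadm →+* ResidueField A where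
  toFun x := x.2.choose
  map_one' := EP.unique hD hNm hℓm h5 (1 : CS ε f ι A m hadm).2.choose_spec EP.one
  map_zero' := EP.unique hD hNm hℓm h5 (0 : CS ε f ι A m hadm).2.choose_spec EP.zero
  map_mul' x y := EP.unique hD hNm hℓm h5 (x * y).2.choose_spec
    (x.2.choose_spec.mul y.2.choose_spec)
  map_add' x y := EP.unique hD hNm hℓm h5 (x + y).2.choose_spec
    (x.2.choose_spec.add hadm y.2.choose_spec)

lemma chiS_eq (x : CS ε f ι A m hadm) {c : ResidueField A} (h : EP ε f ι A m x.1.2 c) :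
    chiS hadm hD hNm hℓm h5 x = c := EP.unique hD hNm hℓm h5 x.2.choose_spec h

/-- generators -/
def gens : Set (RX m) :=
  {x | ∃ (q : ℕ) (_ : Fact q.Prime) (hqN : ¬ q ∣ m * m) (g : Gamma0 (m * m))
    (hg : ((dM (m * m) m (dvd_mul_right m m) g : (ZMod m)ˣ) : ZMod m) = q),
    x = cT (m * m) m (dvd_mul_right m m) (pm m) q hqN g hg} ∪
  {x | ∃ g : Gamma0 (m * m), x = cD hadm g}

include hadm hD hNm hℓm in
lemma ep_T (q : ℕ) [hq : Fact q.Prime] (hqN : ¬ q ∣ m * m) (g : Gamma0 (m * m))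
    (hg : ((dM (m * m) m (dvd_mul_right m m) g : (ZMod m)ˣ) : ZMod m) = q) :
    EP ε f ι A m (cT (m * m) m (dvd_mul_right m m) (pm m) q hqN g hg).2 (bt f ι A m q) :=
  fun _ _ h => lc_opT hadm hD hNm hℓm h q hqN g hg

include hNm hℓm in
lemma ep_D (g : Gamma0 (m * m)) : EP ε f ι A m (cD hadm g).2 (ps ε ι A m g) :=
  fun _ _ h => lc_opD hadm hNm hℓm h g

include hD hNm hℓm in
lemma gens_le : Subring.closure (gens hadm) ≤ CS ε f ι A m hadm := by
  rw [Subring.closure_le]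
  rintro x (⟨q, hq, hqN, g, hg, rfl⟩ | ⟨g, rfl⟩)
  · exact ⟨_, ep_T hadm hD hNm hℓm q hqN g hg⟩
  · exact ⟨_, ep_D hadm hNm hℓm g⟩

lemma gens_CR : Subring.closure (gens hadm) ≤ CR (GG m) := by
  rw [Subring.closure_le]
  rintro x (⟨q, hq, hqN, g, hg, rfl⟩ | ⟨g, rfl⟩)
  · exact cT_mem q hqN g hg
  · exact cD_mem hadm g

lemma gens_comm {x y : RX m} (hx : x ∈ gens hadm) (hy : y ∈ gens hadm) : x.2 * y.2 = y.2 * x.2 := by
  rcases hx with ⟨q, hq, hqN, g, hg, rfl⟩ | ⟨g, rfl⟩ <;>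
    rcases hy with ⟨r, hr, hrN, g', hg', rfl⟩ | ⟨g', rfl⟩
  · exact LinearMap.ext fun φ => opT_comm hadm q hqN g hg r hrN g' hg' φ
  · exact LinearMap.ext fun φ => (opT_opD hadm q hqN g hg g' φ).symm
  · exact LinearMap.ext fun φ => opT_opD hadm r hrN g' hg' g φ
  · exact LinearMap.ext fun φ => opD_comm hadm g g' φ

lemma closure_comm {x y : RX m} (hx : x ∈ Subring.closure (gens hadm))
    (hy : y ∈ Subring.closure (gens hadm)) : x.2 * y.2 = y.2 * x.2 := by
  induction hx using Subring.closure_induction with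
  | mem x hx =>
    induction hy using Subring.closure_induction with
    | mem y hy => exact gens_comm hadm hx hy
    | zero => simp
    | one => simp
    | add a b _ _ ha hb => rw [Prod.snd_add, mul_add, add_mul, ha, hb]
    | neg a _ ha =>
      refine LinearMap.ext fun φ => ?_
      have h := LinearMap.congr_fun ha φ
      change x.2 (-(a.2 φ)) = -(a.2 (x.2 φ))
      rw [map_neg]
      exact congrArg Neg.neg h
    | mul a b _ _ ha hb => rw [Prod.snd_mul, ← mul_assoc, ha, mul_assoc, hb, mul_assoc]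
  | zero => simp
  | one => simp
  | add a b _ _ ha hb => rw [Prod.snd_add, mul_add, add_mul, ha, hb]
  | neg a _ ha =>
    refine LinearMap.ext fun φ => ?_
    have h := LinearMap.congr_fun ha φ
    change -(a.2 (y.2 φ)) = y.2 (-(a.2 φ))
    rw [map_neg]
    exact congrArg Neg.neg h
  | mul a b _ _ ha hb => rw [Prod.snd_mul, mul_assoc, hb, ← mul_assoc, ha, mul_assoc]

/-- the Hecke ring -/
def TT : Subring (RX m) := Subring.closure (gens hadm)

/-- action on the lattice -/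
def rhoT : TT hadm →+* AddMonoid.End (LatG (GG m)) := (RingHom.fst _ _).comp (TT hadm).subtype

/-- action on cusp forms -/
def pjT : TT hadm →+* Module.End ℂ (SG (GG m)) := (RingHom.snd _ _).comp (TT hadm).subtype

lemma rhoT_apply (t : TT hadm) : rhoT hadm t = t.1.1 := rfl

lemma pjT_apply (t : TT hadm) : pjT hadm t = t.1.2 := rfl

lemma pjT_comm (x y : TT hadm) : pjT hadm (x * y) = pjT hadm (y * x) := by
  rw [map_mul, map_mul]
  exact closure_comm hadm x.2 y.2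

lemma faithT (t : TT hadm)
    (ht : ∀ v : LatG (GG m), (∀ s, pjT hadm s = 0 → rhoT hadm s v = 0) → rhoT hadm t v = 0) :
    pjT hadm t = 0 := by
  rw [pjT_apply]
  refine LinearMap.ext fun φ => ?_
  rw [LinearMap.zero_apply]
  apply pd_injective hadm
  rw [map_zero]
  obtain ⟨s, a, ψ, ha, hψ⟩ := exists_dec hadm φ
  rw [gens_CR hadm t.2 φ s a ψ hψ]
  refine Finset.sum_eq_zero fun i _ => ?_
  have h1 : rhoT hadm t (ψ i) = 0 := by
    refine ht (ψ i) fun u hu => ?_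
    have h2 := gens_CR hadm u.2 φ s a ψ hψ
    rw [pjT_apply] at hu
    rw [hu, LinearMap.zero_apply, map_zero] at h2
    exact sum_mulC_eq_zero ha h2.symm i
  rw [rhoT_apply] at h1
  rw [h1]
  exact AddMonoidHom.ext fun x => map_zero (mulC (a i))

/-- the character of the Hecke ring -/
def chiT : TT hadm →+* ResidueField A :=
  (chiS hadm hD hNm hℓm h5 (ι := ι) (A := A)).comp
    (Subring.inclusion (gens_le hadm hD hNm hℓm))

lemma chiT_eq (t : TT hadm) {c : ResidueField A} (h : EP ε f ι A m t.1.2 c) :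
    chiT hadm hD hNm hℓm h5 (ι := ι) (A := A) t = c :=
  chiS_eq hadm hD hNm hℓm h5 (Subring.inclusion (gens_le hadm hD hNm hℓm) t) h

lemma chiT_ker (t : TT hadm) (ht : pjT hadm t = 0) :
    chiT hadm hD hNm hℓm h5 (ι := ι) (A := A) t = 0 := by
  apply chiT_eq
  rw [pjT_apply] at ht
  rw [ht]
  exact EP.zero

include hD hNm hℓm h5 in
/-- mod `ℓ` eigenvectors -/
theorem exists_eig [IsAlgClosed (ResidueField A)] :
    ∃ x : Fin (Module.finrank ℤ (LatG (GG m))) → ResidueField A, x ≠ 0 ∧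
      (∀ (q : ℕ) [Fact q.Prime] (hqN : ¬ q ∣ m * m) (g : Gamma0 (m * m))
        (hg : ((dM (m * m) m (dvd_mul_right m m) g : (ZMod m)ˣ) : ZMod m) = q),
        DSB.km hadm (ResidueField A) (LTG (m * m) m (dvd_mul_right m m) (pm m) q hqN g hg) *ᵥ x =
          bt f ι A m q • x) ∧
      ∀ g : Gamma0 (m * m), DSB.km hadm (ResidueField A) (LdG hadm g) *ᵥ x = ps ε ι A m g • x := by
  obtain ⟨x, hx0, hx⟩ := eigStatement (Module.finrank ℤ (LatG (GG m))) (LatG (GG m)) (bG hadm)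
    (TT hadm) (rhoT hadm) (Module.End ℂ (SG (GG m))) (pjT hadm) (pjT_comm hadm) (faithT hadm)
    ℓ (ResidueField A) (chiT hadm hD hNm hℓm h5 (ι := ι) (A := A)) (chiT_ker hadm hD hNm hℓm h5)
  refine ⟨x, hx0, fun q hq hqN g hg => ?_, fun g => ?_⟩
  · have hm : cT (m * m) m (dvd_mul_right m m) (pm m) q hqN g hg ∈ TT hadm :=
      Subring.subset_closure (Or.inl ⟨q, hq, hqN, g, hg, rfl⟩)
    have h1 := hx ⟨_, hm⟩
    rw [chiT_eq hadm hD hNm hℓm h5 ⟨_, hm⟩ (ep_T hadm hD hNm hℓm q hqN g hg)] at h1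
    exact h1
  · have hm : cD hadm g ∈ TT hadm := Subring.subset_closure (Or.inr ⟨g, rfl⟩)
    have h1 := hx ⟨_, hm⟩
    rw [chiT_eq hadm hD hNm hℓm h5 ⟨_, hm⟩ (ep_D hadm hNm hℓm g)] at h1
    exact h1

end

/-- the input of (B) -/
theorem hasEig (hD : Dat N ε f) (hNm : N ∣ m) (hℓ : ℓ.Prime) (hℓm : ℓ ∣ m) (h5 : 5 ≤ ℓ)
    (hA : A.LiesOverPrime ℓ) {α e : ℕ → Qbar}
    (hα : ∀ p : ℕ, p.Prime → ¬ p ∣ N → ι (α p) = qc f p) (he : ∀ p : ℕ, ι (e p) = ε (p : ZMod N))
    (hαi : ∀ p : ℕ, p.Prime → ¬ p ∣ N → IsIntegral ℤ (α p)) (hei : ∀ p : ℕ, IsIntegral ℤ (e p)) :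
    DSB.HasEig m A α e := by
  intro hadm
  have : Fact ℓ.Prime := ⟨hℓ⟩
  have : CharP (ResidueField A) ℓ := FrobDens.charP_residueField A hℓ hA
  have : IsAlgClosed (ResidueField A) := GoodRed.isAlgClosed_residueField A
  obtain ⟨x, hx0, hxT, hxD⟩ := exists_eig (ι := ι) (A := A) hadm hD hNm hℓm h5
  refine ⟨x, hx0, fun q hq hqN g hg => ⟨?_, ?_⟩⟩
  · have hqm : ¬ q ∣ m := fun h => hqN (h.mul_right m)
    have hqN' : ¬ q ∣ N := fun h => hqm (h.trans hNm)
    have hmem : α q ∈ A := Frob.mem_of_isIntegral A (hαi q hq.out hqN')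
    refine ⟨hmem, ?_⟩
    have h1 := hxT q hqN g hg
    rw [bt_prime hD hq.out hqm] at h1
    have h2 : rd ι A (qc f q) = residue A ⟨α q, hmem⟩ :=
      rd_eq (hD.isIntegral hq.out hqN') ⟨⟨α q, hmem⟩, hα q hq.out hqN', rfl⟩
    rw [h2] at h1
    exact h1
  · have hqm : ¬ q ∣ m := fun h => hqN (h.mul_right m)
    have hmem : e q ∈ A := Frob.mem_of_isIntegral A (hei q)
    refine ⟨hmem, ?_⟩
    rw [hxD g, smul_smul, ps_q hNm hℓm hqm hq.out hg]
    have h2 : ch ε ι A (q : ZMod N) = residue A ⟨e q, hmem⟩ :=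
      rd_eq (isIntegral_chi ε _) ⟨⟨e q, hmem⟩, he q, rfl⟩
    rw [h2]

end Fermat.Agent.DS1
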