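import Fermat.Agent.DS1.Prod
import Fermat.Agent.DS1.Alg

/-!
# Integrality of the Hecke eigenvalues
-/

set_option autoImplicit false
set_option linter.unusedSectionVars false

noncomputable section

namespace Fermat.Agent.DS1

open UpperHalfPlane hiding I
open Complex Filter Topology Function Metric Asymptotics
open scoped Real Manifold MatrixGroups ModularForm Matrix Pointwise
open Fermat.Agent.EichlerShimura Fermat.Agent.ModFun Fermat.Agent.AnJac Fermat.Agent.AnJacH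
open Matrix.SpecialLinearGroup CongruenceSubgroup

/-- the root of unity -/
def zt (M : ℕ) : ℂ := xi M 1

lemma zt_pow {M : ℕ} (hM : 0 < M) : zt M ^ M = 1 := by
  rw [zt, xi, ← Complex.exp_nat_mul, Complex.exp_eq_one_iff]
  refine ⟨1, ?_⟩
  have : (M : ℂ) ≠ 0 := by exact_mod_cast hM.ne'
  push_cast
  field_simp

lemma zt_ne_zero {M : ℕ} : zt M ≠ 0 := Complex.exp_ne_zero _

lemma zt_inv {M : ℕ} (hM : 0 < M) : (zt M)⁻¹ = zt M ^ (M - 1) := by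
  refine inv_eq_of_mul_eq_one_right ?_
  rw [← pow_succ', Nat.sub_add_cancel hM, zt_pow hM]

lemma isIntegral_zt {M : ℕ} (hM : 0 < M) : IsIntegral ℤ (zt M) :=
  IsIntegral.of_pow hM (by rw [zt_pow hM]; exact isIntegral_one)

lemma xi_eq_zt (M : ℕ) (a : ℕ) : xi M a = zt M ^ a := by
  rw [zt, xi, xi, ← Complex.exp_nat_mul]
  congr 1
  push_cast
  ring

/-- the scaling constant -/
def kap (ξ : ℂ) : ℂ := 2 * (ξ ^ 2 - 1) * (2 * π * I)⁻¹

lemma two_pi_I_ne : (2 * π * I : ℂ) ≠ 0 := Complex.two_pi_I_ne_zero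

lemma kap_zero {ξ : ℂ} (h : ξ ^ 2 - 1 ≠ 0) : kap ξ * (2 * π * I * ec ξ 0) = ξ ^ 2 + 4 * ξ + 1 := by
  rw [kap, ec, if_pos rfl]
  have := two_pi_I_ne
  field_simp

lemma kap_pos {ξ : ℂ} {n : ℕ} (hn : n ≠ 0) :
    kap ξ * (2 * π * I * ec ξ n) = -(2 * (ξ ^ 2 - 1)) * ∑ d ∈ n.divisors, cc ξ d := by
  rw [kap, ec, if_neg hn]
  have := two_pi_I_ne
  field_simp

/-- coefficients of the normalised Eisenstein series are in `ℤ[ξ]` -/
lemma kap_mem {M : ℕ} (hM : 0 < M) {R : Subring ℂ} (hR : zt M ∈ R) {a : ℕ}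
    (h : (zt M ^ a) ^ 2 - 1 ≠ 0) (n : ℕ) :
    kap (zt M ^ a) * (2 * π * I * ec (zt M ^ a) n) ∈ R := by
  have hinv : (zt M)⁻¹ ∈ R := by rw [zt_inv hM]; exact pow_mem hR _
  have hp : ∀ j : ℕ, (zt M ^ a) ^ j ∈ R := fun j => pow_mem (pow_mem hR _) _
  have hq : ∀ j : ℕ, ((zt M ^ a) ^ j)⁻¹ ∈ R := fun j => by
    rw [← pow_mul, ← inv_pow]; exact pow_mem hinv _
  have h2 : (2 : ℂ) ∈ R := ofNat_mem R 2
  have h4 : (4 : ℂ) ∈ R := ofNat_mem R 4
  rcases eq_or_ne n 0 with rfl | hn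
  · rw [kap_zero h]
    have h1 := hp 1
    rw [pow_one] at h1
    exact add_mem (add_mem (hp 2) (mul_mem h4 h1)) (one_mem _)
  · rw [kap_pos hn]
    refine mul_mem (neg_mem (mul_mem h2 (sub_mem (hp 2) (one_mem _)))) (sum_mem fun d _ => ?_)
    rw [cc]
    exact sub_mem (mul_mem h2 (sub_mem (hp d) (hq d))) (sub_mem (hp _) (hq _))

/-- auxiliary levels -/
structure Aux (M D : ℕ) : Prop where
  pos : 0 < M
  ok : Ok2 M 1
  D0 : D ≠ 0
  u : ∃ u ∈ Algebra.adjoin ℤ ({zt M} : Set ℂ), (zt M ^ 2 + 4 * zt M + 1) * u = D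

lemma zt_ne_one {M : ℕ} (hM : 0 < M) (h : Ok2 M 1) : zt M ≠ 1 :=
  xi_ne (notInt_of_ND hM h.1)

lemma zt_sq_ne_one {M : ℕ} (hM : 0 < M) (h : Ok2 M 1) : zt M ^ 2 ≠ 1 := by
  rw [zt, ← xi_two]
  have h2 := h.2
  rw [two_vec] at h2
  exact xi_ne (notInt_of_ND hM h2)

lemma Aux.sq_ne {M D : ℕ} (h : Aux M D) : zt M ^ 2 - 1 ≠ 0 :=
  sub_ne_zero.mpr (zt_sq_ne_one h.pos h.ok)

lemma zt_mem_adjoin (M : ℕ) : zt M ∈ Algebra.adjoin ℤ ({zt M} : Set ℂ) :=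
  Algebra.subset_adjoin (Set.mem_singleton _)

lemma three_aux {z : ℂ} (h1 : z ^ 3 = 1) (h2 : z ≠ 1) : (z ^ 2 + 4 * z + 1) * z ^ 2 = 3 := by
  have h3 : (z - 1) * (z ^ 2 + z + 1) = 0 := by linear_combination h1
  have h4 := (mul_eq_zero.mp h3).resolve_left (sub_ne_zero.mpr h2)
  linear_combination (z ^ 2) * h4 + 3 * h1

lemma four_aux {z : ℂ} (h1 : z ^ 4 = 1) (h2 : z ^ 2 ≠ 1) : (z ^ 2 + 4 * z + 1) * z ^ 3 = 4 := by
  have h3 : (z ^ 2 - 1) * (z ^ 2 + 1) = 0 := by linear_combination h1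
  have h4 := (mul_eq_zero.mp h3).resolve_left (sub_ne_zero.mpr h2)
  linear_combination (z ^ 3) * h4 + 4 * h1

lemma five_aux {z : ℂ} (h1 : z ^ 5 = 1) (h2 : z ≠ 1) :
    (z ^ 2 + 4 * z + 1) * ((3 - z - z ^ 4) * z ^ 4) = 11 := by
  have h3 : (z - 1) * (z ^ 4 + z ^ 3 + z ^ 2 + z + 1) = 0 := by linear_combination h1
  have h4 := (mul_eq_zero.mp h3).resolve_left (sub_ne_zero.mpr h2)
  linear_combination (10 - z - z ^ 2 - z ^ 3 - 4 * z ^ 4 - z ^ 5) * h1 - h4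

lemma aux3 : Aux 3 3 := by
  have hok : Ok2 3 1 := (ok2_iff (by norm_num)).mpr (by norm_num)
  refine ⟨by norm_num, hok, by norm_num, zt 3 ^ 2, ?_, ?_⟩
  · have hz := zt_mem_adjoin 3
    exact pow_mem hz 2
  · push_cast
    exact three_aux (zt_pow (by norm_num)) (zt_ne_one (by norm_num) hok)

lemma aux4 : Aux 4 4 := by
  have hok : Ok2 4 1 := (ok2_iff (by norm_num)).mpr (by norm_num)
  refine ⟨by norm_num, hok, by norm_num, zt 4 ^ 3, ?_, ?_⟩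
  · have hz := zt_mem_adjoin 4
    exact pow_mem hz 3
  · push_cast
    exact four_aux (zt_pow (by norm_num)) (zt_sq_ne_one (by norm_num) hok)

lemma aux5 : Aux 5 11 := by
  have hok : Ok2 5 1 := (ok2_iff (by norm_num)).mpr (by norm_num)
  refine ⟨by norm_num, hok, by norm_num, (3 - zt 5 - zt 5 ^ 4) * zt 5 ^ 4, ?_, ?_⟩
  · have hz := zt_mem_adjoin 5
    exact mul_mem (sub_mem (sub_mem (ofNat_mem _ 3) hz) (pow_mem hz 4)) (pow_mem hz 4)
  · push_cast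
    exact five_aux (zt_pow (by norm_num)) (zt_ne_one (by norm_num) hok)

end Fermat.Agent.DS1
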