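import Fermat.Agent.DS1.Int
import Fermat.Agent.DS1.AdmL

/-!
# Integrality of the Hecke eigenvalues
-/

set_option autoImplicit false
set_option linter.unusedSectionVars false

noncomputable section

namespace Fermat.Agent.DS1

open UpperHalfPlane hiding I
open Complex Filter Topology Function Metric Asymptotics
open scoped Real Manifold MatrixGroups ModularForm Matrix Pointwise
open Fermat.Agent.EichlerShimura Fermat.Agent.ModFun Fermat.Agent.AnJac Fermat.Agent.AnJacH
open Matrix.SpecialLinearGroup CongruenceSubgroup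

variable {N : ℕ} [NeZero N] {ε : DirichletCharacter ℂ N} {f : ℍ → ℂ}

lemma isIntegral_chi (ε : DirichletCharacter ℂ N) (x : ZMod N) : IsIntegral ℤ (ε x) := by
  by_cases hx : IsUnit x
  · obtain ⟨u, rfl⟩ := hx
    refine IsIntegral.of_pow (orderOf_pos u) ?_
    rw [← map_pow, ← Units.val_pow_eq_pow_val, pow_orderOf_eq_one, Units.val_one, map_one]
    exact isIntegral_one
  · rw [ε.map_nonunit hx]
    exact isIntegral_zero

/-- the coefficient ring -/
def RR (M D : ℕ) (ε : DirichletCharacter ℂ N) : Subalgebra ℤ ℂ :=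
  Algebra.adjoin ℤ ({zt M, (D : ℂ)⁻¹} ∪ Set.range fun x => ε x)

lemma noeth_RR (M D : ℕ) (ε : DirichletCharacter ℂ N) : IsNoetherianRing (RR M D ε) := by
  have h1 : (RR M D ε).FG := by
    refine Subalgebra.fg_def.mpr ⟨_, ?_, rfl⟩
    exact (Set.Finite.insert _ (Set.finite_singleton _)).union (Set.finite_range _)
  have : Algebra.FiniteType ℤ (RR M D ε) := (Subalgebra.fg_iff_finiteType _).mp h1
  exact Algebra.FiniteType.isNoetherianRing ℤ (RR M D ε)

lemma zt_mem_RR (M D : ℕ) (ε : DirichletCharacter ℂ N) : zt M ∈ RR M D ε :=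
  Algebra.subset_adjoin (Or.inl (Set.mem_insert _ _))

lemma inv_mem_RR (M D : ℕ) (ε : DirichletCharacter ℂ N) : (D : ℂ)⁻¹ ∈ RR M D ε :=
  Algebra.subset_adjoin (Or.inl (Set.mem_insert_of_mem _ (Set.mem_singleton _)))

lemma chi_mem_RR (M D : ℕ) (ε : DirichletCharacter ℂ N) (x : ZMod N) : ε x ∈ RR M D ε :=
  Algebra.subset_adjoin (Or.inr ⟨x, rfl⟩)

lemma RR_le {M D : ℕ} (hM : 0 < M) (hD : D ≠ 0) (ε : DirichletCharacter ℂ N) :
    ∀ x ∈ RR M D ε, x ∈ OD D := by
  have h1 : RR M D ε ≤ subalgebraOfSubring (OD D) := by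
    refine Algebra.adjoin_le ?_
    rintro x ((rfl | hx) | ⟨y, rfl⟩)
    · exact OD_of_isIntegral (isIntegral_zt hM)
    · rw [Set.mem_singleton_iff.mp hx]
      exact OD_inv hD
    · exact OD_of_isIntegral (isIntegral_chi ε y)
  exact fun x hx => h1 hx

variable {m M D : ℕ} [NeZero m]

lemma zt_pow_one (M : ℕ) : xi M 1 = zt M ^ 1 := by rw [pow_one, zt]

section

variable (hD : Dat N ε f) (hNm : N ∣ m) (hMm : M ∣ m) (hx : Aux M D)

include hD hNm hMm hx in
/-- the coefficients prime to `m` lie in a finitely generated module -/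
theorem coeff_span (hadm : Adm (m * m) (GG m)) :
    ∃ V : Submodule (RR M D ε) ℂ, V.FG ∧ ∀ n : ℕ, n.Coprime m → qc f n ∈ V := by
  have hM := hx.pos
  have hok : Ok2 M 1 := hx.ok
  have hin := prod_inS hD hNm hMm hM hok
  obtain ⟨W, hW, hW'⟩ := coeff_fg hadm ⟨_, hin⟩
  have hc : ∀ n, ∑ x ∈ Finset.HasAntidiagonal.antidiagonal n,
      qc (F0 m f) x.1 * qc (Kf M (vec 1)) x.2 ∈ W := by
    intro n
    rw [← qc_mul (isR_F0 hD.q1.isR) (isR_Kv hM hok)]
    exact hW' n
  have hz : xi M 1 = zt M ^ 1 := zt_pow_one M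
  have he : ∀ n, kap (zt M) * qc (Kf M (vec 1)) n ∈ RR M D ε := by
    intro n
    rw [qc_Kv hM hok, hz]
    have h2 : ((zt M) ^ 1) ^ 2 - 1 ≠ 0 := by rw [pow_one]; exact hx.sq_ne
    have := kap_mem (R := (RR M D ε).toSubring) hM (zt_mem_RR M D ε) (a := 1) h2 n
    rw [pow_one] at this ⊢
    exact this
  obtain ⟨u, hu, huD⟩ := hx.u
  have hD0 : (D : ℂ) ≠ 0 := by exact_mod_cast hx.D0
  have h00 : kap (zt M) * qc (Kf M (vec 1)) 0 = zt M ^ 2 + 4 * zt M + 1 := by
    rw [qc_Kv hM hok, hz, pow_one]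
    exact kap_zero hx.sq_ne
  have h0 : kap (zt M) * qc (Kf M (vec 1)) 0 ≠ 0 := by
    rw [h00]
    intro h
    rw [h, zero_mul] at huD
    exact hD0 huD.symm
  have hinv : (kap (zt M) * qc (Kf M (vec 1)) 0)⁻¹ ∈ RR M D ε := by
    have hu' : u ∈ RR M D ε := by
      refine (Algebra.adjoin_mono ?_) hu
      intro y hy
      rw [Set.mem_singleton_iff.mp hy]
      exact Or.inl (Set.mem_insert _ _)
    have e : (kap (zt M) * qc (Kf M (vec 1)) 0)⁻¹ = u * (D : ℂ)⁻¹ := by
      rw [h00] at h0 ⊢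
      rw [← huD]
      have hu0 : u ≠ 0 := by
        rintro rfl
        rw [mul_zero] at huD
        exact hD0 huD.symm
      rw [mul_inv, mul_left_comm, mul_inv_cancel₀ hu0, mul_one]
    rw [e]
    exact mul_mem hu' (inv_mem_RR M D ε)
  refine ⟨_, fg_span (RR M D ε) hW (kap (zt M)), fun n hn => ?_⟩
  have := coeff_mem_span (RR M D ε) W (qc (F0 m f)) (qc (Kf M (vec 1))) (kap (zt M)) hc he h0 hinv n
  rwa [qc_F0 hD.q1.isR, if_pos hn] at this

include hD hNm hMm hx in
theorem mem_OD_of_aux (hadm : Adm (m * m) (GG m)) {p : ℕ} (hp : p.Prime) (hpm : ¬ p ∣ m) :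
    qc f p ∈ OD D := by
  obtain ⟨V, hV, hV'⟩ := coeff_span hD hNm hMm hx hadm
  have hN := noeth_RR M D ε
  have hpN : ¬ p ∣ N := fun h => hpm (h.trans hNm)
  have hcop : ∀ j, (p ^ j).Coprime m := fun j =>
    Nat.Coprime.pow_left j ((Nat.Prime.coprime_iff_not_dvd hp).mpr hpm)
  have hint : IsIntegral (RR M D ε) (qc f p) := by
    refine isIntegral_of_seq (RR M D ε) hV (t := ε (p : ZMod N)) (chi_mem_RR M D ε _)
      (s := fun j => qc f (p ^ j)) ?_ ?_ ?_ ?_
    · simp only [pow_zero]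
      exact hD.one
    · simp only [pow_one]
    · intro j
      have := hD.hecke p hp hpN (p ^ (j + 1))
      have e1 : p ^ (j + 1) / p = p ^ j := by rw [pow_succ p j, Nat.mul_div_cancel _ hp.pos]
      rw [if_pos (dvd_pow_self p (Nat.succ_ne_zero j)), ← pow_succ', e1] at this
      exact this
    · exact fun j => hV' _ (hcop j)
  exact OD_closed (RR M D ε) (RR_le hx.pos hx.D0 ε) hint

end

theorem Dat.isIntegral (hD : Dat N ε f) {p : ℕ} (hp : p.Prime) (hpN : ¬ p ∣ N) :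
    IsIntegral ℤ (qc f p) := by
  have hN0 : N ≠ 0 := NeZero.ne N
  have h12 : ¬ p ∣ 12 → IsIntegral ℤ (qc f p) := by
    intro h
    have : NeZero (12 * N) := ⟨by positivity⟩
    have hpm : ¬ p ∣ 12 * N := fun h' => ((Nat.Prime.dvd_mul hp).mp h').elim h hpN
    have hadm := adm_GG (12 * N) (Or.inl (Dvd.dvd.mul_right (by norm_num) N))
    exact isIntegral_of_OD (D := 3) (D' := 4) (by norm_num)
      (mem_OD_of_aux hD (dvd_mul_left N 12) (Dvd.dvd.mul_right (by norm_num) N) aux3 hadm hp hpm)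
      (mem_OD_of_aux hD (dvd_mul_left N 12) (Dvd.dvd.mul_right (by norm_num) N) aux4 hadm hp hpm)
  by_cases h2 : p = 2
  · subst h2
    have : NeZero (15 * N) := ⟨by positivity⟩
    have hpm : ¬ 2 ∣ 15 * N := fun h' => ((Nat.Prime.dvd_mul hp).mp h').elim (by norm_num) hpN
    have hadm := adm_GG (15 * N) (Or.inr (Dvd.dvd.mul_right (by norm_num) N))
    exact isIntegral_of_OD (D := 3) (D' := 11) (by norm_num)
      (mem_OD_of_aux hD (dvd_mul_left N 15) (Dvd.dvd.mul_right (by norm_num) N) aux3 hadm hp hpm)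
      (mem_OD_of_aux hD (dvd_mul_left N 15) (Dvd.dvd.mul_right (by norm_num) N) aux5 hadm hp hpm)
  by_cases h3 : p = 3
  · subst h3
    have : NeZero (20 * N) := ⟨by positivity⟩
    have hpm : ¬ 3 ∣ 20 * N := fun h' => ((Nat.Prime.dvd_mul hp).mp h').elim (by norm_num) hpN
    have hadm := adm_GG (20 * N) (Or.inl (Dvd.dvd.mul_right (by norm_num) N))
    exact isIntegral_of_OD (D := 4) (D' := 11) (by norm_num)
      (mem_OD_of_aux hD (dvd_mul_left N 20) (Dvd.dvd.mul_right (by norm_num) N) aux4 hadm hp hpm)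
      (mem_OD_of_aux hD (dvd_mul_left N 20) (Dvd.dvd.mul_right (by norm_num) N) aux5 hadm hp hpm)
  · apply h12
    intro h
    have h4 : p ∣ 2 ^ 2 * 3 := by norm_num; exact h
    rcases (Nat.Prime.dvd_mul hp).mp h4 with h5 | h5
    · exact h2 ((Nat.prime_dvd_prime_iff_eq hp Nat.prime_two).mp (hp.dvd_of_dvd_pow h5))
    · exact h3 ((Nat.prime_dvd_prime_iff_eq hp Nat.prime_three).mp h5)

end Fermat.Agent.DS1
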