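import Fermat.Agent.DS1.Int2
import Fermat.Agent.AnJac.AutC

/-!
# The number field generated by the Hecke eigenvalues
-/

set_option autoImplicit false
set_option linter.unusedSectionVars false

noncomputable section

namespace Fermat.Agent.DS1

open UpperHalfPlane hiding I
open Complex Filter Topology Function Metric Asymptotics
open scoped Real Manifold MatrixGroups ModularForm Matrix Pointwise
open Fermat.Agent.EichlerShimura Fermat.Agent.ModFun Fermat.Agent.AnJac Fermat.Agent.AnJacH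
open Matrix.SpecialLinearGroup CongruenceSubgroup

variable {N : ℕ} [NeZero N] {ε : DirichletCharacter ℂ N} {f : ℍ → ℂ}

lemma isInt_Q {x : ℂ} (h : IsIntegral ℤ x) : IsIntegral ℚ x := h.tower_top

/-- the coefficient field, as an algebra -/
def LL (M D : ℕ) (ε : DirichletCharacter ℂ N) : Subalgebra ℚ ℂ :=
  Algebra.adjoin ℚ ({zt M, (D : ℂ)⁻¹} ∪ Set.range fun x => ε x)

lemma fg_LL {M : ℕ} (hM : 0 < M) (D : ℕ) (ε : DirichletCharacter ℂ N) :
    (Subalgebra.toSubmodule (LL M D ε)).FG := by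
  refine fg_adjoin_of_finite ?_ ?_
  · exact (Set.Finite.insert _ (Set.finite_singleton _)).union (Set.finite_range _)
  · rintro x ((rfl | hx) | ⟨y, rfl⟩)
    · exact isInt_Q (isIntegral_zt hM)
    · rw [Set.mem_singleton_iff.mp hx]
      have : ((D : ℂ))⁻¹ = algebraMap ℚ ℂ ((D : ℚ)⁻¹) := by simp
      rw [this]
      exact isIntegral_algebraMap
    · exact isInt_Q (isIntegral_chi ε y)

lemma RR_le_LL (M D : ℕ) (ε : DirichletCharacter ℂ N) : ∀ x ∈ RR M D ε, x ∈ LL M D ε := by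
  intro x hx
  rw [RR] at hx
  induction hx using Algebra.adjoin_induction with
  | mem x hx =>
    have : x ∈ LL M D ε := by
      rw [LL]
      exact Algebra.subset_adjoin hx
    exact this
  | algebraMap r =>
    have : (algebraMap ℤ ℂ r) = algebraMap ℚ ℂ (r : ℚ) := by simp
    rw [this]
    exact Subalgebra.algebraMap_mem _ _
  | add x y _ _ hx hy => exact add_mem hx hy
  | mul x y _ _ hx hy => exact mul_mem hx hy

lemma chi_mem_LL (M D : ℕ) (ε : DirichletCharacter ℂ N) (x : ZMod N) : ε x ∈ LL M D ε :=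
  Algebra.subset_adjoin (Or.inr ⟨x, rfl⟩)

/-- the Hecke field is a number field -/
theorem Dat.numberField (hD : Dat N ε f) : ∃ K : IntermediateField ℚ ℂ, FiniteDimensional ℚ K ∧
    (∀ x, ε x ∈ K) ∧ ∀ p : ℕ, p.Prime → ¬ p ∣ N → qc f p ∈ K := by
  have hN0 : N ≠ 0 := NeZero.ne N
  set m : ℕ := 12 * N with hm
  have hmZ : NeZero m := ⟨by positivity⟩
  have hadm : Adm (m * m) (GG m) := adm_GG m (Or.inl (Dvd.dvd.mul_right (by norm_num) N))
  obtain ⟨V, hV, hV'⟩ := coeff_span hD (dvd_mul_left N 12)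
    (Dvd.dvd.mul_right (by norm_num) N) aux3 hadm
  obtain ⟨s, hs⟩ := hV
  set P : Submodule ℚ ℂ := Subalgebra.toSubmodule (LL 3 3 ε) with hP
  have hPfg : P.FG := fg_LL (by norm_num) 3 ε
  have hPP : ∀ x ∈ P, ∀ y ∈ P, x * y ∈ P := fun x hx y hy => (LL 3 3 ε).mul_mem hx hy
  have hstabl : ∀ (Q : Submodule ℚ ℂ), ∀ x ∈ P, ∀ y ∈ P * Q, x * y ∈ P * Q := by
    intro Q x hx y hy
    induction hy using Submodule.mul_induction_on' with
    | mem_mul_mem a ha b hb =>
      rw [← mul_assoc]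
      exact Submodule.mul_mem_mul (hPP x hx a ha) hb
    | add a _ b _ ha hb => rw [mul_add]; exact add_mem ha hb
  have h1P : (1 : ℂ) ∈ P := (LL 3 3 ε).one_mem
  have hle : ∀ (Q : Submodule ℚ ℂ), ∀ y ∈ Q, y ∈ P * Q := fun Q y hy => by
    rw [← one_mul y]; exact Submodule.mul_mem_mul h1P hy
  set B : Submodule ℚ ℂ := P * Submodule.span ℚ (s : Set ℂ) with hB
  have hBfg : B.FG := hPfg.mul (Submodule.fg_span s.finite_toSet)
  have hVB : ∀ v ∈ V, v ∈ B := by
    intro v hv
    rw [← hs] at hv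
    induction hv using Submodule.span_induction with
    | mem x hx => exact hle _ _ (Submodule.subset_span hx)
    | zero => exact zero_mem _
    | add x y _ _ hx hy => exact add_mem hx hy
    | smul r x _ hx => exact hstabl _ _ (RR_le_LL 3 3 ε _ r.2) _ hx
  set S₀ : Set ℂ := {y | ∃ n : ℕ, n.Coprime m ∧ y = qc f n} with hS₀
  set T : Submodule ℚ ℂ := P * Submodule.span ℚ S₀ with hT
  have hTB : T ≤ B := by
    rw [hT, Submodule.mul_le]
    intro x hx y hy
    refine hstabl _ _ hx _ ?_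
    induction hy using Submodule.span_induction with
    | mem z hz =>
      obtain ⟨n, hn, rfl⟩ := hz
      exact hVB _ (hV' n hn)
    | zero => exact zero_mem _
    | add a b _ _ ha hb => exact add_mem ha hb
    | smul r a _ ha => exact Submodule.smul_mem _ _ ha
  have hPT : ∀ x ∈ P, ∀ y ∈ T, x * y ∈ T := hstabl _
  have hS₀T : ∀ n : ℕ, n.Coprime m → qc f n ∈ T := fun n hn =>
    hle _ _ (Submodule.subset_span ⟨n, hn, rfl⟩)
  have hpT : ∀ p : ℕ, p.Prime → ¬ p ∣ m → ∀ y ∈ T, qc f p * y ∈ T := by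
    intro p hp hpm y hy
    have hpc : p.Coprime m := (Nat.Prime.coprime_iff_not_dvd hp).mpr hpm
    have hpN : ¬ p ∣ N := fun h => hpm (h.mul_left 12)
    induction hy using Submodule.mul_induction_on' with
    | mem_mul_mem a ha b hb =>
      rw [mul_left_comm]
      refine hPT _ ha _ ?_
      induction hb using Submodule.span_induction with
      | mem z hz =>
        obtain ⟨n, hn, rfl⟩ := hz
        rw [← hD.hecke p hp hpN n]
        refine add_mem (hS₀T _ (hpc.mul_left hn)) (hPT _ (chi_mem_LL 3 3 ε _) _ ?_)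
        split_ifs with hpn
        · obtain ⟨k, rfl⟩ := hpn
          rw [Nat.mul_div_cancel_left k hp.pos]
          exact hS₀T _ (Nat.Coprime.coprime_mul_left hn)
        · exact zero_mem _
      | zero => rw [mul_zero]; exact zero_mem _
      | add a b _ _ ha hb => rw [mul_add]; exact add_mem ha hb
      | smul r a _ ha => rw [mul_smul_comm]; exact Submodule.smul_mem _ _ ha
    | add a _ b _ ha hb => rw [mul_add]; exact add_mem ha hb
  have h1T : (1 : ℂ) ∈ T := by
    rw [← hD.one]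
    exact hS₀T 1 (Nat.coprime_one_left m)
  set A₁ : Subalgebra ℚ ℂ := Algebra.adjoin ℚ
    ((Set.range fun x => ε x) ∪ {x | ∃ p : ℕ, p.Prime ∧ ¬ p ∣ m ∧ x = qc f p}) with hA₁
  have hA₁T : ∀ a ∈ A₁, ∀ y ∈ T, a * y ∈ T := by
    intro a ha
    induction ha using Algebra.adjoin_induction with
    | mem x hx =>
      rcases hx with ⟨z, rfl⟩ | ⟨p, hp, hpm, rfl⟩
      · exact fun y hy => hPT _ (chi_mem_LL 3 3 ε _) _ hy
      · exact hpT p hp hpm
    | algebraMap r =>
      intro y hy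
      rw [← Algebra.smul_def]
      exact Submodule.smul_mem _ _ hy
    | add x y _ _ hx hy =>
      intro z hz
      rw [add_mul]
      exact add_mem (hx z hz) (hy z hz)
    | mul x y _ _ hx hy =>
      intro z hz
      rw [mul_assoc]
      exact hx _ (hy z hz)
  have hA₁B : Subalgebra.toSubmodule A₁ ≤ B := by
    intro a ha
    have := hA₁T a ha 1 h1T
    rw [mul_one] at this
    exact hTB this
  have hBfin : FiniteDimensional ℚ B := Module.Finite.iff_fg.mpr hBfg
  have hA₁fin : FiniteDimensional ℚ A₁ := Submodule.finiteDimensional_of_le hA₁B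
  have hA₁int : Algebra.IsIntegral ℚ A₁ := Algebra.IsIntegral.of_finite ℚ A₁
  have hA₁f : IsField A₁ := isField_of_isIntegral_of_isField' (Field.toIsField ℚ)
  set K₁ : IntermediateField ℚ ℂ := A₁.toIntermediateField' hA₁f with hK₁
  have hK₁m : ∀ x, x ∈ K₁ ↔ x ∈ A₁ := fun x => Iff.rfl
  have hK₁fin : FiniteDimensional ℚ K₁ := hA₁fin
  set S₂ : Set ℂ := (fun p => qc f p) '' {p : ℕ | p.Prime ∧ ¬ p ∣ N ∧ p ∣ m} with hS₂
  have hS₂fin : S₂.Finite := by
    refine Set.Finite.image _ ?_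
    refine (Set.finite_le_nat m).subset ?_
    rintro p ⟨hp, -, hpm⟩
    exact Nat.le_of_dvd (Nat.pos_of_ne_zero (NeZero.ne m)) hpm
  have : Finite S₂ := hS₂fin
  have hK₂fin : FiniteDimensional ℚ (IntermediateField.adjoin ℚ S₂) := by
    refine IntermediateField.finiteDimensional_adjoin ?_
    rintro _ ⟨p, ⟨hp, hpN, -⟩, rfl⟩
    exact isInt_Q (hD.isIntegral hp hpN)
  refine ⟨K₁ ⊔ IntermediateField.adjoin ℚ S₂, IntermediateField.finiteDimensional_sup _ _,
    fun x => ?_, fun p hp hpN => ?_⟩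
  · refine (le_sup_left : K₁ ≤ _) ?_
    rw [hK₁m]
    exact Algebra.subset_adjoin (Or.inl ⟨x, rfl⟩)
  · by_cases hpm : p ∣ m
    · refine (le_sup_right : IntermediateField.adjoin ℚ S₂ ≤ _) ?_
      exact IntermediateField.subset_adjoin _ _ ⟨p, ⟨hp, hpN, hpm⟩, rfl⟩
    · refine (le_sup_left : K₁ ≤ _) ?_
      rw [hK₁m]
      exact Algebra.subset_adjoin (Or.inr ⟨p, hp, hpm, rfl⟩)

local notation "Qbar" => AlgebraicClosure ℚ

lemma exists_preim (ι : Qbar →+* ℂ) {x : ℂ} (hx : IsIntegral ℤ x) : ∃ y : Qbar, ι y = x := by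
  let := ι.toAlgebra
  have h1 : IsIntegral Qbar x := hx.tower_top
  exact exists_algebraMap_eq h1.isAlgebraic

/-- the algebraic data -/
theorem Dat.exists_alpha (hD : Dat N ε f) (ι : Qbar →+* ℂ) : ∃ α e : ℕ → Qbar,
    (∀ p : ℕ, p.Prime → ¬ p ∣ N → ι (α p) = qc f p) ∧ (∀ p : ℕ, ι (e p) = ε (p : ZMod N)) ∧
    (∃ K : IntermediateField ℚ Qbar, FiniteDimensional ℚ K ∧
      ∀ p : ℕ, p.Prime → ¬ p ∣ N → α p ∈ K ∧ e p ∈ K) ∧
    (∀ p : ℕ, p.Prime → ¬ p ∣ N → IsIntegral ℤ (α p)) ∧ (∀ p : ℕ, IsIntegral ℤ (e p)) ∧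
    (∃ k : ℕ, 0 < k ∧ ∀ p : ℕ, p.Prime → ¬ p ∣ N → e p ^ k = 1) := by
  classical
  obtain ⟨K, hK, hKe, hKa⟩ := hD.numberField
  have h1 : ∀ p : ℕ, ∃ y : Qbar, p.Prime → ¬ p ∣ N → ι y = qc f p := by
    intro p
    by_cases h : p.Prime ∧ ¬ p ∣ N
    · obtain ⟨y, hy⟩ := exists_preim ι (hD.isIntegral h.1 h.2)
      exact ⟨y, fun _ _ => hy⟩
    · exact ⟨0, fun h2 h3 => absurd ⟨h2, h3⟩ h⟩
  choose α hα using h1
  have h2 : ∀ p : ℕ, ∃ y : Qbar, ι y = ε (p : ZMod N) := fun p =>
    exists_preim ι (isIntegral_chi ε _)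
  choose e he using h2
  have hinj : Function.Injective ι := ι.injective
  have hint : ∀ y : Qbar, IsIntegral ℤ (ι y) → IsIntegral ℤ y := fun y hy => by
    have h3 : IsIntegral ℤ ((ι.toIntAlgHom) y) := hy
    exact (isIntegral_algHom_iff ι.toIntAlgHom hinj).mp h3
  let ι' : Qbar →ₐ[ℚ] ℂ := { ι with
    commutes' := fun r => by
      change ι (algebraMap ℚ Qbar r) = algebraMap ℚ ℂ r
      have h4 : (ι.comp (algebraMap ℚ Qbar)) = algebraMap ℚ ℂ := Subsingleton.elim _ _
      rw [← h4]; rfl }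
  have hι' : ∀ y, ι' y = ι y := fun y => rfl
  refine ⟨α, e, fun p hp hpN => hα p hp hpN, he, ⟨K.comap ι', ?_, fun p hp hpN => ⟨?_, ?_⟩⟩,
    fun p hp hpN => hint _ ?_, fun p => hint _ ?_, ?_⟩
  · -- finite dimensional
    have h5 : Function.Injective (fun x : (K.comap ι' : IntermediateField ℚ Qbar) =>
        (⟨ι' x, x.2⟩ : K)) := by
      intro x y hxy
      have := congrArg (fun z : K => (z : ℂ)) hxy
      exact Subtype.ext (hinj this)
    let lin : (K.comap ι' : IntermediateField ℚ Qbar) →ₗ[ℚ] K :=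
      { toFun := fun x => ⟨ι' x, x.2⟩
        map_add' := fun x y => Subtype.ext (map_add ι' _ _)
        map_smul' := fun r x => Subtype.ext (ι'.toLinearMap.map_smul r (x : Qbar)) }
    exact FiniteDimensional.of_injective lin h5
  · change ι' (α p) ∈ K
    rw [hι', hα p hp hpN]
    exact hKa p hp hpN
  · change ι' (e p) ∈ K
    rw [hι', he p]
    exact hKe _
  · rw [hα p hp hpN]; exact hD.isIntegral hp hpN
  · rw [he p]; exact isIntegral_chi ε _
  · refine ⟨Fintype.card (ZMod N)ˣ, Fintype.card_pos, fun p hp hpN => ?_⟩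
    apply hinj
    have hu : IsUnit (p : ZMod N) :=
      (ZMod.isUnit_iff_coprime p N).mpr ((Nat.Prime.coprime_iff_not_dvd hp).mpr hpN)
    obtain ⟨u, hu⟩ := hu
    rw [map_pow, he p, ← hu, ← map_pow, ← Units.val_pow_eq_pow_val, pow_card_eq_one, Units.val_one,
      map_one, map_one]

end Fermat.Agent.DS1
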