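import Fermat.Agent.DS1.Pieces
import Mathlib.NumberTheory.LSeries.PrimesInAP
import Mathlib.NumberTheory.ModularForms.Bounds

/-!
# Deligne-Serre (N3): the nebentypus is forced by the Hecke relations, I

The weight one Hecke operator `T_p f` is invariant under `(1, 0; N, 1)`.
-/

set_option autoImplicit false
set_option linter.style.haveILetI false
set_option linter.unusedSectionVars false

noncomputable section

namespace Fermat.Agent.DS1

open CongruenceSubgroup ModularForm Complex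
open UpperHalfPlane hiding I
open scoped MatrixGroups Real

/-- `(z + b) / p` -/
def dv (p : ℕ) (hp : 0 < p) (b : ℤ) (z : ℍ) : ℍ :=
  ⟨((z : ℂ) + b) / p, by
    have h1 : ((z : ℂ) + b) / p = ((z : ℂ) + (b : ℝ)) / (p : ℝ) := by push_cast; rfl
    rw [h1, Complex.div_ofReal_im, Complex.add_im, Complex.ofReal_im, add_zero]
    exact div_pos z.im_pos (by exact_mod_cast hp)⟩

/-- `p z` -/
def ml (p : ℕ) (hp : 0 < p) (z : ℍ) : ℍ :=
  ⟨(p : ℂ) * z, by
    have h1 : ((p : ℂ) * (z : ℂ)) = ((p : ℝ) : ℂ) * (z : ℂ) := by push_cast; rfl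
    rw [h1, Complex.im_ofReal_mul]
    exact mul_pos (by exact_mod_cast hp) z.im_pos⟩

lemma coe_dv (p : ℕ) (hp : 0 < p) (b : ℤ) (z : ℍ) : ((dv p hp b z : ℍ) : ℂ) = ((z : ℂ) + b) / p :=
  rfl

lemma coe_ml (p : ℕ) (hp : 0 < p) (z : ℍ) : ((ml p hp z : ℍ) : ℂ) = (p : ℂ) * z := rfl

/-- the matrix `(1, 0; N, 1)` -/
def uN (N : ℕ) : SL(2, ℤ) := ⟨!![1, 0; N, 1], by simp [Matrix.det_fin_two]⟩

lemma coe_uN (N : ℕ) (z : ℍ) : ((uN N • z : ℍ) : ℂ) = (z : ℂ) / (N * z + 1) := by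
  rw [UpperHalfPlane.coe_specialLinearGroup_apply]
  simp [uN]

lemma uN_ne (N : ℕ) (z : ℍ) : (N : ℂ) * z + 1 ≠ 0 := by
  have := UpperHalfPlane.denom_ne_zero (uN N) z
  simpa [uN, UpperHalfPlane.denom] using this

/-- slash action of weight one at a point -/
lemma slash_at {f : ℍ → ℂ} (δ : SL(2, ℤ)) (w : ℍ) :
    f (δ • w) = (((δ 1 0 : ℤ) : ℂ) * w + ((δ 1 1 : ℤ) : ℂ)) * (f ∣[(1 : ℤ)] δ) w := by
  have h0 : (((δ 1 0 : ℤ) : ℂ) * w + ((δ 1 1 : ℤ) : ℂ)) ≠ 0 := by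
    have := UpperHalfPlane.denom_ne_zero δ w
    simpa [UpperHalfPlane.denom] using this
  have h1 : UpperHalfPlane.denom δ w = ((δ 1 0 : ℤ) : ℂ) * w + ((δ 1 1 : ℤ) : ℂ) := by
    simp [UpperHalfPlane.denom]
  rw [SL_slash_apply, h1, zpow_neg, zpow_one, mul_comm, mul_assoc, inv_mul_cancel₀ h0, mul_one]

section Inv

variable {N : ℕ} {f g : ℍ → ℂ} {d : ℤ}
  (hf : ∀ δ : SL(2, ℤ), (N : ℤ) ∣ δ 1 0 → (N : ℤ) ∣ δ 1 1 - 1 → f ∣[(1 : ℤ)] δ = f)
  (hg : ∀ δ : SL(2, ℤ), (N : ℤ) ∣ δ 1 0 → (N : ℤ) ∣ δ 1 1 - d → f ∣[(1 : ℤ)] δ = g)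
  (hg' : ∀ δ : SL(2, ℤ), (N : ℤ) ∣ δ 1 0 → (N : ℤ) ∣ d * δ 1 1 - 1 → g ∣[(1 : ℤ)] δ = f)

include hf in
lemma tp_one {p : ℕ} (hp : 0 < p) {b b' e : ℤ} (he : b - (1 + b * N) * b' = p * e) (z : ℍ) :
    f (dv p hp b (uN N • z)) = (N * z + 1) * f (dv p hp b' z) := by
  have hp0 : (p : ℂ) ≠ 0 := by exact_mod_cast hp.ne'
  let δ : SL(2, ℤ) := ⟨!![1 + b * N, e; p * N, 1 - N * b'], by
    rw [Matrix.det_fin_two_of]
    linear_combination (N : ℤ) * he⟩
  have h1 : dv p hp b (uN N • z) = δ • dv p hp b' z := by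
    apply UpperHalfPlane.ext
    rw [UpperHalfPlane.coe_specialLinearGroup_apply, coe_dv, coe_dv, coe_uN]
    have h2 := uN_ne N z
    simp [δ]
    have h3 : (p : ℂ) * N * ((z + b') / p) + (1 - N * b') = N * z + 1 := by
      field_simp
      ring
    rw [h3]
    have h4 : ((b : ℂ) - (1 + b * N) * b') = p * e := by exact_mod_cast he
    rw [div_add' _ _ _ h2, div_div, div_eq_div_iff (mul_ne_zero h2 hp0) h2]
    field_simp
    linear_combination ((N : ℂ) * z + 1) * h4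
  rw [h1, slash_at (f := f), hf δ (by simp [δ]) (by simp [δ])]
  congr 1
  rw [coe_dv]
  simp [δ]
  field_simp
  ring

include hg in
lemma tp_two {p : ℕ} (hp : 0 < p) (hpd : (N : ℤ) ∣ p - d) {b e : ℤ} (he : 1 + b * N = p * e)
    (z : ℍ) : f (dv p hp b (uN N • z)) = p * (N * z + 1) * g (ml p hp z) := by
  have hp0 : (p : ℂ) ≠ 0 := by exact_mod_cast hp.ne'
  let δ : SL(2, ℤ) := ⟨!![e, b; N, p], by
    rw [Matrix.det_fin_two_of]
    linear_combination - he⟩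
  have h1 : dv p hp b (uN N • z) = δ • ml p hp z := by
    apply UpperHalfPlane.ext
    rw [UpperHalfPlane.coe_specialLinearGroup_apply, coe_dv, coe_ml, coe_uN]
    have h2 := uN_ne N z
    simp [δ]
    have h3 : (N : ℂ) * (p * z) + p = p * (N * z + 1) := by ring
    rw [h3]
    have h4 : (1 + b * N : ℂ) = p * e := by exact_mod_cast he
    rw [div_add' _ _ _ h2, div_div, div_eq_div_iff (mul_ne_zero h2 hp0) (mul_ne_zero hp0 h2)]
    linear_combination (p * z * ((N : ℂ) * z + 1)) * h4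
  rw [h1, slash_at (f := f), hg δ (by simp [δ]) (by simpa [δ] using hpd)]
  congr 1
  rw [coe_ml]
  simp [δ]
  ring

include hg' in
lemma tp_three {p : ℕ} (hp : 0 < p) (hpd : (N : ℤ) ∣ p - d) {b' e : ℤ}
    (he : N * b' + p * e = 1) (z : ℍ) :
    p * g (ml p hp (uN N • z)) = (N * z + 1) * f (dv p hp b' z) := by
  have hp0 : (p : ℂ) ≠ 0 := by exact_mod_cast hp.ne'
  let δ : SL(2, ℤ) := ⟨!![p, -b'; N, e], by
    rw [Matrix.det_fin_two_of]
    linear_combination he⟩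
  have h1 : ml p hp (uN N • z) = δ • dv p hp b' z := by
    apply UpperHalfPlane.ext
    rw [UpperHalfPlane.coe_specialLinearGroup_apply, coe_dv, coe_ml, coe_uN]
    have h2 := uN_ne N z
    simp [δ]
    have h4 : (N * b' + p * e : ℂ) = 1 := by exact_mod_cast he
    have h3 : (N : ℂ) * ((z + b') / p) + e = (N * z + 1) / p := by
      field_simp
      linear_combination h4
    rw [h3]
    rw [div_div_eq_mul_div, mul_div_assoc', div_left_inj' h2]
    field_simp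
    ring
  rw [h1, slash_at (f := g), hg' δ (by simp [δ]) ?_]
  · rw [coe_dv, ← mul_assoc]
    congr 1
    have h4 : (N * b' + p * e : ℂ) = 1 := by exact_mod_cast he
    simp [δ]
    field_simp
    linear_combination h4
  · simp [δ]
    obtain ⟨c, hc⟩ := hpd
    refine ⟨-(b' + c * e), ?_⟩
    linear_combination he - e * hc

end Inv

end Fermat.Agent.DS1
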