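import Fermat.Agent.DS1.Neb1

/-!
# Deligne-Serre (N3), II: invariance of `T_p f`
-/

set_option autoImplicit false
set_option linter.style.haveILetI false
set_option linter.unusedSectionVars false

noncomputable section

namespace Fermat.Agent.DS1

open CongruenceSubgroup ModularForm Complex
open UpperHalfPlane hiding I
open scoped MatrixGroups Real

section Inv

variable {N : ℕ} {f g : ℍ → ℂ} {d : ℤ}
  (hf : ∀ δ : SL(2, ℤ), (N : ℤ) ∣ δ 1 0 → (N : ℤ) ∣ δ 1 1 - 1 → f ∣[(1 : ℤ)] δ = f)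
  (hg : ∀ δ : SL(2, ℤ), (N : ℤ) ∣ δ 1 0 → (N : ℤ) ∣ δ 1 1 - d → f ∣[(1 : ℤ)] δ = g)
  (hg' : ∀ δ : SL(2, ℤ), (N : ℤ) ∣ δ 1 0 → (N : ℤ) ∣ d * δ 1 1 - 1 → g ∣[(1 : ℤ)] δ = f)

/-- the terms of the Hecke operator -/
def FT (f g : ℍ → ℂ) (p : ℕ) (hp : 0 < p) (z : ℍ) : Option (ZMod p) → ℂ
  | some b => f (dv p hp (b.val : ℤ) z)
  | none => p * g (ml p hp z)

/-- the permutation of `P¹(F_p)` -/
def prm (p N : ℕ) [Fact p.Prime] : Option (ZMod p) → Option (ZMod p)
  | some b => if 1 + b * N = 0 then none else some (b / (1 + b * N))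
  | none => some (N : ZMod p)⁻¹

lemma prm_bij (p N : ℕ) [Fact p.Prime] (hpN : (N : ZMod p) ≠ 0) :
    Function.Bijective (prm p N) := by
  haveI : NeZero p := ⟨(Fact.out : p.Prime).ne_zero⟩
  rw [← Finite.injective_iff_bijective]
  rintro (_ | b) (_ | b') h
  · rfl
  · simp only [prm] at h
    split_ifs at h with h1
    rw [Option.some_inj] at h
    exfalso
    rw [eq_div_iff h1, inv_mul_eq_iff_eq_mul₀ hpN] at h
    have : (1 : ZMod p) = 0 := by linear_combination h
    exact one_ne_zero this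
  · simp only [prm] at h
    split_ifs at h with h1
    rw [Option.some_inj] at h
    exfalso
    rw [eq_comm, eq_div_iff h1, inv_mul_eq_iff_eq_mul₀ hpN] at h
    have : (1 : ZMod p) = 0 := by linear_combination h
    exact one_ne_zero this
  · simp only [prm] at h
    split_ifs at h with h1 h2 h2
    · have : b = b' := by
        have h3 : b * N = b' * N := by linear_combination h1 - h2
        exact mul_right_cancel₀ hpN h3
      rw [this]
    · rw [Option.some_inj, div_eq_div_iff h1 h2] at h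
      have : b = b' := by linear_combination h
      rw [this]

include hf hg hg' in
lemma FT_uN (p : ℕ) [Fact p.Prime] (hp : 0 < p) (hpN : (N : ZMod p) ≠ 0)
    (hpd : (N : ℤ) ∣ p - d) (z : ℍ) (i : Option (ZMod p)) :
    FT f g p hp (uN N • z) i = (N * z + 1) * FT f g p hp z (prm p N i) := by
  haveI : NeZero p := ⟨(Fact.out : p.Prime).ne_zero⟩
  have hval : ∀ b : ZMod p, (((b.val : ℤ)) : ZMod p) = b := fun b => by
    rw [Int.cast_natCast, ZMod.natCast_zmod_val]
  rcases i with _ | b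
  · simp only [FT, prm]
    have h1 : ((N * (((N : ZMod p)⁻¹).val : ℤ) - 1 : ℤ) : ZMod p) = 0 := by
      push_cast
      rw [ZMod.natCast_zmod_val, mul_inv_cancel₀ hpN, sub_self]
    rw [ZMod.intCast_zmod_eq_zero_iff_dvd] at h1
    obtain ⟨e, he⟩ := h1
    exact tp_three hg' hp hpd (b' := (((N : ZMod p)⁻¹).val : ℤ)) (e := -e)
      (by linear_combination he) z
  · simp only [FT, prm]
    split_ifs with h1
    · have h2 : ((1 + (b.val : ℤ) * N : ℤ) : ZMod p) = 0 := by
        push_cast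
        rw [ZMod.natCast_zmod_val, h1]
      rw [ZMod.intCast_zmod_eq_zero_iff_dvd] at h2
      obtain ⟨e, he⟩ := h2
      simp only
      rw [tp_two hg hp hpd he z]
      ring
    · have h2 : (((b.val : ℤ) - (1 + (b.val : ℤ) * N) * ((b / (1 + b * N)).val : ℤ) : ℤ) :
          ZMod p) = 0 := by
        push_cast
        rw [ZMod.natCast_zmod_val, ZMod.natCast_zmod_val, mul_div_cancel₀ _ h1, sub_self]
      rw [ZMod.intCast_zmod_eq_zero_iff_dvd] at h2
      obtain ⟨e, he⟩ := h2
      exact tp_one hf hp he z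

include hf hg hg' in
/-- **invariance of `T_p f`** -/
theorem tp_inv (p : ℕ) [Fact p.Prime] (hp : 0 < p) (hpN : (N : ZMod p) ≠ 0)
    (hpd : (N : ℤ) ∣ p - d) (z : ℍ) :
    (∑ b : ZMod p, f (dv p hp (b.val : ℤ) (uN N • z))) + p * g (ml p hp (uN N • z)) =
      (N * z + 1) * ((∑ b : ZMod p, f (dv p hp (b.val : ℤ) z)) + p * g (ml p hp z)) := by
  haveI : NeZero p := ⟨(Fact.out : p.Prime).ne_zero⟩
  have h1 : ∀ z : ℍ, (∑ b : ZMod p, f (dv p hp (b.val : ℤ) z)) + p * g (ml p hp z) =
      ∑ i : Option (ZMod p), FT f g p hp z i := by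
    intro z
    rw [Fintype.sum_option, add_comm]
    rfl
  rw [h1, h1, Finset.sum_congr rfl fun i _ => FT_uN hf hg hg' p hp hpN hpd z i,
    ← Finset.mul_sum, (prm_bij p N hpN).sum_comp (FT f g p hp z)]

end Inv

end Fermat.Agent.DS1
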