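import Fermat.Agent.DS1.Neb2

/-!
# Deligne-Serre (N3), III: the Hecke relation as a functional equation
-/

set_option autoImplicit false
set_option linter.style.haveILetI false
set_option linter.unusedSectionVars false

noncomputable section

namespace Fermat.Agent.DS1

open CongruenceSubgroup ModularForm Complex
open UpperHalfPlane hiding I
open scoped MatrixGroups Real

lemma sum_rou {p : ℕ} [Fact p.Prime] {u : ℂ} (hu : u ^ p = 1) (hu1 : u ≠ 1) :
    ∑ b : ZMod p, u ^ b.val = 0 := by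
  haveI : NeZero p := ⟨(Fact.out : p.Prime).ne_zero⟩
  have h1 : ∀ b : ZMod p, u ^ (b + 1).val = u * u ^ b.val := by
    intro b
    rw [← pow_succ']
    refine pow_eq_pow_of_modEq ?_ hu
    rw [← ZMod.natCast_eq_natCast_iff]
    push_cast
    rw [ZMod.natCast_zmod_val, ZMod.natCast_zmod_val]
  have h2 : ∑ b : ZMod p, u ^ b.val = u * ∑ b : ZMod p, u ^ b.val := by
    rw [Finset.mul_sum]
    simp only [← h1]
    exact (Equiv.sum_comp (Equiv.addRight (1 : ZMod p)) fun b => u ^ b.val).symm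
  have h3 : (u - 1) * ∑ b : ZMod p, u ^ b.val = 0 := by
    rw [sub_mul, one_mul, ← h2, sub_self]
  rcases mul_eq_zero.mp h3 with h4 | h4
  · exact absurd (sub_eq_zero.mp h4) hu1
  · exact h4

/-- the Hecke relation at `p` as a functional equation -/
theorem hecke_fun {f : ℍ → ℂ} {a : ℕ → ℂ} {p : ℕ} [Fact p.Prime] (hp : 0 < p) {ε : ℂ}
    (hf : ∀ z : ℍ, HasSum (fun n : ℕ => a n * cexp (2 * π * I * z) ^ n) (f z))
    (hrel : ∀ n : ℕ, a (p * n) + ε * (if p ∣ n then a (n / p) else 0) = a p * a n) (z : ℍ) :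
    ∑ b : ZMod p, f (dv p hp (b.val : ℤ) z) = p * (a p * f z - ε * f (ml p hp z)) := by
  have hp0 : (p : ℂ) ≠ 0 := by exact_mod_cast hp.ne'
  have hinj : Function.Injective (fun m : ℕ => p * m) := fun x y h =>
    Nat.eq_of_mul_eq_mul_left hp h
  set q : ℂ := cexp (2 * π * I * z) with hq
  -- the function `f(pz)`
  have hqp : cexp (2 * π * I * (ml p hp z : ℂ)) = q ^ p := by
    rw [coe_ml, hq, ← Complex.exp_nat_mul]
    congr 1
    ring
  have H1 : HasSum (fun n : ℕ => (if p ∣ n then a (n / p) else 0) * q ^ n) (f (ml p hp z)) := by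
    rw [← hinj.hasSum_iff]
    · refine (hf (ml p hp z)).congr_fun fun m => ?_
      simp only [Function.comp_apply]
      rw [if_pos (dvd_mul_right p m), Nat.mul_div_cancel_left m hp, hqp, ← pow_mul]
    · intro n hn
      have h1 : ¬ p ∣ n := fun ⟨m, hm⟩ => hn ⟨m, hm.symm⟩
      rw [if_neg h1, zero_mul]
  have H2 : HasSum (fun n : ℕ => a (p * n) * q ^ n) (a p * f z - ε * f (ml p hp z)) := by
    refine (((hf z).mul_left (a p)).sub (H1.mul_left ε)).congr_fun fun n => ?_
    rw [eq_sub_of_add_eq (hrel n)]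
    ring
  -- the sum over `b`
  set r : ℂ := cexp (2 * π * I * (z / p)) with hr
  set ζ : ℂ := cexp (2 * π * I / p) with hζ
  have hζp : IsPrimitiveRoot ζ p := Complex.isPrimitiveRoot_exp p hp.ne'
  have hrp : r ^ p = q := by
    rw [hr, hq, ← Complex.exp_nat_mul]
    congr 1
    field_simp
  have hb : ∀ b : ZMod p, cexp (2 * π * I * (dv p hp (b.val : ℤ) z : ℂ)) = r * ζ ^ b.val := by
    intro b
    rw [coe_dv, hr, hζ, ← Complex.exp_nat_mul, ← Complex.exp_add]
    congr 1
    push_cast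
    field_simp
  have H3 : HasSum (fun n : ℕ => ∑ b : ZMod p, a n * (r * ζ ^ b.val) ^ n)
      (∑ b : ZMod p, f (dv p hp (b.val : ℤ) z)) := by
    refine hasSum_sum fun b _ => ?_
    have h1 := hf (dv p hp (b.val : ℤ) z)
    rw [hb b] at h1
    exact h1
  have H4 : ∀ n : ℕ, ¬ p ∣ n → ∑ b : ZMod p, a n * (r * ζ ^ b.val) ^ n = 0 := by
    intro n hn
    have h1 : ∀ b : ZMod p, a n * (r * ζ ^ b.val) ^ n = a n * r ^ n * (ζ ^ n) ^ b.val := by
      intro b
      rw [mul_pow, ← pow_mul, ← pow_mul, mul_comm b.val n]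
      ring
    rw [Finset.sum_congr rfl fun b _ => h1 b, ← Finset.mul_sum, sum_rou, mul_zero]
    · rw [← pow_mul, mul_comm, pow_mul, hζp.pow_eq_one, one_pow]
    · intro h2
      exact hn (hζp.dvd_of_pow_eq_one n h2)
  have H5 : HasSum (fun m : ℕ => (p : ℂ) * (a (p * m) * q ^ m))
      (∑ b : ZMod p, f (dv p hp (b.val : ℤ) z)) := by
    rw [← hinj.hasSum_iff] at H3
    · refine H3.congr_fun fun m => ?_
      simp only [Function.comp_apply]
      have h1 : ∀ b : ZMod p, a (p * m) * (r * ζ ^ b.val) ^ (p * m) = a (p * m) * q ^ m := by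
        intro b
        rw [pow_mul, mul_pow, hrp, ← pow_mul, mul_comm b.val, pow_mul, hζp.pow_eq_one, one_pow,
          mul_one]
      rw [Finset.sum_congr rfl fun b _ => h1 b, Finset.sum_const, Finset.card_univ, ZMod.card,
        nsmul_eq_mul]
    · intro n hn
      exact H4 n fun ⟨m, hm⟩ => hn ⟨m, hm.symm⟩
  exact H5.unique (H2.mul_left (p : ℂ))

end Fermat.Agent.DS1
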