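import Fermat.Agent.AnJac.KSys
import Mathlib.FieldTheory.IsAlgClosed.Basic

/-!
# Existence of mod `ℓ` eigenvectors: statement
-/

set_option autoImplicit false

noncomputable section

namespace Fermat.Agent.DS1

open Matrix Fermat.Agent.AnJac

/-- **(EIG)** A (possibly non commutative) ring `𝒯` acts on a lattice `Λ` and maps to `B` with
commutative image; the action of `𝒯` on `X = {v | ker π kills v}` is faithful modulo `ker π`.
Every ring homomorphism `χ : 𝒯 → k` killing `ker π` has an eigenvector in `Λ ⊗ k`. -/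
def EigStatement : Prop :=
  ∀ (r : ℕ) (Λ : Type) [AddCommGroup Λ] (b : Module.Basis (Fin r) ℤ Λ) (𝒯 : Type) [Ring 𝒯]
    (ρ : 𝒯 →+* AddMonoid.End Λ) (B : Type) [Ring B] (π : 𝒯 →+* B),
    (∀ x y, π (x * y) = π (y * x)) →
    (∀ t, (∀ v : Λ, (∀ s, π s = 0 → ρ s v = 0) → ρ t v = 0) → π t = 0) →
    ∀ (ℓ : ℕ) [Fact ℓ.Prime] (k : Type) [Field k] [CharP k ℓ] [IsAlgClosed k] (χ : 𝒯 →+* k),
    (∀ t, π t = 0 → χ t = 0) →
    ∃ x : Fin r → k, x ≠ 0 ∧ ∀ t : 𝒯,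
      ((KSys.tm b (ρ t)).map (Int.cast : ℤ → k)) *ᵥ x = χ t • x

end Fermat.Agent.DS1
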