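import Fermat.Agent.DS1.Pieces

/-!
# Deligne-Serre: the Rankin bound for all the conjugates, statement
-/

set_option autoImplicit false

noncomputable section

namespace Fermat.Agent.DS1

open CongruenceSubgroup ModularForm
open scoped MatrixGroups

/-- **(RALL)** the Rankin bound for all the conjugates: follows from `ConjStatement` and
`cStatement`, extending `ι ∘ τ` to an automorphism of `ℂ` -/
def RankinAll : Prop :=
  ∀ (N : ℕ) [NeZero N] (ε : DirichletCharacter ℂ N) (f : CuspForm (Gamma1 N) 1)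
    (ι : AlgebraicClosure ℚ →+* ℂ) (α : ℕ → AlgebraicClosure ℚ),
    ModularFormClass.qCoeff f 1 = 1 →
    (∀ p : ℕ, p.Prime → ¬ p ∣ N → ∀ n : ℕ,
        ModularFormClass.qCoeff f (p * n) +
            ε (p : ZMod N) * (if p ∣ n then ModularFormClass.qCoeff f (n / p) else 0) =
          ModularFormClass.qCoeff f p * ModularFormClass.qCoeff f n) →
    (∀ γ ∈ Gamma0 N, (⇑f ∣[(1 : ℤ)] γ) = ε ((γ 1 1 : ℤ) : ZMod N) • ⇑f) →
    (∀ p : ℕ, p.Prime → ¬ p ∣ N → ι (α p) = ModularFormClass.qCoeff f p) →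
    ∀ τ : (AlgebraicClosure ℚ ≃ₐ[ℚ] AlgebraicClosure ℚ), RankinBound N (fun p => ι (τ (α p)))

end Fermat.Agent.DS1
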