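import Fermat.Agent.DS1.AB4
import Fermat.Agent.DS1.Dep
import Mathlib.NumberTheory.DirichletCharacter.Basic

/-!
# The weight two form `f₀ · E`
-/

set_option autoImplicit false
set_option linter.unusedSectionVars false

noncomputable section

namespace Fermat.Agent.DS1

open UpperHalfPlane hiding I
open Complex Filter Topology Function Metric Asymptotics
open scoped Real Manifold MatrixGroups ModularForm Matrix Pointwise
open Fermat.Agent.EichlerShimura Fermat.Agent.ModFun Fermat.Agent.AnJac Fermat.Agent.AnJacH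
open Matrix.SpecialLinearGroup CongruenceSubgroup

/-- `{±1}` -/
abbrev pm (m : ℕ) : Subgroup (ZMod m)ˣ := Subgroup.zpowers (-1)

/-- the group `{γ ∈ Γ₀(m²) : d ≡ ±1 mod m}` -/
abbrev GG (m : ℕ) : Subgroup SL(2,ℤ) := GH (m * m) m (dvd_mul_right m m) (pm m)

lemma mem_pm {m : ℕ} {x : (ZMod m)ˣ} (h : x ∈ pm m) : x = 1 ∨ x = -1 := by
  obtain ⟨k, hk⟩ := Subgroup.mem_zpowers_iff.mp h
  rcases Int.even_or_odd k with he | ho
  · left
    rw [← hk, he.neg_one_zpow]
  · right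
    rw [← hk, ho.neg_one_zpow]

/-- the data -/
structure Dat (N : ℕ) [NeZero N] (ε : DirichletCharacter ℂ N) (f : ℍ → ℂ) : Prop where
  q1 : IsQ 1 f
  qd : Qd 1 f
  one : qc f 1 = 1
  hecke : ∀ p : ℕ, p.Prime → ¬ p ∣ N → ∀ n : ℕ,
    qc f (p * n) + ε (p : ZMod N) * (if p ∣ n then qc f (n / p) else 0) = qc f p * qc f n
  neb : ∀ γ ∈ Gamma0 N, f ∣[(1 : ℤ)] γ = ε ((γ 1 1 : ℤ) : ZMod N) • f

variable {N : ℕ} [NeZero N] {ε : DirichletCharacter ℂ N} {f : ℍ → ℂ} (hD : Dat N ε f)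

include hD in
lemma Dat.odd : ε (-1) = -1 := by
  have h1 : f ∣[(1 : ℤ)] (-1 : SL(2,ℤ)) = -f := by
    funext z
    rw [ModularForm.SL_slash_apply]
    have e1 : (-1 : SL(2,ℤ)) • z = z := by
      rw [ModularGroup.SL_neg_smul, one_smul]
    have e2 : denom (((-1 : SL(2,ℤ))) : GL (Fin 2) ℝ) z = -1 := by
      rw [ModularGroup.denom_apply]; simp
    rw [e1, e2]
    simp
  have h2 := hD.neb (-1) (by rw [Gamma0_mem]; simp)
  rw [h1] at h2
  have e3 : (((-1 : SL(2,ℤ)) 1 1 : ℤ) : ZMod N) = -1 := by simp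
  rw [e3] at h2
  have hf : f ≠ 0 := by
    rintro rfl
    have := hD.one
    rw [qc_zero] at this
    exact zero_ne_one this
  have h3 : (ε (-1) + 1) • f = 0 := by
    rw [add_smul, ← h2, one_smul]; simp
  rcases smul_eq_zero.mp h3 with h | h
  · linear_combination h
  · exact absurd h hf

/-! ### Eisenstein series -/

section eis

variable {M : ℕ} (hM : 0 < M)

lemma Kf_neg (M : ℕ) (b : Fin 2 → ℤ) : Kf M (-b) = -Kf M b := by
  have h1 : (Kf M b) ∣[(1 : ℤ)] (-1 : SL(2,ℤ)) = -Kf M b := by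
    funext z
    rw [ModularForm.SL_slash_apply]
    have e1 : (-1 : SL(2,ℤ)) • z = z := by
      rw [ModularGroup.SL_neg_smul, one_smul]
    have e2 : denom (((-1 : SL(2,ℤ))) : GL (Fin 2) ℝ) z = -1 := by
      rw [ModularGroup.denom_apply]; simp
    rw [e1, e2]
    simp
  rw [← h1, Kf_slash]
  congr 1
  simp [Matrix.vecMul_neg]

/-- admissible indices -/
def Ok2 (M : ℕ) (a : ℤ) : Prop := ND M (vec a) ∧ ND M ((2 : ℤ) • vec a)

lemma ok2_iff (hM : 0 < M) {a : ℤ} : Ok2 M a ↔ ¬ (M : ℤ) ∣ 2 * a := by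
  have key : ∀ b : ℤ, ND M (vec b) ↔ ¬ (M : ℤ) ∣ b := by
    intro b
    constructor
    · rintro h ⟨c, hc⟩
      apply h ![0, c]
      ext i
      fin_cases i
      · simp [vec]
      · simp [vec, hc]
    · intro h x hx
      apply h
      have := congrFun hx 1
      simp [vec] at this
      exact ⟨x 1, by linarith⟩
  rw [Ok2, two_vec, key, key]
  constructor
  · exact fun h => h.2
  · intro h
    exact ⟨fun h' => h (h'.mul_left 2), h⟩

include hM in
lemma Kf_Gamma0 {a : ℤ} (ha : Ok2 M a) {γ : SL(2,ℤ)} (hγ : (M : ℤ) ∣ γ 1 0) :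
    (Kf M (vec a)) ∣[(1 : ℤ)] γ = Kf M (vec (a * γ 1 1)) := by
  rw [Kf_slash]
  have e : vec a ᵥ* (γ : Matrix (Fin 2) (Fin 2) ℤ) = ![a * γ 1 0, a * γ 1 1] := by
    ext i
    fin_cases i <;> simp [vec, Matrix.vecMul, dotProduct, Fin.sum_univ_two]
  have h1 := ha.1.vm γ
  have h2 := ND.vm2 ha.2 γ
  symm
  refine Kf_congr hM h1 h2 ?_ ?_
  · rw [e]
    simp only [vec, Matrix.cons_val_zero]
    obtain ⟨c, hc⟩ := hγ
    exact ⟨-(a * c), by rw [hc]; ring⟩
  · rw [e]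
    simp [vec]

include hM in
lemma Kf_cong {a b : ℤ} (ha : Ok2 M a) (h : (M : ℤ) ∣ b - a) : Kf M (vec b) = Kf M (vec a) := by
  refine Kf_congr hM ha.1 ha.2 ?_ ?_
  · simp [vec]
  · simpa [vec] using h

include hM in
lemma isR_Kv {a : ℤ} (ha : Ok2 M a) : IsR 1 (Kf M (vec a)) := isR_of_hasSum (hasSum_Kf hM ha.1 ha.2)

include hM in
lemma qc_Kv {a : ℤ} (ha : Ok2 M a) (n : ℕ) : qc (Kf M (vec a)) n = 2 * π * I * ec (xi M a) n :=
  (isR_Kv hM ha).qc_eq (hasSum_Kf hM ha.1 ha.2) n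

end eis

/-! ### the product -/

section prod

variable {m M : ℕ} [NeZero m] (hNm : N ∣ m) (hMm : M ∣ m) (hM : 0 < M)

lemma qd_mul {k l : ℤ} {G H : ℍ → ℂ} (hG : Qd k G) (hM : 0 < M) (hH : IsM M l H) :
    Qd (k + l) (G * H) := fun δ => by
  rw [ModularForm.mul_slash_SL2]
  obtain ⟨M', hM', h1⟩ := hG δ
  refine ⟨M * M', Nat.mul_pos hM hM', ?_⟩
  have e1 := isQ_mul_nat h1 M
  have e2 := (hH δ).dvd M'
  push_cast
  rw [mul_comm (G ∣[k] δ)]
  rw [mul_comm (M' : ℝ)] at e2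
  exact e2.mulQ e1

include hD hNm hMm hM in
lemma prod_slash {a : ℤ} (ha : Ok2 M a) {g : SL(2,ℤ)} (hg : g ∈ Gamma0 (m * m)) :
    (F0 m f * Kf M (vec a)) ∣[(2 : ℤ)] g =
      ε ((g 1 1 : ℤ) : ZMod N) • (F0 m f * Kf M (vec (a * g 1 1))) := by
  have h1 := F0_slash (N₁ := m) (N := N) (L := m * m) (χ := fun x => ε x) hD.neb dvd_rfl
    (Nat.mul_dvd_mul_right hNm m) hg
  have hg' := hg
  rw [Gamma0_mem, ZMod.intCast_zmod_eq_zero_iff_dvd] at hg'
  have h2 : (M : ℤ) ∣ g 1 0 :=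
    (Int.natCast_dvd_natCast.mpr (hMm.trans (dvd_mul_left m m))).trans hg'
  have h3 : (F0 m f * Kf M (vec a)) ∣[(1 + 1 : ℤ)] g = _ := ModularForm.mul_slash_SL2 1 1 g _ _
  rw [h1, Kf_Gamma0 hM ha h2] at h3
  rw [show (2 : ℤ) = 1 + 1 by norm_num, h3, smul_mul_assoc]

include hD hNm hMm hM in
lemma prod_inS {a : ℤ} (ha : Ok2 M a) : InS (GG m) (F0 m f * Kf M (vec a)) := by
  refine InS.mk ?_ (fun γ hγ => ?_)
  · have h0 : Qd (1 + 1) (F0 m f * Kf M (vec a)) := qd_mul (qd_F0 hD.qd) hM (isM_Kf hM ha.1 ha.2)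
    rw [show (1 + 1 : ℤ) = 2 by norm_num] at h0
    exact h0
  · obtain ⟨hγ0, hγ1⟩ := mem_GH.mp hγ
    rw [prod_slash hD hNm hMm hM ha hγ0]
    have h2 := coe_dM (m * m) m (dvd_mul_right m m) ⟨γ, hγ0⟩
    rcases mem_pm hγ1 with h | h
    · rw [h] at h2
      have e1 : ((γ 1 1 : ℤ) : ZMod m) = 1 := by rw [← h2]; rfl
      have e2 : (m : ℤ) ∣ γ 1 1 - 1 := by
        rw [← ZMod.intCast_zmod_eq_zero_iff_dvd]; push_cast; rw [e1]; ring
      have e3 : ((γ 1 1 : ℤ) : ZMod N) = 1 := by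
        have : ((γ 1 1 - 1 : ℤ) : ZMod N) = 0 := by
          rw [ZMod.intCast_zmod_eq_zero_iff_dvd]
          exact (Int.natCast_dvd_natCast.mpr hNm).trans e2
        push_cast at this
        linear_combination this
      have e4 : Kf M (vec (a * γ 1 1)) = Kf M (vec a) := by
        refine Kf_cong hM ha ?_
        have := (Int.natCast_dvd_natCast.mpr hMm).trans e2
        rw [show a * γ 1 1 - a = a * (γ 1 1 - 1) by ring]
        exact this.mul_left a
      rw [e3, e4, map_one, one_smul]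
    · rw [h] at h2
      have e1 : ((γ 1 1 : ℤ) : ZMod m) = -1 := by rw [← h2]; simp
      have e2 : (m : ℤ) ∣ γ 1 1 + 1 := by
        rw [← ZMod.intCast_zmod_eq_zero_iff_dvd]; push_cast; rw [e1]; ring
      have e3 : ((γ 1 1 : ℤ) : ZMod N) = -1 := by
        have : ((γ 1 1 + 1 : ℤ) : ZMod N) = 0 := by
          rw [ZMod.intCast_zmod_eq_zero_iff_dvd]
          exact (Int.natCast_dvd_natCast.mpr hNm).trans e2
        push_cast at this
        linear_combination this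
      have ha' : Ok2 M (-a) := by
        rw [ok2_iff hM] at ha ⊢
        intro h'
        apply ha
        rw [show 2 * -a = -(2 * a) by ring, dvd_neg] at h'
        exact h'
      have e4 : Kf M (vec (a * γ 1 1)) = -Kf M (vec a) := by
        have e5 : Kf M (vec (a * γ 1 1)) = Kf M (vec (-a)) := by
          refine Kf_cong hM ha' ?_
          have := (Int.natCast_dvd_natCast.mpr hMm).trans e2
          rw [show a * γ 1 1 - -a = a * (γ 1 1 + 1) by ring]
          exact this.mul_left a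
        rw [e5, ← Kf_neg]
        congr 1
        ext i
        fin_cases i <;> simp [vec]
      rw [e3, e4, hD.odd, mul_neg, smul_neg, _root_.neg_smul, one_smul, neg_neg]

end prod

end Fermat.Agent.DS1
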