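import Fermat.Agent.DS1.Defs
import Mathlib.Analysis.Complex.UpperHalfPlane.Basic
import Mathlib.Analysis.Fourier.AddCircle

/-!
# Rankin's bound, I: mean squares of Fourier coefficients
-/

set_option autoImplicit false

noncomputable section

namespace Fermat.Agent.DS1

open MeasureTheory Complex CongruenceSubgroup
open UpperHalfPlane hiding I
open scoped Real

/-- Bessel's inequality for power series on the unit circle -/
theorem bessel {c : ℕ → ℂ} (hc : Summable fun n => ‖c n‖) {B : ℝ} (hB : 0 ≤ B)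
    (h : ∀ z : ℂ, ‖z‖ = 1 → ‖∑' n, c n * z ^ n‖ ≤ B) (s : Finset ℕ) :
    ∑ n ∈ s, ‖c n‖ ^ 2 ≤ B ^ 2 := by
  haveI : Fact (0 < (1 : ℝ)) := ⟨one_pos⟩
  have hsum : Summable fun n : ℕ => c n • (fourier (n : ℤ) : C(AddCircle (1 : ℝ), ℂ)) := by
    refine Summable.of_norm ?_
    simpa [norm_smul, fourier_norm] using hc
  set G : C(AddCircle (1 : ℝ), ℂ) := ∑' n : ℕ, c n • fourier (n : ℤ) with hG
  have hGs : HasSum (fun n : ℕ => c n • (fourier (n : ℤ) : C(AddCircle (1 : ℝ), ℂ))) G :=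
    hsum.hasSum
  have hGB : ‖G‖ ≤ B := by
    rw [ContinuousMap.norm_le _ hB]
    intro x
    have h1 : HasSum (fun n : ℕ => (c n • (fourier (n : ℤ) : C(AddCircle (1 : ℝ), ℂ))) x) (G x) :=
      (ContinuousMap.hasSum_apply hGs x)
    have h2 : ∀ n : ℕ, (c n • (fourier (n : ℤ) : C(AddCircle (1 : ℝ), ℂ))) x =
        c n * (fourier 1 x) ^ n := by
      intro n
      rw [ContinuousMap.smul_apply, smul_eq_mul]
      congr 1
      induction n with
      | zero => simp
      | succ n ih =>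
        rw [pow_succ, ← ih, ← fourier_add]
        push_cast
        rfl
    simp only [h2] at h1
    rw [← h1.tsum_eq]
    refine h _ ?_
    rw [fourier_apply]
    exact Circle.norm_coe _
  let L := ContinuousMap.toLp (E := ℂ) 2 (AddCircle.haarAddCircle (T := (1 : ℝ))) ℂ
  have hL : ‖L G‖ ≤ B := by
    have h1 : ‖L‖ ≤ 1 := by
      have h2 := ContinuousMap.toLp_norm_le (E := ℂ) (p := 2)
        (μ := AddCircle.haarAddCircle (T := (1 : ℝ))) (𝕜 := ℂ)
      refine h2.trans ?_
      simp [measureUnivNNReal]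
    calc ‖L G‖ ≤ ‖L‖ * ‖G‖ := L.le_opNorm G
      _ ≤ 1 * B := mul_le_mul h1 hGB (norm_nonneg _) zero_le_one
      _ = B := one_mul _
  have hv : Orthonormal ℂ (fun n : ℕ => (fourierLp 2 (n : ℤ) :
      Lp ℂ 2 (AddCircle.haarAddCircle (T := (1 : ℝ))))) :=
    orthonormal_fourier.comp (fun n : ℕ => (n : ℤ)) Nat.cast_injective
  have hLs : HasSum (fun n : ℕ => c n • (fourierLp 2 (n : ℤ) :
      Lp ℂ 2 (AddCircle.haarAddCircle (T := (1 : ℝ))))) (L G) := by
    have h1 := hGs.mapL L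
    simp only [map_smul] at h1
    exact h1
  have hin : ∀ i : ℕ, inner ℂ (fourierLp 2 (i : ℤ) :
      Lp ℂ 2 (AddCircle.haarAddCircle (T := (1 : ℝ)))) (L G) = c i := by
    intro i
    have h1 := hLs.mapL (innerSL ℂ (fourierLp 2 (i : ℤ) :
      Lp ℂ 2 (AddCircle.haarAddCircle (T := (1 : ℝ)))))
    simp only [innerSL_apply_apply, inner_smul_right] at h1
    have h2 : ∀ n : ℕ, c n * inner ℂ (fourierLp 2 (i : ℤ) :
        Lp ℂ 2 (AddCircle.haarAddCircle (T := (1 : ℝ)))) (fourierLp 2 (n : ℤ)) =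
        if n = i then c i else 0 := by
      intro n
      have h3 := orthonormal_iff_ite.mp hv i n
      rw [h3]
      by_cases hni : n = i
      · subst hni; simp
      · rw [if_neg hni, if_neg (Ne.symm hni), mul_zero]
    simp only [h2] at h1
    exact h1.unique (hasSum_ite_eq i (c i))
  have hb := hv.sum_inner_products_le (x := L G) (s := s)
  simp only [hin] at hb
  exact hb.trans (pow_le_pow_left₀ (norm_nonneg _) hL 2)

/-- the mean square bound for functions with `|g(τ)|² Im τ` bounded -/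
theorem meansq {a : ℕ → ℂ} {g : ℍ → ℂ}
    (hg : ∀ τ : ℍ, HasSum (fun n : ℕ => a n * Complex.exp (2 * π * I * τ) ^ n) (g τ))
    (hC' : ∃ C : ℝ, ∀ τ : ℍ, ‖g τ‖ ^ 2 * τ.im ≤ C) :
    ∃ K : ℝ, 0 < K ∧ ∀ y : ℝ, 0 < y → ∀ s : Finset ℕ,
      ∑ n ∈ s, ‖a n‖ ^ 2 * Real.exp (-(n * y)) ≤ K / y := by
  obtain ⟨C, hC⟩ := hC'
  have hC0 : 0 ≤ C := by
    have h2 := hC UpperHalfPlane.I
    refine le_trans ?_ h2
    have := UpperHalfPlane.I.im_pos
    positivity
  refine ⟨4 * π * C + 1, by positivity, fun y hy s => ?_⟩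
  set Y : ℝ := y / (4 * π) with hY
  have hY0 : 0 < Y := by positivity
  set c : ℕ → ℂ := fun n => a n * (Real.exp (-(2 * π * Y)) : ℂ) ^ n with hc
  -- values on circles
  have hval : ∀ t : ℝ, ∃ z : ℍ, z.im = Y ∧ Complex.exp (2 * π * I * z) =
      (Real.exp (-(2 * π * Y)) : ℂ) * Complex.exp (2 * π * I * t) := by
    intro t
    refine ⟨⟨t + Y * I, by simpa using hY0⟩, ?_, ?_⟩
    · show ((t : ℂ) + Y * I).im = Y
      simp
    · rw [Complex.ofReal_exp, ← Complex.exp_add]
      congr 1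
      show 2 * π * I * ((t : ℂ) + Y * I) = _
      push_cast
      linear_combination (2 * (π : ℂ) * Y) * Complex.I_sq
  have hsumc : Summable fun n => ‖c n‖ := by
    obtain ⟨z, hz, hq⟩ := hval 0
    have h2 := (hg z).summable.norm
    refine h2.congr fun n => ?_
    rw [hc, hq]
    simp
  have hbd : ∀ z : ℂ, ‖z‖ = 1 → ‖∑' n, c n * z ^ n‖ ≤ Real.sqrt (C / Y) := by
    intro w hw
    obtain ⟨t, ht⟩ : ∃ t : ℝ, w = Complex.exp (2 * π * I * t) := by
      refine ⟨Complex.arg w / (2 * π), ?_⟩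
      have h2 := Complex.norm_mul_exp_arg_mul_I w
      rw [hw, Complex.ofReal_one, one_mul] at h2
      rw [← h2]
      congr 1
      push_cast
      have hπ : (π : ℂ) ≠ 0 := by exact_mod_cast Real.pi_ne_zero
      field_simp
      rw [h2]
    obtain ⟨z, hz, hq⟩ := hval t
    have h2 := hg z
    have h3 : ∀ n, a n * Complex.exp (2 * π * I * z) ^ n =
        c n * w ^ n := by
      intro n
      rw [hq, hc, ht, mul_pow]
      ring
    simp only [h3] at h2
    rw [h2.tsum_eq, ← hz]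
    refine Real.le_sqrt_of_sq_le ?_
    rw [le_div_iff₀ (hz ▸ hY0)]
    exact hC z
  have hB := bessel hsumc (by positivity) hbd s
  have h4 : ∀ n, ‖c n‖ ^ 2 = ‖a n‖ ^ 2 * Real.exp (-(n * y)) := by
    intro n
    rw [hc]
    simp only [norm_mul, norm_pow, Complex.norm_real, Real.norm_eq_abs, Real.abs_exp]
    rw [mul_pow, ← Real.exp_nat_mul, ← Real.exp_nat_mul]
    congr 2
    rw [hY]
    push_cast
    field_simp
    ring
  simp only [h4] at hB
  refine hB.trans ?_
  rw [Real.sq_sqrt (by positivity), hY, div_div_eq_mul_div]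
  gcongr
  nlinarith

end Fermat.Agent.DS1
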