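import Fermat.Agent.DS1.NF
import Fermat.Agent.Frob.Localization
import Fermat.Agent.FrobDens.Fixed

/-!
# Reduction of complex numbers
-/

set_option autoImplicit false
set_option linter.unusedSectionVars false

noncomputable section

namespace Fermat.Agent.DS1

open IsLocalRing

local notation "Qbar" => AlgebraicClosure ℚ

variable (ι : Qbar →+* ℂ) (A : ValuationSubring Qbar)

/-- reduction of complex numbers -/
def RedC (x : ℂ) (y : ResidueField A) : Prop := ∃ a : A, ι a = x ∧ residue A a = y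

variable {ι A}

lemma RedC.unique {x : ℂ} {y y' : ResidueField A} (h : RedC ι A x y) (h' : RedC ι A x y') :
    y = y' := by
  obtain ⟨a, ha, rfl⟩ := h
  obtain ⟨b, hb, rfl⟩ := h'
  have : a = b := Subtype.ext (ι.injective (ha.trans hb.symm))
  rw [this]

lemma RedC.add {x x' : ℂ} {y y' : ResidueField A} (h : RedC ι A x y) (h' : RedC ι A x' y') :
    RedC ι A (x + x') (y + y') := by
  obtain ⟨a, rfl, rfl⟩ := h
  obtain ⟨b, rfl, rfl⟩ := h'
  exact ⟨a + b, by push_cast; rw [map_add], map_add _ _ _⟩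

lemma RedC.mul {x x' : ℂ} {y y' : ResidueField A} (h : RedC ι A x y) (h' : RedC ι A x' y') :
    RedC ι A (x * x') (y * y') := by
  obtain ⟨a, rfl, rfl⟩ := h
  obtain ⟨b, rfl, rfl⟩ := h'
  exact ⟨a * b, by push_cast; rw [map_mul], map_mul _ _ _⟩

lemma RedC.neg {x : ℂ} {y : ResidueField A} (h : RedC ι A x y) : RedC ι A (-x) (-y) := by
  obtain ⟨a, rfl, rfl⟩ := h
  exact ⟨-a, by push_cast; rw [map_neg], map_neg _ _⟩

lemma RedC.sub {x x' : ℂ} {y y' : ResidueField A} (h : RedC ι A x y) (h' : RedC ι A x' y') :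
    RedC ι A (x - x') (y - y') := by
  rw [sub_eq_add_neg, sub_eq_add_neg]
  exact h.add h'.neg

variable (ι A) in
lemma redC_zero : RedC ι A 0 0 := ⟨0, by simp, by simp⟩

variable (ι A) in
lemma redC_one : RedC ι A 1 1 := ⟨1, by simp, by simp⟩

variable (ι A) in
lemma redC_nat (n : ℕ) : RedC ι A n n := ⟨n, by simp, by simp⟩

variable (ι A) in
lemma redC_int (n : ℤ) : RedC ι A n n := ⟨n, by simp, by simp⟩

lemma RedC.pow {x : ℂ} {y : ResidueField A} (h : RedC ι A x y) (n : ℕ) :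
    RedC ι A (x ^ n) (y ^ n) := by
  induction n with
  | zero => rw [pow_zero, pow_zero]; exact redC_one ι A
  | succ n ih => rw [pow_succ, pow_succ]; exact ih.mul h

lemma RedC.sum {κ : Type*} (s : Finset κ) {x : κ → ℂ} {y : κ → ResidueField A}
    (h : ∀ i ∈ s, RedC ι A (x i) (y i)) : RedC ι A (∑ i ∈ s, x i) (∑ i ∈ s, y i) := by
  classical
  induction s using Finset.induction_on with
  | empty => exact redC_zero ι A
  | insert a s ha ih =>
    rw [Finset.sum_insert ha, Finset.sum_insert ha]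
    exact (h a (Finset.mem_insert_self _ _)).add (ih fun i hi => h i (Finset.mem_insert_of_mem hi))

lemma exists_redC {x : ℂ} (hx : IsIntegral ℤ x) : ∃ y, RedC ι A x y := by
  obtain ⟨a, rfl⟩ := exists_preim ι hx
  have h1 : IsIntegral ℤ a := by
    have h3 : IsIntegral ℤ ((ι.toIntAlgHom) a) := hx
    exact (isIntegral_algHom_iff ι.toIntAlgHom ι.injective).mp h3
  exact ⟨_, ⟨a, Frob.mem_of_isIntegral A h1⟩, rfl, rfl⟩

variable (ι A) in
/-- reduction of an integral number -/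
def rd (x : ℂ) : ResidueField A := by
  classical
  exact if h : IsIntegral ℤ x then (exists_redC (ι := ι) (A := A) h).choose else 0

lemma redC_rd {x : ℂ} (hx : IsIntegral ℤ x) : RedC ι A x (rd ι A x) := by
  rw [rd, dif_pos hx]
  exact (exists_redC (ι := ι) (A := A) hx).choose_spec

lemma rd_eq {x : ℂ} (hx : IsIntegral ℤ x) {y : ResidueField A} (h : RedC ι A x y) :
    rd ι A x = y := (redC_rd hx).unique h

lemma rd_mul {x y : ℂ} (hx : IsIntegral ℤ x) (hy : IsIntegral ℤ y) :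
    rd ι A (x * y) = rd ι A x * rd ι A y := rd_eq (hx.mul hy) ((redC_rd hx).mul (redC_rd hy))

variable {ℓ : ℕ} [Fact ℓ.Prime]

lemma zt_red [CharP (ResidueField A) ℓ] : RedC ι A (zt ℓ) 1 := by
  have hℓ : 0 < ℓ := (Fact.out : ℓ.Prime).pos
  obtain ⟨y, hy⟩ := exists_redC (ι := ι) (A := A) (isIntegral_zt hℓ)
  have h1 := hy.pow ℓ
  rw [zt_pow hℓ] at h1
  have h2 : y ^ ℓ = 1 := h1.unique (redC_one ι A)
  have h3 : (y - 1) ^ ℓ = 0 := by
    have : (y - 1) ^ ℓ = y ^ ℓ - 1 ^ ℓ := sub_pow_char _ _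
    rw [this, h2, one_pow, sub_self]
  have h4 : y = 1 := sub_eq_zero.mp (pow_eq_zero_iff hℓ.ne' |>.mp h3)
  rwa [h4] at hy

lemma redC_inv {x : ℂ} {y : ResidueField A} (h : RedC ι A x y) (hy : y ≠ 0) :
    RedC ι A x⁻¹ y⁻¹ := by
  obtain ⟨a, rfl, rfl⟩ := h
  have hu : IsUnit a := by
    by_contra hu
    exact hy ((residue_eq_zero_iff a).mpr hu)
  obtain ⟨u, rfl⟩ := hu
  refine ⟨(u⁻¹ : Aˣ), ?_, ?_⟩
  · have : ((u⁻¹ : Aˣ) : A) * (u : A) = 1 := by simp
    have h2 := congrArg (fun z : A => ι (z : Qbar)) this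
    simp only [MulMemClass.coe_mul, map_mul, OneMemClass.coe_one, map_one] at h2
    exact eq_inv_of_mul_eq_one_left h2
  · have : ((u⁻¹ : Aˣ) : A) * (u : A) = 1 := by simp
    have h2 := congrArg (residue A) this
    rw [map_mul, map_one] at h2
    exact eq_inv_of_mul_eq_one_left h2

/-- constants of divisors -/
lemma redC_cc {ξ : ℂ} (h : RedC ι A ξ 1) (d : ℕ) : RedC ι A (cc ξ d) 0 := by
  have hp : ∀ j : ℕ, RedC ι A (ξ ^ j) 1 := fun j => by simpa using h.pow j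
  have hq : ∀ j : ℕ, RedC ι A ((ξ ^ j)⁻¹) 1 := fun j => by
    simpa using redC_inv (hp j) one_ne_zero
  have h2 : RedC ι A (2 : ℂ) 2 := by simpa using redC_nat ι A 2
  have := (h2.mul ((hp d).sub (hq d))).sub ((hp (2 * d)).sub (hq (2 * d)))
  rw [cc]
  simpa using this

/-- the coefficients of the Eisenstein series -/
lemma redC_eis [CharP (ResidueField A) ℓ] (hℓ2 : ℓ ≠ 2) {a : ℤ} (ha : ¬ (ℓ : ℤ) ∣ a) (n : ℕ) :
    RedC ι A (kap (zt ℓ) * qc (Kf ℓ (vec a)) n)
      (if n = 0 then 6 * ((a : ℤ) : ResidueField A)⁻¹ else 0) := by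
  have hℓp : ℓ.Prime := Fact.out
  have hℓ : 0 < ℓ := hℓp.pos
  have hokall : ∀ b : ℤ, ¬ (ℓ : ℤ) ∣ b → Ok2 ℓ b := by
    intro b hb
    refine (ok2_iff hℓ).mpr ?_
    intro h
    rcases (Int.Prime.dvd_mul' hℓp h) with h1 | h1
    · have : (ℓ : ℤ) ∣ ((2 : ℕ) : ℤ) := h1
      rw [Int.natCast_dvd_natCast] at this
      exact hℓ2 ((Nat.prime_dvd_prime_iff_eq hℓp Nat.prime_two).mp this)
    · exact hb h1
  -- natural representative
  obtain ⟨a', ha'⟩ : ∃ a' : ℕ, (ℓ : ℤ) ∣ (a' : ℤ) - a := by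
    refine ⟨(a % ℓ).toNat, ?_⟩
    rw [Int.toNat_of_nonneg (Int.emod_nonneg _ (by exact_mod_cast hℓ.ne'))]
    exact ⟨-(a / ℓ), by have := Int.emod_add_mul_ediv a ℓ; linarith⟩
  have hok := hokall a ha
  have hae : ¬ (ℓ : ℤ) ∣ (a' : ℤ) := fun h => ha (by
    have := dvd_sub h ha'
    simpa using this)
  have hok' := hokall a' hae
  rw [← Kf_cong hℓ hok ha']
  have hak : ((a : ℤ) : ResidueField A) = (a' : ResidueField A) := by
    have h1 := (CharP.intCast_eq_zero_iff (ResidueField A) ℓ _).mpr ha'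
    push_cast at h1
    linear_combination -h1
  rw [hak]
  -- inverse
  have ha'0 : (a' : ZMod ℓ) ≠ 0 := by
    intro h
    apply hae
    rw [← ZMod.intCast_zmod_eq_zero_iff_dvd]
    push_cast; exact h
  obtain ⟨b, hb⟩ : ∃ b : ℕ, (a' : ZMod ℓ) * (b : ZMod ℓ) = 1 :=
    ⟨((a' : ZMod ℓ)⁻¹).val, by rw [ZMod.natCast_zmod_val, mul_inv_cancel₀ ha'0]⟩
  have hb' : (a' : ResidueField A) * (b : ResidueField A) = 1 := by
    have h1 : ((a' * b : ℕ) : ZMod ℓ) = ((1 : ℕ) : ZMod ℓ) := by push_cast; exact hb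
    rw [ZMod.natCast_eq_natCast_iff] at h1
    have h2 := (CharP.natCast_eq_natCast (ResidueField A) ℓ).mpr h1
    push_cast at h2
    exact h2
  set ξ : ℂ := zt ℓ ^ a' with hξ
  have hxi : xi ℓ (a' : ℤ) = ξ := xi_eq_zt ℓ a'
  have hξr : RedC ι A ξ 1 := by simpa using (zt_red (ι := ι) (A := A) (ℓ := ℓ)).pow a'
  have hsq : ξ ^ 2 - 1 ≠ 0 := by
    rw [← hxi, sub_ne_zero, ← xi_two]
    have h2 := hok'.2
    rw [two_vec] at h2
    exact xi_ne (notInt_of_ND hℓ h2)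
  have hζ : zt ℓ ^ 2 = (ξ ^ 2) ^ b := by
    have h1 : (2 * (a' * b)) ≡ 2 * 1 [MOD ℓ] := by
      refine Nat.ModEq.mul_left 2 ?_
      rw [← ZMod.natCast_eq_natCast_iff]
      push_cast
      exact hb
    have h2 : zt ℓ ^ (2 * (a' * b)) = zt ℓ ^ (2 * 1) := by
      have h3 : ∀ k : ℕ, zt ℓ ^ k = zt ℓ ^ (k % ℓ) := fun k => by
        conv_lhs => rw [← Nat.mod_add_div k ℓ, pow_add, pow_mul, zt_pow hℓ, one_pow, mul_one]
      rw [h3, h1, ← h3]
    rw [hξ, ← pow_mul, ← pow_mul, show a' * (2 * b) = 2 * (a' * b) by ring, h2, mul_one]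
  have hgeom : zt ℓ ^ 2 - 1 = (∑ i ∈ Finset.range b, (ξ ^ 2) ^ i) * (ξ ^ 2 - 1) := by
    rw [hζ, geom_sum_mul]
  have hkap : kap (zt ℓ) = (∑ i ∈ Finset.range b, (ξ ^ 2) ^ i) * kap ξ := by
    rw [kap, kap, hgeom]
    ring
  have hsum : RedC ι A (∑ i ∈ Finset.range b, (ξ ^ 2) ^ i) (b : ResidueField A) := by
    have h1 : RedC ι A (∑ i ∈ Finset.range b, (ξ ^ 2) ^ i)
        (∑ i ∈ Finset.range b, (1 : ResidueField A)) :=
      RedC.sum _ fun i _ => by simpa using (hξr.pow 2).pow i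
    simpa using h1
  have h2 : RedC ι A (2 : ℂ) 2 := by simpa using redC_nat ι A 2
  have h4 : RedC ι A (4 : ℂ) 4 := by simpa using redC_nat ι A 4
  have hinv : ((a' : ResidueField A))⁻¹ = b := by
    exact inv_eq_of_mul_eq_one_right hb'
  rw [hkap, qc_Kv hℓ hok', hxi, mul_assoc]
  rcases eq_or_ne n 0 with rfl | hn
  · rw [if_pos rfl, kap_zero hsq, hinv]
    have := hsum.mul (((hξr.pow 2).add (h4.mul hξr)).add (redC_one ι A))
    have e : (b : ResidueField A) * (1 ^ 2 + 4 * 1 + 1) = 6 * b := by ring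
    rwa [e] at this
  · rw [if_neg hn, kap_pos hn]
    have h5 : RedC ι A (∑ d ∈ n.divisors, cc ξ d) 0 := by
      have := RedC.sum (ι := ι) (A := A) n.divisors (x := fun d => cc ξ d) (y := fun _ => 0)
        (fun d _ => redC_cc hξr d)
      simpa using this
    have := hsum.mul (((h2.mul ((hξr.pow 2).sub (redC_one ι A))).neg).mul h5)
    simpa using this

end Fermat.Agent.DS1
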